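import Mathlib.Analysis.Complex.Basic
import Mathlib.Algebra.Module.ZLattice.Basic
import Mathlib.Topology.Algebra.Group.Quotient
import Mathlib.GroupTheory.Torsion
import Mathlib.Topology.Algebra.OpenSubgroup
import Mathlib.Analysis.Normed.Module.RCLike.Basic
import Mathlib.LinearAlgebra.Complex.FiniteDimensional
import Mathlib.Data.ZMod.Basic

/-!
# Torsion of a compact quotient by a discrete subgroup

Owner: helper77.
-/

set_option autoImplicit false

noncomputable section

open Topology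

namespace Fermat.Agent.Torsion.Analytic

/-- A subgroup of a quotient of a vector space which contains a nonempty open set is everything. -/
theorem subgroup_eq_top_of_interior {E : Type*} [NormedAddCommGroup E] [NormedSpace ℝ E]
    (Λ : AddSubgroup E) (A : AddSubgroup (E ⧸ Λ)) {s : Set E} (hs : IsOpen s) (hne : s.Nonempty)
    (hA : ∀ x ∈ s, (QuotientAddGroup.mk x : E ⧸ Λ) ∈ A) : A = ⊤ := by
  let B : AddSubgroup E := A.comap (QuotientAddGroup.mk' Λ)
  obtain ⟨x, hx⟩ := hne
  have hB : IsOpen (B : Set E) :=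
    B.isOpen_of_mem_nhds (g := x) (Filter.mem_of_superset (hs.mem_nhds hx) fun y hy => hA y hy)
  have huniv : (B : Set E) = Set.univ :=
    IsClopen.eq_univ ⟨AddSubgroup.isClosed_of_isOpen B hB, hB⟩ ⟨0, B.zero_mem⟩
  refine (AddSubgroup.eq_top_iff' A).mpr fun q => ?_
  obtain ⟨y, rfl⟩ := QuotientAddGroup.mk_surjective q
  exact (Set.eq_univ_iff_forall.mp huniv) y

theorem natCard_torsion_quotient {E : Type*} [NormedAddCommGroup E] [NormedSpace ℝ E]
    [FiniteDimensional ℝ E] (Λ : AddSubgroup E) [CompactSpace (E ⧸ Λ)]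
    (hdisc : ∀ᶠ x in 𝓝 (0 : E), x ∈ Λ → x = 0) {n : ℕ} (hn : n ≠ 0) :
    Nat.card {x : E ⧸ Λ // n • x = 0} = n ^ Module.finrank ℝ E := by
  let L : Submodule ℤ E := Λ.toIntSubmodule
  have hdL : DiscreteTopology L := by
    obtain ⟨U, hU, hUo, h0⟩ := eventually_nhds_iff.mp hdisc
    refine discreteTopology_of_isOpen_singleton_zero ?_
    refine ⟨U, hUo, ?_⟩
    ext ⟨y, hy⟩
    simp only [Set.mem_preimage, Set.mem_singleton_iff, Submodule.mk_eq_zero]
    exact ⟨fun h => hU y h hy, fun h => h ▸ h0⟩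
  have hspan : Submodule.span ℝ (L : Set E) = ⊤ := by
    by_contra hne
    obtain ⟨ℓ, hℓ, hle⟩ := Submodule.exists_le_ker_of_lt_top _ (lt_top_iff_ne_top.mpr hne)
    let ℓ' : E ⧸ Λ →+ ℝ := QuotientAddGroup.lift Λ ℓ.toAddMonoidHom
      fun y hy => hle (Submodule.subset_span hy)
    have hc : Continuous ℓ' := (QuotientAddGroup.isQuotientMap_mk (N := Λ)).continuous_iff.mpr
      ℓ.continuous_of_finiteDimensional
    have hsurj : Function.Surjective ℓ' := fun t => by
      obtain ⟨y, hy⟩ := LinearMap.surjective_of_ne_zero hℓ t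
      exact ⟨QuotientAddGroup.mk y, hy⟩
    have hcomp : IsCompact (Set.univ : Set ℝ) := by
      rw [← hsurj.range_eq]
      exact isCompact_range hc
    exact noncompact_univ ℝ hcomp
  have hlat : IsZLattice ℝ L := ⟨hspan⟩
  have hfin : Module.Finite ℤ L := ZLattice.module_finite ℝ L
  have hfree : Module.Free ℤ L := ZLattice.module_free ℝ L
  let b : Module.Basis (Fin (Module.finrank ℤ L)) ℤ L := Module.finBasis ℤ L
  have hrank : Module.finrank ℤ L = Module.finrank ℝ E := ZLattice.rank ℝ L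
  have hn' : (n : ℝ) ≠ 0 := Nat.cast_ne_zero.mpr hn
  let T : AddSubgroup (E ⧸ Λ) := (nsmulAddMonoidHom n : E ⧸ Λ →+ E ⧸ Λ).ker
  let ψ : L →+ T := AddMonoidHom.mk' (fun y => ⟨QuotientAddGroup.mk ((n : ℝ)⁻¹ • (y : E)), by
      show n • (QuotientAddGroup.mk ((n : ℝ)⁻¹ • (y : E)) : E ⧸ Λ) = 0
      rw [← QuotientAddGroup.mk_nsmul, QuotientAddGroup.eq_zero_iff, ← Nat.cast_smul_eq_nsmul ℝ,
        smul_smul, mul_inv_cancel₀ hn', one_smul]
      exact y.2⟩) fun y z => by
        apply Subtype.ext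
        simp [smul_add]
  have hψ : Function.Surjective ψ := by
    rintro ⟨q, hq⟩
    obtain ⟨y, rfl⟩ := QuotientAddGroup.mk_surjective q
    have hy : n • y ∈ Λ := (QuotientAddGroup.eq_zero_iff _).mp hq
    refine ⟨⟨n • y, hy⟩, Subtype.ext ?_⟩
    show (QuotientAddGroup.mk ((n : ℝ)⁻¹ • (n • y)) : E ⧸ Λ) = QuotientAddGroup.mk y
    rw [← Nat.cast_smul_eq_nsmul ℝ, smul_smul, inv_mul_cancel₀ hn', one_smul]
  let χ : L →+ (Fin (Module.finrank ℤ L) → ZMod n) :=
    (AddMonoidHom.compLeft (Int.castAddHom (ZMod n)) _).comp b.equivFun.toAddMonoidHom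
  have hχ : Function.Surjective χ := fun a => by
    refine ⟨b.equivFun.symm fun i => ((a i).cast : ℤ), funext fun i => ?_⟩
    show ((b.equivFun (b.equivFun.symm fun i => ((a i).cast : ℤ)) i : ℤ) : ZMod n) = a i
    rw [LinearEquiv.apply_symm_apply, ZMod.intCast_zmod_cast]
  have hker : ψ.ker = χ.ker := by
    ext y
    rw [AddMonoidHom.mem_ker, AddMonoidHom.mem_ker, ← Subtype.coe_inj]
    show (QuotientAddGroup.mk ((n : ℝ)⁻¹ • (y : E)) : E ⧸ Λ) = 0 ↔
      (fun i => ((b.equivFun y i : ℤ) : ZMod n)) = 0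
    rw [QuotientAddGroup.eq_zero_iff]
    constructor
    · intro hy
      funext i
      have hy' : y = (n : ℤ) • (⟨(n : ℝ)⁻¹ • (y : E), hy⟩ : L) := Subtype.ext (by
        show (y : E) = (n : ℤ) • ((n : ℝ)⁻¹ • (y : E))
        rw [natCast_zsmul, ← Nat.cast_smul_eq_nsmul ℝ, smul_smul, mul_inv_cancel₀ hn', one_smul])
      rw [hy', map_zsmul]
      simp
    · intro hy
      have hdvd : ∀ i, (n : ℤ) ∣ b.equivFun y i := fun i =>
        (ZMod.intCast_zmod_eq_zero_iff_dvd _ _).mp (congrFun hy i)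
      choose q hq using hdvd
      have hy' : y = (n : ℤ) • b.equivFun.symm q := by
        apply b.equivFun.injective
        rw [map_zsmul, LinearEquiv.apply_symm_apply]
        funext i
        simp [hq i]
      have hval : (n : ℝ)⁻¹ • (y : E) = (b.equivFun.symm q : L) := by
        rw [hy', Submodule.coe_smul, natCast_zsmul, ← Nat.cast_smul_eq_nsmul ℝ, smul_smul,
          inv_mul_cancel₀ hn', one_smul]
      rw [hval]
      exact (b.equivFun.symm q).2
  calc Nat.card {x : E ⧸ Λ // n • x = 0}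
      = Nat.card T := Nat.card_congr (Equiv.refl _)
    _ = Nat.card (Fin (Module.finrank ℤ L) → ZMod n) :=
      Nat.card_congr ((QuotientAddGroup.quotientKerEquivOfSurjective ψ hψ).symm.trans
        ((QuotientAddGroup.quotientAddEquivOfEq hker).trans
          (QuotientAddGroup.quotientKerEquivOfSurjective χ hχ))).toEquiv
    _ = n ^ Module.finrank ℝ E := by
      rw [Nat.card_fun, Nat.card_zmod, Nat.card_fin, hrank]

theorem natCard_torsion_of_equiv {A : Type*} [AddCommGroup A] (g : ℕ)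
    (Λ : AddSubgroup (Fin g → ℂ)) [CompactSpace ((Fin g → ℂ) ⧸ Λ)]
    (hdisc : ∀ᶠ x in 𝓝 (0 : Fin g → ℂ), x ∈ Λ → x = 0)
    (e : A ≃+ ((Fin g → ℂ) ⧸ Λ)) {n : ℕ} (hn : n ≠ 0) :
    Nat.card {x : A // n • x = 0} = n ^ (2 * g) := by
  have h : Nat.card {x : A // n • x = 0} =
      Nat.card {x : (Fin g → ℂ) ⧸ Λ // n • x = 0} :=
    Nat.card_congr (e.toEquiv.subtypeEquiv fun x => by
      show n • x = 0 ↔ n • e x = 0
      rw [← map_nsmul, map_eq_zero_iff e e.injective])
  rw [h, natCard_torsion_quotient Λ hdisc hn, Module.finrank_pi_fintype]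
  simp [Complex.finrank_real_complex, mul_comm]

end Fermat.Agent.Torsion.Analytic
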