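import Fermat.Agent.Torsion.Analytic.AbelRep
import Fermat.Agent.Torsion.Analytic.Torus
import Mathlib.Analysis.Calculus.InverseFunctionTheorem.FDeriv

/-!
# The Abel–Jacobi isomorphism and the torsion count over `ℂ`

Owner: helper71.
-/

set_option autoImplicit false

noncomputable section

open AlgebraicCurve Topology Filter Metric

namespace Fermat.Agent.Torsion.Analytic

open Fermat.Agent.Curve

variable {F : Type*} [Field F] [Algebra ℂ F] [IsFunctionField1 ℂ F] (C : Cover F)

namespace Cover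

theorem exists_rep_pair (P Q : Place ℂ F) :
    ∃ x, C.Rep (Finsupp.single P (1 : ℤ) - Finsupp.single Q 1) x := by
  set S : Set (Place ℂ F) := {R | ∃ x, C.Rep (Finsupp.single R (1 : ℤ) - Finsupp.single Q 1) x}
    with hS
  have hloc : ∀ P₀ : Place ℂ F, ∀ᶠ R in 𝓝 P₀, (R ∈ S ↔ P₀ ∈ S) := by
    intro P₀
    obtain ⟨c, ε, γ, hP, h0, hε, -, -, -, hrep, -⟩ := C.exists_local P₀
    have hmem : c.φ.source ∩ c.φ ⁻¹' ball (0 : ℂ) ε ∈ 𝓝 P₀ :=
      inter_mem (c.φ.open_source.mem_nhds hP)
        ((c.φ.continuousAt hP).preimage_mem_nhds (by rw [h0]; exact ball_mem_nhds 0 hε))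
    filter_upwards [hmem] with R ⟨hR, hRb⟩
    have hr := hrep _ hRb
    rw [c.φ.left_inv hR] at hr
    constructor
    · rintro ⟨x, hx⟩
      exact ⟨x - γ (c.φ R), by simpa using hx.sub hr⟩
    · rintro ⟨x, hx⟩
      exact ⟨x + γ (c.φ R), by simpa using hx.add hr⟩
  have hclopen : IsClopen S := by
    refine ⟨isOpen_compl_iff.1 (isOpen_iff_mem_nhds.2 fun P₀ h => ?_),
      isOpen_iff_mem_nhds.2 fun P₀ h => ?_⟩
    · filter_upwards [hloc P₀] with R hR using fun hRS => h (hR.1 hRS)
    · filter_upwards [hloc P₀] with R hR using hR.2 h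
  have hQ : Q ∈ S := ⟨0, by simpa using rep_zero⟩
  have huniv : S = Set.univ := hclopen.eq_univ ⟨Q, hQ⟩
  exact (huniv ▸ Set.mem_univ P : P ∈ S)

theorem exists_rep {D : Divisor ℂ F} (hD : Divisor.degree D = 0) : ∃ x, C.Rep D x := by
  classical
  obtain ⟨Q⟩ := (inferInstance : Nonempty (Place ℂ F))
  have hdeg : ∑ v ∈ D.support, D v = 0 := by
    have h : Divisor.degree D = ∑ v ∈ D.support, D v * (v.deg : ℤ) := by
      simp [Divisor.degree, Finsupp.sum]
    rw [hD] at h
    rw [h]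
    refine Finset.sum_congr rfl fun v _ => ?_
    rw [Fermat.Agent.Curve.deg_eq_one v]
    simp
  have e : D = ∑ v ∈ D.support, D v • (Finsupp.single v (1 : ℤ) - Finsupp.single Q 1) := by
    simp only [smul_sub, Finset.sum_sub_distrib, Finsupp.smul_single, smul_eq_mul, mul_one]
    rw [← Finsupp.single_finsetSum, hdeg, Finsupp.single_zero, sub_zero]
    exact (Finsupp.sum_single D).symm
  let R : AddSubgroup (Divisor ℂ F) :=
    { carrier := {E | ∃ x, C.Rep E x}
      zero_mem' := ⟨0, rep_zero⟩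
      add_mem' := fun ⟨x, hx⟩ ⟨y, hy⟩ => ⟨x + y, hx.add hy⟩
      neg_mem' := fun ⟨x, hx⟩ => ⟨-x, hx.neg⟩ }
  show D ∈ R
  rw [e]
  exact sum_mem fun v _ => zsmul_mem (C.exists_rep_pair v Q) _

/-- A coordinate vector of a divisor of degree zero. -/
def coord (D : Divisor.degZero (K := ℂ) (F := F)) : Fin (genusFF ℂ F) → ℂ :=
  (C.exists_rep (Divisor.mem_degZero.1 D.2)).choose

theorem rep_coord (D : Divisor.degZero (K := ℂ) (F := F)) : C.Rep D.1 (C.coord D) :=
  (C.exists_rep (Divisor.mem_degZero.1 D.2)).choose_spec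

theorem mk_eq_of_rep {D : Divisor ℂ F} {x y : Fin (genusFF ℂ F) → ℂ} (hx : C.Rep D x)
    (hy : C.Rep D y) :
    (QuotientAddGroup.mk x : (Fin (genusFF ℂ F) → ℂ) ⧸ C.lattice) = QuotientAddGroup.mk y :=
  QuotientAddGroup.eq_iff_sub_mem.2 (hx.unique hy)

/-- The Abel–Jacobi map on divisors of degree zero. -/
def abelHom :
    Divisor.degZero (K := ℂ) (F := F) →+ (Fin (genusFF ℂ F) → ℂ) ⧸ C.lattice :=
  AddMonoidHom.mk' (fun D => QuotientAddGroup.mk (C.coord D)) fun D E => by
    rw [← QuotientAddGroup.mk_add]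
    exact C.mk_eq_of_rep (C.rep_coord (D + E))
      (by simpa using (C.rep_coord D).add (C.rep_coord E))

theorem abelHom_eq {D : Divisor.degZero (K := ℂ) (F := F)} {x : Fin (genusFF ℂ F) → ℂ}
    (hx : C.Rep D.1 x) : C.abelHom D = QuotientAddGroup.mk x :=
  C.mk_eq_of_rep (C.rep_coord D) hx

theorem abelHom_ker :
    C.abelHom.ker = (Divisor.principal (K := ℂ) (F := F)).addSubgroupOf
      (Divisor.degZero (K := ℂ) (F := F)) := by
  ext D
  rw [AddMonoidHom.mem_ker, AddSubgroup.mem_addSubgroupOf]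
  constructor
  · intro h
    exact (C.rep_coord D).principal ((QuotientAddGroup.eq_zero_iff _).1 h)
  · intro h
    rw [C.abelHom_eq (rep_of_principal h), QuotientAddGroup.mk_zero]

theorem degree_single_sub (P Q : Place ℂ F) :
    Divisor.degree (Finsupp.single P (1 : ℤ) - Finsupp.single Q 1) = 0 := by
  rw [map_sub, Divisor.degree_single, Divisor.degree_single,
    Fermat.Agent.Curve.deg_eq_one P, Fermat.Agent.Curve.deg_eq_one Q]
  simp

/-- A difference of two places as a divisor of degree zero. -/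
def pairDiv (P Q : Place ℂ F) : Divisor.degZero (K := ℂ) (F := F) :=
  ⟨Finsupp.single P (1 : ℤ) - Finsupp.single Q 1, Divisor.mem_degZero.2 (degree_single_sub P Q)⟩

theorem continuous_abel_pair (Q : Place ℂ F) :
    Continuous fun P : Place ℂ F => C.abelHom (pairDiv P Q) := by
  refine continuous_iff_continuousAt.2 fun P₀ => ?_
  obtain ⟨c, ε, γ, hP, h0, hε, -, hγ, -, hrep, -⟩ := C.exists_local P₀
  have hmem : c.φ.source ∩ c.φ ⁻¹' ball (0 : ℂ) ε ∈ 𝓝 P₀ :=
    inter_mem (c.φ.open_source.mem_nhds hP)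
      ((c.φ.continuousAt hP).preimage_mem_nhds (by rw [h0]; exact ball_mem_nhds 0 hε))
  set x₀ := C.coord (pairDiv P₀ Q) with hx₀
  have heq : (fun R : Place ℂ F =>
        (QuotientAddGroup.mk (γ (c.φ R) + x₀) : (Fin (genusFF ℂ F) → ℂ) ⧸ C.lattice))
      =ᶠ[𝓝 P₀] fun R => C.abelHom (pairDiv R Q) := by
    filter_upwards [hmem] with R ⟨hR, hRb⟩
    refine (C.abelHom_eq ?_).symm
    have hr := hrep _ hRb
    rw [c.φ.left_inv hR] at hr
    simpa [pairDiv, hx₀] using hr.add (C.rep_coord (pairDiv P₀ Q))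
  refine ContinuousAt.congr ?_ heq
  have h1 : ContinuousAt γ (c.φ P₀) := by
    rw [h0]
    exact (hγ.differentiableAt (ball_mem_nhds 0 hε)).continuousAt
  exact (QuotientAddGroup.continuous_mk.continuousAt).comp
    ((h1.comp (c.φ.continuousAt hP)).add continuousAt_const)

theorem riemannRochSpace_principal {Q : Fin (genusFF ℂ F) → Place ℂ F}
    (h : (∑ m, Finsupp.single (Q m) (1 : ℤ)) - ∑ m, Finsupp.single (basePts F m) (1 : ℤ)
      ∈ Divisor.principal (K := ℂ) (F := F)) :
    (∑ m, Finsupp.single (Q m) (1 : ℤ)) = ∑ m, Finsupp.single (basePts F m) (1 : ℤ) := by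
  obtain ⟨f, hf, hord⟩ := Divisor.mem_principal.1 h
  have hnn : ∀ (y : Place ℂ F), 0 ≤ (∑ m, Finsupp.single (Q m) (1 : ℤ)) y := by
    intro y
    classical
    rw [Finsupp.finsetSum_apply]
    exact Finset.sum_nonneg fun m _ => by rw [Finsupp.single_apply]; split_ifs <;> simp
  have hmem : f ∈ riemannRochSpace (∑ m, Finsupp.single (basePts F m) (1 : ℤ)) := by
    rw [mem_riemannRochSpace_iff]
    intro y
    refine Or.inr ?_
    rw [← hord y, Finsupp.sub_apply]
    linarith [hnn y]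
  rw [riemannRochSpace_basePts, Submodule.mem_span_singleton] at hmem
  obtain ⟨a, ha⟩ := hmem
  ext y
  have := hord y
  rw [← ha, Algebra.smul_def, mul_one, Fermat.Agent.Curve.ord_algebraMap, Finsupp.sub_apply,
    sub_eq_zero] at this
  exact this

/-- A neighbourhood of `0` in `ℂ^g` represents classes close to the base points, injectively. -/
theorem exists_local_surj :
    ∃ U ∈ 𝓝 (0 : Fin (genusFF ℂ F) → ℂ), ∀ x ∈ U,
      (∃ D : Divisor.degZero (K := ℂ) (F := F), C.Rep D.1 x) ∧ (x ∈ C.lattice → x = 0) := by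
  classical
  choose c ε γ hP h0 hε hball hγd hγ0 hrep hK using fun m : Fin (genusFF ℂ F) =>
    C.exists_local (basePts F m)
  choose K hKpole hKd using fun m => hK m 0 (mem_ball_self (hε m))
  set v : Fin (genusFF ℂ F) → (Fin (genusFF ℂ F) → ℂ) := fun m => C.proj (C.deltaLin (K m))
    with hv
  have hsymm0 : ∀ m, (c m).φ.symm 0 = basePts F m := fun m => by
    rw [← h0 m]; exact (c m).φ.left_inv (hP m)
  have hinj : Function.Injective (Fintype.linearCombination ℂ v) := by
    rw [← LinearMap.ker_eq_bot, LinearMap.ker_eq_bot']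
    intro z hz
    rw [Fintype.linearCombination_apply] at hz
    refine C.independent_mod basePts_injective riemannRochSpace_basePts K
      (fun m => by simpa [hsymm0 m] using hKpole m) ?_
    have hmem : ∑ m, z m • C.deltaLin (K m) ∈ C.poleCocycles :=
      sum_mem fun m _ => Submodule.smul_mem _ _ (C.deltaLin_mem_poleCocycles (hKpole m))
    have h := C.sub_tau_proj_mem hmem
    rw [map_sum] at h
    simp only [map_smul] at h
    simp only [hv] at hz
    simpa only [hz, map_zero, sub_zero] using h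
  set A : (Fin (genusFF ℂ F) → ℂ) ≃L[ℂ] (Fin (genusFF ℂ F) → ℂ) :=
    (LinearEquiv.ofBijective (Fintype.linearCombination ℂ v)
      ⟨hinj, LinearMap.injective_iff_surjective.1 hinj⟩).toContinuousLinearEquiv with hA
  set θ : (Fin (genusFF ℂ F) → ℂ) → (Fin (genusFF ℂ F) → ℂ) := fun z => ∑ m, γ m (z m) with hθ
  have hθd : HasStrictFDerivAt θ (A : (Fin (genusFF ℂ F) → ℂ) →L[ℂ] (Fin (genusFF ℂ F) → ℂ)) 0 := by
    have hm : ∀ m, HasStrictFDerivAt (fun z : Fin (genusFF ℂ F) → ℂ => γ m (z m))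
        ((ContinuousLinearMap.proj (R := ℂ) (φ := fun _ : Fin (genusFF ℂ F) => ℂ) m).smulRight
          (v m)) 0 := by
      intro m
      have han : AnalyticAt ℂ (γ m) 0 :=
        (hγd m).analyticAt (ball_mem_nhds (0 : ℂ) (hε m))
      have hs : HasStrictDerivAt (γ m) (v m) 0 := by
        have := han.hasStrictDerivAt
        rwa [(hKd m).deriv] at this
      have := hs.hasStrictFDerivAt.comp (0 : Fin (genusFF ℂ F) → ℂ)
        (ContinuousLinearMap.proj (R := ℂ) (φ := fun _ : Fin (genusFF ℂ F) => ℂ) m).hasStrictFDerivAt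
      refine this.congr_fderiv ?_
      ext z
      simp
    refine (HasStrictFDerivAt.fun_sum (u := Finset.univ) fun m _ => hm m).congr_fderiv ?_
    ext z k
    simp [hA, Fintype.linearCombination_apply]
  set W : Set (Fin (genusFF ℂ F) → ℂ) := {z | ∀ m, z m ∈ ball (0 : ℂ) (ε m) ∧
    ∀ k, k ≠ m → (c m).φ.symm (z m) ≠ basePts F k} with hW
  have hWnhds : W ∈ 𝓝 (0 : Fin (genusFF ℂ F) → ℂ) := by
    refine (eventually_all.2 fun m => ?_)
    have hcm : ContinuousAt (fun z : Fin (genusFF ℂ F) → ℂ => z m) 0 :=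
      (continuous_apply m).continuousAt
    refine Filter.Eventually.and (p := fun z : Fin (genusFF ℂ F) → ℂ => z m ∈ ball (0 : ℂ) (ε m))
      (hcm.preimage_mem_nhds (ball_mem_nhds (0 : ℂ) (hε m))) (eventually_all.2 fun k => ?_)
    by_cases hk : k = m
    · exact Eventually.of_forall fun z h => absurd hk h
    · have hc : ContinuousAt (fun z : Fin (genusFF ℂ F) → ℂ => (c m).φ.symm (z m)) 0 :=
        ((c m).φ.continuousAt_symm (hball m (mem_ball_self (hε m)))).comp_of_eq hcm rfl
      have hne : (c m).φ.symm ((0 : Fin (genusFF ℂ F) → ℂ) m) ≠ basePts F k := by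
        rw [Pi.zero_apply, hsymm0 m]
        exact fun e => hk (basePts_injective e).symm
      exact (hc.eventually_ne hne).mono fun z hz _ => hz
  have hθ0 : θ 0 = 0 := by simp [hθ, hγ0]
  refine ⟨θ '' W, ?_, ?_⟩
  · rw [← hθ0, ← hθd.map_nhds_eq_of_equiv]
    exact image_mem_map hWnhds
  · rintro x ⟨z, hz, rfl⟩
    set D : Divisor ℂ F :=
      ∑ m, (Finsupp.single ((c m).φ.symm (z m)) (1 : ℤ) - Finsupp.single (basePts F m) 1) with hD
    have hR : C.Rep D (θ z) := Rep.sum _ fun m _ => hrep m _ (hz m).1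
    have hdeg : D ∈ Divisor.degZero (K := ℂ) (F := F) := by
      rw [Divisor.mem_degZero, hD, map_sum]
      exact Finset.sum_eq_zero fun m _ => degree_single_sub _ _
    refine ⟨⟨⟨D, hdeg⟩, hR⟩, fun hx => ?_⟩
    have hp := hR.principal hx
    rw [hD, Finset.sum_sub_distrib] at hp
    have heq := riemannRochSpace_principal hp
    have hz0 : ∀ m, z m = 0 := by
      intro m
      have h1 : (∑ k, Finsupp.single ((c k).φ.symm (z k)) (1 : ℤ)) ((c m).φ.symm (z m)) ≠ 0 := by
        rw [Finsupp.finsetSum_apply]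
        have : (0 : ℤ) < ∑ k, Finsupp.single ((c k).φ.symm (z k)) (1 : ℤ) ((c m).φ.symm (z m)) := by
          refine Finset.sum_pos' (fun k _ => ?_) ⟨m, Finset.mem_univ m, by simp⟩
          rw [Finsupp.single_apply]
          split_ifs <;> simp
        exact this.ne'
      rw [heq] at h1
      have h2 : ∃ k, (c m).φ.symm (z m) = basePts F k := by
        by_contra hne
        simp only [not_exists] at hne
        exact h1 (sum_single_apply_of_ne hne)
      obtain ⟨k, hk⟩ := h2
      by_cases hkm : k = m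
      · subst hkm
        have := congrArg (c k).φ hk
        rwa [(c k).φ.right_inv (hball k (hz k).1), h0 k] at this
      · exact absurd hk ((hz m).2 k hkm)
    simp [hθ, hz0, hγ0]

theorem abelHom_surjective : Function.Surjective C.abelHom := by
  obtain ⟨U, hU, hUspec⟩ := C.exists_local_surj
  obtain ⟨s, hsU, hs, h0s⟩ := _root_.mem_nhds_iff.1 hU
  have htop : C.abelHom.range = ⊤ :=
    subgroup_eq_top_of_interior C.lattice _ hs ⟨0, h0s⟩ fun x hx => by
      obtain ⟨D, hD⟩ := (hUspec x (hsU hx)).1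
      exact ⟨D, C.abelHom_eq hD⟩
  exact AddMonoidHom.range_eq_top.1 htop

theorem discrete_lattice :
    ∀ᶠ x in 𝓝 (0 : Fin (genusFF ℂ F) → ℂ), x ∈ C.lattice → x = 0 := by
  obtain ⟨U, hU, hUspec⟩ := C.exists_local_surj
  filter_upwards [hU] with x hx using (hUspec x hx).2

theorem compactSpace_quotient : CompactSpace ((Fin (genusFF ℂ F) → ℂ) ⧸ C.lattice) := by
  obtain ⟨Q⟩ := (inferInstance : Nonempty (Place ℂ F))
  set T : (Fin (genusFF ℂ F) → Place ℂ F) → ((Fin (genusFF ℂ F) → ℂ) ⧸ C.lattice) :=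
    fun P => ∑ m, C.abelHom (pairDiv (P m) Q) with hT
  have hTc : Continuous T :=
    continuous_finsetSum _ fun m _ => (C.continuous_abel_pair Q).comp (continuous_apply m)
  have hTs : Function.Surjective T := by
    intro x
    obtain ⟨D, rfl⟩ := C.abelHom_surjective x
    obtain ⟨P, hP⟩ := exists_effective_rep Q D.1 (Divisor.mem_degZero.1 D.2)
    refine ⟨P, ?_⟩
    have hmem : D - ∑ m, pairDiv (P m) Q ∈ C.abelHom.ker := by
      rw [abelHom_ker, AddSubgroup.mem_addSubgroupOf]
      convert hP using 1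
      simp [pairDiv, Finset.sum_sub_distrib]
    rw [AddMonoidHom.mem_ker, map_sub, map_sum, sub_eq_zero] at hmem
    exact hmem.symm
  exact ⟨hTs.range_eq ▸ isCompact_range hTc⟩

/-- Abel–Jacobi: `Pic⁰ ≅ ℂ^g / Λ`. -/
def abelEquiv : Pic0 ℂ F ≃+ (Fin (genusFF ℂ F) → ℂ) ⧸ C.lattice :=
  (QuotientAddGroup.quotientAddEquivOfEq C.abelHom_ker.symm).trans
    (QuotientAddGroup.quotientKerEquivOfSurjective C.abelHom C.abelHom_surjective)

end Cover

theorem natCard_torsion_complex (F : Type*) [Field F] [Algebra ℂ F] [IsFunctionField1 ℂ F]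
    (n : ℕ) (hn : n ≠ 0) :
    Nat.card (Pic0.torsion ℂ F n) = n ^ (2 * genusFF ℂ F) := by
  obtain ⟨C⟩ := exists_cover F
  haveI := C.compactSpace_quotient
  rw [← natCard_torsion_of_equiv (genusFF ℂ F) C.lattice C.discrete_lattice C.abelEquiv hn]
  exact Nat.card_congr (Equiv.subtypeEquivRight fun x => by
    rw [Pic0.mem_torsion, natCast_zsmul])

end Fermat.Agent.Torsion.Analytic

namespace Fermat.Agent.Torsion.Analytic

/-- `Pic⁰` of a complex function field is divisible. -/
theorem exists_nsmul_eq_complex (F : Type*) [Field F] [Algebra ℂ F]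
    [Fermat.Agent.Curve.IsFunctionField1 ℂ F] (n : ℕ) (hn : n ≠ 0) (x : Pic0 ℂ F) :
    ∃ y, n • y = x := by
  obtain ⟨C⟩ := exists_cover F
  obtain ⟨v, hv⟩ := QuotientAddGroup.mk_surjective (C.abelEquiv x)
  refine ⟨C.abelEquiv.symm (QuotientAddGroup.mk ((n : ℂ)⁻¹ • v)), ?_⟩
  apply C.abelEquiv.injective
  rw [map_nsmul, AddEquiv.apply_symm_apply, ← QuotientAddGroup.mk_nsmul,
    ← Nat.cast_smul_eq_nsmul ℂ n, smul_smul, mul_inv_cancel₀ (Nat.cast_ne_zero.2 hn), one_smul, hv]

end Fermat.Agent.Torsion.Analytic
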