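import Fermat.Agent.Curve.Approximation
import Fermat.Agent.Curve.Canonical
import Fermat.Agent.Curve.RiemannRoch

/-!
# Functions with simple zeros and prescribed simple values

Owner: helper76.
-/

set_option autoImplicit false

noncomputable section

open AlgebraicCurve KaehlerDifferential

namespace Fermat.Agent.Torsion.Analytic

open Fermat.Agent.Curve

variable {K F : Type*} [Field K] [Field F] [Algebra K F] [IsFunctionField1 K F] [IsAlgClosed K]

theorem ordGE_one_evalAt (P : Place K F) {f : F} (hf : f ∈ P.toValuationSubring) :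
    OrdGE P 1 (f - algebraMap K F (evalAt P f)) :=
  (ordGE_iff P).mpr (by simpa [Int.lt_iff_add_one_le] using evalAt_spec P hf)

theorem evalAt_eq_of_ordGE {P : Place K F} {f : F} {c : K}
    (h : OrdGE P 1 (f - algebraMap K F c)) : evalAt P f = c := by
  have hf : f ∈ P.toValuationSubring := by
    simpa using add_mem ((ordGE_zero_iff_mem P).mp (h.mono zero_le_one)) (P.algebraMap_mem' c)
  by_contra hne
  have hd := h.sub (ordGE_one_evalAt P hf)
  rw [show f - algebraMap K F c - (f - algebraMap K F (evalAt P f)) =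
    algebraMap K F (evalAt P f - c) by rw [map_sub]; ring] at hd
  have := hd.le_ord (by simpa [sub_eq_zero] using hne)
  rw [ord_algebraMap] at this
  omega

variable [CharZero K]

/-- There is a function with all zeros simple, vanishing at `R`, and taking the prescribed
non-zero values simply at the places of `S`. -/
theorem exists_simple_fibre_jets (R : Place K F) (S : Finset (Place K F)) (hR : R ∉ S)
    (v : Place K F → K) (hv : ∀ Q ∈ S, v Q ≠ 0) :
    ∃ h : F, R.ord h = 1 ∧ (∀ Q : Place K F, 0 < Q.ord h → Q.ord h = 1) ∧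
      ∀ Q ∈ S, Q.ord (h - algebraMap K F (v Q)) = 1 := by
  classical
  obtain ⟨k, hk0, hk⟩ := exists_forall_ord_eq (insert R S) (fun _ => (2 : ℤ))
  have hkR : R.ord k = 2 := hk R (Finset.mem_insert_self _ _)
  have hkt : Transcendental K k := transcendental_of_ord_ne_zero R (by omega)
  set Z := (finite_ord_pos hkt).toFinset with hZ
  have hmemZ : ∀ w : Place K F, w ∈ Z ↔ 0 < w.ord k := fun w => by simp [hZ]
  choose t ht0 ht using fun Q : Place K F => exists_uniformizer Q
  set a : Place K F → F := fun Q =>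
    if Q = R then t Q else if Q ∈ S then algebraMap K F (v Q) + t Q else 1 with ha
  obtain ⟨f, hf⟩ := exists_approx_ordGE Z a 2
  have hSZ : ∀ Q ∈ insert R S, Q ∈ Z := fun Q hQ => (hmemZ Q).mpr (by rw [hk Q hQ]; norm_num)
  have hfR : f ≠ 0 ∧ R.ord f = 1 := by
    have := hf R (hSZ R (Finset.mem_insert_self _ _))
    rw [ha] at this
    simpa using add_ne_zero_and_ord_add_eq R (ht0 R) (ht R)
      (g := f - t R) (by simpa using this)
  have hfS : ∀ Q ∈ S, f - algebraMap K F (v Q) ≠ 0 ∧ Q.ord (f - algebraMap K F (v Q)) = 1 := by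
    intro Q hQ
    have hQR : Q ≠ R := fun h => hR (h ▸ hQ)
    have := hf Q (hSZ Q (Finset.mem_insert_of_mem hQ))
    simp only [ha, if_neg hQR, if_pos hQ] at this
    have h2 := add_ne_zero_and_ord_add_eq Q (ht0 Q) (ht Q)
      (g := f - (algebraMap K F (v Q) + t Q)) (by simpa using this)
    rwa [show t Q + (f - (algebraMap K F (v Q) + t Q)) = f - algebraMap K F (v Q) by ring] at h2
  have hfZ : ∀ Q ∈ Z, Q ≠ R → f ≠ 0 ∧ Q.ord f = 0 := by
    intro Q hQ hQR
    by_cases hQS : Q ∈ S
    · have h := hfS Q hQS
      have h2 := add_ne_zero_and_ord_add_eq Q (f := algebraMap K F (v Q))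
        (by simpa using hv Q hQS) (ord_algebraMap Q (v Q))
        (g := f - algebraMap K F (v Q)) (ordGE_of_le_ord (by omega))
      simpa using h2
    · have := hf Q hQ
      simp only [ha, if_neg hQR, if_neg hQS] at this
      simpa using add_ne_zero_and_ord_add_eq Q one_ne_zero Q.ord_one
        (g := f - 1) (this.mono (by norm_num))
  set ψ := f / k with hψ
  have hψR : R.ord ψ = -1 := by rw [hψ, ord_div R hfR.1 hk0, hfR.2, hkR]; norm_num
  have hDψ : D K F ψ ≠ 0 := by
    intro h0
    have h := ordDifferential_D_of_ne_zero R (f := ψ) (by rw [hψR]; simp)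
    rw [h0, Place.ordDifferential, R.differentialCoeff_zero, R.ord_zero, hψR] at h
    omega
  obtain ⟨c, hc⟩ := Infinite.exists_notMem_finset
    ((canonicalDivisorOf hDψ).support.image fun w => -evalAt w ψ)
  have hck : ∀ Q ∈ Z, ∀ (n : ℤ), n ≤ Q.ord k → OrdGE Q n (algebraMap K F c * k) := fun Q _ n hn => by
    simpa using (ordGE_algebraMap Q c).mul (ordGE_of_le_ord (v := Q) hn)
  refine ⟨f + algebraMap K F c * k, ?_, fun Q hQ => ?_, fun Q hQ => ?_⟩
  · exact (add_ne_zero_and_ord_add_eq R hfR.1 hfR.2
      (hck R (hSZ R (Finset.mem_insert_self _ _)) _ (by omega))).2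
  · by_cases hQZ : Q ∈ Z
    · by_cases hQR : Q = R
      · subst hQR
        exact (add_ne_zero_and_ord_add_eq Q hfR.1 hfR.2 (hck Q hQZ _ (by omega))).2
      · have h := hfZ Q hQZ hQR
        have := (add_ne_zero_and_ord_add_eq Q h.1 h.2
          (hck Q hQZ _ (by have := (hmemZ Q).mp hQZ; omega))).2
        omega
    · have hkQ : Q.ord k ≤ 0 := not_lt.mp fun h => hQZ ((hmemZ Q).mpr h)
      set h' := f + algebraMap K F c * k with hh'
      by_contra hne
      have hh0 : h' ≠ 0 := place_ne_zero_of_ord_ne_zero Q (by omega)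
      have hfac : h' = k * (ψ + algebraMap K F c) := by rw [hh', hψ]; field_simp
      have hψc : ψ + algebraMap K F c ≠ 0 := fun h => hh0 (by rw [hfac, h, mul_zero])
      have hord : 2 ≤ Q.ord (ψ + algebraMap K F c) := by
        have := Q.ord_mul hk0 hψc
        rw [← hfac] at this
        omega
      have heval : evalAt Q ψ = -c := evalAt_eq_of_ordGE (by
        rw [map_neg, sub_neg_eq_add]; exact ordGE_of_le_ord (by omega))
      have hD : D K F (ψ + algebraMap K F c) = D K F ψ := by simp
      have h1 := sub_one_le_ordDifferential_D Q (f := ψ + algebraMap K F c) (by rw [hD]; exact hDψ)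
      rw [hD, ← canonicalDivisorOf_apply hDψ] at h1
      refine hc (Finset.mem_image.mpr ⟨Q, Finsupp.mem_support_iff.mpr (by omega), ?_⟩)
      rw [heval, neg_neg]
  · have h2 := (add_ne_zero_and_ord_add_eq Q (hfS Q hQ).1 (hfS Q hQ).2
      (hck Q (hSZ Q (Finset.mem_insert_of_mem hQ)) _
        (by have := hk Q (Finset.mem_insert_of_mem hQ); omega))).2
    rwa [show f - algebraMap K F (v Q) + algebraMap K F c * k =
      f + algebraMap K F c * k - algebraMap K F (v Q) by ring] at h2

/-- Infinitely many places. -/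
theorem exists_place_notMem (S : Finset (Place K F)) : ∃ Q : Place K F, Q ∉ S := by
  classical
  obtain ⟨x, hx, -⟩ := IsFunctionField1.exists_transcendental' (K := K) (F := F)
  obtain ⟨c, hc⟩ := Infinite.exists_notMem_finset (S.image fun Q => evalAt Q x)
  have htr : Transcendental K (x - algebraMap K F c) := fun h =>
    hx (by simpa using h.add (isAlgebraic_algebraMap c))
  obtain ⟨Q, hQ⟩ := exists_place_ord_pos htr
  exact ⟨Q, fun hQS => hc (Finset.mem_image.mpr
    ⟨Q, hQS, evalAt_eq_of_ordGE (ordGE_of_le_ord (by omega))⟩)⟩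

end Fermat.Agent.Torsion.Analytic
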