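import Fermat.Agent.Torsion.Analytic.SimpleResidue
import Fermat.Agent.Torsion.Analytic.SimpleFibre
import Fermat.Agent.Curve.Fibre

/-!
# The residue theorem for differentials with two simple poles, by the trace to a rational field

Owner: helper76.
-/

set_option autoImplicit false
set_option linter.style.haveILetI false

noncomputable section

open AlgebraicCurve KaehlerDifferential IntermediateField

namespace Fermat.Agent.Torsion.Analytic

open Fermat.Agent.Curve

variable {K F : Type*} [Field K] [Field F] [Algebra K F] [IsFunctionField1 K F] [IsAlgClosed K]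
  [CharZero K]

omit [IsFunctionField1 K F] [IsAlgClosed K] [CharZero K] in
theorem adjoin_gen_sub_eq_top (x : F) (c : K) :
    (K⟮AdjoinSimple.gen K x - algebraMap K K⟮x⟯ c⟯ : IntermediateField K K⟮x⟯) = ⊤ := by
  rw [eq_top_iff, ← adjoin_gen_eq_top x, adjoin_simple_le_iff]
  simpa using add_mem (mem_adjoin_simple_self K (AdjoinSimple.gen K x - algebraMap K K⟮x⟯ c))
    (IntermediateField.algebraMap_mem _ c)

omit [IsFunctionField1 K F] [IsAlgClosed K] [CharZero K] in
/-- A simple pole times the uniformiser. -/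
theorem ordGE_one_of_hasSimpleResidue {P : Place K F} {t a : F} {ω : Ω[F⁄K]} {r : K}
    (ht : P.ord t = 1) (ha : ω = a • D K F t) (h : HasSimpleResidue ω P r) :
    OrdGE P 1 (a * t - algebraMap K F r) := by
  have ht0 : t ≠ 0 := place_ne_zero_of_ord_ne_zero P (by omega)
  have := ((ordGE_zero_iff_mem P).mpr (h t ht a ha)).mul (ordGE_of_le_ord (v := P) ht.ge)
  rwa [show (a - algebraMap K F r / t) * t = a * t - algebraMap K F r by field_simp] at this

/-- The residues of a differential with two simple poles add up to zero. -/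
theorem residue_pair_add_eq_zero {P Q : Place K F} {ω : Ω[F⁄K]} {r s : K} (hPQ : P ≠ Q)
    (hP : HasSimpleResidue ω P r) (hQ : HasSimpleResidue ω Q s)
    (hreg : ∀ R : Place K F, R ≠ P → R ≠ Q → HasSimpleResidue ω R 0) : r + s = 0 := by
  classical
  obtain ⟨R₀, hR₀⟩ := exists_place_notMem ({P, Q} : Finset (Place K F))
  obtain ⟨h, hhR, hhsimple, hhS⟩ := exists_simple_fibre_jets R₀ ({P, Q} : Finset (Place K F)) hR₀
    (fun W => if W = P then 1 else 2) (fun W _ => by split_ifs <;> norm_num)
  have hh0 : h ≠ 0 := place_ne_zero_of_ord_ne_zero R₀ (by omega)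
  set x := h⁻¹ with hxdef
  have hx : Transcendental K x :=
    transcendental_of_ord_ne_zero R₀ (by rw [hxdef, R₀.ord_inv, hhR]; norm_num)
  have hpole : ∀ W : Place K F, W.ord x < 0 → W.ord x = -1 := fun W hW => by
    rw [hxdef, W.ord_inv] at hW ⊢
    rw [hhsimple W (by omega)]
  set p : K := 1 with hp
  set q : K := 2⁻¹ with hq
  have hval : ∀ W : Place K F, ∀ u : K, u ≠ 0 → W.ord (h - algebraMap K F u) = 1 →
      W.ord (x - algebraMap K F u⁻¹) = 1 := by
    intro W u hu hW
    have hu' : algebraMap K F u ≠ 0 := by simpa using hu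
    have hne : h - algebraMap K F u ≠ 0 := place_ne_zero_of_ord_ne_zero W (by omega)
    obtain ⟨-, hho⟩ := add_ne_zero_and_ord_add_eq W hu' (ord_algebraMap W u)
      (g := h - algebraMap K F u) (ordGE_of_le_ord (by omega))
    rw [add_sub_cancel] at hho
    rw [show x - algebraMap K F u⁻¹ = -(h - algebraMap K F u) / (h * algebraMap K F u) by
      rw [hxdef, map_inv₀]; field_simp; ring, ord_div W (neg_ne_zero.mpr hne) (mul_ne_zero hh0 hu'),
      ord_neg, W.ord_mul hh0 hu', hho, ord_algebraMap, hW]
    norm_num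
  have hxP : P.ord (x - algebraMap K F p) = 1 := by
    have := hhS P (by simp)
    rw [if_pos rfl] at this
    simpa [hp] using hval P 1 one_ne_zero this
  have hxQ : Q.ord (x - algebraMap K F q) = 1 := by
    have := hhS Q (by simp)
    rw [if_neg hPQ.symm] at this
    exact hval Q 2 two_ne_zero this
  have hpq : p ≠ q := by rw [hp, hq]; norm_num
  haveI := finiteDimensional_adjoin (K := K) hx
  haveI := isFunctionField1_adjoin hx
  set X : K⟮x⟯ := AdjoinSimple.gen K x with hX
  have hmapX : ∀ c : K, algebraMap K⟮x⟯ F (X - algebraMap K K⟮x⟯ c) = x - algebraMap K F c :=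
    fun c => by
      rw [map_sub, ← IsScalarTower.algebraMap_apply, hX, AdjoinSimple.algebraMap_gen]
  have hXtr : Transcendental K X := transcendental_gen hx
  have hDx : ∀ c : K, D K F (x - algebraMap K F c) = D K F x := fun c => by simp
  obtain ⟨a, ha⟩ : ∃ a : F, ω = a • D K F x := by
    have hne : D K F x ≠ 0 := hDx p ▸ D_ne_zero_of_ord_eq_one P hxP
    obtain ⟨a, ha⟩ := exists_smul_eq_of_ne_zero hne ω
    exact ⟨a, ha.symm⟩
  -- at a finite place
  have hfin : ∀ (W : Place K F) (c : K), 0 < W.ord (x - algebraMap K F c) → W ≠ P → W ≠ Q →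
      OrdGE W 1 (a * (x - algebraMap K F c)) := by
    intro W c hW hWP hWQ
    rcases eq_or_ne a 0 with rfl | ha0
    · simpa using ordGE_zero 1
    have hne : x - algebraMap K F c ≠ 0 := place_ne_zero_of_ord_ne_zero W (by omega)
    have hd : W.ordDifferential (D K F x) = W.ord (x - algebraMap K F c) - 1 := by
      rw [← hDx c]
      exact ordDifferential_D_of_ne_zero W (by exact_mod_cast hW.ne')
    have hω0 := hasSimpleResidue_zero_iff.mp (hreg W hWP hWQ)
    rw [ha, ordDifferential_smul_of_ne_zero W ha0 (hDx p ▸ D_ne_zero_of_ord_eq_one P hxP), hd]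
      at hω0
    exact ordGE_of_le_ord (by rw [W.ord_mul ha0 hne]; omega)
  -- at infinity
  have hinf : ∀ W : Place K F, W.ord x < 0 → OrdGE W 1 (x * a) := by
    intro W hW
    have hW1 := hpole W hW
    have hWP : W ≠ P := fun h => by
      subst h
      have := add_ne_zero_and_ord_add_eq W (place_ne_zero_of_ord_ne_zero W (by omega)) hW1
        (g := -algebraMap K F p) ((ordGE_algebraMap W p).neg.mono (by norm_num))
      rw [← sub_eq_add_neg, hxP] at this
      omega
    have hWQ : W ≠ Q := fun h => by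
      subst h
      have := add_ne_zero_and_ord_add_eq W (place_ne_zero_of_ord_ne_zero W (by omega)) hW1
        (g := -algebraMap K F q) ((ordGE_algebraMap W q).neg.mono (by norm_num))
      rw [← sub_eq_add_neg, hxQ] at this
      omega
    rcases eq_or_ne a 0 with rfl | ha0
    · simpa using ordGE_zero 1
    have hd : W.ordDifferential (D K F x) = W.ord x - 1 :=
      ordDifferential_D_of_ne_zero W (by rw [hW1]; simp)
    have hω0 := hasSimpleResidue_zero_iff.mp (hreg W hWP hWQ)
    rw [ha, ordDifferential_smul_of_ne_zero W ha0 (hDx p ▸ D_ne_zero_of_ord_eq_one P hxP), hd]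
      at hω0
    exact ordGE_of_le_ord (by rw [W.ord_mul (place_ne_zero_of_ord_ne_zero W (by omega)) ha0]; omega)
  set T := Algebra.trace K⟮x⟯ F a with hT
  -- the value of the trace at a finite place
  have htrace : ∀ (v : Place K K⟮x⟯) (c : K), 0 < v.ord (X - algebraMap K K⟮x⟯ c) →
      OrdGE v 1 (T * (X - algebraMap K K⟮x⟯ c) -
        algebraMap K K⟮x⟯ (if c = p then r else if c = q then s else 0)) := by
    intro v c hv
    have hv1 := ord_eq_one_of_gen (adjoin_gen_sub_eq_top x c) hv
    set z := a * (x - algebraMap K F c) with hz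
    have hfib : ∀ W ∈ v.fiber F,
        W.ord (x - algebraMap K F c) = W.ramificationIndex K⟮x⟯ := fun W hW => by
      rw [← hmapX, W.ord_restrict, Place.mem_fiber.mp hW, hv1, mul_one]
    have hmemfib : ∀ W : Place K F, 0 < W.ord (x - algebraMap K F c) → W ∈ v.fiber F := by
      intro W hW
      refine Place.mem_fiber.mpr (eq_of_ord_pos_gen (adjoin_gen_sub_eq_top x c) ?_ hv)
      rw [← hmapX, W.ord_restrict] at hW
      exact pos_of_mul_pos_right hW (by positivity)
    have huniq : ∀ W ∈ v.fiber F, ∀ d : K, W.ord (x - algebraMap K F d) = 1 → c = d := by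
      intro W hW d hd
      by_contra hne
      have hpos : 0 < W.ord (x - algebraMap K F c) := by
        rw [hfib W hW]; exact_mod_cast W.ramificationIndex_pos (F := K⟮x⟯)
      have h2 := (ordGE_of_le_ord (v := W) (n := 1) hpos).sub (ordGE_of_le_ord (v := W) hd.ge)
      rw [show x - algebraMap K F c - (x - algebraMap K F d) = algebraMap K F (d - c) by
        rw [map_sub]; ring] at h2
      have := h2.le_ord (by simpa [sub_eq_zero] using Ne.symm hne)
      rw [ord_algebraMap] at this
      omega
    have hev : ∀ W ∈ v.fiber F,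
        OrdGE W 1 (z - algebraMap K F (if W = P then r else if W = Q then s else 0)) := by
      intro W hW
      by_cases hWP : W = P
      · rw [if_pos hWP]; subst hWP
        obtain rfl := huniq W hW p hxP
        exact ordGE_one_of_hasSimpleResidue hxP (by rw [hDx]; exact ha) hP
      by_cases hWQ : W = Q
      · rw [if_neg hWP, if_pos hWQ]; subst hWQ
        obtain rfl := huniq W hW q hxQ
        exact ordGE_one_of_hasSimpleResidue hxQ (by rw [hDx]; exact ha) hQ
      · rw [if_neg hWP, if_neg hWQ, map_zero, sub_zero]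
        exact hfin W c (by rw [hfib W hW]; exact_mod_cast W.ramificationIndex_pos (F := K⟮x⟯))
          hWP hWQ
    have hzmem : ∀ W ∈ v.fiber F, z ∈ W.toValuationSubring := fun W hW => by
      simpa using add_mem ((ordGE_zero_iff_mem W).mp ((hev W hW).mono zero_le_one))
        (W.algebraMap_mem' (if W = P then r else if W = Q then s else 0))
    have htz : Algebra.trace K⟮x⟯ F z = T * (X - algebraMap K K⟮x⟯ c) := by
      rw [hz, ← hmapX, mul_comm a, ← Algebra.smul_def, map_smul, smul_eq_mul, hT, mul_comm]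
    rw [← htz]
    convert ordGE_one_evalAt v (trace_mem v hzmem) using 4
    rw [evalAt_trace v hzmem]
    have hsum : ∀ W ∈ v.fiber F, (W.ramificationIndex K⟮x⟯ : K) * evalAt W z =
        (if W = P then r else 0) + (if W = Q then s else 0) := by
      intro W hW
      rw [evalAt_eq_of_ordGE (hev W hW)]
      by_cases hWP : W = P
      · subst hWP
        obtain rfl := huniq W hW p hxP
        have : W.ramificationIndex K⟮x⟯ = 1 := by exact_mod_cast (hfib W hW).symm.trans hxP
        rw [this, if_pos rfl, if_neg hPQ]; simp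
      by_cases hWQ : W = Q
      · subst hWQ
        obtain rfl := huniq W hW q hxQ
        have : W.ramificationIndex K⟮x⟯ = 1 := by exact_mod_cast (hfib W hW).symm.trans hxQ
        simp [this, hWP]
      · simp [hWP, hWQ]
    rw [Finset.sum_congr rfl hsum, Finset.sum_add_distrib, Finset.sum_ite_eq', Finset.sum_ite_eq']
    have hPm : P ∈ v.fiber F ↔ c = p :=
      ⟨fun h => huniq P h p hxP, fun h => hmemfib P (by rw [h, hxP]; norm_num)⟩
    have hQm : Q ∈ v.fiber F ↔ c = q :=
      ⟨fun h => huniq Q h q hxQ, fun h => hmemfib Q (by rw [h, hxQ]; norm_num)⟩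
    by_cases hcp : c = p
    · subst hcp; simp [hPm, hQm, hpq]
    · simp [hPm, hQm, hcp]
  -- the trace at infinity
  have htinf : ∀ v : Place K K⟮x⟯, v.ord X < 0 → OrdGE v 2 T ∧ v.ord X = -1 := by
    intro v hv
    have hgen : (K⟮X⁻¹⟯ : IntermediateField K K⟮x⟯) = ⊤ := by
      rw [eq_top_iff, ← adjoin_gen_eq_top x, adjoin_simple_le_iff]
      simpa [hX] using inv_mem (mem_adjoin_simple_self K (X⁻¹))
    have hv1 := ord_eq_one_of_gen hgen (v := v) (by rw [v.ord_inv]; omega)
    rw [v.ord_inv] at hv1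
    refine ⟨?_, by omega⟩
    have hev : ∀ W ∈ v.fiber F, OrdGE W 1 (x * a) := fun W hW => hinf W (by
      rw [show x = algebraMap K⟮x⟯ F X by rw [hX, AdjoinSimple.algebraMap_gen], W.ord_restrict,
        Place.mem_fiber.mp hW]
      exact mul_neg_of_pos_of_neg (by exact_mod_cast W.ramificationIndex_pos (F := K⟮x⟯)) hv)
    have hzmem : ∀ W ∈ v.fiber F, x * a ∈ W.toValuationSubring := fun W hW =>
      (ordGE_zero_iff_mem W).mp ((hev W hW).mono zero_le_one)
    have h1 : OrdGE v 1 (X * T) := by
      have htz : Algebra.trace K⟮x⟯ F (x * a) = X * T := by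
        rw [show x * a = algebraMap K⟮x⟯ F X * a by rw [hX, AdjoinSimple.algebraMap_gen],
          ← Algebra.smul_def, map_smul, smul_eq_mul, hT]
      rw [← htz]
      have h := ordGE_one_evalAt v (trace_mem v hzmem)
      rw [evalAt_trace v hzmem, Finset.sum_eq_zero fun W hW => by
        rw [evalAt_eq_of_ordGE (c := 0) (by simpa using hev W hW), mul_zero], map_zero, sub_zero] at h
      exact h
    have h2 := h1.mul (ordGE_of_le_ord (v := v) (f := X⁻¹) (n := 1) (by rw [v.ord_inv]; omega))
    rwa [mul_comm X, mul_inv_cancel_right₀ (place_ne_zero_of_ord_ne_zero v (by omega))] at h2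
  have hfterm : ∀ (v : Place K K⟮x⟯) (d e : K), v.ord X < 0 →
      OrdGE v 1 (algebraMap K K⟮x⟯ d / (X - algebraMap K K⟮x⟯ e)) := by
    intro v d e hv
    obtain ⟨-, hX1⟩ := htinf v hv
    obtain ⟨hne, ho⟩ := add_ne_zero_and_ord_add_eq v (place_ne_zero_of_ord_ne_zero v (by omega)) hX1
      (g := -algebraMap K K⟮x⟯ e) ((ordGE_algebraMap v e).neg.mono (by norm_num))
    rw [← sub_eq_add_neg] at hne ho
    simpa [div_eq_mul_inv] using (ordGE_algebraMap v d).mul
      (ordGE_of_le_ord (v := v) (f := (X - algebraMap K K⟮x⟯ e)⁻¹) (n := 1)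
        (by rw [v.ord_inv, ho]; norm_num))
  set G := T - algebraMap K K⟮x⟯ r / (X - algebraMap K K⟮x⟯ p)
    - algebraMap K K⟮x⟯ s / (X - algebraMap K K⟮x⟯ q) with hG
  have hGinf : ∀ v : Place K K⟮x⟯, v.ord X < 0 → OrdGE v 1 G := fun v hv =>
    (((htinf v hv).1.mono one_le_two).sub (hfterm v r p hv)).sub (hfterm v s q hv)
  have hGreg : ∀ v : Place K K⟮x⟯, 0 ≤ v.ord G := by
    intro v
    rcases lt_or_ge (v.ord X) 0 with hv | hv
    · exact ord_nonneg_of_mem v ((ordGE_zero_iff_mem v).mp ((hGinf v hv).mono zero_le_one))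
    have hXm := mem_of_ord_nonneg v hv
    set c := evalAt v X with hc
    have hXne : ∀ d : K, X - algebraMap K K⟮x⟯ d ≠ 0 := fun d h =>
      hXtr (sub_eq_zero.mp h ▸ isAlgebraic_algebraMap d)
    have hcpos : 0 < v.ord (X - algebraMap K K⟮x⟯ c) :=
      (evalAt_spec v hXm).resolve_left (hXne c)
    have hv1 := ord_eq_one_of_gen (adjoin_gen_sub_eq_top x c) hcpos
    have hterm : ∀ (d e : K), e ≠ c →
        OrdGE v 0 (algebraMap K K⟮x⟯ d / (X - algebraMap K K⟮x⟯ e)) := by
      intro d e he
      obtain ⟨-, ho⟩ := add_ne_zero_and_ord_add_eq v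
        (f := algebraMap K K⟮x⟯ (c - e)) (by simpa [sub_eq_zero] using Ne.symm he)
        (ord_algebraMap v _) (g := X - algebraMap K K⟮x⟯ c) (ordGE_of_le_ord (by omega))
      rw [show algebraMap K K⟮x⟯ (c - e) + (X - algebraMap K K⟮x⟯ c) =
        X - algebraMap K K⟮x⟯ e by rw [map_sub]; ring] at ho
      simpa [div_eq_mul_inv] using (ordGE_algebraMap v d).mul
        (ordGE_of_le_ord (v := v) (f := (X - algebraMap K K⟮x⟯ e)⁻¹) (n := 0)
          (by rw [v.ord_inv, ho]; norm_num))
    set V := (if c = p then r else if c = q then s else 0) with hV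
    have hmain : OrdGE v 0 (T - algebraMap K K⟮x⟯ V / (X - algebraMap K K⟮x⟯ c)) := by
      have h := (htrace v c hcpos).mul (ordGE_of_le_ord (v := v)
        (f := (X - algebraMap K K⟮x⟯ c)⁻¹) (n := -1) (by rw [v.ord_inv, hv1]))
      rw [sub_mul, mul_inv_cancel_right₀ (hXne c), ← div_eq_mul_inv] at h
      exact h.mono (by norm_num)
    refine ord_nonneg_of_mem v ((ordGE_zero_iff_mem v).mp ?_)
    by_cases hcp : c = p
    · rw [hV, if_pos hcp] at hmain
      rw [hG, ← hcp]
      exact hmain.sub (hterm s q (by rw [hcp]; exact hpq.symm))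
    by_cases hcq : c = q
    · rw [hV, if_neg hcp, if_pos hcq] at hmain
      rw [hG, ← hcq, show T - algebraMap K K⟮x⟯ r / (X - algebraMap K K⟮x⟯ p) -
          algebraMap K K⟮x⟯ s / (X - algebraMap K K⟮x⟯ c) =
        T - algebraMap K K⟮x⟯ s / (X - algebraMap K K⟮x⟯ c) -
          algebraMap K K⟮x⟯ r / (X - algebraMap K K⟮x⟯ p) by ring]
      exact hmain.sub (hterm r p (Ne.symm hcp))
    · rw [hV, if_neg hcp, if_neg hcq, map_zero, zero_div, sub_zero] at hmain
      exact (hmain.sub (hterm r p (Ne.symm hcp))).sub (hterm s q (Ne.symm hcq))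
  obtain ⟨vinf, hvinf⟩ := exists_place_ord_neg hXtr
  have hG0 : G = 0 := by
    by_contra hne
    have h1 := (hGinf vinf hvinf).le_ord hne
    rw [ord_eq_zero_of_isAlgebraic vinf (isAlgebraic_of_forall_ord_nonneg hGreg)] at h1
    omega
  obtain ⟨hT2, hX1⟩ := htinf vinf hvinf
  have hsub : ∀ e : K, OrdGE vinf (-1) (X - algebraMap K K⟮x⟯ e) := fun e =>
    (ordGE_of_le_ord (by omega)).sub ((ordGE_algebraMap vinf e).mono (by norm_num))
  have hne : ∀ d : K, X - algebraMap K K⟮x⟯ d ≠ 0 := fun d h =>
    hXtr (sub_eq_zero.mp h ▸ isAlgebraic_algebraMap d)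
  have hTeq : T * (X - algebraMap K K⟮x⟯ p) * (X - algebraMap K K⟮x⟯ q) =
      algebraMap K K⟮x⟯ (r + s) * X - algebraMap K K⟮x⟯ (r * q + s * p) := by
    have h1 := hne p; have h2 := hne q
    have : T = algebraMap K K⟮x⟯ r / (X - algebraMap K K⟮x⟯ p)
        + algebraMap K K⟮x⟯ s / (X - algebraMap K K⟮x⟯ q) := by
      rw [hG, sub_sub, sub_eq_zero] at hG0
      exact hG0
    rw [this, map_add, map_add, map_mul, map_mul]
    field_simp
    ring
  by_contra hrs
  have h0 : OrdGE vinf 0 (algebraMap K K⟮x⟯ (r + s) * X) := by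
    have := ((hT2.mul (hsub p)).mul (hsub q))
    rw [hTeq] at this
    simpa using OrdGE.add (v := vinf) (this.mono (m := 0) (by norm_num))
      (ordGE_algebraMap vinf (r * q + s * p))
  have hrs' : algebraMap K K⟮x⟯ (r + s) ≠ 0 := fun h =>
    hrs ((algebraMap K K⟮x⟯).injective (by rw [h, map_zero]))
  have hX0 : X ≠ 0 := place_ne_zero_of_ord_ne_zero vinf (by omega)
  have := h0.le_ord (mul_ne_zero hrs' hX0)
  rw [vinf.ord_mul hrs' hX0, ord_algebraMap] at this
  omega

end Fermat.Agent.Torsion.Analytic
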