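import Fermat.Agent.Curve.Duality
import Fermat.Agent.Torsion.Analytic.ResiduePair
import Mathlib.Analysis.Complex.Polynomial.Basic

/-!
# Algebraic inputs (Riemann–Roch) for the Abel–Jacobi map

Owner: helper76.
-/

set_option autoImplicit false
set_option linter.style.haveILetI false

noncomputable section

open AlgebraicCurve KaehlerDifferential

namespace Fermat.Agent.Torsion.Analytic

open Fermat.Agent.Curve

variable {K F : Type*} [Field K] [Field F] [Algebra K F] [IsFunctionField1 K F] [IsAlgClosed K]
  [CharZero K]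

omit [CharZero K] in
theorem ell_eq_of_large {D : Divisor K F} (h : 2 * (genusFF K F : ℤ) - 2 < Divisor.degree D) :
    (ell D : ℤ) = Divisor.degree D + 1 - genusFF K F := by
  have := riemann_roch D
  rw [specialIndex_eq_zero_of_lt_degree h] at this
  simpa using this

omit [CharZero K] in
theorem degree_single_one (Q : Place K F) :
    Divisor.degree (Finsupp.single Q (1 : ℤ) : Divisor K F) = 1 := by
  rw [Divisor.degree_single, deg_eq_one Q]; simp

omit [CharZero K] in
theorem degree_sum_single {ι : Type*} (s : Finset ι) (P : ι → Place K F) :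
    Divisor.degree (∑ i ∈ s, Finsupp.single (P i) (1 : ℤ) : Divisor K F) = s.card := by
  rw [map_sum]; simp [deg_eq_one]

omit [CharZero K] in
theorem exists_ne_zero_differential : ∃ ω : Ω[F⁄K], ω ≠ 0 := by
  obtain ⟨P⟩ := exists_place (K := K) (F := F)
  obtain ⟨t, -, ht⟩ := exists_uniformizer P
  exact ⟨_, D_ne_zero_of_ord_eq_one P ht⟩

omit [CharZero K] [IsFunctionField1 K F] [IsAlgClosed K] in
theorem finsuppSum_apply_eq_zero {ι : Type*} (s : Finset ι) (P : ι → Place K F) {Q : Place K F}
    (h : ∀ i ∈ s, P i ≠ Q) : (∑ i ∈ s, Finsupp.single (P i) (1 : ℤ) : Divisor K F) Q = 0 := by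
  rw [Finsupp.finsetSum_apply]
  exact Finset.sum_eq_zero fun i hi => Finsupp.single_eq_of_ne (h i hi).symm

/-- Every place is a simple zero of a function all of whose zeros are simple. -/
theorem exists_simple_fibre_through (P : Place K F) :
    ∃ h : F, P.ord h = 1 ∧ ∀ Q : Place K F, 0 < Q.ord h → Q.ord h = 1 := by
  obtain ⟨h, h1, h2, -⟩ := exists_simple_fibre_jets P ∅ (Finset.notMem_empty _) (fun _ => 1)
    (by simp)
  exact ⟨h, h1, h2⟩

omit [CharZero K] in
/-- A function without zero at `Q` separates a finite set of places, with poles only at the poles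
of a given transcendental function. -/
theorem exists_interpolation (h : F) (hh : Transcendental K h) (S : Finset (Place K F))
    (hS : ∀ Q ∈ S, 0 ≤ Q.ord h) (v : Place K F → K) :
    ∃ e : F, (∀ Q : Place K F, 0 ≤ Q.ord h → e ∈ Q.toValuationSubring) ∧
      ∀ Q ∈ S, e - algebraMap K F (v Q) = 0 ∨ 0 < Q.ord (e - algebraMap K F (v Q)) := by
  classical
  haveI := finiteDimensional_adjoin (K := K) hh
  have hdeg : 0 < Divisor.degree (poleDivisor (K := K) h) := by
    rw [degree_poleDivisor hh]
    exact_mod_cast Module.finrank_pos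
  set m : ℕ := 2 * genusFF K F + S.card with hm
  set D : Divisor K F := (m : ℤ) • poleDivisor (K := K) h with hD
  set E : Divisor K F := ∑ Q ∈ S, Finsupp.single Q (1 : ℤ) with hE
  have hdegD : (m : ℤ) ≤ Divisor.degree D := by
    rw [hD, map_zsmul, smul_eq_mul]
    exact le_mul_of_one_le_right (by positivity) hdeg
  have hdegE : Divisor.degree E = S.card := degree_sum_single S id
  have hD0 : ∀ Q : Place K F, 0 ≤ Q.ord h → D Q = 0 := fun Q hQ => by
    rw [hD, Finsupp.smul_apply, poleDivisor_apply]
    simp [max_eq_right (neg_nonpos.mpr hQ)]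
  have hEQ : ∀ Q ∈ S, E Q = 1 := fun Q hQ => by
    rw [hE, Finsupp.finsetSum_apply, Finset.sum_eq_single Q
      (fun b _ hb => Finsupp.single_eq_of_ne hb.symm) (fun h => absurd hQ h), Finsupp.single_eq_same]
  have hmem : ∀ f ∈ riemannRochSpace D, ∀ Q : Place K F, 0 ≤ Q.ord h →
      f ∈ Q.toValuationSubring := fun f hf Q hQ =>
    (mem_iff_eq_zero_or_ord_nonneg Q).mpr ((mem_riemannRochSpace_iff.mp hf Q).imp id fun h1 => by
      rw [hD0 Q hQ] at h1; simpa using h1)
  have hlin : ∀ (f g : riemannRochSpace D) (a : K) (Q : S),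
      evalAt (Q : Place K F) ((a • f + g : riemannRochSpace D) : F) =
        a * evalAt (Q : Place K F) (f : F) + evalAt (Q : Place K F) (g : F) := fun f g a Q => by
    refine evalAt_eq_of_ordGE ?_
    have hf := ordGE_one_evalAt (Q : Place K F) (hmem f f.2 Q (hS Q Q.2))
    have hg := ordGE_one_evalAt (Q : Place K F) (hmem g g.2 Q (hS Q Q.2))
    convert ((ordGE_algebraMap (Q : Place K F) a).mul hf).add (by simpa using hg) using 1
    · norm_num
    · rw [Submodule.coe_add, Submodule.coe_smul, Algebra.smul_def, map_add, map_mul]; ring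
  let ev : riemannRochSpace D →ₗ[K] (S → K) :=
    { toFun := fun f Q => evalAt (Q : Place K F) (f : F)
      map_add' := fun f g => funext fun Q => by simpa using hlin f g 1 Q
      map_smul' := fun a f => funext fun Q => by
        have h := hlin f 0 a Q
        have h0 : evalAt (Q : Place K F) (0 : F) = 0 :=
          evalAt_eq_of_ordGE (by simpa using ordGE_zero 1)
        simpa [h0] using h }
  have hker : LinearMap.ker ev ≤
      (riemannRochSpace (D - E)).comap (riemannRochSpace D).subtype := by
    intro f hf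
    rw [Submodule.mem_comap, Submodule.subtype_apply, mem_riemannRochSpace_iff]
    intro Q
    by_cases hQ : Q ∈ S
    · have h1 := ordGE_one_evalAt Q (hmem f f.2 Q (hS Q hQ))
      have h0 : evalAt Q (f : F) = 0 := congrFun (LinearMap.mem_ker.mp hf) ⟨Q, hQ⟩
      rw [h0, map_zero, sub_zero, ordGE_iff] at h1
      exact h1.imp id fun h1 => by simpa [hD0 Q (hS Q hQ), hEQ Q hQ] using h1
    · refine (mem_riemannRochSpace_iff.mp f.2 Q).imp id fun h1 => ?_
      have : E Q = 0 := finsuppSum_apply_eq_zero S id fun i hi h => hQ (by simpa [← h] using hi)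
      simpa [this] using h1
  have hkle : Module.finrank K (LinearMap.ker ev) ≤ ell (D - E) := by
    refine (Submodule.finrank_mono hker).trans_eq ?_
    refine (Submodule.comapSubtypeEquivOfLe (riemannRochSpace_mono fun Q => ?_)).finrank_eq
    by_cases hQ : Q ∈ S
    · simp [hEQ Q hQ]
    · simp [show E Q = 0 from finsuppSum_apply_eq_zero S id fun i hi h => hQ (by simpa [← h] using hi)]
  have hsurj : Function.Surjective ev := by
    rw [← LinearMap.range_eq_top]
    refine Submodule.eq_top_of_finrank_eq (le_antisymm (Submodule.finrank_le _) ?_)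
    have h1 := ell_eq_of_large (D := D) (by omega)
    have h2 := ell_eq_of_large (D := D - E) (by rw [map_sub]; omega)
    rw [map_sub] at h2
    have h3 := ev.finrank_range_add_finrank_ker
    have h4 : Module.finrank K (riemannRochSpace D) = ell D := rfl
    rw [Module.finrank_fintype_fun_eq_card, Fintype.card_coe]
    omega
  obtain ⟨f, hf⟩ := hsurj fun Q => v Q
  refine ⟨f, fun Q hQ => hmem f f.2 Q hQ, fun Q hQ => ?_⟩
  rw [show v Q = evalAt Q (f : F) from (congrFun hf ⟨Q, hQ⟩).symm]
  exact evalAt_spec Q (hmem f f.2 Q (hS Q hQ))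

/-- `g` distinct places in general position. -/
theorem exists_nonspecial_tuple :
    ∃ P : Fin (genusFF K F) → Place K F, Function.Injective P ∧
      riemannRochSpace (∑ m, Finsupp.single (P m) (1 : ℤ)) = Submodule.span K {(1 : F)} ∧
      ∀ Q : Place K F, (∀ m, Q ≠ P m) → ∃ f : F,
        f ∈ riemannRochSpace (Finsupp.single Q (1 : ℤ) + ∑ m, Finsupp.single (P m) (1 : ℤ)) ∧
        Q.ord f = -1 := by
  classical
  obtain ⟨ω, hω⟩ := exists_ne_zero_differential (K := K) (F := F)
  set W := canonicalDivisorOf hω with hW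
  suffices H : ∀ k ≤ genusFF K F, ∃ P : Fin k → Place K F, Function.Injective P ∧
      ell (W - ∑ m, Finsupp.single (P m) (1 : ℤ)) + k = genusFF K F by
    obtain ⟨P, hinj, hP⟩ := H _ le_rfl
    have hzero : ell (W - ∑ m, Finsupp.single (P m) (1 : ℤ)) = 0 := by omega
    have hsp : ∀ D : Divisor K F, (∀ Q, (∑ m, Finsupp.single (P m) (1 : ℤ) : Divisor K F) Q ≤ D Q) →
        (ell D : ℤ) = Divisor.degree D + 1 - genusFF K F := fun D hD => by
      have h := riemann_roch D
      rw [specialIndex_eq_ell hω, ← hW] at h
      have := Submodule.finrank_mono (riemannRochSpace_mono (D := W - D)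
        (D' := W - ∑ m, Finsupp.single (P m) (1 : ℤ)) fun Q => by
          rw [Finsupp.sub_apply, Finsupp.sub_apply]; have := hD Q; omega)
      change ell (W - D) ≤ ell _ at this
      rw [hzero] at this
      omega
    have hdeg := degree_sum_single Finset.univ P
    rw [Finset.card_univ, Fintype.card_fin] at hdeg
    have h1 := hsp _ fun Q => le_rfl
    rw [hdeg] at h1
    have hspan : riemannRochSpace (∑ m, Finsupp.single (P m) (1 : ℤ)) =
        Submodule.span K {(1 : F)} := by
      refine (Submodule.eq_of_le_of_finrank_le ?_ ?_).symm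
      · rw [Submodule.span_singleton_le_iff_mem, mem_riemannRochSpace_iff]
        refine fun Q => Or.inr ?_
        rw [Q.ord_one, neg_nonpos, Finsupp.finsetSum_apply]
        exact Finset.sum_nonneg fun i _ => by rw [Finsupp.single_apply]; split_ifs <;> norm_num
      · rw [finrank_span_singleton (one_ne_zero)]
        exact (by omega : ell (∑ m, Finsupp.single (P m) (1 : ℤ) : Divisor K F) ≤ 1)
    refine ⟨P, hinj, hspan, fun Q hQ => ?_⟩
    set D₁ : Divisor K F := Finsupp.single Q 1 + ∑ m, Finsupp.single (P m) (1 : ℤ) with hD₁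
    have h2 := hsp D₁ fun R => by
      rw [hD₁, Finsupp.add_apply]
      exact le_add_of_nonneg_left (by rw [Finsupp.single_apply]; split_ifs <;> norm_num)
    rw [map_add, degree_single_one, hdeg] at h2
    obtain ⟨f, hf, hf'⟩ : ∃ f ∈ riemannRochSpace D₁,
        f ∉ riemannRochSpace (∑ m, Finsupp.single (P m) (1 : ℤ)) := by
      by_contra hcon
      push Not at hcon
      have := Submodule.finrank_mono (fun f hf => hcon f hf)
      change ell D₁ ≤ ell _ at this
      omega
    refine ⟨f, hf, ?_⟩
    have hf0 : f ≠ 0 := fun h => hf' (h ▸ Submodule.zero_mem _)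
    have hother : ∀ R, R ≠ Q →
        -(∑ m, Finsupp.single (P m) (1 : ℤ) : Divisor K F) R ≤ R.ord f := fun R hR => by
      have := (mem_riemannRochSpace_iff.mp hf R).resolve_left hf0
      simpa [hD₁, Finsupp.single_eq_of_ne hR] using this
    have hQD : (∑ m, Finsupp.single (P m) (1 : ℤ) : Divisor K F) Q = 0 :=
      finsuppSum_apply_eq_zero _ P fun m _ => (hQ m).symm
    have hge := (mem_riemannRochSpace_iff.mp hf Q).resolve_left hf0
    rw [hD₁, Finsupp.add_apply, Finsupp.single_eq_same, hQD] at hge
    by_contra hne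
    refine hf' (mem_riemannRochSpace_iff.mpr fun R => Or.inr ?_)
    rcases eq_or_ne R Q with rfl | hR
    · rw [hQD]; omega
    · exact hother R hR
  intro k
  induction k with
  | zero =>
    exact fun _ => ⟨Fin.elim0, fun a => a.elim0, by simp [hW, ell_canonicalDivisorOf hω]⟩
  | succ k ih =>
    intro hk
    obtain ⟨P, hinj, hP⟩ := ih (by omega)
    set D : Divisor K F := W - ∑ m, Finsupp.single (P m) (1 : ℤ) with hD
    obtain ⟨f, hf0, hf⟩ := exists_ne_zero_of_ell_pos (D := D) (by omega)
    obtain ⟨R, hR⟩ := exists_place_notMem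
      (Finset.univ.image P ∪ D.support ∪ (divisorOf (K := K) f).support)
    simp only [Finset.mem_union, Finset.mem_image, Finset.mem_univ, true_and, not_or, not_exists,
      Finsupp.notMem_support_iff, divisorOf_apply] at hR
    obtain ⟨⟨hRP, hRD⟩, hRf⟩ := hR
    refine ⟨Fin.snoc P R, Fin.snoc_injective_iff.mpr ⟨hinj, fun ⟨m, hm⟩ => hRP m hm⟩, ?_⟩
    rw [Fin.sum_univ_castSucc]
    simp only [Fin.snoc_castSucc, Fin.snoc_last]
    rw [← sub_sub, ← hD]
    set D' : Divisor K F := D - Finsupp.single R 1 with hD'
    haveI := finite_residueField R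
    have hstep := ell_step D' R
    rw [deg_eq_one R] at hstep
    have hDD : ell (D' + Finsupp.single R 1) = ell D := congrArg ell (sub_add_cancel _ _)
    have hlt : ell D' < ell D := by
      refine Submodule.finrank_lt_finrank_of_lt ((riemannRochSpace_mono fun Q => ?_).lt_of_not_ge ?_)
      · rw [hD', Finsupp.sub_apply, Finsupp.single_apply]; split_ifs <;> omega
      · intro hle
        have := (mem_riemannRochSpace_iff.mp
          (hle ((show f ∈ riemannRochSpace D from hf))) R).resolve_left hf0
        rw [hD', Finsupp.sub_apply, Finsupp.single_eq_same, hRD, hRf] at this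
        omega
    omega

/-- Existence of differentials of the third kind. -/
theorem exists_thirdKind {P Q : Place K F} (h : P ≠ Q) :
    ∃ ω : Ω[F⁄K], HasSimpleResidue ω P 1 ∧ HasSimpleResidue ω Q (-1) ∧
      ∀ R : Place K F, R ≠ P → R ≠ Q → HasSimpleResidue ω R 0 := by
  classical
  obtain ⟨ω₀, hω₀⟩ := exists_ne_zero_differential (K := K) (F := F)
  set W := canonicalDivisorOf hω₀ with hW
  have hdegW : Divisor.degree W = 2 * (genusFF K F : ℤ) - 2 := degree_canonicalDivisorOf hω₀
  have hone : ∀ R : Place K F, ell (W + Finsupp.single R 1) = genusFF K F := fun R => by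
    have h := riemann_roch (W + Finsupp.single R 1)
    rw [specialIndex_eq_ell hω₀, map_add, degree_single_one, hdegW,
      ell_eq_zero_of_degree_neg (D := W - (W + Finsupp.single R 1))
        (by rw [map_sub, map_add, degree_single_one]; omega)] at h
    omega
  set D₂ : Divisor K F := W + Finsupp.single P 1 + Finsupp.single Q 1 with hD₂
  have htwo := ell_eq_of_large (D := D₂)
    (by rw [hD₂, map_add, map_add, degree_single_one, degree_single_one, hdegW]; omega)
  rw [show Divisor.degree D₂ = 2 * (genusFF K F : ℤ) by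
    rw [hD₂, map_add, map_add, degree_single_one, degree_single_one, hdegW]; ring] at htwo
  have hWsame : ∀ R : Place K F, riemannRochSpace (W + Finsupp.single R 1) = riemannRochSpace W := by
    intro R
    refine (Submodule.eq_of_le_of_finrank_le (riemannRochSpace_mono (le_add_single_one W R)) ?_).symm
    exact (hone R).trans (ell_canonicalDivisorOf hω₀).symm |>.le
  obtain ⟨f, hf, hf'⟩ : ∃ f ∈ riemannRochSpace D₂, f ∉ riemannRochSpace W := by
    by_contra hcon
    push Not at hcon
    have := Submodule.finrank_mono (fun f hf => hcon f hf)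
    change ell D₂ ≤ ell _ at this
    rw [ell_canonicalDivisorOf hω₀] at this
    omega
  have hf0 : f ≠ 0 := fun h => hf' (h ▸ Submodule.zero_mem _)
  set ω := f • ω₀ with hω
  have hord : ∀ R : Place K F, R.ordDifferential ω = R.ord f + W R := fun R => by
    rw [hω, ordDifferential_smul_of_ne_zero R hf0 hω₀, hW, canonicalDivisorOf_apply]
  have hge : ∀ R : Place K F, -((if R = P then 1 else 0) + (if R = Q then 1 else 0) : ℤ) ≤
      R.ordDifferential ω := fun R => by
    have := (mem_riemannRochSpace_iff.mp hf R).resolve_left hf0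
    simp only [hD₂, Finsupp.add_apply, Finsupp.single_apply, @eq_comm _ P R, @eq_comm _ Q R] at this
    rw [hord]; omega
  have hneg : ∀ R R' : Place K F, D₂ = W + Finsupp.single R' 1 + Finsupp.single R 1 → R ≠ R' →
      R.ordDifferential ω < 0 := fun R R' hdec hne => by
    by_contra hcon
    refine hf' ((hWsame R').le (mem_riemannRochSpace_iff.mpr fun S => Or.inr ?_))
    have h1 := (mem_riemannRochSpace_iff.mp hf S).resolve_left hf0
    rw [hdec, Finsupp.add_apply] at h1
    rcases eq_or_ne S R with rfl | hS
    · rw [Finsupp.add_apply, Finsupp.single_eq_of_ne hne]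
      rw [hord] at hcon
      omega
    · rwa [Finsupp.single_eq_of_ne hS, add_zero] at h1
  obtain ⟨r, hr, hr0⟩ := exists_hasSimpleResidue (P := P) (ω := ω)
    (by have := hge P; simp only [if_pos, if_neg h] at this; omega)
  obtain ⟨s, hs, -⟩ := exists_hasSimpleResidue (P := Q) (ω := ω)
    (by have := hge Q; simp only [if_pos, if_neg h.symm] at this; omega)
  have hreg : ∀ R : Place K F, R ≠ P → R ≠ Q → HasSimpleResidue ω R 0 := fun R hRP hRQ =>
    hasSimpleResidue_zero_iff.mpr (by have := hge R; simpa [hRP, hRQ] using this)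
  have hr1 : r ≠ 0 := hr0 (hneg P Q (by rw [hD₂]; abel) h)
  have hsum := residue_pair_add_eq_zero h hr hs hreg
  refine ⟨algebraMap K F r⁻¹ • ω, ?_, ?_, fun R hRP hRQ => ?_⟩
  · simpa [hr1] using hr.smul r⁻¹
  · have := hs.smul r⁻¹
    rwa [show s = -r by linear_combination hsum, mul_neg, inv_mul_cancel₀ hr1] at this
  · simpa using (hreg R hRP hRQ).smul r⁻¹

omit [CharZero K] in
/-- Regular differentials are finite dimensional. -/
theorem finite_regular : ∃ s : Finset Ω[F⁄K],
    ∀ ω : Ω[F⁄K], (∀ R : Place K F, HasSimpleResidue ω R 0) →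
      ω ∈ Submodule.span K (s : Set Ω[F⁄K]) := by
  haveI : Module.Finite K (regularDifferentials K F) := finite_regularDifferentials
  obtain ⟨s, hs⟩ := (Module.Finite.iff_fg (N := regularDifferentials K F)).mp inferInstance
  refine ⟨s, fun ω hω => ?_⟩
  rw [hs, mem_regularDifferentials_iff]
  exact fun R => hasSimpleResidue_zero_iff.mp (hω R)

omit [CharZero K] in
/-- Every class of degree zero comes from `g` places minus `g` times the base place. -/
theorem exists_effective_rep (Q₀ : Place K F) (D : Divisor K F) (hD : Divisor.degree D = 0) :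
    ∃ (P : Fin (genusFF K F) → Place K F),
      D - ((∑ m, Finsupp.single (P m) (1 : ℤ)) - Finsupp.single Q₀ (genusFF K F : ℤ))
        ∈ Divisor.principal (K := K) (F := F) := by
  classical
  set g := genusFF K F
  set D₁ : Divisor K F := D + Finsupp.single Q₀ (g : ℤ) with hD₁
  have hdeg : Divisor.degree D₁ = g := by
    rw [hD₁, map_add, hD, Divisor.degree_single, deg_eq_one Q₀]; simp
  obtain ⟨f, hf0, hf⟩ := exists_ne_zero_of_ell_pos (D := D₁)
    (by have := riemann_inequality D₁; omega)
  set E : Divisor K F := D₁ + divisorOf (K := K) f with hE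
  have hE0 : ∀ R, 0 ≤ E R := fun R => by
    have := (mem_riemannRochSpace_iff.mp hf R).resolve_left hf0
    rw [hE, Finsupp.add_apply, divisorOf_apply]; omega
  have hEdeg : Divisor.degree E = g := by
    rw [hE, map_add, degree_divisorOf, hdeg, add_zero]
  have hEsum : Divisor.degree E = ∑ R ∈ E.support, E R := by
    conv_lhs => rw [← Finsupp.sum_single E, Finsupp.sum, map_sum]
    simp [deg_eq_one]
  set l : Multiset (Place K F) := ∑ R ∈ E.support, Multiset.replicate (E R).toNat R with hl
  have hcard : l.toList.length = g := by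
    rw [Multiset.length_toList, hl, Multiset.card_sum]
    simp only [Multiset.card_replicate]
    have : ((∑ R ∈ E.support, (E R).toNat : ℕ) : ℤ) = g := by
      push_cast
      rw [← hEdeg, hEsum]
      exact Finset.sum_congr rfl fun R _ => Int.toNat_of_nonneg (hE0 R)
    exact_mod_cast this
  refine ⟨fun m => l.toList[(m : ℕ)]'(by rw [hcard]; exact m.2), f⁻¹,
    inv_ne_zero hf0, fun R => ?_⟩
  have hsum : (∑ m : Fin g, Finsupp.single (l.toList[(m : ℕ)]'(by rw [hcard]; exact m.2)) (1 : ℤ)) =
      E := by
    refine (Fintype.sum_equiv (finCongr hcard.symm) _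
      (fun i : Fin l.toList.length => Finsupp.single (l.toList[(i : ℕ)]) (1 : ℤ)) fun _ => rfl).trans ?_
    rw [← List.sum_ofFn, List.ofFn_getElem_eq_map l.toList fun R => Finsupp.single R (1 : ℤ),
      ← Multiset.sum_coe, ← Multiset.map_coe, Multiset.coe_toList, hl,
      ← Multiset.mapAddMonoidHom_apply, map_sum, ← Multiset.coe_sumAddMonoidHom, map_sum]
    conv_rhs => rw [← Finsupp.sum_single E, Finsupp.sum]
    refine Finset.sum_congr rfl fun R _ => ?_
    simp [Multiset.sum_replicate, Int.toNat_of_nonneg (hE0 R)]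
  rw [hsum, hE, hD₁]
  simp [Place.ord_inv, divisorOf_apply]
  ring

end Fermat.Agent.Torsion.Analytic
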