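import Fermat.Agent.Torsion.Analytic.Flat

/-!
# Linear algebra of flat additive primitives with at most simple poles
-/

set_option autoImplicit false

noncomputable section

open AlgebraicCurve Topology Filter Metric

namespace Fermat.Agent.Torsion.Analytic

open Fermat.Agent.Curve

/-- Two functions with at most, resp. exactly, a simple pole: a combination has no pole. -/
theorem exists_order_nonneg_sub_smul {a : ℂ} {f g : ℂ → ℂ} (hf : MeromorphicAt f a)
    (hg : MeromorphicAt g a) (hf1 : ((-1 : ℤ) : WithTop ℤ) ≤ meromorphicOrderAt f a)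
    (hg1 : meromorphicOrderAt g a = ((-1 : ℤ) : WithTop ℤ)) :
    ∃ c : ℂ, 0 ≤ meromorphicOrderAt (f - c • g) a := by
  set u : ℂ → ℂ := fun z => z - a with hu
  have hua : AnalyticAt ℂ u a := by fun_prop
  have hum : MeromorphicAt u a := hua.meromorphicAt
  have hu1 : meromorphicOrderAt u a = ((1 : ℤ) : WithTop ℤ) := by
    rw [meromorphicOrderAt_eq_int_iff hum]
    refine ⟨fun _ => 1, analyticAt_const, one_ne_zero, Eventually.of_forall fun z => ?_⟩
    simp [hu]
  have key : ∀ k : ℂ → ℂ, MeromorphicAt k a →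
      ((-1 : ℤ) : WithTop ℤ) ≤ meromorphicOrderAt k a → 0 ≤ meromorphicOrderAt (u * k) a := by
    intro k hk hk1
    rw [meromorphicOrderAt_mul hum hk, hu1]
    refine le_trans ?_ (add_le_add le_rfl hk1)
    rw [← WithTop.coe_add]
    simp
  obtain ⟨L, hL⟩ := tendsto_nhds_of_meromorphicOrderAt_nonneg (hum.mul hf) (key f hf hf1)
  obtain ⟨M, hM0, hM⟩ : ∃ M : ℂ, M ≠ 0 ∧ Tendsto (u * g) (𝓝[≠] a) (𝓝 M) := by
    refine tendsto_ne_zero_of_meromorphicOrderAt_eq_zero (hum.mul hg) ?_
    rw [meromorphicOrderAt_mul hum hg, hu1, hg1, ← WithTop.coe_add]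
    simp
  refine ⟨L / M, ?_⟩
  set k : ℂ → ℂ := f - (L / M) • g with hk
  have hkm : MeromorphicAt k a := hf.sub (hg.const_smul (L / M))
  have hlim : Tendsto (u * k) (𝓝[≠] a) (𝓝 0) := by
    have h := hL.sub (hM.const_mul (L / M))
    rw [div_mul_cancel₀ L hM0, sub_self] at h
    refine h.congr fun z => ?_
    simp [hk, Pi.mul_apply, smul_eq_mul]
    ring
  have hpos := (tendsto_zero_iff_meromorphicOrderAt_pos (hum.mul hkm)).1 hlim
  rw [meromorphicOrderAt_mul hum hkm, hu1] at hpos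
  cases hord : meromorphicOrderAt k a with
  | top => exact le_top
  | coe m =>
    rw [hord, ← WithTop.coe_add, ← WithTop.coe_zero, WithTop.coe_lt_coe] at hpos
    rw [← WithTop.coe_zero, WithTop.coe_le_coe]
    lia

variable {F : Type*} [Field F] [Algebra ℂ F] [IsFunctionField1 ℂ F] {C : Cover F}

namespace Cover

theorem meroOrd_add_le {f g : Place ℂ F → ℂ} {x : Place ℂ F} (hf : MeroAt f x) (hg : MeroAt g x) :
    min (meroOrd f x) (meroOrd g x) ≤ meroOrd (f + g) x :=
  meromorphicOrderAt_add hf hg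

theorem meroOrd_smul_ge {f : Place ℂ F → ℂ} {x : Place ℂ F} (hf : MeroAt f x) (c : ℂ)
    {b : WithTop ℤ} (hb : b ≤ meroOrd f x) : b ≤ meroOrd (c • f) x := by
  have h : meroOrd (c • f) x =
      meromorphicOrderAt ((fun _ : ℂ => c) • fun z => f ((chartAt x).φ.symm z)) 0 := rfl
  rw [h, meromorphicOrderAt_smul (MeromorphicAt.const c 0) hf, meromorphicOrderAt_const]
  split_ifs
  · simp
  · simpa [meroOrd] using hb

theorem meroAt_smul {f : Place ℂ F → ℂ} {x : Place ℂ F} (hf : MeroAt f x) (c : ℂ) :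
    MeroAt (c • f) x := by
  show MeromorphicAt (c • fun z => f ((chartAt x).φ.symm z)) 0
  exact hf.const_smul c

theorem delta_eq {H : Fin C.n → Place ℂ F → ℂ} {q : C.Idx} {k : ℂ}
    (h : (fun y => H q.fstIdx y - H q.sndIdx y) =ᶠ[𝓝[≠] q.pt] fun _ => k) :
    C.delta H q = k :=
  (tendsto_const_nhds.congr' h.symm).limUnder_eq

variable (C) in
/-- Flat additive primitives as a submodule. -/
def flatAdds : Submodule ℂ (Fin C.n → Place ℂ F → ℂ) where
  carrier := {H | C.IsFlatAdd H}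
  zero_mem' := ⟨fun _ x _ => MeromorphicAt.const (0 : ℂ) 0, fun _ => ⟨0, by simp⟩⟩
  add_mem' := by
    intro H H' h h'
    refine ⟨fun i x hx => (h.mero i x hx).add (h'.mero i x hx) |>.1, fun q => ?_⟩
    obtain ⟨k, hk⟩ := h.flat q
    obtain ⟨k', hk'⟩ := h'.flat q
    refine ⟨k + k', ?_⟩
    filter_upwards [hk, hk'] with y e e'
    simp only [Pi.add_apply, ← e, ← e']
    ring
  smul_mem' := by
    intro c H h
    refine ⟨fun i x hx => meroAt_smul (h.mero i x hx) c, fun q => ?_⟩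
    obtain ⟨k, hk⟩ := h.flat q
    refine ⟨c * k, ?_⟩
    filter_upwards [hk] with y e
    simp only [Pi.smul_apply, smul_eq_mul, ← e]
    ring

variable (C) in
/-- The additive cocycle as a linear map. -/
def deltaLin : C.flatAdds →ₗ[ℂ] (C.Idx → ℂ) where
  toFun H := C.delta H.1
  map_add' := by
    rintro ⟨H, h⟩ ⟨H', h'⟩
    funext q
    obtain ⟨k, hk⟩ := IsFlatAdd.flat (C := C) (H := H) h q
    obtain ⟨k', hk'⟩ := IsFlatAdd.flat (C := C) (H := H') h' q
    rw [Pi.add_apply, delta_eq hk, delta_eq hk']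
    refine delta_eq ?_
    filter_upwards [hk, hk'] with y e e'
    show H q.fstIdx y + H' q.fstIdx y - (H q.sndIdx y + H' q.sndIdx y) = k + k'
    rw [← e, ← e']
    ring
  map_smul' := by
    rintro c ⟨H, h⟩
    funext q
    obtain ⟨k, hk⟩ := IsFlatAdd.flat (C := C) (H := H) h q
    rw [Pi.smul_apply, delta_eq hk]
    refine delta_eq ?_
    filter_upwards [hk] with y e
    show c * H q.fstIdx y - c * H q.sndIdx y = c * k
    rw [← e]
    ring

theorem deltaLin_apply (H : C.flatAdds) : C.deltaLin H = C.delta H.1 := rfl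

variable (C) in
/-- Poles at most simple, and only in `S`. -/
def PolesIn (H : Fin C.n → Place ℂ F → ℂ) (S : Set (Place ℂ F)) : Prop :=
  ∀ i, ∀ x ∈ C.U i, ((-1 : ℤ) : WithTop ℤ) ≤ meroOrd (H i) x ∧ (x ∉ S → 0 ≤ meroOrd (H i) x)

theorem HasPoleAt.polesIn {H : Fin C.n → Place ℂ F → ℂ} {P : Place ℂ F}
    (h : C.HasPoleAt H P) {S : Set (Place ℂ F)} (hP : P ∈ S) : C.PolesIn H S := by
  intro i x hx
  refine ⟨?_, fun hxS => (h i x hx).2 fun e => hxS (e ▸ hP)⟩
  rcases eq_or_ne x P with e | e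
  · rw [(h i x hx).1 e]
  · exact le_trans (by rw [← WithTop.coe_zero, WithTop.coe_le_coe]; norm_num) ((h i x hx).2 e)

theorem PolesIn.mono {H : Fin C.n → Place ℂ F → ℂ} {S T : Set (Place ℂ F)}
    (h : C.PolesIn H S) (hST : S ⊆ T) : C.PolesIn H T :=
  fun i x hx => ⟨(h i x hx).1, fun hxT => (h i x hx).2 fun hxS => hxT (hST hxS)⟩

theorem PolesIn.regular {H : Fin C.n → Place ℂ F → ℂ}
    (h : C.PolesIn H ∅) : C.IsRegular H :=
  fun i x hx => (h i x hx).2 (Set.notMem_empty x)

theorem PolesIn.add {H H' : C.flatAdds} {S : Set (Place ℂ F)} (h : C.PolesIn H.1 S)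
    (h' : C.PolesIn H'.1 S) : C.PolesIn (H + H').1 S := by
  intro i x hx
  have hm := meroOrd_add_le (IsFlatAdd.mero H.2 i x hx) (IsFlatAdd.mero H'.2 i x hx)
  exact ⟨le_trans (le_min (h i x hx).1 (h' i x hx).1) hm,
    fun hxS => le_trans (le_min ((h i x hx).2 hxS) ((h' i x hx).2 hxS)) hm⟩

theorem PolesIn.smul {H : C.flatAdds} {S : Set (Place ℂ F)} (h : C.PolesIn H.1 S) (c : ℂ) :
    C.PolesIn (c • H).1 S := fun i x hx =>
  ⟨meroOrd_smul_ge (IsFlatAdd.mero H.2 i x hx) c (h i x hx).1,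
    fun hxS => meroOrd_smul_ge (IsFlatAdd.mero H.2 i x hx) c ((h i x hx).2 hxS)⟩

/-- Holomorphy at `P` in one disc gives holomorphy there in all discs. -/
theorem polesIn_of_one {L : C.flatAdds} {P : Place ℂ F} {S : Set (Place ℂ F)}
    (hall : C.PolesIn L.1 (insert P S)) {i₀ : Fin C.n} (hU₀ : P ∈ C.U i₀)
    (h0 : 0 ≤ meroOrd (L.1 i₀) P) : C.PolesIn L.1 S := by
  refine fun i x hx => ⟨(hall i x hx).1, fun hxS => ?_⟩
  by_cases hxP : x = P
  · subst hxP
    obtain ⟨k, hk⟩ := IsFlatAdd.flat L.2 (⟨(i, i₀, x), hx, hU₀⟩ : C.Idx)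
    change (fun y => L.1 i y - L.1 i₀ y) =ᶠ[𝓝[≠] x] fun _ => k at hk
    have hm0 : MeroAt (L.1 i₀) x := IsFlatAdd.mero L.2 i₀ x hU₀
    have hcst : MeroAt (fun _ : Place ℂ F => k) x := MeromorphicAt.const k 0
    have hk0 : 0 ≤ meroOrd (fun _ : Place ℂ F => k) x := by
      show 0 ≤ meromorphicOrderAt (fun _ : ℂ => k) 0
      rw [meromorphicOrderAt_const]
      split_ifs <;> simp
    have heq : (L.1 i₀ + fun _ => k) =ᶠ[𝓝[≠] x] L.1 i := by
      filter_upwards [hk] with y hy
      rw [Pi.add_apply, ← hy]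
      ring
    rw [((hm0.add hcst).1.congr heq).2]
    exact le_trans (le_min h0 hk0) (meroOrd_add_le hm0 hcst)
  · exact (hall i x hx).2 fun h => h.elim hxP hxS

/-- Removing one pole by subtracting a multiple of a primitive with a genuine pole there. -/
theorem exists_remove_pole {H K : C.flatAdds} {P : Place ℂ F} {S : Set (Place ℂ F)}
    (hH : C.PolesIn H.1 (insert P S)) (hK : C.HasPoleAt K.1 P) :
    ∃ c : ℂ, C.PolesIn (H - c • K).1 S := by
  obtain ⟨i₀, hi₀⟩ := C.cover P
  have hU₀ : P ∈ C.U i₀ := ⟨hi₀.1, hi₀.2⟩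
  obtain ⟨c, hc⟩ := exists_order_nonneg_sub_smul (IsFlatAdd.mero H.2 i₀ P hU₀)
    (IsFlatAdd.mero K.2 i₀ P hU₀) (hH i₀ P hU₀).1 ((hK i₀ P hU₀).1 rfl)
  have hall : C.PolesIn (H - c • K).1 (insert P S) := by
    rw [show H - c • K = H + (-c) • K by module]
    exact hH.add ((hK.polesIn (Set.mem_insert P S)).smul (-c))
  exact ⟨c, polesIn_of_one hall hU₀ (by simpa [meroOrd, Pi.sub_def, Pi.smul_def] using hc)⟩

/-- A primitive with simple poles in a finite family is a combination of primitives with one pole,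
up to a regular cocycle. -/
theorem exists_combination {ι : Type*} (s : Finset ι) (P : ι → Place ℂ F) (K : ι → C.flatAdds)
    (hK : ∀ m ∈ s, C.HasPoleAt (K m).1 (P m)) (H : C.flatAdds)
    (hH : C.PolesIn H.1 (P '' (s : Set ι))) :
    ∃ c : ι → ℂ, C.deltaLin H - ∑ m ∈ s, c m • C.deltaLin (K m) ∈ C.regularCocycles := by
  classical
  induction s using Finset.induction_on generalizing H with
  | empty =>
    refine ⟨0, ?_⟩
    simp only [Finset.sum_empty, sub_zero]
    refine Submodule.subset_span ⟨H.1, H.2, PolesIn.regular ?_, rfl⟩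
    simpa using hH
  | insert a s ha ih =>
    rw [Finset.coe_insert, Set.image_insert_eq] at hH
    obtain ⟨d, hd⟩ := exists_remove_pole hH (hK a (Finset.mem_insert_self a s))
    obtain ⟨c, hc⟩ := ih (fun m hm => hK m (Finset.mem_insert_of_mem hm)) _ hd
    refine ⟨Function.update c a d, ?_⟩
    have hsum : ∑ m ∈ s, Function.update c a d m • C.deltaLin (K m)
        = ∑ m ∈ s, c m • C.deltaLin (K m) := Finset.sum_congr rfl fun m hm => by
      rw [Function.update_of_ne (fun e => ha (by rw [← e]; exact hm))]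
    rw [Finset.sum_insert ha, Function.update_self, hsum]
    rw [map_sub, map_smul] at hc
    convert hc using 1
    abel

end Cover

end Fermat.Agent.Torsion.Analytic
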