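import Mathlib.Analysis.Complex.Basic
import Mathlib.LinearAlgebra.FiniteDimensional.Lemmas

/-!
# Finitely many coordinates on a finite-dimensional space of functions
-/

set_option autoImplicit false

noncomputable section

namespace Fermat.Agent.Torsion.Analytic

variable {ι : Type*}

/-- A finite-dimensional space of functions is separated by finitely many points. -/
theorem exists_separating_finset : ∀ (n : ℕ) (S : Submodule ℂ (ι → ℂ)) [FiniteDimensional ℂ S],
    Module.finrank ℂ S ≤ n → ∃ T : Finset ι, ∀ v ∈ S, (∀ q ∈ T, v q = 0) → v = 0 := by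
  classical
  intro n
  induction n with
  | zero =>
    intro S _ h
    refine ⟨∅, fun v hv _ => ?_⟩
    have hS : S = ⊥ := Submodule.finrank_eq_zero.1 (Nat.le_zero.1 h)
    simpa [hS] using hv
  | succ n ih =>
    intro S _ h
    by_cases hS : S = ⊥
    · refine ⟨∅, fun v hv _ => ?_⟩
      simpa [hS] using hv
    · obtain ⟨v, hv, hv0⟩ := Submodule.exists_mem_ne_zero_of_ne_bot hS
      obtain ⟨q, hq⟩ : ∃ q, v q ≠ 0 := Function.ne_iff.1 hv0
      set S' : Submodule ℂ (ι → ℂ) := S ⊓ LinearMap.ker (LinearMap.proj q) with hS'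
      have hlt : S' < S := by
        refine lt_of_le_of_ne inf_le_left fun e => hq ?_
        have : v ∈ S' := e ▸ hv
        simpa [hS'] using this.2
      haveI : FiniteDimensional ℂ S' := Submodule.finiteDimensional_of_le hlt.le
      obtain ⟨T, hT⟩ := ih S' (by
        have := Submodule.finrank_lt_finrank_of_lt hlt
        lia)
      refine ⟨insert q T, fun w hw h0 => hT w ⟨hw, ?_⟩ fun p hp => h0 p (Finset.mem_insert_of_mem hp)⟩
      exact h0 q (Finset.mem_insert_self q T)

/-- A linear map on a finite-dimensional space of functions is a combination of finitely many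
evaluations. -/
theorem exists_eval_repr {E : Type*} [AddCommGroup E] [Module ℂ E] (S : Submodule ℂ (ι → ℂ))
    [FiniteDimensional ℂ S] (φ : S →ₗ[ℂ] E) :
    ∃ (T : Finset ι) (e : T → E), ∀ v : S, φ v = ∑ q : T, (v : ι → ℂ) q.1 • e q := by
  classical
  obtain ⟨T, hT⟩ := exists_separating_finset _ S le_rfl
  let r : S →ₗ[ℂ] (T → ℂ) := (LinearMap.pi fun q : T => LinearMap.proj q.1).comp S.subtype
  have hr : LinearMap.ker r = ⊥ := by
    rw [LinearMap.ker_eq_bot']
    intro v hv
    exact Subtype.ext (hT v.1 v.2 fun q hq => congrFun hv ⟨q, hq⟩)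
  obtain ⟨l, hl⟩ := r.exists_leftInverse_of_injective hr
  refine ⟨T, fun q => φ (l (Pi.single q 1)), fun v => ?_⟩
  have hv : l (r v) = v := LinearMap.congr_fun hl v
  conv_lhs => rw [← hv, pi_eq_sum_univ' (r v)]
  simp [map_sum, r]

end Fermat.Agent.Torsion.Analytic
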