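import Fermat.Agent.Torsion.Analytic.FamilyBasic

/-!
# Derivative of the local primitive in the moving place

Helpers for `Family.lean`.

Owner: helper75.
-/

set_option autoImplicit false

noncomputable section

open AlgebraicCurve Topology Filter Metric
open scoped Classical

namespace Fermat.Agent.Torsion.Analytic

open Fermat.Agent.Curve

variable {F : Type*} [Field F] [Algebra ℂ F] [IsFunctionField1 ℂ F]

/-- The divisor `c.symm z - Q₁`. -/
def famDiv (c : Chart F) (Q₁ : Place ℂ F) (z : ℂ) : Divisor ℂ F :=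
  Finsupp.single (c.φ.symm z) (1 : ℤ) - Finsupp.single Q₁ 1

/-- Coefficient of the family of differentials. -/
def famCoeff {N M : ℕ} (t : F) (α : Fin N → F) (β : Fin M → F) (a : Fin N → ℂ → ℂ)
    (b : Fin M → ℂ → ℂ) (z : ℂ) : F :=
  ∑ k, (algebraMap ℂ F (a k z) / (t - algebraMap ℂ F z)) * α k + ∑ l, algebraMap ℂ F (b l z) * β l

/-- The circle of a chart disc avoids the singular places of the family. -/
structure CircleData {N M : ℕ} (c e : Chart F) (ρ ε : ℝ) (α : Fin N → F) (β : Fin M → F) : Prop where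
  pos : 0 < ρ
  subset : closedBall (0 : ℂ) ρ ⊆ e.φ.target
  ball_subset : ball (0 : ℂ) ε ⊆ c.φ.target
  t_mem : ∀ ζ ∈ sphere (0 : ℂ) ρ, c.t ∈ (e.φ.symm ζ).toValuationSubring
  t_ne : ∀ ζ ∈ sphere (0 : ℂ) ρ, ∀ z ∈ ball (0 : ℂ) ε, evalC c.t (e.φ.symm ζ) ≠ z
  α_mem : ∀ k, ∀ ζ ∈ sphere (0 : ℂ) ρ, α k ∈ (e.φ.symm ζ).toValuationSubring
  β_mem : ∀ l, ∀ ζ ∈ sphere (0 : ℂ) ρ, β l ∈ (e.φ.symm ζ).toValuationSubring

theorem prod_famDiv {c : Chart F} {Q₁ : Place ℂ F} {w : ℂ} (h : c.φ.symm w ≠ Q₁) (e : Chart F)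
    (ρ : ℝ) (s : ℂ) :
    ∏ x ∈ (famDiv c Q₁ w).support, discFactor e ρ x (famDiv c Q₁ w x) s =
      discFactor e ρ (c.φ.symm w) 1 s * discFactor e ρ Q₁ (-1) s := by
  rw [Finset.prod_subset (s₂ := {c.φ.symm w, Q₁})]
  · rw [Finset.prod_pair h]
    simp [famDiv, Finsupp.sub_apply, Finsupp.single_eq_of_ne h, Finsupp.single_eq_of_ne h.symm]
  · intro x hx
    rw [Finsupp.mem_support_iff] at hx
    simp only [Finset.mem_insert, Finset.mem_singleton]
    by_contra hne
    rw [not_or] at hne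
    exact hx (by simp [famDiv, Finsupp.single_eq_of_ne hne.1, Finsupp.single_eq_of_ne hne.2])
  · intro x _ hx
    simp [Finsupp.notMem_support_iff.1 hx, discFactor]

theorem analyticAt_transition {c e : Chart F} {P : Place ℂ F} (hc : P ∈ c.φ.source)
    (he : P ∈ e.φ.source) : AnalyticAt ℂ (fun w => e.φ (c.φ.symm w)) (c.φ P) := by
  refine (c.analyticAt e.t P hc (e.mem P he)).congr ?_
  have : ∀ᶠ w in 𝓝 (c.φ P), c.φ.symm w ∈ e.φ.source := by
    refine (c.φ.continuousAt_symm (c.φ.map_source hc)).eventually (p := fun y => y ∈ e.φ.source) ?_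
    rw [c.φ.left_inv hc]
    exact e.φ.open_source.mem_nhds he
  filter_upwards [this] with w hw
  rw [e.apply_eq _ hw]

variable {N M : ℕ} {c e : Chart F} {ρ ε : ℝ} {α : Fin N → F} {β : Fin M → F}
  {a : Fin N → ℂ → ℂ} {b : Fin M → ℂ → ℂ}

namespace CircleData

variable (h : CircleData c e ρ ε α β)
include h

theorem evalC_famCoeff {w : ℂ} (hw : w ∈ ball (0 : ℂ) ε) {ζ : ℂ} (hζ : ζ ∈ sphere (0 : ℂ) ρ) :
    evalC (famCoeff c.t α β a b w) (e.φ.symm ζ) =
      ∑ k, a k w * (evalC (α k) (e.φ.symm ζ) / (evalC c.t (e.φ.symm ζ) - w)) +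
        ∑ l, b l w * evalC (β l) (e.φ.symm ζ) := by
  set y := e.φ.symm ζ
  set V := y.toValuationSubring
  have hc : ∀ x : ℂ, algebraMap ℂ F x ∈ V := y.algebraMap_mem'
  have hu : c.t - algebraMap ℂ F w ∈ V := sub_mem (h.t_mem ζ hζ) (hc w)
  have huv : evalC (c.t - algebraMap ℂ F w) y = evalC c.t y - w := by
    rw [evalC_sub (h.t_mem ζ hζ) (hc w), evalC_algebraMap]
  obtain ⟨hi, hiv⟩ := fam_inv_mem_and_evalC hu
    (by rw [huv]; exact sub_ne_zero.2 (h.t_ne ζ hζ w hw))
  have hA : ∀ k, algebraMap ℂ F (a k w) / (c.t - algebraMap ℂ F w) * α k ∈ V := fun k => by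
    rw [div_eq_mul_inv]; exact mul_mem (mul_mem (hc _) hi) (h.α_mem k ζ hζ)
  have hB : ∀ l, algebraMap ℂ F (b l w) * β l ∈ V := fun l => mul_mem (hc _) (h.β_mem l ζ hζ)
  rw [famCoeff, evalC_add (V.toSubring.sum_mem fun k _ => hA k) (V.toSubring.sum_mem fun l _ => hB l),
    evalC_fam_sum _ fun k _ => hA k, evalC_fam_sum _ fun l _ => hB l]
  refine congrArg₂ (· + ·) (Finset.sum_congr rfl fun k _ => ?_) (Finset.sum_congr rfl fun l _ => ?_)
  · rw [div_eq_mul_inv, evalC_mul (mul_mem (hc _) hi) (h.α_mem k ζ hζ), evalC_mul (hc _) hi,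
      evalC_algebraMap, hiv, huv]
    ring
  · rw [evalC_mul (hc _) (h.β_mem l ζ hζ), evalC_algebraMap]

theorem continuousOn_evalC' {f : F} (hf : ∀ ζ ∈ sphere (0 : ℂ) ρ, f ∈ (e.φ.symm ζ).toValuationSubring) :
    ContinuousOn (fun ζ => evalC f (e.φ.symm ζ)) (sphere 0 ρ) :=
  (continuousOn_evalC f).comp
    (e.φ.continuousOn_symm.mono (sphere_subset_closedBall.trans h.subset)) hf

theorem continuousOn_quot {w : ℂ} (hw : w ∈ ball (0 : ℂ) ε) (k : Fin N) (m : ℕ) :
    ContinuousOn (fun ζ => evalC (α k) (e.φ.symm ζ) / (evalC c.t (e.φ.symm ζ) - w) ^ m)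
      (sphere 0 ρ) :=
  (h.continuousOn_evalC' (h.α_mem k)).div
    (((h.continuousOn_evalC' h.t_mem).sub continuousOn_const).pow m)
    fun ζ hζ => pow_ne_zero _ (sub_ne_zero.2 (h.t_ne ζ hζ w hw))

theorem cauchyPrim_famCoeff {w : ℂ} (hw : w ∈ ball (0 : ℂ) ε) {s : ℂ} (hs : s ∈ ball (0 : ℂ) ρ) :
    cauchyPrim ρ (fun ζ => evalC (famCoeff c.t α β a b w) (e.φ.symm ζ)) s =
      ∑ k, a k w * cauchyPrim ρ
          (fun ζ => evalC (α k) (e.φ.symm ζ) / (evalC c.t (e.φ.symm ζ) - w)) s +
        ∑ l, b l w * cauchyPrim ρ (fun ζ => evalC (β l) (e.φ.symm ζ)) s := by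
  have hk : ∀ k, ContinuousOn (fun ζ => a k w * (logKernel s ζ *
      (evalC (α k) (e.φ.symm ζ) / (evalC c.t (e.φ.symm ζ) - w)))) (sphere 0 ρ) := fun k =>
    continuousOn_const.mul ((continuousOn_logKernel hs).mul
      (by simpa using h.continuousOn_quot hw k 1))
  have hl : ∀ l, ContinuousOn (fun ζ => b l w * (logKernel s ζ * evalC (β l) (e.φ.symm ζ)))
      (sphere 0 ρ) := fun l =>
    continuousOn_const.mul ((continuousOn_logKernel hs).mul (h.continuousOn_evalC' (h.β_mem l)))
  unfold cauchyPrim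
  rw [circleIntegral.integral_congr h.pos.le (g := fun ζ =>
      ∑ k, a k w * (logKernel s ζ * (evalC (α k) (e.φ.symm ζ) / (evalC c.t (e.φ.symm ζ) - w))) +
        ∑ l, b l w * (logKernel s ζ * evalC (β l) (e.φ.symm ζ))) fun ζ hζ => by
      show logKernel s ζ * evalC (famCoeff c.t α β a b w) (e.φ.symm ζ) = _
      rw [h.evalC_famCoeff hw hζ, mul_add, Finset.mul_sum, Finset.mul_sum]
      refine congrArg₂ (· + ·) (Finset.sum_congr rfl fun k _ => ?_)
        (Finset.sum_congr rfl fun l _ => ?_) <;> ring,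
    circleIntegral.integral_add
      ((continuousOn_finsetSum _ fun k _ => hk k).circleIntegrable h.pos.le)
      ((continuousOn_finsetSum _ fun l _ => hl l).circleIntegrable h.pos.le),
    circleIntegral.integral_fun_sum fun k _ => (hk k).circleIntegrable h.pos.le,
    circleIntegral.integral_fun_sum fun l _ => (hl l).circleIntegrable h.pos.le]
  simp only [circleIntegral.integral_const_mul, mul_add, Finset.mul_sum]
  refine congrArg₂ (· + ·) (Finset.sum_congr rfl fun k _ => ?_) (Finset.sum_congr rfl fun l _ => ?_)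
  <;> ring

theorem analyticAt_cauchyPrim {f : ℂ → ℂ} (hf : ContinuousOn f (sphere 0 ρ)) {s : ℂ}
    (hs : s ∈ ball (0 : ℂ) ρ) : AnalyticAt ℂ (cauchyPrim ρ f) s :=
  DifferentiableOn.analyticAt
    (fun w hw => (hasDerivAt_cauchyPrim hf hw).differentiableAt.differentiableWithinAt)
    (isOpen_ball.mem_nhds hs)

theorem eventually_mem_discSet_iff {z : ℂ} (hz : z ∈ ball (0 : ℂ) ε) :
    ∀ᶠ w in 𝓝 z, (c.φ.symm w ∈ discSet e ρ ↔ c.φ.symm z ∈ discSet e ρ) := by
  have hzt := h.ball_subset hz
  have hcont := c.φ.continuousAt_symm hzt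
  by_cases hin : c.φ.symm z ∈ discSet e ρ
  · exact (hcont.eventually (p := fun y => y ∈ discSet e ρ)
      ((isOpen_discSet e ρ).mem_nhds hin)).mono fun w hw => iff_of_true hw hin
  · set K := e.φ.symm '' closedBall (0 : ℂ) ρ with hKdef
    have hK : IsClosed K :=
      ((isCompact_closedBall (0 : ℂ) ρ).image_of_continuousOn
        (e.φ.continuousOn_symm.mono h.subset)).isClosed
    have hnK : c.φ.symm z ∉ K := by
      rintro ⟨ζ, hζ, he⟩
      rcases lt_or_eq_of_le (mem_closedBall_zero_iff.1 hζ) with hlt | heq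
      · refine hin (he ▸ ⟨e.φ.map_target (h.subset hζ), ?_⟩)
        rw [Set.mem_preimage, e.φ.right_inv (h.subset hζ)]
        exact mem_ball_zero_iff.2 hlt
      · refine h.t_ne ζ (mem_sphere_zero_iff_norm.2 heq) z hz ?_
        rw [he, ← c.apply_eq _ (c.φ.map_target hzt), c.φ.right_inv hzt]
    refine (hcont.eventually (p := fun y => y ∉ K) (hK.isOpen_compl.mem_nhds hnK)).mono
      fun w hw => iff_of_false (fun hwd => hw ?_) hin
    exact ⟨e.φ (c.φ.symm w), ball_subset_closedBall hwd.2, e.φ.left_inv hwd.1⟩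

/-- The logarithmic derivative of the local primitive in the parameter. -/
theorem exists_deriv {Q₁ : Place ℂ F} (hQ : ∀ w ∈ ball (0 : ℂ) ε, c.φ.symm w ≠ Q₁)
    (ha : ∀ k, DifferentiableOn ℂ (a k) (ball 0 ε)) (hb : ∀ l, DifferentiableOn ℂ (b l) (ball 0 ε))
    {z : ℂ} (hz : z ∈ ball (0 : ℂ) ε) :
    ∃ H : ℂ → ℂ,
      (∀ s ∈ ball (0 : ℂ) ρ, e.φ.symm s ≠ c.φ.symm z →
        HasDerivAt (fun w => localPrim e ρ (famCoeff c.t α β a b w) (famDiv c Q₁ w) s)
          (localPrim e ρ (famCoeff c.t α β a b z) (famDiv c Q₁ z) s * H s) z) ∧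
      (∀ s ∈ ball (0 : ℂ) ρ, MeromorphicAt H s ∧
        (e.φ.symm s ≠ c.φ.symm z → 0 ≤ meromorphicOrderAt H s) ∧
        (e.φ.symm s = c.φ.symm z → meromorphicOrderAt H s = ((-1 : ℤ) : WithTop ℤ))) := by
  set P := c.φ.symm z with hP
  have hzt := h.ball_subset hz
  have hPc : P ∈ c.φ.source := c.φ.map_target hzt
  set σ : ℂ → ℂ := fun w => e.φ (c.φ.symm w) with hσ
  set A : ℂ → ℂ := fun s => ∑ k, (deriv (a k) z * cauchyPrim ρ
        (fun ζ => evalC (α k) (e.φ.symm ζ) / (evalC c.t (e.φ.symm ζ) - z)) s +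
      a k z * cauchyPrim ρ
        (fun ζ => evalC (α k) (e.φ.symm ζ) / (evalC c.t (e.φ.symm ζ) - z) ^ 2) s) +
    ∑ l, deriv (b l) z * cauchyPrim ρ (fun ζ => evalC (β l) (e.φ.symm ζ)) s with hA
  have hAan : ∀ s ∈ ball (0 : ℂ) ρ, AnalyticAt ℂ A s := by
    intro s hs
    refine AnalyticAt.add (Finset.analyticAt_fun_sum _ fun k _ => ?_)
      (Finset.analyticAt_fun_sum _ fun l _ => ?_)
    · refine (analyticAt_const.mul (h.analyticAt_cauchyPrim ?_ hs)).add
        (analyticAt_const.mul (h.analyticAt_cauchyPrim (h.continuousOn_quot hz k 2) hs))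
      simpa using h.continuousOn_quot hz k 1
    · exact analyticAt_const.mul (h.analyticAt_cauchyPrim (h.continuousOn_evalC' (h.β_mem l)) hs)
  refine ⟨fun s => A s - (if P ∈ discSet e ρ then deriv σ z / (s - σ z) else 0), ?_, ?_⟩
  · intro s hs hsne
    have hst := h.subset (ball_subset_closedBall hs)
    have hexp : HasDerivAt
        (fun w => ∑ k, a k w * cauchyPrim ρ
            (fun ζ => evalC (α k) (e.φ.symm ζ) / (evalC c.t (e.φ.symm ζ) - w)) s +
          ∑ l, b l w * cauchyPrim ρ (fun ζ => evalC (β l) (e.φ.symm ζ)) s) (A s) z := by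
      refine HasDerivAt.add (HasDerivAt.fun_sum fun k _ => ?_) (HasDerivAt.fun_sum fun l _ => ?_)
      · refine ((ha k).differentiableAt (isOpen_ball.mem_nhds hz)).hasDerivAt.mul ?_
        have hd := (hasDerivAt_circleIntegral_div_sub h.pos.le
          (k := fun ζ => logKernel s ζ * evalC (α k) (e.φ.symm ζ))
          ((continuousOn_logKernel hs).mul (h.continuousOn_evalC' (h.α_mem k)))
          (h.continuousOn_evalC' h.t_mem) fun ζ hζ => h.t_ne ζ hζ z hz).const_mul
          ((2 * Real.pi * Complex.I)⁻¹)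
        simp only [mul_div_assoc] at hd
        exact hd
      · exact (((hb l).differentiableAt (isOpen_ball.mem_nhds hz)).hasDerivAt).mul_const _
    have hform : (fun w => localPrim e ρ (famCoeff c.t α β a b w) (famDiv c Q₁ w) s) =ᶠ[𝓝 z]
        fun w => (if P ∈ discSet e ρ then s - σ w else 1) * discFactor e ρ Q₁ (-1) s *
          Complex.exp (∑ k, a k w * cauchyPrim ρ
            (fun ζ => evalC (α k) (e.φ.symm ζ) / (evalC c.t (e.φ.symm ζ) - w)) s +
          ∑ l, b l w * cauchyPrim ρ (fun ζ => evalC (β l) (e.φ.symm ζ)) s) := by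
      filter_upwards [isOpen_ball.mem_nhds hz, h.eventually_mem_discSet_iff hz] with w hw hiff
      rw [localPrim, prod_famDiv (hQ w hw), h.cauchyPrim_famCoeff hw hs]
      congr 2
      simp only [discFactor, hiff, hσ, zpow_one, hP]
    have hF1 : HasDerivAt (fun w => if P ∈ discSet e ρ then s - σ w else 1)
        (if P ∈ discSet e ρ then -deriv σ z else 0) z := by
      by_cases hin : P ∈ discSet e ρ
      · simp only [if_pos hin]
        have := analyticAt_transition hPc hin.1
        rw [hP, c.φ.right_inv hzt] at this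
        exact this.differentiableAt.hasDerivAt.const_sub s
      · simp only [if_neg hin]
        exact hasDerivAt_const z 1
    refine (((hF1.mul_const _).mul hexp.cexp).congr_of_eventuallyEq hform).congr_deriv ?_
    rw [hform.eq_of_nhds]
    by_cases hin : P ∈ discSet e ρ
    · have hne : s - σ z ≠ 0 := by
        intro e0
        exact hsne (by rw [sub_eq_zero.1 e0, hσ]; exact e.φ.left_inv hin.1)
      simp only [if_pos hin]
      field_simp
      ring
    · simp only [if_neg hin]
      ring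
  · intro s hs
    have hst := h.subset (ball_subset_closedBall hs)
    by_cases hin : P ∈ discSet e ρ
    · simp only [if_pos hin]
      by_cases heq : e.φ.symm s = P
      · have hsσ : s = σ z := by
          rw [hσ]; show s = e.φ P; rw [← heq, e.φ.right_inv hst]
        have hσa : AnalyticAt ℂ σ z := by
          have := analyticAt_transition hPc hin.1
          rwa [hP, c.φ.right_inv hzt] at this
        have hτa : AnalyticAt ℂ (fun x => c.φ (e.φ.symm x)) (σ z) := analyticAt_transition hin.1 hPc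
        have hid : (fun w => c.φ (e.φ.symm (σ w))) =ᶠ[𝓝 z] fun w => w := by
          filter_upwards [c.φ.open_target.mem_nhds hzt,
            (c.φ.continuousAt_symm hzt).eventually (p := fun y => y ∈ e.φ.source)
              (e.φ.open_source.mem_nhds hin.1)] with w hw hws
          simp only [hσ, e.φ.left_inv hws, c.φ.right_inv hw]
        have hd : deriv σ z ≠ 0 := by
          intro h0
          have h1 : HasDerivAt (fun w => c.φ (e.φ.symm (σ w)))
              (deriv (fun x => c.φ (e.φ.symm x)) (σ z) * deriv σ z) z :=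
            hτa.differentiableAt.hasDerivAt.comp z hσa.differentiableAt.hasDerivAt
          rw [h0, mul_zero] at h1
          exact one_ne_zero ((hasDerivAt_id' z).unique (h1.congr_of_eventuallyEq hid.symm))
        subst hsσ
        have hm : MeromorphicAt (fun x => A x - deriv σ z / (x - σ z)) (σ z) :=
          (hAan _ hs).meromorphicAt.sub
            ((MeromorphicAt.const _ _).div ((MeromorphicAt.id _).sub (MeromorphicAt.const _ _)))
        refine ⟨hm, fun hn => absurd heq hn, fun _ => (meromorphicOrderAt_eq_int_iff hm).2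
          ⟨fun x => (x - σ z) * A x - deriv σ z,
            (((analyticAt_id.sub analyticAt_const).mul (hAan _ hs)).sub analyticAt_const),
            by simpa using hd, ?_⟩⟩
        filter_upwards [self_mem_nhdsWithin] with x hx
        have : x - σ z ≠ 0 := sub_ne_zero.2 hx
        rw [zpow_neg_one, smul_eq_mul]
        field_simp
      · have hne : s - σ z ≠ 0 := by
          intro e0
          exact heq (by rw [sub_eq_zero.1 e0, hσ]; exact e.φ.left_inv hin.1)
        have han : AnalyticAt ℂ (fun x => A x - deriv σ z / (x - σ z)) s :=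
          (hAan s hs).sub (analyticAt_const.div (analyticAt_id.sub analyticAt_const) hne)
        exact ⟨han.meromorphicAt, fun _ => han.meromorphicOrderAt_nonneg, fun he => absurd he heq⟩
    · simp only [if_neg hin, sub_zero]
      refine ⟨(hAan s hs).meromorphicAt, fun _ => (hAan s hs).meromorphicOrderAt_nonneg,
        fun he => absurd ?_ hin⟩
      rw [← he]
      exact ⟨e.φ.map_target hst, by rw [Set.mem_preimage, e.φ.right_inv hst]; exact hs⟩

end CircleData

end Fermat.Agent.Torsion.Analytic
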