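import Fermat.Agent.Torsion.Analytic.Mero
import Mathlib.Analysis.Meromorphic.NormalForm
import Mathlib.Analysis.Complex.HasPrimitives
import Mathlib.Analysis.SpecialFunctions.Complex.Log

/-!
# Local lemmas on meromorphic functions on the space of places

Transfer of filters through charts, limits, continuity and logarithms on a disc.

Owner: helper77.
-/

set_option autoImplicit false

noncomputable section

open AlgebraicCurve Topology Filter Metric

namespace Fermat.Agent.Torsion.Analytic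

open Fermat.Agent.Curve

/-- A meromorphic function without zeros and poles on a disc is the exponential of a holomorphic
function, away from a discrete set. -/
theorem exists_log_on_ball {f : ℂ → ℂ} {a : ℂ} {r : ℝ}
    (hf : ∀ z ∈ ball a r, MeromorphicAt f z)
    (ho : ∀ z ∈ ball a r, meromorphicOrderAt f z = 0) :
    ∃ L : ℂ → ℂ, ∀ z ∈ ball a r, AnalyticAt ℂ L z ∧
      f =ᶠ[𝓝[≠] z] fun w => Complex.exp (L w) := by
  rcases le_or_gt r 0 with hr | hr
  · exact ⟨0, fun z hz => absurd hz (by rw [ball_eq_empty.mpr hr]; exact Set.notMem_empty z)⟩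
  set f₁ := toMeromorphicNFOn f (ball a r) with hf₁
  have heq : ∀ z ∈ ball a r, f₁ =ᶠ[𝓝[≠] z] f := fun z hz =>
    (MeromorphicOn.toMeromorphicNFOn_eq_self_on_nhdsNE hf hz)
  have hNF : ∀ z ∈ ball a r, MeromorphicNFAt f₁ z := fun z hz =>
    meromorphicNFOn_toMeromorphicNFOn f (ball a r) hz
  have ho₁ : ∀ z ∈ ball a r, meromorphicOrderAt f₁ z = 0 := fun z hz =>
    (meromorphicOrderAt_congr (heq z hz)).trans (ho z hz)
  have han : ∀ z ∈ ball a r, AnalyticAt ℂ f₁ z := fun z hz =>
    (hNF z hz).meromorphicOrderAt_nonneg_iff_analyticAt.mp (ho₁ z hz).ge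
  have hne : ∀ z ∈ ball a r, f₁ z ≠ 0 := fun z hz =>
    (hNF z hz).meromorphicOrderAt_eq_zero_iff.mp (ho₁ z hz)
  have hq : DifferentiableOn ℂ (fun z => deriv f₁ z / f₁ z) (ball a r) := fun z hz =>
    ((han z hz).deriv.div (han z hz) (hne z hz)).differentiableAt.differentiableWithinAt
  obtain ⟨P, hPa, hP⟩ := hq.isExactOn_ball.with_val_at a (Complex.log (f₁ a))
  have hd : ∀ z ∈ ball a r, HasDerivAt (fun w => Complex.exp (-P w) * f₁ w) 0 z := fun z hz => by
    have hz0 := hne z hz
    refine ((hP z hz).neg.cexp.mul (han z hz).differentiableAt.hasDerivAt).congr_deriv ?_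
    simp only [Pi.neg_apply]
    field_simp
    ring
  have hconst : ∀ z ∈ ball a r, Complex.exp (-P z) * f₁ z = 1 := by
    intro z hz
    have h := IsOpen.is_const_of_deriv_eq_zero (f := fun w => Complex.exp (-P w) * f₁ w)
      isOpen_ball (convex_ball a r).isPreconnected
      (fun w hw => (hd w hw).differentiableAt.differentiableWithinAt)
      (fun w hw => (hd w hw).deriv) hz (mem_ball_self hr)
    rw [h, hPa, Complex.exp_neg, Complex.exp_log (hne a (mem_ball_self hr)),
      inv_mul_cancel₀ (hne a (mem_ball_self hr))]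
  refine ⟨P, fun z hz => ⟨?_, ?_⟩⟩
  · exact DifferentiableOn.analyticAt (s := ball a r)
      (fun w hw => (hP w hw).differentiableAt.differentiableWithinAt) (isOpen_ball.mem_nhds hz)
  · filter_upwards [heq z hz, mem_nhdsWithin_of_mem_nhds (isOpen_ball.mem_nhds hz)] with w hw hw'
    have h := hconst w hw'
    rw [Complex.exp_neg, inv_mul_eq_one₀ (Complex.exp_ne_zero _)] at h
    rw [← hw, ← h]

/-- If `exp ∘ u` is eventually the constant `b` and `u` tends to `k`, then `u` is eventually `k`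
and `exp k = b`. -/
theorem eventuallyEq_of_tendsto_of_exp_eq {α : Type*} {l : Filter α} [l.NeBot] {u : α → ℂ}
    {k b : ℂ} (hu : Tendsto u l (𝓝 k)) (hb : ∀ᶠ y in l, Complex.exp (u y) = b) :
    (u =ᶠ[l] fun _ => k) ∧ Complex.exp k = b := by
  have hk : Complex.exp k = b :=
    tendsto_nhds_unique ((Complex.continuous_exp.tendsto k).comp hu)
      (tendsto_const_nhds.congr' (hb.mono fun _ hy => hy.symm))
  refine ⟨?_, hk⟩
  have hsmall : ∀ᶠ y in l, |(u y - k).im| < Real.pi := by
    have h : Tendsto (fun y => |(u y - k).im|) l (𝓝 0) := by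
      have h' := ((Complex.continuous_im.tendsto _).comp (hu.sub_const k)).abs
      simpa using h'
    exact h.eventually (eventually_lt_nhds Real.pi_pos)
  filter_upwards [hb, hsmall] with y hy hy'
  have h1 : Complex.exp (u y - k) = 1 := by
    rw [Complex.exp_sub, hy, hk, div_self (hk ▸ Complex.exp_ne_zero k)]
  have h2 := Complex.log_exp (x := u y - k) (abs_lt.mp hy').1 (abs_lt.mp hy').2.le
  rw [h1, Complex.log_one] at h2
  exact sub_eq_zero.mp h2.symm

variable {F : Type*} [Field F] [Algebra ℂ F] [IsFunctionField1 ℂ F]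

namespace Chart

variable (c : Chart F) {P : Place ℂ F}

omit [IsFunctionField1 ℂ F] in
theorem tendsto_punctured (hP : P ∈ c.φ.source) :
    Tendsto c.φ (𝓝[≠] P) (𝓝[≠] (c.φ P)) := by
  rw [tendsto_nhdsWithin_iff]
  refine ⟨(c.φ.continuousAt hP).tendsto.mono_left nhdsWithin_le_nhds, ?_⟩
  filter_upwards [mem_nhdsWithin_of_mem_nhds (c.φ.open_source.mem_nhds hP), self_mem_nhdsWithin]
    with y hy hyP h
  exact hyP (c.φ.injOn hy hP h)

omit [IsFunctionField1 ℂ F] in
theorem tendsto_symm_punctured (hP : P ∈ c.φ.source) :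
    Tendsto c.φ.symm (𝓝[≠] (c.φ P)) (𝓝[≠] P) := by
  rw [tendsto_nhdsWithin_iff]
  refine ⟨?_, ?_⟩
  · have h := c.φ.continuousAt_symm (c.φ.map_source hP)
    rw [ContinuousAt, c.φ.left_inv hP] at h
    exact h.mono_left nhdsWithin_le_nhds
  · filter_upwards [mem_nhdsWithin_of_mem_nhds (c.φ.open_target.mem_nhds (c.φ.map_source hP)),
      self_mem_nhdsWithin] with z hz hzP h
    have h' : c.φ.symm z = P := h
    exact hzP (by rw [Set.mem_singleton_iff, ← h', c.φ.right_inv hz])

omit [IsFunctionField1 ℂ F] in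
theorem eventually_punctured_iff (hP : P ∈ c.φ.source) {p : Place ℂ F → Prop} :
    (∀ᶠ z in 𝓝[≠] (c.φ P), p (c.φ.symm z)) ↔ ∀ᶠ y in 𝓝[≠] P, p y := by
  refine ⟨fun h => ?_, fun h => (c.tendsto_symm_punctured hP).eventually h⟩
  filter_upwards [(c.tendsto_punctured hP).eventually h,
    mem_nhdsWithin_of_mem_nhds (c.φ.open_source.mem_nhds hP)] with y hy hys
  rwa [c.φ.left_inv hys] at hy

omit [IsFunctionField1 ℂ F] in
theorem tendsto_punctured_iff (hP : P ∈ c.φ.source) {g : Place ℂ F → ℂ} {l : Filter ℂ} :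
    Tendsto (fun z => g (c.φ.symm z)) (𝓝[≠] (c.φ P)) l ↔ Tendsto g (𝓝[≠] P) l := by
  constructor
  · intro h s hs
    exact (c.eventually_punctured_iff hP).mp (h.eventually_mem hs)
  · exact fun h => h.comp (c.tendsto_symm_punctured hP)

end Chart

theorem MeroAt.meromorphicAt_chartAt {g : Place ℂ F → ℂ} {P : Place ℂ F} (h : MeroAt g P) :
    MeromorphicAt (fun z => g ((chartAt P).φ.symm z)) ((chartAt P).φ P) := by
  rw [chartAt_self]; exact h

theorem meroOrd_eq_chartAt {g : Place ℂ F → ℂ} {P : Place ℂ F} :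
    meroOrd g P = meromorphicOrderAt (fun z => g ((chartAt P).φ.symm z)) ((chartAt P).φ P) := by
  rw [chartAt_self]; rfl

theorem MeroAt.eventually_ne_zero {g : Place ℂ F → ℂ} {P : Place ℂ F} (h : MeroAt g P)
    (ho : meroOrd g P ≠ ⊤) : ∀ᶠ y in 𝓝[≠] P, g y ≠ 0 := by
  rw [← (chartAt P).eventually_punctured_iff (mem_chartAt_source P)]
  rw [meroOrd_eq_chartAt] at ho
  exact (meromorphicOrderAt_ne_top_iff_eventually_ne_zero h.meromorphicAt_chartAt).mp ho

theorem MeroAt.inv {g : Place ℂ F → ℂ} {P : Place ℂ F} (h : MeroAt g P) :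
    MeroAt g⁻¹ P ∧ meroOrd g⁻¹ P = -meroOrd g P :=
  ⟨MeromorphicAt.inv h, meromorphicOrderAt_inv⟩

theorem meroAt_const (a : ℂ) (P : Place ℂ F) : MeroAt (fun _ => a) P :=
  MeromorphicAt.const a 0

theorem meroOrd_const_nonneg (a : ℂ) (P : Place ℂ F) : 0 ≤ meroOrd (fun _ => a) P :=
  (analyticAt_const (v := a)).meromorphicOrderAt_nonneg

theorem meroOrd_zero (P : Place ℂ F) : meroOrd (fun _ => (0 : ℂ)) P = ⊤ :=
  meromorphicOrderAt_eq_top_iff.mpr (Eventually.of_forall fun _ => rfl)

theorem MeroAt.exists_tendsto {g : Place ℂ F → ℂ} {P : Place ℂ F} (h : MeroAt g P)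
    (ho : 0 ≤ meroOrd g P) : ∃ k, Tendsto g (𝓝[≠] P) (𝓝 k) := by
  rw [meroOrd_eq_chartAt] at ho
  obtain ⟨k, hk⟩ := tendsto_nhds_of_meromorphicOrderAt_nonneg h.meromorphicAt_chartAt ho
  exact ⟨k, ((chartAt P).tendsto_punctured_iff (mem_chartAt_source P)).mp hk⟩

/-- `exp` of a pole-free meromorphic function is meromorphic of order zero. -/
theorem MeroAt.cexp {g : Place ℂ F → ℂ} {P : Place ℂ F} (h : MeroAt g P) (ho : 0 ≤ meroOrd g P) :
    MeroAt (fun y => Complex.exp (g y)) P ∧ meroOrd (fun y => Complex.exp (g y)) P = 0 := by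
  have h' : MeromorphicAt (fun z => g ((chartAt P).φ.symm z)) 0 := h
  have heq := h'.eq_nhdsNE_toMeromorphicNFAt
  have han := h'.meromorphicOrderAt_nonneg_iff_analyticAt_toMeromorphicNFAt.mp ho
  have he : (fun z => Complex.exp (toMeromorphicNFAt (fun z => g ((chartAt P).φ.symm z)) 0 z))
      =ᶠ[𝓝[≠] (0 : ℂ)] fun z => Complex.exp (g ((chartAt P).φ.symm z)) :=
    heq.mono fun _ hz => congrArg Complex.exp hz.symm
  refine ⟨han.cexp.meromorphicAt.congr he, ?_⟩
  show meromorphicOrderAt (fun z => Complex.exp (g ((chartAt P).φ.symm z))) 0 = 0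
  rw [← meromorphicOrderAt_congr he]
  exact han.cexp.meromorphicNFAt.meromorphicOrderAt_eq_zero_iff.mpr (Complex.exp_ne_zero _)

/-- A meromorphic function is continuous near, but not at, any given place. -/
theorem MeroAt.eventually_continuousAt {g : Place ℂ F → ℂ} {P : Place ℂ F} (h : MeroAt g P) :
    ∀ᶠ y in 𝓝[≠] P, ContinuousAt g y := by
  set c := chartAt P
  have h₁ : ∀ᶠ y in 𝓝[≠] P, AnalyticAt ℂ (fun z => g (c.φ.symm z)) (c.φ y) :=
    (c.tendsto_punctured (mem_chartAt_source P)).eventually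
      h.meromorphicAt_chartAt.eventually_analyticAt
  filter_upwards [h₁,
    mem_nhdsWithin_of_mem_nhds (c.φ.open_source.mem_nhds (mem_chartAt_source P))] with y hy hys
  have hcomp : ContinuousAt (fun x => g (c.φ.symm (c.φ x))) y :=
    hy.continuousAt.comp (c.φ.continuousAt hys)
  exact hcomp.congr (by
    filter_upwards [c.φ.open_source.mem_nhds hys] with x hx
    rw [c.φ.left_inv hx])

theorem MeroAt.eventually_limUnder_eq {g : Place ℂ F → ℂ} {P : Place ℂ F} (h : MeroAt g P) :
    ∀ᶠ y in 𝓝[≠] P, limUnder (𝓝[≠] y) g = g y :=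
  h.eventually_continuousAt.mono fun _ hy => (hy.mono_left nhdsWithin_le_nhds).limUnder_eq

end Fermat.Agent.Torsion.Analytic
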