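import Fermat.Agent.Torsion.Analytic.Flat
import Fermat.Agent.Torsion.Analytic.MeroAux

/-!
# Calculus of flat trivialisations

Owner: helper77.
-/

set_option autoImplicit false

noncomputable section

open AlgebraicCurve Topology Filter Metric

namespace Fermat.Agent.Torsion.Analytic

open Fermat.Agent.Curve

variable {F : Type*} [Field F] [Algebra ℂ F] [IsFunctionField1 ℂ F] {C : Cover F}

namespace Cover

omit [IsFunctionField1 ℂ F] in
theorem isOpen_U (i : Fin C.n) : IsOpen (C.U i) :=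
  (C.c i).φ.isOpen_inter_preimage isOpen_ball

omit [IsFunctionField1 ℂ F] in
theorem exists_mem_U (P : Place ℂ F) : ∃ i, P ∈ C.U i :=
  let ⟨i, h₁, h₂⟩ := C.cover P
  ⟨i, h₁, h₂⟩

omit [IsFunctionField1 ℂ F] in
theorem Idx.mem_fst (q : C.Idx) : q.pt ∈ C.U q.fstIdx := q.2.1

omit [IsFunctionField1 ℂ F] in
theorem Idx.mem_snd (q : C.Idx) : q.pt ∈ C.U q.sndIdx := q.2.2

theorem IsFlatMul.eventually_ne_zero {D : Place ℂ F → ℤ} {G : Fin C.n → Place ℂ F → ℂ}
    (h : C.IsFlatMul D G) {i : Fin C.n} {x : Place ℂ F} (hx : x ∈ C.U i) :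
    ∀ᶠ y in 𝓝[≠] x, G i y ≠ 0 :=
  (h.mero i x hx).eventually_ne_zero (by rw [h.ord_eq i x hx]; exact WithTop.coe_ne_top)

theorem kappa_eq_of_eventuallyEq {G : Fin C.n → Place ℂ F → ℂ} {q : C.Idx} {k : ℂ}
    (hk : (fun y => G q.fstIdx y / G q.sndIdx y) =ᶠ[𝓝[≠] q.pt] fun _ => k) :
    C.kappa G q = k :=
  (tendsto_const_nhds.congr' hk.symm).limUnder_eq

theorem delta_eq_of_eventuallyEq {H : Fin C.n → Place ℂ F → ℂ} {q : C.Idx} {k : ℂ}
    (hk : (fun y => H q.fstIdx y - H q.sndIdx y) =ᶠ[𝓝[≠] q.pt] fun _ => k) :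
    C.delta H q = k :=
  (tendsto_const_nhds.congr' hk.symm).limUnder_eq

theorem kappa_eventuallyEq {D : Place ℂ F → ℤ} {G : Fin C.n → Place ℂ F → ℂ}
    (h : C.IsFlatMul D G) (q : C.Idx) :
    (fun y => G q.fstIdx y / G q.sndIdx y) =ᶠ[𝓝[≠] q.pt] fun _ => C.kappa G q := by
  obtain ⟨k, hk⟩ := h.flat q
  rwa [kappa_eq_of_eventuallyEq hk]

theorem kappa_ne_zero {D : Place ℂ F → ℤ} {G : Fin C.n → Place ℂ F → ℂ}
    (h : C.IsFlatMul D G) (q : C.Idx) : C.kappa G q ≠ 0 := by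
  obtain ⟨y, hy, hy₁, hy₂⟩ := ((kappa_eventuallyEq h q).and
    ((h.eventually_ne_zero q.mem_fst).and (h.eventually_ne_zero q.mem_snd))).exists
  rw [show C.kappa G q = G q.fstIdx y / G q.sndIdx y from hy.symm]
  exact div_ne_zero hy₁ hy₂

theorem delta_eventuallyEq {H : Fin C.n → Place ℂ F → ℂ} (h : C.IsFlatAdd H) (q : C.Idx) :
    (fun y => H q.fstIdx y - H q.sndIdx y) =ᶠ[𝓝[≠] q.pt] fun _ => C.delta H q := by
  obtain ⟨k, hk⟩ := h.flat q
  rwa [delta_eq_of_eventuallyEq hk]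

theorem IsFlatMul.mul {D D' : Place ℂ F → ℤ} {G G' : Fin C.n → Place ℂ F → ℂ}
    (h : C.IsFlatMul D G) (h' : C.IsFlatMul D' G') :
    C.IsFlatMul (D + D') (fun i => G i * G' i) ∧
      C.kappa (fun i => G i * G' i) = C.kappa G * C.kappa G' := by
  have key : ∀ q : C.Idx, (fun y => (G q.fstIdx * G' q.fstIdx) y / (G q.sndIdx * G' q.sndIdx) y)
      =ᶠ[𝓝[≠] q.pt] fun _ => C.kappa G q * C.kappa G' q := fun q => by
    filter_upwards [kappa_eventuallyEq h q, kappa_eventuallyEq h' q] with y hy hy'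
    rw [Pi.mul_apply, Pi.mul_apply, mul_div_mul_comm, hy, hy']
  exact ⟨⟨fun i x hx => ((h.mero i x hx).mul (h'.mero i x hx)).1, fun i x hx => by
      rw [((h.mero i x hx).mul (h'.mero i x hx)).2, h.ord_eq i x hx, h'.ord_eq i x hx,
        ← WithTop.coe_add, Pi.add_apply], fun q => ⟨_, key q⟩⟩,
    funext fun q => kappa_eq_of_eventuallyEq (key q)⟩

theorem IsFlatMul.inv {D : Place ℂ F → ℤ} {G : Fin C.n → Place ℂ F → ℂ}
    (h : C.IsFlatMul D G) :
    C.IsFlatMul (-D) (fun i => (G i)⁻¹) ∧ C.kappa (fun i => (G i)⁻¹) = (C.kappa G)⁻¹ := by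
  have key : ∀ q : C.Idx, (fun y => (G q.fstIdx)⁻¹ y / (G q.sndIdx)⁻¹ y)
      =ᶠ[𝓝[≠] q.pt] fun _ => (C.kappa G q)⁻¹ := fun q => by
    filter_upwards [kappa_eventuallyEq h q] with y hy
    rw [Pi.inv_apply, Pi.inv_apply, inv_div_inv, ← hy, inv_div]
  exact ⟨⟨fun i x hx => (h.mero i x hx).inv.1, fun i x hx => by
      rw [(h.mero i x hx).inv.2, h.ord_eq i x hx, Pi.neg_apply]
      rfl, fun q => ⟨_, key q⟩⟩,
    funext fun q => kappa_eq_of_eventuallyEq (key q)⟩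

theorem isFlatMul_evalC {f : F} (hf : f ≠ 0) :
    C.IsFlatMul (fun x => x.ord f) (fun _ => evalC f) ∧
      C.kappa (fun _ => evalC f) = 1 := by
  have key : ∀ q : C.Idx, (fun y => evalC f y / evalC f y) =ᶠ[𝓝[≠] q.pt] fun _ => (1 : ℂ) :=
    fun q => by
      filter_upwards [(meroAt_evalC f q.pt).eventually_ne_zero
        (by rw [meroOrd_evalC hf]; exact WithTop.coe_ne_top)] with y hy
      exact div_self hy
  exact ⟨⟨fun _ x _ => meroAt_evalC f x, fun _ x _ => meroOrd_evalC hf x, fun q => ⟨_, key q⟩⟩,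
    funext fun q => kappa_eq_of_eventuallyEq (key q)⟩

theorem mem_regularCocycles_iff {v : C.Idx → ℂ} :
    v ∈ C.regularCocycles ↔ ∃ H, C.IsFlatAdd H ∧ C.IsRegular H ∧ v = C.delta H := by
  refine ⟨fun h => ?_, fun h => Submodule.subset_span h⟩
  induction h using Submodule.span_induction with
  | mem v hv => exact hv
  | zero =>
    have key : ∀ q : C.Idx,
        (fun y => (fun _ _ => 0 : Fin C.n → Place ℂ F → ℂ) q.fstIdx y -
          (fun _ _ => 0 : Fin C.n → Place ℂ F → ℂ) q.sndIdx y) =ᶠ[𝓝[≠] q.pt] fun _ => 0 :=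
      fun q => Eventually.of_forall fun y => sub_self _
    exact ⟨fun _ _ => 0, ⟨fun _ x _ => meroAt_const 0 x, fun q => ⟨_, key q⟩⟩,
      fun _ x _ => meroOrd_const_nonneg 0 x, funext fun q => (delta_eq_of_eventuallyEq (key q)).symm⟩
  | add u w _ _ hu hw =>
    obtain ⟨H, hH, hHr, rfl⟩ := hu
    obtain ⟨H', hH', hHr', rfl⟩ := hw
    have key : ∀ q : C.Idx, (fun y => (H q.fstIdx + H' q.fstIdx) y - (H q.sndIdx + H' q.sndIdx) y)
        =ᶠ[𝓝[≠] q.pt] fun _ => C.delta H q + C.delta H' q := fun q => by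
      filter_upwards [delta_eventuallyEq hH q, delta_eventuallyEq hH' q] with y hy hy'
      rw [← hy, ← hy', Pi.add_apply, Pi.add_apply]
      ring
    exact ⟨fun i => H i + H' i,
      ⟨fun i x hx => ((hH.mero i x hx).add (hH'.mero i x hx)).1, fun q => ⟨_, key q⟩⟩,
      fun i x hx => (le_min (hHr i x hx) (hHr' i x hx)).trans
        ((hH.mero i x hx).add (hH'.mero i x hx)).2,
      funext fun q => (delta_eq_of_eventuallyEq (key q)).symm⟩
  | smul a u _ hu =>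
    obtain ⟨H, hH, hHr, rfl⟩ := hu
    have key : ∀ q : C.Idx,
        (fun y => ((fun _ : Place ℂ F => a) * H q.fstIdx) y -
          ((fun _ : Place ℂ F => a) * H q.sndIdx) y)
        =ᶠ[𝓝[≠] q.pt] fun _ => a * C.delta H q := fun q => by
      filter_upwards [delta_eventuallyEq hH q] with y hy
      rw [← hy, Pi.mul_apply, Pi.mul_apply, mul_sub]
    exact ⟨fun i => (fun _ => a) * H i,
      ⟨fun i x hx => ((meroAt_const a x).mul (hH.mero i x hx)).1, fun q => ⟨_, key q⟩⟩,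
      fun i x hx => ((meroAt_const a x).mul (hH.mero i x hx)).2 ▸
        add_nonneg (meroOrd_const_nonneg a x) (hHr i x hx),
      funext fun q => (delta_eq_of_eventuallyEq (key q)).symm⟩

/-- Two flat trivialisations of the same divisor differ by `exp` of a regular primitive. -/
theorem kappa_eq_mul_exp {D : Place ℂ F → ℤ} {G G' : Fin C.n → Place ℂ F → ℂ}
    (h : C.IsFlatMul D G) (h' : C.IsFlatMul D G') :
    ∃ v ∈ C.regularCocycles, ∀ q, C.kappa G' q = C.kappa G q * Complex.exp (v q) := by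
  obtain ⟨hR, hκ⟩ := h'.mul h.inv.1
  set R : Fin C.n → Place ℂ F → ℂ := fun i => G' i * (G i)⁻¹ with hRdef
  have hR0 : ∀ i, ∀ x ∈ C.U i, meroOrd (R i) x = 0 := fun i x hx => by
    rw [hR.ord_eq i x hx]
    simp
  have hex : ∀ i, ∃ L : ℂ → ℂ, ∀ z ∈ ball (0 : ℂ) (C.r i), AnalyticAt ℂ L z ∧
      (fun w => R i ((C.c i).φ.symm w)) =ᶠ[𝓝[≠] z] fun w => Complex.exp (L w) := by
    intro i
    have hmem : ∀ z ∈ ball (0 : ℂ) (C.r i), ∃ x ∈ C.U i, (C.c i).φ x = z := by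
      intro z hz
      have hzt : z ∈ (C.c i).φ.target :=
        C.closedBall_subset i (ball_subset_closedBall (ball_subset_ball (C.r_lt_R i).le hz))
      exact ⟨(C.c i).φ.symm z, ⟨(C.c i).φ.map_target hzt,
        by rw [Set.mem_preimage, (C.c i).φ.right_inv hzt]; exact hz⟩, (C.c i).φ.right_inv hzt⟩
    refine exists_log_on_ball (fun z hz => ?_) (fun z hz => ?_)
    · obtain ⟨x, hx, rfl⟩ := hmem z hz
      exact (meroAt_iff (C.c i) hx.1).mp (hR.mero i x hx)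
    · obtain ⟨x, hx, rfl⟩ := hmem z hz
      rw [← meroOrd_eq (C.c i) hx.1]
      exact hR0 i x hx
  choose L hL using hex
  set H : Fin C.n → Place ℂ F → ℂ := fun i y => L i ((C.c i).φ y) with hHdef
  have hHeq : ∀ i, ∀ x ∈ C.U i, (fun z => H i ((C.c i).φ.symm z)) =ᶠ[𝓝 ((C.c i).φ x)] L i := by
    intro i x hx
    filter_upwards [(C.c i).φ.open_target.mem_nhds ((C.c i).φ.map_source hx.1)] with z hz
    show L i ((C.c i).φ ((C.c i).φ.symm z)) = L i z
    rw [(C.c i).φ.right_inv hz]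
  have hHmero : ∀ i, ∀ x ∈ C.U i, MeroAt (H i) x := fun i x hx =>
    (meroAt_iff (C.c i) hx.1).mpr ((hL i _ hx.2).1.congr (hHeq i x hx).symm).meromorphicAt
  have hHord : ∀ i, ∀ x ∈ C.U i, 0 ≤ meroOrd (H i) x := fun i x hx => by
    rw [meroOrd_eq (C.c i) hx.1]
    exact ((hL i _ hx.2).1.congr (hHeq i x hx).symm).meromorphicOrderAt_nonneg
  have hHexp : ∀ i, ∀ x ∈ C.U i, ∀ᶠ y in 𝓝[≠] x, R i y = Complex.exp (H i y) := fun i x hx =>
    ((C.c i).eventually_punctured_iff hx.1).mp (by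
      filter_upwards [(hL i _ hx.2).2,
        mem_nhdsWithin_of_mem_nhds (hHeq i x hx)] with z hz hz'
      rw [show R i ((C.c i).φ.symm z) = Complex.exp (L i z) from hz,
        show H i ((C.c i).φ.symm z) = L i z from hz'])
  have key : ∀ q : C.Idx, ∃ k, ((fun y => H q.fstIdx y - H q.sndIdx y) =ᶠ[𝓝[≠] q.pt] fun _ => k) ∧
      Complex.exp k = C.kappa R q := by
    intro q
    obtain ⟨a, ha⟩ := (hHmero _ _ q.mem_fst).exists_tendsto (hHord _ _ q.mem_fst)
    obtain ⟨b, hb⟩ := (hHmero _ _ q.mem_snd).exists_tendsto (hHord _ _ q.mem_snd)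
    refine ⟨a - b, eventuallyEq_of_tendsto_of_exp_eq (ha.sub hb) ?_⟩
    filter_upwards [kappa_eventuallyEq hR q, hHexp _ _ q.mem_fst, hHexp _ _ q.mem_snd]
      with y hy h₁ h₂
    rw [Complex.exp_sub, ← h₁, ← h₂]
    exact hy
  have hflat : C.IsFlatAdd H := ⟨hHmero, fun q => ⟨_, (key q).choose_spec.1⟩⟩
  refine ⟨C.delta H, mem_regularCocycles_iff.mpr ⟨H, hflat, hHord, rfl⟩, fun q => ?_⟩
  rw [delta_eq_of_eventuallyEq (key q).choose_spec.1, (key q).choose_spec.2, hκ, h.inv.2,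
    Pi.mul_apply, Pi.inv_apply, mul_left_comm, mul_inv_cancel₀ (kappa_ne_zero h q), mul_one]

/-- Local meromorphic functions which agree on overlaps glue. -/
theorem exists_glue {K : Fin C.n → Place ℂ F → ℂ} (hK : ∀ i, ∀ x ∈ C.U i, MeroAt (K i) x)
    (hag : ∀ q : C.Idx, K q.fstIdx =ᶠ[𝓝[≠] q.pt] K q.sndIdx) :
    ∃ g : Place ℂ F → ℂ, ∀ i, ∀ x ∈ C.U i, g =ᶠ[𝓝[≠] x] K i := by
  choose idx hidx using exists_mem_U (C := C)
  refine ⟨fun y => limUnder (𝓝[≠] y) (K (idx y)), fun i x hx => ?_⟩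
  filter_upwards [(hK i x hx).eventually_limUnder_eq,
    mem_nhdsWithin_of_mem_nhds ((isOpen_U i).mem_nhds hx)] with y hy hyU
  rw [← hy]
  have hq : map (K (idx y)) (𝓝[≠] y) = map (K i) (𝓝[≠] y) :=
    Filter.map_congr (hag ⟨(idx y, i, y), hidx y, hyU⟩)
  simp only [limUnder, hq]

/-- A flat trivialisation with trivial class comes from an element of the field. -/
theorem exists_of_kappa_eq_exp {D : Place ℂ F → ℤ} {G : Fin C.n → Place ℂ F → ℂ}
    (h : C.IsFlatMul D G) {v : C.Idx → ℂ} (hv : v ∈ C.regularCocycles)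
    (he : ∀ q, C.kappa G q = Complex.exp (v q)) :
    ∃ f : F, f ≠ 0 ∧ ∀ x : Place ℂ F, x.ord f = D x := by
  obtain ⟨H, hH, hHr, rfl⟩ := mem_regularCocycles_iff.mp hv
  set E : Fin C.n → Place ℂ F → ℂ := fun i y => Complex.exp (H i y) with hEdef
  set K : Fin C.n → Place ℂ F → ℂ := fun i => G i * (E i)⁻¹ with hKdef
  have hE : ∀ i, ∀ x ∈ C.U i, MeroAt (E i)⁻¹ x ∧ meroOrd (E i)⁻¹ x = 0 := fun i x hx => by
    obtain ⟨h₁, h₂⟩ := (hH.mero i x hx).cexp (hHr i x hx)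
    exact ⟨h₁.inv.1, by rw [h₁.inv.2, h₂, neg_zero]⟩
  have hK : ∀ i, ∀ x ∈ C.U i, MeroAt (K i) x ∧ meroOrd (K i) x = (D x : ℤ) := fun i x hx => by
    obtain ⟨h₁, h₂⟩ := (h.mero i x hx).mul (hE i x hx).1
    exact ⟨h₁, by rw [h₂, (hE i x hx).2, add_zero, h.ord_eq i x hx]⟩
  have hag : ∀ q : C.Idx, K q.fstIdx =ᶠ[𝓝[≠] q.pt] K q.sndIdx := fun q => by
    filter_upwards [kappa_eventuallyEq h q, delta_eventuallyEq hH q,
      h.eventually_ne_zero q.mem_snd] with y hy hy' hne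
    rw [he q, ← hy', Complex.exp_sub, div_eq_div_iff hne (Complex.exp_ne_zero _)] at hy
    simp only [hKdef, hEdef, Pi.mul_apply, Pi.inv_apply]
    rw [← div_eq_mul_inv, ← div_eq_mul_inv,
      div_eq_div_iff (Complex.exp_ne_zero _) (Complex.exp_ne_zero _)]
    linear_combination hy
  obtain ⟨g, hg⟩ := exists_glue (fun i x hx => (hK i x hx).1) hag
  have hgx : ∀ x, MeroAt g x ∧ meroOrd g x = (D x : ℤ) := fun x => by
    obtain ⟨i, hi⟩ := exists_mem_U (C := C) x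
    obtain ⟨h₁, h₂⟩ := (hK i x hi).1.congr (hg i x hi).symm
    exact ⟨h₁, h₂.trans (hK i x hi).2⟩
  obtain ⟨f, hf⟩ := exists_eq_evalC fun x => (hgx x).1
  have hord : ∀ x, meroOrd (evalC f) x = (D x : ℤ) := fun x => by
    rw [((hgx x).1.congr (hf x)).2, (hgx x).2]
  have hf0 : f ≠ 0 := by
    rintro rfl
    obtain ⟨t, ht, -⟩ := IsFunctionField1.exists_transcendental' (K := ℂ) (F := F)
    obtain ⟨P, -⟩ := exists_place_ord_pos ht
    have hzero : evalC (0 : F) = fun _ : Place ℂ F => (0 : ℂ) :=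
      funext fun Q => by rw [← map_zero (algebraMap ℂ F), evalC_algebraMap]
    have h₀ := hord P
    rw [hzero, meroOrd_zero] at h₀
    exact WithTop.top_ne_coe h₀
  refine ⟨f, hf0, fun x => ?_⟩
  have h₁ := hord x
  rw [meroOrd_evalC hf0] at h₁
  exact_mod_cast h₁

/-- An additive primitive with class in `regularCocycles` is an element of the field up to a
regular primitive. -/
theorem exists_of_delta_mem {H : Fin C.n → Place ℂ F → ℂ} (h : C.IsFlatAdd H)
    (hv : C.delta H ∈ C.regularCocycles) :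
    ∃ f : F, ∀ i, ∀ x ∈ C.U i, 0 ≤ meroOrd (fun y => H i y - evalC f y) x := by
  obtain ⟨H', hH', hHr', he⟩ := mem_regularCocycles_iff.mp hv
  set K : Fin C.n → Place ℂ F → ℂ := fun i => H i + (fun _ => (-1 : ℂ)) * H' i with hKdef
  have hK : ∀ i, ∀ x ∈ C.U i, MeroAt (K i) x := fun i x hx =>
    ((h.mero i x hx).add ((meroAt_const (-1) x).mul (hH'.mero i x hx)).1).1
  have hag : ∀ q : C.Idx, K q.fstIdx =ᶠ[𝓝[≠] q.pt] K q.sndIdx := fun q => by
    filter_upwards [delta_eventuallyEq h q, delta_eventuallyEq hH' q] with y hy hy'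
    rw [congrFun he q] at hy
    simp only [hKdef, Pi.add_apply, Pi.mul_apply]
    linear_combination hy - hy'
  obtain ⟨g, hg⟩ := exists_glue hK hag
  obtain ⟨f, hf⟩ := exists_eq_evalC fun x => by
    obtain ⟨i, hi⟩ := exists_mem_U (C := C) x
    exact ((hK i x hi).congr (hg i x hi).symm).1
  refine ⟨f, fun i x hx => ?_⟩
  have heq : H' i =ᶠ[𝓝[≠] x] fun y => H i y - evalC f y := by
    filter_upwards [hg i x hx, hf x] with y hy hy'
    rw [← hy', hy]
    simp [hKdef]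
  rw [((hH'.mero i x hx).congr heq).2]
  exact hHr' i x hx

end Cover

end Fermat.Agent.Torsion.Analytic
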