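import Fermat.Agent.Torsion.Analytic.FamilyBasic
import Fermat.Agent.Torsion.Analytic.FlatBasic

/-!
# A differential with integral residues gives a flat trivialisation

Helpers for `Family.lean`.

Owner: helper75.
-/

set_option autoImplicit false

noncomputable section

open AlgebraicCurve Topology Filter Metric

namespace Fermat.Agent.Torsion.Analytic

open Fermat.Agent.Curve

variable {F : Type*} [Field F] [Algebra ℂ F] [IsFunctionField1 ℂ F] (C : Cover F)

/-- The candidate trivialisation. -/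
def primG (ρ : Fin C.n → ℝ) (a : Fin C.n → F) (D : Divisor ℂ F) (i : Fin C.n) (x : Place ℂ F) : ℂ :=
  localPrim (C.c i) (ρ i) (a i) D ((C.c i).φ x)

variable {C}

namespace Cover

/-- The class of a flat trivialisation is constant on preconnected subsets of an overlap. -/
theorem IsFlatMul.kappa_congr {D : Place ℂ F → ℤ} {G : Fin C.n → Place ℂ F → ℂ}
    (h : C.IsFlatMul D G) {i j : Fin C.n} {W : Set (Place ℂ F)} (hW : IsPreconnected W)
    (hWi : W ⊆ C.U i) (hWj : W ⊆ C.U j) {x y : Place ℂ F} (hx : x ∈ W) (hy : y ∈ W) :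
    C.kappa G ⟨(i, j, x), hWi hx, hWj hx⟩ = C.kappa G ⟨(i, j, y), hWi hy, hWj hy⟩ := by
  haveI : PreconnectedSpace W := isPreconnected_iff_preconnectedSpace.1 hW
  let K : W → ℂ := fun p => C.kappa G ⟨(i, j, p.1), hWi p.2, hWj p.2⟩
  have hK : IsLocallyConstant K := by
    rw [IsLocallyConstant.iff_eventually_eq]
    intro p
    have he := kappa_eventuallyEq h ⟨(i, j, p.1), hWi p.2, hWj p.2⟩
    obtain ⟨O, hOe, hO, hpO⟩ := eventually_nhds_iff.1 (eventually_nhdsWithin_iff.1 he)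
    filter_upwards [continuous_subtype_val.continuousAt.preimage_mem_nhds (hO.mem_nhds hpO)]
      with p' hp'
    by_cases hpp : p'.1 = p.1
    · rw [show p' = p from Subtype.ext hpp]
    · refine kappa_eq_of_eventuallyEq ?_
      filter_upwards [mem_nhdsWithin_of_mem_nhds
        ((hO.inter isClosed_singleton.isOpen_compl).mem_nhds ⟨hp', hpp⟩)] with z hz
      exact hOe z hz.1 hz.2
  exact hK.apply_eq_of_preconnectedSpace ⟨x, hx⟩ ⟨y, hy⟩

/-- The class is the value of the quotient at any regular point of a preconnected overlap. -/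
theorem IsFlatMul.kappa_eq_div {D : Place ℂ F → ℤ} {G : Fin C.n → Place ℂ F → ℂ}
    (h : C.IsFlatMul D G) (q : C.Idx) {W : Set (Place ℂ F)} (hW : IsPreconnected W)
    (hWi : W ⊆ C.U q.fstIdx) (hWj : W ⊆ C.U q.sndIdx) (hx : q.pt ∈ W) {y : Place ℂ F} (hy : y ∈ W)
    (hci : ContinuousAt (G q.fstIdx) y) (hcj : ContinuousAt (G q.sndIdx) y)
    (hne : G q.sndIdx y ≠ 0) : C.kappa G q = G q.fstIdx y / G q.sndIdx y := by
  have h1 : C.kappa G q = C.kappa G ⟨(q.fstIdx, q.sndIdx, y), hWi hy, hWj hy⟩ :=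
    h.kappa_congr hW hWi hWj hx hy
  rw [h1]
  exact tendsto_nhds_unique_of_eventuallyEq
    (tendsto_const_nhds (f := 𝓝[≠] y)) ((hci.div hcj hne).tendsto.mono_left nhdsWithin_le_nhds)
    (kappa_eventuallyEq h ⟨(q.fstIdx, q.sndIdx, y), hWi hy, hWj hy⟩).symm

/-- A preconnected neighbourhood inside an overlap. -/
theorem exists_preconnected_nhds (q : C.Idx) : ∃ W : Set (Place ℂ F), IsPreconnected W ∧
    W ⊆ C.U q.fstIdx ∧ W ⊆ C.U q.sndIdx ∧ W ∈ 𝓝 q.pt := by
  set c := C.c q.fstIdx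
  have hxs : q.pt ∈ c.φ.source := q.mem_fst.1
  have ht := c.φ.map_source hxs
  have hpre : ∀ᶠ s in 𝓝 (c.φ q.pt),
      s ∈ c.φ.target ∧ c.φ.symm s ∈ C.U q.fstIdx ∧ c.φ.symm s ∈ C.U q.sndIdx := by
    refine Filter.Eventually.and (c.φ.open_target.mem_nhds ht) ?_
    refine (c.φ.continuousAt_symm ht).eventually (p := fun y => y ∈ C.U q.fstIdx ∧ y ∈ C.U q.sndIdx) ?_
    rw [c.φ.left_inv hxs]
    exact Filter.Eventually.and ((isOpen_U _).mem_nhds q.mem_fst) ((isOpen_U _).mem_nhds q.mem_snd)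
  obtain ⟨δ, hδ, hsub⟩ := Metric.mem_nhds_iff.1 hpre
  refine ⟨c.φ.symm '' ball (c.φ q.pt) δ, (convex_ball _ _).isPreconnected.image _
      (c.φ.continuousOn_symm.mono fun s hs => (hsub hs).1), ?_, ?_, ?_⟩
  · rintro _ ⟨s, hs, rfl⟩; exact (hsub hs).2.1
  · rintro _ ⟨s, hs, rfl⟩; exact (hsub hs).2.2
  · refine mem_of_superset (Filter.inter_mem (c.φ.open_source.mem_nhds hxs)
      ((c.φ.continuousAt hxs).preimage_mem_nhds (ball_mem_nhds _ hδ))) ?_
    exact fun y hy => ⟨c.φ y, hy.2, c.φ.left_inv hy.1⟩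

end Cover

variable {ρ : Fin C.n → ℝ} {a : Fin C.n → F} {D : Divisor ℂ F} {ω : Ω[F⁄ℂ]}

section
variable (hd : ∀ i, DiscData (C.c i) (ρ i) (a i) D ω) (hρ : ∀ i, C.r i ≤ ρ i)
include hd hρ

omit hd in
theorem mem_ball_rho {i : Fin C.n} {x : Place ℂ F} (hx : x ∈ C.U i) :
    (C.c i).φ x ∈ ball (0 : ℂ) (ρ i) :=
  ball_subset_ball (hρ i) hx.2

theorem primG_regular {i : Fin C.n} {x : Place ℂ F} (hx : x ∈ C.U i) (h0 : D x = 0) :
    ContinuousAt (primG C ρ a D i) x ∧ primG C ρ a D i x ≠ 0 := by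
  have h := (hd i).localPrim_regular (mem_ball_rho hρ hx) (by rw [(C.c i).φ.left_inv hx.1]; exact h0)
  exact ⟨h.1.continuousAt.comp ((C.c i).φ.continuousAt hx.1), h.2⟩

theorem primG_mero {i : Fin C.n} {x : Place ℂ F} (hx : x ∈ C.U i) :
    MeroAt (primG C ρ a D i) x ∧ meroOrd (primG C ρ a D i) x = (D x : ℤ) := by
  obtain ⟨g, hg, hg0, heq⟩ := (hd i).exists_localPrim_eq (mem_ball_rho hρ hx)
  rw [(C.c i).φ.left_inv hx.1] at heq
  set c := C.c i
  set s₀ := c.φ x
  have he : (fun s => primG C ρ a D i (c.φ.symm s)) =ᶠ[𝓝 s₀] fun s => (s - s₀) ^ (D x) * g s := by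
    filter_upwards [c.φ.open_target.mem_nhds (c.φ.map_source hx.1)] with s hs
    rw [primG, c.φ.right_inv hs, heq]
  have hm : MeromorphicAt (fun s => primG C ρ a D i (c.φ.symm s)) s₀ :=
    MeromorphicAt.congr (((MeromorphicAt.id _).sub (MeromorphicAt.const _ _)).zpow (D x)
      |>.mul hg.meromorphicAt) (he.filter_mono nhdsWithin_le_nhds).symm
  refine ⟨(meroAt_iff c hx.1).2 hm, ?_⟩
  rw [meroOrd_eq c hx.1, meromorphicOrderAt_eq_int_iff hm]
  exact ⟨g, hg, hg0, (he.filter_mono nhdsWithin_le_nhds).mono fun s hs => by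
    rw [smul_eq_mul]; exact hs⟩

theorem isFlatMul_primG : C.IsFlatMul (fun x => D x) (primG C ρ a D) := by
  refine ⟨fun i x hx => (primG_mero hd hρ hx).1, fun i x hx => (primG_mero hd hρ hx).2, ?_⟩
  rintro ⟨⟨i, j, x⟩, hxi, hxj⟩
  show ∃ k : ℂ, (fun y => primG C ρ a D i y / primG C ρ a D j y) =ᶠ[𝓝[≠] x] fun _ => k
  set c := C.c i with hc
  set c' := C.c j with hc'
  set s₀ := c.φ x with hs₀
  have ht : s₀ ∈ c.φ.target := c.φ.map_source hxi.1
  set Gi : ℂ → ℂ := fun s => primG C ρ a D i (c.φ.symm s)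
  set Gj : ℂ → ℂ := fun s => primG C ρ a D j (c.φ.symm s)
  obtain ⟨hmi, hoi⟩ := primG_mero hd hρ hxi
  obtain ⟨hmj, hoj⟩ := primG_mero hd hρ hxj
  rw [meroAt_iff c hxi.1] at hmi hmj
  rw [meroOrd_eq c hxi.1] at hoi hoj
  have hmd : MeromorphicAt (fun s => Gi s / Gj s) s₀ := hmi.div hmj
  have hord : meromorphicOrderAt (fun s => Gi s / Gj s) s₀ = ((0 : ℤ) : WithTop ℤ) := by
    rw [show (fun s => Gi s / Gj s) = Gi / Gj from rfl, meromorphicOrderAt_div hmi hmj, hoi, hoj]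
    simp
  obtain ⟨g, hg, -, hge⟩ := (meromorphicOrderAt_eq_int_iff hmd).1 hord
  replace hge : ∀ᶠ s in 𝓝[≠] s₀, Gi s / Gj s = g s := hge.mono fun s hs => by simpa using hs
  obtain ⟨b, hb⟩ := c.exists_D_eq hxi.1 c'.t
  have hab : a i = a j * b := by
    have e := (hd i).coeff.symm.trans ((hd j).coeff.trans (by rw [← hc', hb, smul_smul]))
    exact smul_left_injective F (c.D_ne_zero hxi.1) e
  have hnear : ∀ᶠ s in 𝓝[≠] s₀, c.φ.symm s ∈ C.U i ∧ c.φ.symm s ∈ C.U j ∧
      b ∈ (c.φ.symm s).toValuationSubring ∧ D (c.φ.symm s) = 0 := by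
    have ht' : Tendsto c.φ.symm (𝓝[≠] s₀) (𝓝[≠] x) := by
      exact c.tendsto_symm_punctured hxi.1
    have hDx : ∀ᶠ y in 𝓝[≠] x, D y = 0 := by
      filter_upwards [mem_nhdsWithin_of_mem_nhds (((D.support.finite_toSet.subset
        (Set.sdiff_subset (t := {x})))).isClosed.isOpen_compl.mem_nhds (x := x) (by simp)),
        self_mem_nhdsWithin] with y hy hyx
      by_contra hne
      exact hy ⟨Finsupp.mem_support_iff.2 hne, hyx⟩
    filter_upwards [ht'.eventually (mem_nhdsWithin_of_mem_nhds ((Cover.isOpen_U i).mem_nhds hxi)),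
      ht'.eventually (mem_nhdsWithin_of_mem_nhds ((Cover.isOpen_U j).mem_nhds hxj)),
      ht'.eventually (fam_eventually_mem b x), ht'.eventually hDx] with s h1 h2 h3 h4
    exact ⟨h1, h2, h3, h4⟩
  have hzero : ∀ᶠ s in 𝓝[≠] s₀, deriv g s = 0 := by
    filter_upwards [((eventually_nhdsWithin_iff.1 hge).eventually_nhds).filter_mono nhdsWithin_le_nhds,
      hnear, self_mem_nhdsWithin,
      mem_nhdsWithin_of_mem_nhds (c.φ.open_target.mem_nhds ht), c.deriv_evalC hb hxi.1]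
      with s hgs hs hne hst hτd
    obtain ⟨hui, huj, hbm, hD0⟩ := hs
    have hs1 : s ∈ ball (0 : ℂ) (ρ i) := by
      have := mem_ball_rho hρ hui
      rwa [← hc, c.φ.right_inv hst] at this
    set τ : ℂ → ℂ := fun w => evalC c'.t (c.φ.symm w) with hτ
    have hτs : τ s = c'.φ (c.φ.symm s) := (c'.apply_eq _ huj.1).symm
    have hs2 : τ s ∈ ball (0 : ℂ) (ρ j) := hτs ▸ mem_ball_rho hρ huj
    have hyj : c'.φ.symm (τ s) = c.φ.symm s := by rw [hτs, c'.φ.left_inv huj.1]
    have h1 := (hd i).hasDerivAt_localPrim hs1 hD0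
    have h2 := (hd j).hasDerivAt_localPrim hs2 (by rw [hyj]; exact hD0)
    have hτa : AnalyticAt ℂ τ s := by
      have := c.analyticAt c'.t _ hui.1 (c'.mem _ huj.1)
      rwa [c.φ.right_inv hst] at this
    have h3 : HasDerivAt τ (evalC b (c.φ.symm s)) s := hτd ▸ hτa.differentiableAt.hasDerivAt
    have hj0 : localPrim c' (ρ j) (a j) D (τ s) ≠ 0 :=
      ((hd j).localPrim_regular hs2 (by rw [hyj]; exact hD0)).2
    have ham : a j ∈ (c.φ.symm s).toValuationSubring :=
      (c'.simplePole (hd j).coeff huj.1 ((hd j).residue _)).1 (by simp [hD0])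
    have hq : HasDerivAt (fun w => localPrim c (ρ i) (a i) D w / localPrim c' (ρ j) (a j) D (τ w))
        0 s := by
      refine (h1.div (h2.comp s h3) hj0).congr_deriv ?_
      rw [hyj, hab, evalC_mul ham hbm]
      simp only [Function.comp_apply]
      ring
    refine (hq.congr_of_eventuallyEq ?_).deriv
    filter_upwards [hgs, isOpen_ne.mem_nhds hne, c.φ.open_target.mem_nhds hst,
      (c.φ.continuousAt_symm hst).eventually (c'.φ.open_source.mem_nhds huj.1)] with w hw hwne hwt hwj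
    show g w = _
    rw [← hw hwne]
    simp only [Gi, Gj, hτ]
    rw [ primG, primG, ← hc, c.φ.right_inv hwt, ← hc', c'.apply_eq _ hwj]
  have hall : ∀ᶠ s in 𝓝 s₀, deriv g s = 0 := by
    have h0 : deriv g s₀ = 0 :=
      tendsto_nhds_unique_of_eventuallyEq (hg.deriv.continuousAt.tendsto.mono_left nhdsWithin_le_nhds)
        (tendsto_const_nhds (f := 𝓝[≠] s₀)) hzero
    filter_upwards [eventually_nhdsWithin_iff.1 hzero] with s hs
    by_cases hss : s = s₀
    · rw [hss, h0]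
    · exact hs hss
  obtain ⟨δ, hδ, hball⟩ := Metric.eventually_nhds_iff_ball.1
    (hall.and hg.eventually_analyticAt)
  refine ⟨g s₀, ?_⟩
  have hconst : ∀ᶠ s in 𝓝[≠] s₀, Gi s / Gj s = g s₀ := by
    filter_upwards [hge, mem_nhdsWithin_of_mem_nhds (ball_mem_nhds s₀ hδ)] with s hs hsb
    rw [hs]
    exact IsOpen.is_const_of_deriv_eq_zero isOpen_ball (convex_ball _ _).isPreconnected
      (fun w hw => (hball w hw).2.differentiableAt.differentiableWithinAt)
      (fun w hw => (hball w hw).1) hsb (mem_ball_self hδ)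
  filter_upwards [(c.tendsto_punctured hxi.1).eventually hconst,
    mem_nhdsWithin_of_mem_nhds (c.φ.open_source.mem_nhds hxi.1)] with y hy hys
  simpa [Gi, Gj, c.φ.left_inv hys] using hy

end

end Fermat.Agent.Torsion.Analytic
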