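import Mathlib.Analysis.SpecialFunctions.Complex.LogDeriv
import Mathlib.Analysis.Complex.CauchyIntegral
import Mathlib.Analysis.Meromorphic.Order
import Mathlib.MeasureTheory.Integral.CircleIntegral
import Mathlib.Analysis.Calculus.ParametricIntervalIntegral

/-!
# Primitives through the Cauchy kernel, with dependence on a parameter

Pure one-variable complex analysis, no curves.

Owner: helper75.
-/

set_option autoImplicit false

noncomputable section

open Complex Metric Topology Filter MeasureTheory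
open scoped Real

namespace Fermat.Agent.Torsion.Analytic

/-- Primitive in `s` of the Cauchy kernel `1/(ζ - s)`, valid for `‖s‖ < ‖ζ‖`. -/
def logKernel (s ζ : ℂ) : ℂ := -Complex.log (1 - s / ζ)

/-- Primitive of the Cauchy integral of `f` over the circle of radius `R`. -/
def cauchyPrim (R : ℝ) (f : ℂ → ℂ) (s : ℂ) : ℂ :=
  (2 * π * I)⁻¹ * ∮ ζ in C(0, R), logKernel s ζ * f ζ

/-- Differentiation of a circle integral depending on a parameter. -/
theorem hasDerivAt_circleIntegral_param {R r : ℝ} (hR : 0 ≤ R) (hr : 0 < r) {x₀ : ℂ}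
    {F F' : ℂ → ℂ → ℂ} (hF : ∀ x ∈ closedBall x₀ r, ContinuousOn (F x) (sphere 0 R))
    (hF' : ContinuousOn (fun p : ℂ × ℂ => F' p.1 p.2) (closedBall x₀ r ×ˢ sphere 0 R))
    (hd : ∀ x ∈ closedBall x₀ r, ∀ ζ ∈ sphere (0 : ℂ) R,
      HasDerivAt (fun y => F y ζ) (F' x ζ) x) :
    HasDerivAt (fun x => ∮ ζ in C(0, R), F x ζ) (∮ ζ in C(0, R), F' x₀ ζ) x₀ := by
  obtain ⟨B, hB⟩ := ((isCompact_closedBall x₀ r).prod (isCompact_sphere (0 : ℂ) R)
    ).exists_bound_of_continuousOn hF'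
  have hmem : ∀ θ, circleMap 0 R θ ∈ sphere (0 : ℂ) R := fun θ => circleMap_mem_sphere 0 hR θ
  have hdc : Continuous fun θ : ℝ => deriv (circleMap 0 R) θ := by
    simp only [deriv_circleMap]; fun_prop
  have hcomp : ∀ x ∈ closedBall x₀ r,
      Continuous fun θ : ℝ => deriv (circleMap 0 R) θ • F x (circleMap 0 R θ) := fun x hx =>
    hdc.smul ((hF x hx).comp_continuous (continuous_circleMap 0 R) hmem)
  have hcomp' : Continuous fun θ : ℝ => deriv (circleMap 0 R) θ • F' x₀ (circleMap 0 R θ) :=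
    hdc.smul (hF'.comp_continuous (continuous_const.prodMk (continuous_circleMap 0 R))
      fun θ => ⟨mem_closedBall_self hr.le, hmem θ⟩)
  exact (intervalIntegral.hasDerivAt_integral_of_dominated_loc_of_deriv_le
    (F := fun x θ => deriv (circleMap 0 R) θ • F x (circleMap 0 R θ))
    (F' := fun x θ => deriv (circleMap 0 R) θ • F' x (circleMap 0 R θ))
    (bound := fun _ => |R| * B) (closedBall_mem_nhds x₀ hr)
    (Filter.eventually_of_mem (closedBall_mem_nhds x₀ hr)
      fun x hx => (hcomp x hx).aestronglyMeasurable)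
    ((hcomp x₀ (mem_closedBall_self hr.le)).intervalIntegrable _ _)
    hcomp'.aestronglyMeasurable
    (Eventually.of_forall fun θ _ x hx => by
      rw [norm_smul]
      refine mul_le_mul ?_ (hB (x, circleMap 0 R θ) ⟨hx, hmem θ⟩) (norm_nonneg _) (abs_nonneg R)
      simp [norm_circleMap_zero])
    intervalIntegrable_const
    (Eventually.of_forall fun θ _ x hx => ((hd x hx _ (hmem θ)).const_mul _))).2

theorem mem_slitPlane_one_sub_div {s ζ : ℂ} (h : ‖s‖ < ‖ζ‖) : 1 - s / ζ ∈ slitPlane := by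
  refine ball_one_subset_slitPlane ?_
  have hζ : 0 < ‖ζ‖ := (norm_nonneg s).trans_lt h
  simpa [mem_ball, dist_eq_norm, div_lt_one hζ] using h

theorem hasDerivAt_logKernel {s ζ : ℂ} (h : ‖s‖ < ‖ζ‖) :
    HasDerivAt (fun x => logKernel x ζ) ((ζ - s)⁻¹) s := by
  have hζ : ζ ≠ 0 := norm_pos_iff.1 ((norm_nonneg s).trans_lt h)
  have hd : HasDerivAt (fun x => 1 - x / ζ) (-(1 / ζ)) s :=
    ((hasDerivAt_id' s).div_const ζ).const_sub 1
  refine (hd.clog (mem_slitPlane_one_sub_div h)).neg.congr_deriv ?_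
  have h1 : ζ - s ≠ 0 := sub_ne_zero.2 fun e => by simp [e] at h
  field_simp

theorem continuousOn_logKernel {R : ℝ} {s : ℂ} (hs : s ∈ ball (0 : ℂ) R) :
    ContinuousOn (logKernel s) (sphere 0 R) := by
  intro ζ hζ
  rw [mem_ball_zero_iff] at hs
  rw [mem_sphere_zero_iff_norm] at hζ
  have h : ‖s‖ < ‖ζ‖ := hζ.symm ▸ hs
  have hζ0 : ζ ≠ 0 := norm_pos_iff.1 ((norm_nonneg s).trans_lt h)
  refine ContinuousAt.continuousWithinAt ?_
  exact ((continuousAt_const.sub (continuousAt_const.div continuousAt_id hζ0)).clog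
    (mem_slitPlane_one_sub_div h)).neg

theorem continuousOn_inv_sub {R : ℝ} {s : ℂ} (hs : s ∈ ball (0 : ℂ) R) :
    ContinuousOn (fun ζ => (ζ - s)⁻¹) (sphere 0 R) :=
  (continuousOn_id.sub continuousOn_const).inv₀ fun ζ hζ e => by
    replace e := sub_eq_zero.1 e
    simp only [id] at e
    subst e
    rw [mem_sphere_zero_iff_norm] at hζ
    rw [mem_ball_zero_iff] at hs
    exact hs.ne hζ

theorem hasDerivAt_cauchyPrim {R : ℝ} {f : ℂ → ℂ} (hf : ContinuousOn f (sphere 0 R)) {s : ℂ}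
    (hs : s ∈ ball (0 : ℂ) R) :
    HasDerivAt (cauchyPrim R f) ((2 * π * I)⁻¹ * ∮ ζ in C(0, R), (ζ - s)⁻¹ * f ζ) s := by
  have hR : 0 ≤ R := (dist_nonneg.trans (mem_ball.1 hs).le)
  rw [mem_ball_zero_iff] at hs
  set r := (R - ‖s‖) / 2 with hr
  have hsub : ∀ x ∈ closedBall s r, x ∈ ball (0 : ℂ) R := fun x hx => by
    rw [mem_closedBall, dist_eq_norm] at hx
    rw [mem_ball_zero_iff]
    linarith [norm_sub_norm_le x s]
  refine (hasDerivAt_circleIntegral_param (F := fun x ζ => logKernel x ζ * f ζ)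
    (F' := fun x ζ => (ζ - x)⁻¹ * f ζ) hR (by linarith : 0 < r)
    (fun x hx => (continuousOn_logKernel (hsub x hx)).mul hf) ?_ ?_).const_mul _
  · refine ((continuousOn_snd.sub continuousOn_fst).inv₀ ?_).mul
      (hf.comp continuousOn_snd fun p hp => hp.2)
    rintro ⟨x, ζ⟩ ⟨hx, hζ⟩ e
    replace e := sub_eq_zero.1 e
    simp only at e
    subst e
    exact (mem_ball_zero_iff.1 (hsub _ hx)).ne (mem_sphere_zero_iff_norm.1 hζ)
  · intro x hx ζ hζ
    refine (hasDerivAt_logKernel ?_).mul_const _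
    rw [mem_sphere_zero_iff_norm.1 hζ]
    exact mem_ball_zero_iff.1 (hsub x hx)

/-- The Cauchy kernel kills a simple pole inside the circle. -/
theorem circleIntegral_inv_sub_mul_inv_sub {R : ℝ} {s p : ℂ} (hs : s ∈ ball (0 : ℂ) R)
    (hp : p ∈ ball (0 : ℂ) R) (hsp : s ≠ p) :
    (∮ ζ in C(0, R), (ζ - s)⁻¹ * (ζ - p)⁻¹) = 0 := by
  have hR : 0 ≤ R := (dist_nonneg.trans (mem_ball.1 hs).le)
  have hne : ∀ {w : ℂ}, w ∈ ball (0 : ℂ) R → ∀ ζ ∈ sphere (0 : ℂ) R, ζ - w ≠ 0 := by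
    intro w hw ζ hζ e
    rw [sub_eq_zero] at e
    exact (mem_ball.1 hw).ne (e ▸ mem_sphere.1 hζ)
  rw [circleIntegral.integral_congr hR (g := fun ζ => (s - p)⁻¹ * ((ζ - s)⁻¹ - (ζ - p)⁻¹))
    fun ζ hζ => by
      have h1 := hne hs ζ hζ
      have h2 := hne hp ζ hζ
      have h3 := sub_ne_zero.2 hsp
      field_simp
      ring,
    circleIntegral.integral_const_mul,
    circleIntegral.integral_sub ((continuousOn_inv_sub hs).circleIntegrable hR)
      ((continuousOn_inv_sub hp).circleIntegrable hR),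
    circleIntegral.integral_sub_inv_of_mem_ball hs, circleIntegral.integral_sub_inv_of_mem_ball hp,
    sub_self, mul_zero]

/-- For a function with finitely many simple poles inside, the Cauchy integral is the regular part. -/
theorem cauchy_eq_sub_principal {R : ℝ} (hR : 0 < R) {f : ℂ → ℂ} (S : Finset ℂ) (a : ℂ → ℂ)
    (hS : ∀ p ∈ S, p ∈ ball (0 : ℂ) R)
    (hf : ∀ s ∈ closedBall (0 : ℂ) R, s ∉ S → AnalyticAt ℂ f s)
    (hpole : ∀ p ∈ S, ∃ g : ℂ → ℂ, AnalyticAt ℂ g p ∧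
      ∀ᶠ s in 𝓝[≠] p, f s = a p / (s - p) + g s)
    {s : ℂ} (hs : s ∈ ball (0 : ℂ) R) (hsS : s ∉ S) :
    (2 * π * I)⁻¹ * (∮ ζ in C(0, R), (ζ - s)⁻¹ * f ζ) = f s - ∑ p ∈ S, a p / (s - p) := by
  classical
  choose! g hg hgf using hpole
  set P : ℂ → ℂ := fun w => ∑ p ∈ S, a p / (w - p) with hP
  set F : ℂ → ℂ := fun w =>
    if w ∈ S then g w w - ∑ p ∈ S.erase w, a p / (w - p) else f w - P w with hF
  have hFd : DifferentiableOn ℂ F (closedBall 0 R) := by
    intro w hw
    refine DifferentiableAt.differentiableWithinAt ?_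
    by_cases hwS : w ∈ S
    · have hd : DifferentiableAt ℂ (fun x => g w x - ∑ p ∈ S.erase w, a p / (x - p)) w :=
        (hg w hwS).differentiableAt.sub <| DifferentiableAt.fun_sum fun p hp =>
          (differentiableAt_const _).div (differentiableAt_id.sub_const p)
            (sub_ne_zero.2 (Finset.ne_of_mem_erase hp).symm)
      refine hd.congr_of_eventuallyEq ?_
      have hout : ∀ᶠ x in 𝓝[≠] w, x ∉ S := by
        have : ∀ᶠ x in 𝓝 w, x ∉ ((S.erase w : Finset ℂ) : Set ℂ) :=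
          (Finset.finite_toSet _).isClosed.isOpen_compl.mem_nhds (by simp)
        filter_upwards [this.filter_mono nhdsWithin_le_nhds, self_mem_nhdsWithin] with x hx hxw
        exact fun h => hx (Finset.mem_erase.2 ⟨hxw, h⟩)
      have hev : ∀ᶠ x in 𝓝[≠] w, F x = g w x - ∑ p ∈ S.erase w, a p / (x - p) := by
        filter_upwards [hout, hgf w hwS] with x hx hfx
        simp only [hF, hx, if_false, hP, hfx, ← Finset.add_sum_erase S _ hwS]
        ring
      filter_upwards [eventually_nhdsWithin_iff.1 hev] with x hx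
      by_cases hxw : x = w
      · subst hxw; simp [hF, hwS]
      · exact hx hxw
    · have hev : F =ᶠ[𝓝 w] fun x => f x - P x := by
        filter_upwards [S.finite_toSet.isClosed.isOpen_compl.mem_nhds (by simpa using hwS)]
          with x hx
        simp only [hF]
        rw [if_neg]
        simpa using hx
      refine ((hf w hw hwS).differentiableAt.sub ?_).congr_of_eventuallyEq hev
      exact DifferentiableAt.fun_sum fun p hp => (differentiableAt_const _).div
        (differentiableAt_id.sub_const p) (sub_ne_zero.2 fun e => hwS (e ▸ hp))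
  have hsphere : ∀ ζ ∈ sphere (0 : ℂ) R, ζ ∉ S := fun ζ hζ h =>
    (mem_ball.1 (hS ζ h)).ne (mem_sphere.1 hζ)
  have hsp : ∀ p ∈ S, s ≠ p := fun p hp e => hsS (e ▸ hp)
  have hterm : ∀ p ∈ S,
      ContinuousOn (fun ζ => a p * ((ζ - s)⁻¹ * (ζ - p)⁻¹)) (sphere 0 R) := fun p hp =>
    continuousOn_const.mul ((continuousOn_inv_sub hs).mul (continuousOn_inv_sub (hS p hp)))
  have hsum : CircleIntegrable (fun ζ => ∑ p ∈ S, a p * ((ζ - s)⁻¹ * (ζ - p)⁻¹)) 0 R :=
    (continuousOn_finsetSum S hterm).circleIntegrable hR.le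
  have hsum0 : (∮ ζ in C(0, R), ∑ p ∈ S, a p * ((ζ - s)⁻¹ * (ζ - p)⁻¹)) = 0 := by
    rw [circleIntegral.integral_fun_sum fun p hp => (hterm p hp).circleIntegrable hR.le]
    refine Finset.sum_eq_zero fun p hp => ?_
    rw [circleIntegral.integral_const_mul,
      circleIntegral_inv_sub_mul_inv_sub hs (hS p hp) (hsp p hp), mul_zero]
  have hFint : CircleIntegrable (fun ζ => (ζ - s)⁻¹ • F ζ) 0 R :=
    ((continuousOn_inv_sub hs).smul
      (hFd.continuousOn.mono sphere_subset_closedBall)).circleIntegrable hR.le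
  rw [circleIntegral.integral_congr hR.le
    (g := fun ζ => (ζ - s)⁻¹ • F ζ + ∑ p ∈ S, a p * ((ζ - s)⁻¹ * (ζ - p)⁻¹)) fun ζ hζ => by
      simp only [hF, hsphere ζ hζ, if_false, hP, smul_eq_mul, mul_sub, Finset.mul_sum]
      have e : ∑ p ∈ S, (ζ - s)⁻¹ * (a p / (ζ - p)) = ∑ p ∈ S, a p * ((ζ - s)⁻¹ * (ζ - p)⁻¹) :=
        Finset.sum_congr rfl fun p _ => by ring
      rw [e, sub_add_cancel],
    circleIntegral.integral_add hFint hsum, hsum0, add_zero,
    hFd.circleIntegral_sub_inv_smul hs, smul_eq_mul, ← mul_assoc, inv_mul_cancel₀, one_mul]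
  · simp [hF, hsS, hP]
  · simp [Real.pi_ne_zero, I_ne_zero]

/-- Differentiation in the parameter of `∮ k ζ / (h ζ - z)`. -/
theorem hasDerivAt_circleIntegral_div_sub {R : ℝ} (hR : 0 ≤ R) {k h : ℂ → ℂ}
    (hk : ContinuousOn k (sphere 0 R)) (hh : ContinuousOn h (sphere 0 R)) {z : ℂ}
    (hz : ∀ ζ ∈ sphere (0 : ℂ) R, h ζ ≠ z) :
    HasDerivAt (fun w => ∮ ζ in C(0, R), k ζ / (h ζ - w))
      (∮ ζ in C(0, R), k ζ / (h ζ - z) ^ 2) z := by
  have hcl : IsClosed (h '' sphere 0 R) :=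
    ((isCompact_sphere (0 : ℂ) R).image_of_continuousOn hh).isClosed
  obtain ⟨r, hr, hsub⟩ := Metric.nhds_basis_closedBall.mem_iff.1
    (hcl.isOpen_compl.mem_nhds (x := z) (by rintro ⟨ζ, hζ, e⟩; exact hz ζ hζ e))
  have hne : ∀ x ∈ closedBall z r, ∀ ζ ∈ sphere (0 : ℂ) R, h ζ - x ≠ 0 := fun x hx ζ hζ e =>
    hsub hx ⟨ζ, hζ, sub_eq_zero.1 e⟩
  refine hasDerivAt_circleIntegral_param (F' := fun x ζ => k ζ / (h ζ - x) ^ 2) hR hr
    (fun x hx => hk.div (hh.sub continuousOn_const) (hne x hx)) ?_ ?_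
  · exact (hk.comp continuousOn_snd fun p hp => hp.2).div
      (((hh.comp continuousOn_snd fun p hp => hp.2).sub continuousOn_fst).pow 2)
      fun p hp => pow_ne_zero _ (hne p.1 hp.1 p.2 hp.2)
  · intro x hx ζ hζ
    have hd : HasDerivAt (fun y => h ζ - y) (-1) x := (hasDerivAt_id' x).const_sub (h ζ)
    exact ((hasDerivAt_const x (k ζ)).div hd (hne x hx ζ hζ)).congr_deriv (by ring)

end Fermat.Agent.Torsion.Analytic
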