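import Fermat.Agent.Torsion.Analytic.Points
import Fermat.Agent.Torsion.Analytic.AlgInput

/-!
# Residues of simple poles: linearity and the forms `(E / (h - c)) • dh`

Owner: helper77.
-/

set_option autoImplicit false

noncomputable section

open AlgebraicCurve KaehlerDifferential

namespace Fermat.Agent.Torsion.Analytic.ThirdKind

open Fermat.Agent.Curve

variable {F : Type*} [Field F] [Algebra ℂ F] [IsFunctionField1 ℂ F] {R : Place ℂ F}

theorem exists_coeff_of_ord_one {t : F} (ht : R.ord t = 1) (ω : Ω[F⁄ℂ]) :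
    ∃ a : F, ω = a • D ℂ F t := by
  obtain ⟨a, ha⟩ := exists_smul_eq_of_ne_zero (D_ne_zero_of_ord_eq_one R ht) ω
  exact ⟨a, ha.symm⟩

theorem coeff_unique {t : F} (ht : R.ord t = 1) {a b : F}
    (h : a • D ℂ F t = b • D ℂ F t) : a = b :=
  smul_left_injective F (D_ne_zero_of_ord_eq_one R ht) h

theorem residue_zero : HasSimpleResidue (0 : Ω[F⁄ℂ]) R 0 := fun t ht a ha => by
  rw [coeff_unique ht (a := a) (b := 0) (by rw [← ha, zero_smul]), map_zero, zero_div, sub_zero]
  exact zero_mem _

theorem residue_add {ω ω' : Ω[F⁄ℂ]} {r r' : ℂ} (h : HasSimpleResidue ω R r)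
    (h' : HasSimpleResidue ω' R r') : HasSimpleResidue (ω + ω') R (r + r') := fun t ht a ha => by
  obtain ⟨b, hb⟩ := exists_coeff_of_ord_one ht ω
  obtain ⟨b', hb'⟩ := exists_coeff_of_ord_one ht ω'
  rw [coeff_unique ht (a := a) (b := b + b') (by rw [← ha, add_smul, ← hb, ← hb']), map_add,
    add_div, add_sub_add_comm]
  exact add_mem (h t ht b hb) (h' t ht b' hb')

theorem residue_smul {ω : Ω[F⁄ℂ]} {r : ℂ} (c : ℂ) (h : HasSimpleResidue ω R r) :
    HasSimpleResidue (algebraMap ℂ F c • ω) R (c * r) := fun t ht a ha => by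
  obtain ⟨b, hb⟩ := exists_coeff_of_ord_one ht ω
  rw [coeff_unique ht (a := a) (b := algebraMap ℂ F c * b) (by rw [← ha, mul_smul, ← hb]),
    map_mul, mul_div_assoc, ← mul_sub]
  exact mul_mem (R.algebraMap_mem' c) (h t ht b hb)

theorem residue_neg {ω : Ω[F⁄ℂ]} {r : ℂ} (h : HasSimpleResidue ω R r) :
    HasSimpleResidue (-ω) R (-r) := by
  simpa using residue_smul (-1) h

theorem residue_sub {ω ω' : Ω[F⁄ℂ]} {r r' : ℂ} (h : HasSimpleResidue ω R r)
    (h' : HasSimpleResidue ω' R r') : HasSimpleResidue (ω - ω') R (r - r') := by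
  simpa [sub_eq_add_neg] using residue_add h (residue_neg h')

theorem residue_sum {ι : Type*} (s : Finset ι) {ω : ι → Ω[F⁄ℂ]} {r : ι → ℂ}
    (h : ∀ i ∈ s, HasSimpleResidue (ω i) R (r i)) :
    HasSimpleResidue (∑ i ∈ s, ω i) R (∑ i ∈ s, r i) := by
  classical
  induction s using Finset.induction_on with
  | empty => simpa using residue_zero
  | insert a s ha ih =>
    rw [Finset.sum_insert ha, Finset.sum_insert ha]
    exact residue_add (h a (Finset.mem_insert_self a s))
      (ih fun i hi => h i (Finset.mem_insert_of_mem hi))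

/-- Differentials without pole at every place of `S`. -/
def regularOn (S : Set (Place ℂ F)) : Submodule ℂ Ω[F⁄ℂ] where
  carrier := {ω | ∀ R ∈ S, HasSimpleResidue ω R 0}
  zero_mem' := fun _ _ => residue_zero
  add_mem' := fun {ω ω'} h h' R hR => by simpa using residue_add (h R hR) (h' R hR)
  smul_mem' := fun c ω h R hR => by
    rw [← algebraMap_smul F c ω]
    simpa using residue_smul c (h R hR)

theorem mem_regularOn {S : Set (Place ℂ F)} {ω : Ω[F⁄ℂ]} :
    ω ∈ regularOn S ↔ ∀ R ∈ S, HasSimpleResidue ω R 0 := Iff.rfl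

theorem residue_of_ordDifferential_nonneg {ω : Ω[F⁄ℂ]} (h : 0 ≤ R.ordDifferential ω) :
    HasSimpleResidue ω R 0 := fun t ht a ha => by
  rw [map_zero, zero_div, sub_zero]
  refine mem_of_ord_nonneg R ?_
  rwa [ha, ordDifferential_smul_D_uniformizer R ht] at h

theorem coeff_D_mem {t h a : F} (ht : R.ord t = 1) (hh : h ∈ R.toValuationSubring)
    (ha : D ℂ F h = a • D ℂ F t) : a ∈ R.toValuationSubring := by
  refine mem_of_ord_nonneg R ?_
  have h' := ordDifferential_D_nonneg R hh
  rwa [ha, ordDifferential_smul_D_uniformizer R ht] at h'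

theorem residue_smul_D_regular {f h : F} (hf : f ∈ R.toValuationSubring)
    (hh : h ∈ R.toValuationSubring) : HasSimpleResidue (f • D ℂ F h) R 0 := fun t ht a ha => by
  obtain ⟨b, hb⟩ := exists_coeff_of_ord_one ht (D ℂ F h)
  rw [coeff_unique ht (a := a) (b := f * b) (by rw [← ha, mul_smul, ← hb]), map_zero, zero_div,
    sub_zero]
  exact mul_mem hf (coeff_D_mem ht hh hb)

/-- `(E / (h - c)) • dh` has residue `E(R)` at a simple zero `R` of `h - c`. -/
theorem residue_simple {E h : F} {c : ℂ} (hE : E ∈ R.toValuationSubring)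
    (hc : R.ord (h - algebraMap ℂ F c) = 1) :
    HasSimpleResidue ((E / (h - algebraMap ℂ F c)) • D ℂ F h) R (evalC E R) := fun t ht a ha => by
  set w := h - algebraMap ℂ F c with hw
  have hw0 : w ≠ 0 := fun h0 => by rw [h0, Place.ord_zero] at hc; exact zero_ne_one hc
  have ht0 : t ≠ 0 := fun h0 => by rw [h0, Place.ord_zero] at ht; exact zero_ne_one ht
  set u := w / t with hu
  have hu0 : R.ord u = 0 := by
    rw [hu, div_eq_mul_inv, R.ord_mul hw0 (inv_ne_zero ht0), R.ord_inv, hc, ht]
    norm_num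
  have hune : u ≠ 0 := div_ne_zero hw0 ht0
  have humem : u ∈ R.toValuationSubring := mem_of_ord_nonneg R hu0.ge
  obtain ⟨b, hb⟩ := exists_coeff_of_ord_one ht (D ℂ F u)
  have hbmem := coeff_D_mem ht humem hb
  have hD : D ℂ F h = (u + t * b) • D ℂ F t := by
    have h1 : D ℂ F h = D ℂ F (u * t) := by
      rw [hu, div_mul_cancel₀ _ ht0, hw, map_sub, Derivation.map_algebraMap, sub_zero]
    rw [h1, Derivation.leibniz, hb, smul_smul, ← add_smul]
  rw [coeff_unique ht (a := a) (b := E / w * (u + t * b)) (by rw [← ha, hD, smul_smul])]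
  have h2 : E / w * (u + t * b) - algebraMap ℂ F (evalC E R) / t =
      (E - algebraMap ℂ F (evalC E R)) / t + E * b * u⁻¹ := by
    have hwu : w = u * t := by rw [hu, div_mul_cancel₀ _ ht0]
    rw [hwu]
    field_simp
    ring
  rw [h2]
  refine add_mem ?_ (mul_mem (mul_mem hE hbmem) (mem_of_ord_nonneg R (by rw [R.ord_inv, hu0]; rfl)))
  rcases ordGE_one_iff.mp (ordGE_sub_evalC hE) with h0 | h0
  · rw [h0, zero_div]; exact zero_mem _
  · refine mem_of_ord_nonneg R ?_
    rcases eq_or_ne (E - algebraMap ℂ F (evalC E R)) 0 with hz | hz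
    · rw [hz, zero_div, Place.ord_zero]
    · rw [div_eq_mul_inv, R.ord_mul hz (inv_ne_zero ht0), R.ord_inv, ht]
      omega

/-- `(E / (h - c)) • dh` is regular where `h` is finite and different from `c`. -/
theorem residue_of_ne {E h : F} {c : ℂ} (hE : E ∈ R.toValuationSubring)
    (hh : h ∈ R.toValuationSubring) (hc : R.ord (h - algebraMap ℂ F c) = 0) :
    HasSimpleResidue ((E / (h - algebraMap ℂ F c)) • D ℂ F h) R 0 := by
  refine residue_smul_D_regular ?_ hh
  rw [div_eq_mul_inv]
  exact mul_mem hE (mem_of_ord_nonneg R (by rw [R.ord_inv, hc]; rfl))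

end Fermat.Agent.Torsion.Analytic.ThirdKind
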