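import Fermat.Agent.Torsion.Analytic.Chart
import Fermat.Agent.Torsion.Analytic.ThirdKindResidue
import Fermat.Agent.Torsion.HurwitzCount
import Mathlib.LinearAlgebra.Matrix.Adjugate

/-!
# An analytic family of differentials of the third kind

Owner: helper77.
-/

set_option autoImplicit false

noncomputable section

open AlgebraicCurve Topology Filter Metric KaehlerDifferential

namespace Fermat.Agent.Torsion.Analytic

open Fermat.Agent.Curve

variable {F : Type*} [Field F] [Algebra ℂ F] [IsFunctionField1 ℂ F]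

namespace ThirdKind

/-- The fibres near `0` lie in any union of open sets containing the fibre over `0`. -/
theorem eventually_fibre_subset (h : F) {W : Set (Place ℂ F)} (hW : IsOpen W)
    (h0 : ∀ R : Place ℂ F, h ∈ R.toValuationSubring → evalC h R = 0 → R ∈ W) :
    ∀ᶠ z in 𝓝 (0 : ℂ), ∀ R : Place ℂ F, h ∈ R.toValuationSubring → evalC h R = z → R ∈ W := by
  have hcl : IsClosed ((fun R : Place ℂ F => evalPt R h) '' Wᶜ) :=
    (hW.isClosed_compl.isCompact.image (continuous_evalPt h)).isClosed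
  have hnot : (↑(0 : ℂ) : OnePoint ℂ) ∉ (fun R : Place ℂ F => evalPt R h) '' Wᶜ := by
    rintro ⟨R, hR, he⟩
    obtain ⟨hm, hv⟩ := evalPt_eq_coe_iff.mp he
    exact hR (h0 R hm hv)
  have hev : ∀ᶠ z : ℂ in 𝓝 0, (↑z : OnePoint ℂ) ∉ (fun R : Place ℂ F => evalPt R h) '' Wᶜ :=
    OnePoint.continuous_coe.continuousAt.eventually (hcl.isOpen_compl.mem_nhds hnot)
  filter_upwards [hev] with z hz R hm hv
  by_contra hR
  exact hz ⟨R, hR, evalPt_eq_coe_iff.mpr ⟨hm, hv⟩⟩

theorem differentiableAt_det {κ : Type*} [Fintype κ] [DecidableEq κ] {A : ℂ → Matrix κ κ ℂ}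
    {z : ℂ} (h : ∀ i k, DifferentiableAt ℂ (fun w => A w i k) z) :
    DifferentiableAt ℂ (fun w => (A w).det) z := by
  simp only [Matrix.det_apply']
  refine DifferentiableAt.fun_sum fun p _ => DifferentiableAt.const_mul ?_ _
  exact DifferentiableAt.fun_finsetProd fun i _ => h (p i) i

theorem differentiableAt_cramer {κ : Type*} [Fintype κ] [DecidableEq κ] {A : ℂ → Matrix κ κ ℂ}
    {z : ℂ} (h : ∀ i k, DifferentiableAt ℂ (fun w => A w i k) z) (b : κ → ℂ) (j : κ) :
    DifferentiableAt ℂ (fun w => Matrix.cramer (A w) b j) z := by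
  simp only [Matrix.cramer_apply]
  refine differentiableAt_det fun i k => ?_
  simp only [Matrix.updateCol_apply]
  split_ifs
  · exact differentiableAt_const _
  · exact h i k

/-- `1/(h - z) = Σ_{n<N} zⁿ/hⁿ⁺¹ + zᴺ/(hᴺ (h - z))`. -/
theorem geometric_identity {K : Type*} [Field K] {h z : K} (hh : h ≠ 0) (hz : h - z ≠ 0) (N : ℕ) :
    (h - z)⁻¹ = (∑ n ∈ Finset.range N, z ^ n / h ^ (n + 1)) + z ^ N / (h ^ N * (h - z)) := by
  induction N with
  | zero => simp
  | succ N ih =>
    rw [ih, Finset.sum_range_succ, add_assoc]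
    congr 1
    field_simp
    ring

end ThirdKind

open ThirdKind

/-- Near every place there is a family of differentials with residues `+1` at the moving place and
`-1` at a fixed one, of the form `∑ a_k(z) • η_k/(h - z) + ∑ b_l(z) • θ_l`. -/
theorem exists_thirdKind_family (P₀ : Place ℂ F) :
    ∃ (c : Chart F) (ε : ℝ) (Q₁ : Place ℂ F) (N M : ℕ) (η : Fin N → Ω[F⁄ℂ]) (θ : Fin M → Ω[F⁄ℂ])
      (a : Fin N → ℂ → ℂ) (b : Fin M → ℂ → ℂ),
      P₀ ∈ c.φ.source ∧ c.φ P₀ = 0 ∧ 0 < ε ∧ ball (0 : ℂ) ε ⊆ c.φ.target ∧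
      (∀ k, DifferentiableOn ℂ (a k) (ball 0 ε)) ∧ (∀ l, DifferentiableOn ℂ (b l) (ball 0 ε)) ∧
      ∀ z ∈ ball (0 : ℂ) ε,
        c.φ.symm z ≠ Q₁ ∧
        HasSimpleResidue
          (∑ k, (algebraMap ℂ F (a k z) / (c.t - algebraMap ℂ F z)) • η k
            + ∑ l, algebraMap ℂ F (b l z) • θ l) (c.φ.symm z) 1 ∧
        HasSimpleResidue
          (∑ k, (algebraMap ℂ F (a k z) / (c.t - algebraMap ℂ F z)) • η k
            + ∑ l, algebraMap ℂ F (b l z) • θ l) Q₁ (-1) ∧
        ∀ R : Place ℂ F, R ≠ c.φ.symm z → R ≠ Q₁ → HasSimpleResidue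
          (∑ k, (algebraMap ℂ F (a k z) / (c.t - algebraMap ℂ F z)) • η k
            + ∑ l, algebraMap ℂ F (b l z) • θ l) R 0 := by
  classical
  -- the coordinate
  obtain ⟨h, hP₀, hsimple⟩ := exists_simple_fibre_through P₀
  have hTr : Transcendental ℂ h := fun halg => by
    rw [ord_eq_zero_of_isAlgebraic P₀ halg] at hP₀
    exact zero_ne_one hP₀
  have hsub : ∀ w : ℂ, h - algebraMap ℂ F w ≠ 0 := sub_algebraMap_ne_zero hTr
  have hh0 : h ≠ 0 := fun h0 => hTr (h0 ▸ isAlgebraic_zero)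
  have hZfin : {Q : Place ℂ F | 0 < Q.ord h}.Finite :=
    (finite_ord_ne_zero (K := ℂ) h).subset fun _ hQ => ne_of_gt hQ
  have := hZfin.fintype
  have hchart : ∀ Q : {Q : Place ℂ F | 0 < Q.ord h}, ∃ c : Chart F, c.t = h ∧ Q.1 ∈ c.φ.source :=
    fun Q => exists_chart Q.1 h (hsimple Q.1 Q.2)
  choose c hct hcsrc using hchart
  let l₀ : {Q : Place ℂ F | 0 < Q.ord h} := ⟨P₀, show 0 < P₀.ord h by rw [hP₀]; exact one_pos⟩
  -- the auxiliary unramified value
  obtain ⟨B, hB⟩ := exists_isUnramifiedOutside hTr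
  obtain ⟨v₁, hv₁⟩ := Infinite.exists_notMem_finset (insert (0 : ℂ) B)
  rw [Finset.mem_insert, not_or] at hv₁
  have : FiniteDimensional (IntermediateField.adjoin ℂ ({h} : Set F)) F :=
    finiteDimensional_adjoin hTr
  obtain ⟨Q₁, hQ₁⟩ : (fibreOf h v₁).Nonempty := by
    by_contra hne
    have hsum := sum_ord_fibreOf hTr v₁
    rw [Finset.sum_eq_zero (fun R hR => absurd ⟨R, (Set.Finite.mem_toFinset _).mp hR⟩ hne)] at hsum
    exact (Nat.pos_iff_ne_zero.mp Module.finrank_pos) (by exact_mod_cast hsum.symm)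
  have := (finite_fibreOf hTr v₁).fintype
  -- basic facts on values of `h`
  have hval : ∀ (R : Place ℂ F) (w : ℂ), 0 < R.ord (h - algebraMap ℂ F w) →
      h ∈ R.toValuationSubring ∧ evalC h R = w := fun R w hR => by
    have hO : OrdGE R 1 (h - algebraMap ℂ F w) := ordGE_one_iff.mpr (Or.inr hR)
    refine ⟨?_, evalC_eq_of_ordGE hO⟩
    rw [← sub_add_cancel h (algebraMap ℂ F w)]
    exact add_mem (mem_of_ord_nonneg R hR.le) (R.algebraMap_mem' w)
  have hord0 : ∀ (R : Place ℂ F) (w : ℂ), h ∈ R.toValuationSubring → evalC h R ≠ w →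
      R.ord (h - algebraMap ℂ F w) = 0 := fun R w hR hne => by
    refine le_antisymm (not_lt.mp fun hlt => hne (hval R w hlt).2) ?_
    exact (mem_iff_ord_nonneg R).mp (sub_mem hR (R.algebraMap_mem' w))
  have hval₀ : ∀ l : {Q : Place ℂ F | 0 < Q.ord h}, h ∈ l.1.toValuationSubring ∧ evalC h l.1 = 0 :=
    fun l => hval l.1 0 (by rw [map_zero, sub_zero]; exact l.2)
  have hφ0 : ∀ l, (c l).φ l.1 = 0 := fun l => by
    rw [(c l).apply_eq _ (hcsrc l), hct l]; exact (hval₀ l).2
  have hsymm0 : ∀ l, (c l).φ.symm 0 = l.1 := fun l => by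
    rw [← hφ0 l, (c l).φ.left_inv (hcsrc l)]
  -- the moving points
  let κ := {Q : Place ℂ F | 0 < Q.ord h} ⊕ fibreOf h v₁
  let k₀ : κ := Sum.inl l₀
  let k₁ : κ := Sum.inr ⟨Q₁, hQ₁⟩
  let m : κ → ℂ → Place ℂ F := fun k z => Sum.elim (fun l => (c l).φ.symm z) (fun R => R.1) k
  let pt : κ → Place ℂ F := Sum.elim (fun l => l.1) (fun R => R.1)
  have hm0 : ∀ k, m k 0 = pt k := by rintro (l | R); exacts [hsymm0 l, rfl]
  have hpt : Function.Injective pt := by
    rintro (l | R) (l' | R') he <;> simp only [pt, Sum.elim_inl, Sum.elim_inr] at he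
    · rw [Subtype.ext he]
    · exact absurd ((hval₀ l).2.symm.trans (he ▸ (hval R'.1 v₁ R'.2).2)) (Ne.symm hv₁.1)
    · exact absurd ((hval₀ l').2.symm.trans (he ▸ (hval R.1 v₁ R.2).2)) (Ne.symm hv₁.1)
    · rw [Subtype.ext he]
  have hptmem : ∀ k, h ∈ (pt k).toValuationSubring := by
    rintro (l | R); exacts [(hval₀ l).1, (hval R.1 v₁ R.2).1]
  -- interpolation
  have hint : ∀ k : κ, ∃ e : F,
      (∀ Q : Place ℂ F, 0 ≤ Q.ord h → e ∈ Q.toValuationSubring) ∧
      ∀ i, evalC e (pt i) = if i = k then 1 else 0 := by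
    intro k
    obtain ⟨e, he, he'⟩ := exists_interpolation h hTr (Finset.univ.image pt)
      (fun Q hQ => by
        obtain ⟨i, -, rfl⟩ := Finset.mem_image.mp hQ
        exact (mem_iff_ord_nonneg _).mp (hptmem i))
      (fun Q => if Q = pt k then 1 else 0)
    refine ⟨e, he, fun i => ?_⟩
    rw [evalC_eq_of_ordGE (ordGE_one_iff.mpr (he' (pt i) (Finset.mem_image_of_mem _ (Finset.mem_univ i))))]
    exact if_congr hpt.eq_iff rfl rfl
  choose e he he' using hint
  let A : ℂ → Matrix κ κ ℂ := fun z i k => evalC (e k) (m i z)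
  have hA0 : A 0 = 1 := by
    ext i k
    show evalC (e k) (m i 0) = _
    rw [hm0, he' k i, Matrix.one_apply]
  have hdiffA : ∀ z, (∀ l, z ∈ (c l).φ.target) → ∀ i k, DifferentiableAt ℂ (fun w => A w i k) z := by
    intro z hz i k
    rcases i with l | R
    · have hsrc := (c l).φ.map_target (hz l)
      have han := (c l).analyticAt (e k) _ hsrc (he k _ ((mem_iff_ord_nonneg _).mp
        (by rw [← hct l]; exact (c l).mem _ hsrc)))
      rw [(c l).φ.right_inv (hz l)] at han
      exact han.differentiableAt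
    · exact differentiableAt_const (evalC (e k) R.1)
  let target : κ → ℂ := fun i => (if i = k₀ then 1 else 0) + (if i = k₁ then 1 else 0)
  have ht₀ : target k₀ = 1 := by simp [target, k₀, k₁]
  have ht₁ : target k₁ = 1 := by simp [target, k₀, k₁]
  have ht : ∀ i, i ≠ k₀ → i ≠ k₁ → target i = 0 := fun i h₀ h₁ => by simp [target, h₀, h₁]
  let u : κ → ℂ → ℂ := fun k z => Matrix.cramer (A z) target k * (A z).det⁻¹
  -- the good neighbourhood of `0`
  have htgt : ∀ᶠ z in 𝓝 (0 : ℂ), ∀ l, z ∈ (c l).φ.target := eventually_all.mpr fun l =>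
    (c l).φ.open_target.mem_nhds (hφ0 l ▸ (c l).φ.map_source (hcsrc l))
  have hcov : ∀ᶠ z in 𝓝 (0 : ℂ), ∀ R : Place ℂ F, h ∈ R.toValuationSubring → evalC h R = z →
      R ∈ ⋃ l, (c l).φ.source :=
    eventually_fibre_subset h (isOpen_iUnion fun l => (c l).φ.open_source) fun R hm hv => by
      have hpos : 0 < R.ord h := ((evalC_eq_zero_iff hm).mp hv).resolve_left hh0
      exact Set.mem_iUnion.mpr ⟨⟨R, hpos⟩, hcsrc ⟨R, hpos⟩⟩
  have hdisj : ∀ᶠ z in 𝓝 (0 : ℂ), ∀ l l' : {Q : Place ℂ F | 0 < Q.ord h},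
      (c l).φ.symm z = (c l').φ.symm z → l = l' := eventually_all.mpr fun l => eventually_all.mpr
    fun l' => by
    rcases eq_or_ne l l' with rfl | hne
    · exact Eventually.of_forall fun _ _ => rfl
    · have hcont : ∀ l, Tendsto (c l).φ.symm (𝓝 0) (𝓝 l.1) := fun l => by
        have h₁ := (c l).φ.continuousAt_symm (hφ0 l ▸ (c l).φ.map_source (hcsrc l))
        rwa [ContinuousAt, hsymm0] at h₁
      have hne' : ∀ᶠ p in 𝓝 ((l.1, l'.1) : Place ℂ F × Place ℂ F), p.1 ≠ p.2 :=
        (isOpen_ne_fun continuous_fst continuous_snd).mem_nhds (fun he => hne (Subtype.ext he))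
      exact (((hcont l).prodMk_nhds (hcont l')).eventually hne').mono fun z hz he => absurd he hz
  have hdet : ∀ᶠ z in 𝓝 (0 : ℂ), (A z).det ≠ 0 := by
    have hc0 := (differentiableAt_det (hdiffA 0 htgt.self_of_nhds)).continuousAt
    refine hc0.eventually (isOpen_ne.mem_nhds ?_)
    simp [hA0]
  obtain ⟨ε, hε, hgood⟩ := Metric.mem_nhds_iff.mp
    (((htgt.and hcov).and (hdisj.and hdet)).and (eventually_ne_nhds (Ne.symm hv₁.1)))
  have hgood' : ∀ z ∈ ball (0 : ℂ) ε, ((∀ l, z ∈ (c l).φ.target) ∧ ∀ R : Place ℂ F,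
      h ∈ R.toValuationSubring → evalC h R = z → R ∈ ⋃ l, (c l).φ.source) ∧
      ((∀ l l' : {Q : Place ℂ F | 0 < Q.ord h}, (c l).φ.symm z = (c l').φ.symm z → l = l') ∧
        (A z).det ≠ 0) := fun z hz => (hgood hz).1
  have hudiff : ∀ k, DifferentiableOn ℂ (u k) (ball 0 ε) := fun k z hz => by
    have hA := hdiffA z (hgood' z hz).1.1
    exact ((differentiableAt_cramer hA target k).mul
      ((differentiableAt_det hA).inv (hgood' z hz).2.2)).differentiableWithinAt
  -- the polar parts at infinity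
  have hSfin : (polesOf ℂ h).Finite := finite_polesOf hTr
  let Nb : ℕ := Finset.univ.sup fun k : κ => hSfin.toFinset.sup fun R =>
    (-(R.ordDifferential (e k • D ℂ F h))).toNat
  let q : Ω[F⁄ℂ] →ₗ[ℂ] Ω[F⁄ℂ] ⧸ regularOn (polesOf ℂ h) := (regularOn (polesOf ℂ h)).mkQ
  let X : (κ × Fin Nb) ⊕ κ → Ω[F⁄ℂ] ⧸ regularOn (polesOf ℂ h) :=
    Sum.elim (fun kn => q ((e kn.1 / h ^ ((kn.2 : ℕ) + 1)) • D ℂ F h))
      (fun k => q ((e k / (h - algebraMap ℂ F v₁)) • D ℂ F h))
  let coef : (κ × Fin Nb) ⊕ κ → ℂ → ℂ :=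
    Sum.elim (fun kn z => u kn.1 z * z ^ (kn.2 : ℕ)) (fun k z => -u k z)
  let U : Submodule ℂ (Ω[F⁄ℂ] ⧸ regularOn (polesOf ℂ h)) :=
    Submodule.span ℂ (Set.range X) ⊓ (regularOn (polesOf ℂ h)ᶜ).map q
  have : FiniteDimensional ℂ (Submodule.span ℂ (Set.range X)) :=
    FiniteDimensional.span_of_finite ℂ (Set.finite_range X)
  have : FiniteDimensional ℂ U := Submodule.finiteDimensional_of_le inf_le_left
  let β := Module.finBasis ℂ U
  have hθ : ∀ l, ∃ w ∈ regularOn (polesOf ℂ h)ᶜ, q w = (β l).1 := fun l =>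
    Submodule.mem_map.mp (β l).2.2
  choose θ₀ hθ₀ hqθ using hθ
  obtain ⟨π, hπ⟩ := LinearMap.exists_extend (LinearMap.id : U →ₗ[ℂ] U)
  let b₀ : Fin (Module.finrank ℂ U) → ℂ → ℂ :=
    fun l z => -∑ j, coef j z * β.repr (π (X j)) l
  let eκ := Fintype.equivFin κ
  let eM := Fintype.equivFin (κ ⊕ Fin (Module.finrank ℂ U))
  let θ₁ : κ ⊕ Fin (Module.finrank ℂ U) → Ω[F⁄ℂ] :=
    Sum.elim (fun k => -((e k / (h - algebraMap ℂ F v₁)) • D ℂ F h)) θ₀
  refine ⟨c l₀, ε, Q₁, Fintype.card κ, Fintype.card (κ ⊕ Fin (Module.finrank ℂ U)),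
    fun k => e (eκ.symm k) • D ℂ F h, fun l => θ₁ (eM.symm l), fun k => u (eκ.symm k),
    fun l => Sum.elim u b₀ (eM.symm l), hcsrc l₀, hφ0 l₀, hε,
    fun z hz => (hgood' z hz).1.1 l₀, fun k => hudiff _, fun l => ?_, fun z hz => ?_⟩
  · show DifferentiableOn ℂ (Sum.elim u b₀ (eM.symm l)) (ball 0 ε)
    rcases eM.symm l with k | l'
    · exact hudiff k
    · show DifferentiableOn ℂ (fun z => -∑ j, coef j z * β.repr (π (X j)) l') (ball 0 ε)
      refine (DifferentiableOn.fun_sum fun j _ => DifferentiableOn.mul_const ?_ _).fun_neg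
      rcases j with ⟨k, n⟩ | k
      · exact (hudiff k).mul (differentiableOn_pow _)
      · exact (hudiff k).neg
  obtain ⟨⟨hzt, hzcov⟩, hzdisj, hzdet⟩ := hgood' z hz
  have hzv : z ≠ v₁ := (hgood hz).2
  -- values at the moving points
  have hpts : ∀ l, h ∈ ((c l).φ.symm z).toValuationSubring ∧
      evalC h ((c l).φ.symm z) = z ∧ ((c l).φ.symm z).ord (h - algebraMap ℂ F z) = 1 := fun l => by
    have hsrc := (c l).φ.map_target (hzt l)
    have h1 := (c l).ord_sub_eq_one hsrc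
    rw [(c l).φ.right_inv (hzt l), hct l] at h1
    obtain ⟨h2, h3⟩ := hval _ _ (by rw [h1]; exact one_pos)
    exact ⟨h2, h3, h1⟩
  have hfin₁ : ∀ R : fibreOf h v₁, h ∈ R.1.toValuationSubring ∧ evalC h R.1 = v₁ :=
    fun R => hval R.1 v₁ R.2
  have hne₁ : (c l₀).φ.symm z ≠ Q₁ := fun heq =>
    hzv ((hpts l₀).2.1.symm.trans (heq ▸ (hfin₁ ⟨Q₁, hQ₁⟩).2))
  have hlin : ∀ i, ∑ k, u k z * evalC (e k) (m i z) = target i := fun i => by
    have h1 := congrFun (Matrix.mulVec_cramer (A z) target) i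
    rw [Pi.smul_apply, smul_eq_mul] at h1
    calc ∑ k, u k z * evalC (e k) (m i z)
        = (∑ k, A z i k * Matrix.cramer (A z) target k) * (A z).det⁻¹ := by
          rw [Finset.sum_mul]
          exact Finset.sum_congr rfl fun k _ => by simp only [u, A]; ring
      _ = target i := by
          rw [show (∑ k, A z i k * Matrix.cramer (A z) target k) = _ from h1]
          field_simp
  set ω₁ : Ω[F⁄ℂ] := ∑ k, algebraMap ℂ F (u k z) •
    ((e k / (h - algebraMap ℂ F z)) • D ℂ F h - (e k / (h - algebraMap ℂ F v₁)) • D ℂ F h) with hω₁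
  obtain ⟨ω₃, h₃P, h₃Q, h₃R⟩ := exists_thirdKind (K := ℂ) hne₁
  -- at finite places
  have hdiff : ω₁ - ω₃ ∈ regularOn (polesOf ℂ h)ᶜ := by
    rw [mem_regularOn]
    intro R hR
    have hmem : h ∈ R.toValuationSubring :=
      mem_of_ord_nonneg R (not_lt.mp (show ¬ R.ord h < 0 from hR))
    have heR : ∀ k, e k ∈ R.toValuationSubring := fun k =>
      he k R ((mem_iff_ord_nonneg R).mp hmem)
    by_cases hvz : evalC h R = z
    · obtain ⟨l, hl⟩ := Set.mem_iUnion.mp (hzcov R hmem hvz)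
      have hR' : R = (c l).φ.symm z := by
        rw [← (c l).φ.left_inv hl, (c l).apply_eq R hl, hct l, hvz]
      have hres : HasSimpleResidue ω₁ R (target (Sum.inl l)) := by
        rw [← hlin (Sum.inl l), hω₁]
        refine residue_sum _ fun k _ => ?_
        have h1 := residue_sub (residue_simple (heR k) (c := z) (hR' ▸ (hpts l).2.2))
          (residue_of_ne (heR k) hmem (hord0 R v₁ hmem (by rw [hvz]; exact hzv)))
        rw [sub_zero] at h1
        simp only [m, Sum.elim_inl, ← hR']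
        exact residue_smul (u k z) h1
      rcases eq_or_ne l l₀ with rfl | hne
      · have h3 : HasSimpleResidue ω₃ R 1 := hR' ▸ h₃P
        rw [show (Sum.inl l₀ : κ) = k₀ from rfl, ht₀] at hres
        simpa using residue_sub hres h3
      · have h3 : HasSimpleResidue ω₃ R 0 := h₃R R
          (fun he => hne (hzdisj _ _ (hR'.symm.trans he)))
          (fun he => hzv (hvz.symm.trans (he ▸ (hfin₁ ⟨Q₁, hQ₁⟩).2)))
        rw [ht _ (fun he => hne (Sum.inl_injective he)) Sum.inl_ne_inr] at hres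
        simpa using residue_sub hres h3
    · by_cases hv : evalC h R = v₁
      · have hpos : 0 < R.ord (h - algebraMap ℂ F v₁) := by
          rcases ordGE_one_iff.mp (ordGE_sub_evalC hmem) with h0 | h0
          · exact absurd (hv ▸ h0) (hsub v₁)
          · rwa [hv] at h0
        have hres : HasSimpleResidue ω₁ R (-target (Sum.inr ⟨R, hpos⟩)) := by
          rw [← hlin (Sum.inr ⟨R, hpos⟩), hω₁, ← Finset.sum_neg_distrib]
          refine residue_sum _ fun k _ => ?_
          have h1 := residue_sub (residue_of_ne (heR k) hmem (hord0 R z hmem hvz))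
            (residue_simple (heR k) (c := v₁) (hB v₁ hv₁.2 R hpos))
          rw [zero_sub] at h1
          simp only [m, Sum.elim_inr]
          rw [← mul_neg]
          exact residue_smul (u k z) h1
        rcases eq_or_ne R Q₁ with rfl | hne
        · rw [show (Sum.inr ⟨R, hpos⟩ : κ) = k₁ from rfl, ht₁] at hres
          simpa using residue_sub hres h₃Q
        · have h3 : HasSimpleResidue ω₃ R 0 :=
            h₃R R (fun he => hvz (by rw [he]; exact (hpts l₀).2.1)) hne
          rw [ht _ Sum.inr_ne_inl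
            (fun he => hne (congrArg Subtype.val (Sum.inr_injective he)))] at hres
          simpa using residue_sub hres h3
      · have hres : HasSimpleResidue ω₁ R 0 := by
          rw [hω₁, show (0 : ℂ) = ∑ _k : κ, (0 : ℂ) by simp]
          refine residue_sum _ fun k _ => ?_
          have h1 := residue_sub (residue_of_ne (heR k) hmem (hord0 R z hmem hvz))
            (residue_of_ne (heR k) hmem (hord0 R v₁ hmem hv))
          simpa using residue_smul (u k z) h1
        have h3 : HasSimpleResidue ω₃ R 0 := h₃R R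
          (fun he => hvz (by rw [he]; exact (hpts l₀).2.1))
          (fun he => hv (by rw [he]; exact (hfin₁ ⟨Q₁, hQ₁⟩).2))
        simpa using residue_sub hres h3
  -- at infinity
  have hω₃ : ω₃ ∈ regularOn (polesOf ℂ h) := by
    rw [mem_regularOn]
    intro R hR
    have hnot : h ∉ R.toValuationSubring := fun hm =>
      not_le.mpr (show R.ord h < 0 from hR) ((mem_iff_ord_nonneg R).mp hm)
    exact h₃R R (fun he => hnot (he ▸ (hpts l₀).1)) (fun he => hnot (he ▸ (hfin₁ ⟨Q₁, hQ₁⟩).1))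
  have hrem : ∀ k, (algebraMap ℂ F (z ^ Nb) / (h ^ Nb * (h - algebraMap ℂ F z))) •
      (e k • D ℂ F h) ∈ regularOn (polesOf ℂ h) := by
    intro k
    rw [mem_regularOn]
    intro R hR
    rcases eq_or_ne (e k • D ℂ F h) 0 with h0 | h0
    · rw [h0, smul_zero]; exact residue_zero
    rcases eq_or_ne (z ^ Nb) 0 with hz0 | hz0
    · rw [hz0, map_zero, zero_div, zero_smul]; exact residue_zero
    apply residue_of_ordDifferential_nonneg
    have hn1 : algebraMap ℂ F (z ^ Nb) ≠ 0 := (map_ne_zero _).mpr hz0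
    have hn2 : h ^ Nb * (h - algebraMap ℂ F z) ≠ 0 := mul_ne_zero (pow_ne_zero _ hh0) (hsub z)
    rw [ordDifferential_smul_of_ne_zero R (div_ne_zero hn1 hn2) h0, div_eq_mul_inv,
      R.ord_mul hn1 (inv_ne_zero hn2), R.ord_inv, R.ord_mul (pow_ne_zero _ hh0) (hsub z),
      ord_sub_algebraMap_of_neg hTr hR z, Fermat.Agent.Curve.ord_pow, ord_algebraMap]
    have hbound : (-(R.ordDifferential (e k • D ℂ F h))).toNat ≤ Nb :=
      le_trans (Finset.le_sup (f := fun R : Place ℂ F => (-(R.ordDifferential (e k • D ℂ F h))).toNat)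
        (hSfin.mem_toFinset.mpr hR)) (Finset.le_sup (f := fun k : κ => hSfin.toFinset.sup fun R =>
          (-(R.ordDifferential (e k • D ℂ F h))).toNat) (Finset.mem_univ k))
    have hneg : R.ord h ≤ -1 := by have : R.ord h < 0 := hR; omega
    have hmul : (Nb : ℤ) * R.ord h ≤ (Nb : ℤ) * (-1) :=
      mul_le_mul_of_nonneg_left hneg (Int.natCast_nonneg _)
    omega
  have hterm : ∀ k, q ((e k / (h - algebraMap ℂ F z)) • D ℂ F h) =
      ∑ n : Fin Nb, z ^ (n : ℕ) • X (Sum.inl (k, n)) := by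
    intro k
    have hid : (e k / (h - algebraMap ℂ F z)) • D ℂ F h =
        (∑ n : Fin Nb, z ^ (n : ℕ) • ((e k / h ^ ((n : ℕ) + 1)) • D ℂ F h)) +
          (algebraMap ℂ F (z ^ Nb) / (h ^ Nb * (h - algebraMap ℂ F z))) • (e k • D ℂ F h) := by
      simp_rw [← algebraMap_smul F (z ^ _), smul_smul]
      rw [← Finset.sum_smul, ← add_smul, div_eq_mul_inv (e k),
        geometric_identity hh0 (hsub z) Nb, mul_add, Finset.mul_sum, ← Fin.sum_univ_eq_sum_range]
      congr 1
      congr 1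
      · exact Finset.sum_congr rfl fun n _ => by rw [map_pow]; ring
      · rw [map_pow]; ring
    rw [hid, map_add, map_sum, show q _ = 0 from (Submodule.Quotient.mk_eq_zero _).mpr (hrem k),
      add_zero]
    exact Finset.sum_congr rfl fun n _ => by rw [map_smul]; rfl
  have hy : q ω₁ = ∑ j, coef j z • X j := by
    rw [hω₁, map_sum]
    conv_rhs => rw [Fintype.sum_sum_type, Fintype.sum_prod_type, ← Finset.sum_add_distrib]
    refine Finset.sum_congr rfl fun k _ => ?_
    rw [algebraMap_smul, map_smul, map_sub, hterm, smul_sub, Finset.smul_sum]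
    simp only [coef, X, Sum.elim_inl, Sum.elim_inr, smul_smul, neg_smul]
    abel
  have hyU : (∑ j, coef j z • X j) ∈ U := by
    refine ⟨Submodule.sum_mem _ fun j _ => Submodule.smul_mem _ _
      (Submodule.subset_span ⟨j, rfl⟩), ω₁ - ω₃, hdiff, ?_⟩
    rw [map_sub, show q ω₃ = 0 from (Submodule.Quotient.mk_eq_zero _).mpr hω₃, sub_zero, hy]
  set ω := ω₁ + ∑ l, algebraMap ℂ F (b₀ l z) • θ₀ l with hω
  have hqω : ω ∈ regularOn (polesOf ℂ h) := by
    rw [← Submodule.Quotient.mk_eq_zero]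
    show q ω = 0
    have hsum : ∑ l, b₀ l z • (β l).1 = -(∑ j, coef j z • X j) := by
      have hfix : π (∑ j, coef j z • X j) = ⟨_, hyU⟩ := LinearMap.congr_fun hπ ⟨_, hyU⟩
      have hl : ∀ l, b₀ l z = -β.repr (π (∑ j, coef j z • X j)) l := fun l => by
        simp only [b₀, map_sum, map_smul, Finsupp.coe_finsetSum, Finset.sum_apply,
          Finsupp.smul_apply, smul_eq_mul]
      simp_rw [hl, hfix, neg_smul, Finset.sum_neg_distrib, ← SetLike.val_smul]
      rw [← AddSubmonoidClass.coe_finsetSum, β.sum_repr]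
    rw [hω, map_add, hy, map_sum]
    simp_rw [algebraMap_smul, map_smul, hqθ]
    rw [hsum, add_neg_cancel]
  -- conclusion
  have hform : (∑ k, (algebraMap ℂ F (u (eκ.symm k) z) / ((c l₀).t - algebraMap ℂ F z)) •
      (e (eκ.symm k) • D ℂ F h) +
      ∑ l, algebraMap ℂ F (Sum.elim u b₀ (eM.symm l) z) • θ₁ (eM.symm l)) = ω := by
    rw [hct, eκ.symm.sum_comp fun k =>
        (algebraMap ℂ F (u k z) / (h - algebraMap ℂ F z)) • (e k • D ℂ F h),
      eM.symm.sum_comp fun l => algebraMap ℂ F (Sum.elim u b₀ l z) • θ₁ l,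
      Fintype.sum_sum_type (α₁ := κ) (α₂ := Fin (Module.finrank ℂ U)), ← add_assoc, hω, hω₁,
      ← Finset.sum_add_distrib]
    congr 1
    refine Finset.sum_congr rfl fun k _ => ?_
    simp only [θ₁, Sum.elim_inl, smul_smul, ← neg_smul, ← add_smul, ← sub_smul]
    congr 1
    ring
  have hall : ∀ R : Place ℂ F, ∀ r, HasSimpleResidue ω₃ R r → HasSimpleResidue ω R r := by
    intro R r hr
    have hreg : HasSimpleResidue (ω - ω₃) R 0 := by
      by_cases hR : R ∈ polesOf ℂ h
      · simpa using residue_sub (hqω R hR) (hω₃ R hR)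
      · refine (?_ : ω - ω₃ ∈ regularOn (polesOf ℂ h)ᶜ) R hR
        rw [hω, add_sub_right_comm]
        refine add_mem hdiff (Submodule.sum_mem _ fun l _ => ?_)
        rw [algebraMap_smul]
        exact Submodule.smul_mem _ _ (hθ₀ l)
    simpa using residue_add hreg hr
  simp only [hform]
  exact ⟨hne₁, hall _ _ h₃P, hall _ _ h₃Q, fun R hR hR' => hall _ _ (h₃R R hR hR')⟩

end Fermat.Agent.Torsion.Analytic
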