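import Fermat.Agent.Torsion.Analytic.Flat
import Fermat.Agent.Torsion.Analytic.Kernel
import Fermat.Agent.Torsion.Analytic.ThirdKindFamily
import Fermat.Agent.Torsion.Analytic.FamilyFlat
import Fermat.Agent.Torsion.Analytic.FamilyDeriv

/-!
# Flat trivialisations of `P - Q`, holomorphically in `P`

Owner: helper75.
-/

set_option autoImplicit false

noncomputable section

open AlgebraicCurve Topology Filter Metric
open scoped Classical

namespace Fermat.Agent.Torsion.Analytic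

open Fermat.Agent.Curve

variable {F : Type*} [Field F] [Algebra ℂ F] [IsFunctionField1 ℂ F] (C : Cover F)

omit [IsFunctionField1 ℂ F] in
/-- A radius whose circle misses finitely many places. -/
theorem exists_radius (e : Chart F) (S : Finset (Place ℂ F)) {r R : ℝ} (h : r < R) :
    ∃ ρ, r < ρ ∧ ρ < R ∧ ∀ x ∈ S, ‖e.φ x‖ ≠ ρ := by
  obtain ⟨ρ, ⟨h1, h2⟩, h3⟩ := ((Set.Ioo_infinite h).sdiff (S.image fun x => ‖e.φ x‖).finite_toSet).nonempty
  exact ⟨ρ, h1, h2, fun x hx he => h3 (Finset.mem_coe.2 (Finset.mem_image.2 ⟨x, hx, he⟩))⟩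

theorem chart_source_nonempty (i : Fin C.n) : ∃ Q, Q ∈ (C.c i).φ.source :=
  ⟨_, (C.c i).φ.map_target
    (C.closedBall_subset i (mem_closedBall_self ((C.r_pos i).trans (C.r_lt_R i)).le))⟩

theorem exists_flatMul_pair {P Q : Place ℂ F} (h : P ≠ Q) :
    ∃ G, C.IsFlatMul
      (fun x => (Finsupp.single P (1 : ℤ) - Finsupp.single Q 1 : Divisor ℂ F) x) G := by
  obtain ⟨ω, hP, hQ, hR⟩ := exists_thirdKind h
  set D : Divisor ℂ F := Finsupp.single P (1 : ℤ) - Finsupp.single Q 1 with hD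
  have hres : ∀ x, HasSimpleResidue ω x (D x : ℂ) := by
    intro x
    rcases eq_or_ne x P with rfl | hxP
    · simpa [hD, Finsupp.single_eq_of_ne h] using hP
    rcases eq_or_ne x Q with rfl | hxQ
    · simpa [hD, Finsupp.single_eq_of_ne h.symm] using hQ
    simpa [hD, Finsupp.single_eq_of_ne hxP, Finsupp.single_eq_of_ne hxQ] using hR x hxP hxQ
  choose ρ hρ1 hρ2 hρ3 using fun i => exists_radius (C.c i) D.support (C.r_lt_R i)
  choose a ha using fun i => (C.c i).exists_coeff (chart_source_nonempty C i).choose_spec ω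
  exact ⟨_, isFlatMul_primG (a := a)
    (fun i => ⟨(C.r_pos i).trans (hρ1 i),
      (closedBall_subset_closedBall (hρ2 i).le).trans (C.closedBall_subset i), ha i, hres,
      fun x hx _ => hρ3 i x hx⟩) fun i => (hρ1 i).le⟩

theorem exists_family (P₀ : Place ℂ F) :
    ∃ (c : Chart F) (ε : ℝ) (Q₁ : Place ℂ F) (G : ℂ → Fin C.n → Place ℂ F → ℂ),
      P₀ ∈ c.φ.source ∧ c.φ P₀ = 0 ∧ 0 < ε ∧ ball (0 : ℂ) ε ⊆ c.φ.target ∧
      (∀ z ∈ ball (0 : ℂ) ε, C.IsFlatMul
        (fun x => (Finsupp.single (c.φ.symm z) (1 : ℤ) - Finsupp.single Q₁ 1 : Divisor ℂ F) x)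
        (G z)) ∧
      (∀ q, DifferentiableOn ℂ (fun w => C.kappa (G w) q) (ball 0 ε)) ∧
      ∀ z ∈ ball (0 : ℂ) ε, ∃ H, C.IsFlatAdd H ∧ C.HasPoleAt H (c.φ.symm z) ∧
        ∀ q, deriv (fun w => C.kappa (G w) q) z = C.kappa (G z) q * C.delta H q := by
  obtain ⟨c, ε, Q₁, N, M, η, θ, a, b, hP₀, hc0, hε, hεt, ha, hb, hfam⟩ :=
    exists_thirdKind_family P₀
  choose α hα using fun i k => (C.c i).exists_coeff (chart_source_nonempty C i).choose_spec (η k)
  choose β hβ using fun i l => (C.c i).exists_coeff (chart_source_nonempty C i).choose_spec (θ l)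
  set bad : Fin C.n → Finset (Place ℂ F) := fun i =>
    insert Q₁ ((finite_ord_ne_zero (K := ℂ) c.t).toFinset ∪
      ((Set.finite_iUnion fun k => finite_ord_ne_zero (K := ℂ) (α i k)).toFinset ∪
        (Set.finite_iUnion fun l => finite_ord_ne_zero (K := ℂ) (β i l)).toFinset)) with hbad
  choose ρ hρ1 hρ2 hρ3 using fun i => exists_radius (C.c i) (bad i) (C.r_lt_R i)
  have hρsub : ∀ i, closedBall (0 : ℂ) (ρ i) ⊆ (C.c i).φ.target := fun i =>
    (closedBall_subset_closedBall (hρ2 i).le).trans (C.closedBall_subset i)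
  have hgood : ∀ i, ∀ ζ ∈ sphere (0 : ℂ) (ρ i), (C.c i).φ.symm ζ ∉ bad i := by
    intro i ζ hζ hmem
    refine hρ3 i _ hmem ?_
    rw [(C.c i).φ.right_inv (hρsub i (sphere_subset_closedBall hζ))]
    exact mem_sphere_zero_iff_norm.1 hζ
  have hord : ∀ i, ∀ ζ ∈ sphere (0 : ℂ) (ρ i), ((C.c i).φ.symm ζ).ord c.t = 0 ∧
      (∀ k, ((C.c i).φ.symm ζ).ord (α i k) = 0) ∧ ∀ l, ((C.c i).φ.symm ζ).ord (β i l) = 0 := by
    intro i ζ hζ
    have h := hgood i ζ hζ
    simp only [hbad, Finset.mem_insert, Finset.mem_union, Set.Finite.mem_toFinset, Set.mem_iUnion,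
      Set.mem_setOf_eq, not_or, not_exists, not_not] at h
    exact ⟨h.2.1, h.2.2.1, h.2.2.2⟩
  -- uniform separation of the circles from the fibre over `z`
  have ht0 : c.t ≠ 0 := by
    intro h0
    have := c.ord_sub_eq_one hP₀
    simp [hc0, h0] at this
  have hsep : ∀ i, ∀ᶠ z in 𝓝 (0 : ℂ), ∀ ζ ∈ sphere (0 : ℂ) (ρ i),
      evalC c.t ((C.c i).φ.symm ζ) ≠ z := by
    intro i
    have hmem : ∀ ζ ∈ sphere (0 : ℂ) (ρ i), c.t ∈ ((C.c i).φ.symm ζ).toValuationSubring :=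
      fun ζ hζ => mem_of_ord_nonneg _ (hord i ζ hζ).1.ge
    have hcl : IsClosed ((fun ζ => evalC c.t ((C.c i).φ.symm ζ)) '' sphere 0 (ρ i)) :=
      ((isCompact_sphere (0 : ℂ) (ρ i)).image_of_continuousOn ((continuousOn_evalC c.t).comp
        ((C.c i).φ.continuousOn_symm.mono (sphere_subset_closedBall.trans (hρsub i))) hmem)).isClosed
    refine (hcl.isOpen_compl.eventually_mem (x := (0 : ℂ)) ?_).mono
      fun z hz ζ hζ he => hz ⟨ζ, hζ, he⟩
    rintro ⟨ζ, hζ, he⟩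
    rcases (evalC_eq_zero_iff (hmem ζ hζ)).1 he with h | h
    · exact ht0 h
    · exact h.ne' (hord i ζ hζ).1
  obtain ⟨δ, hδ, hδsep⟩ := Metric.eventually_nhds_iff_ball.1
    ((eventually_all.2 hsep).and (isOpen_ball.mem_nhds (mem_ball_self hε) : ∀ᶠ z in 𝓝 (0 : ℂ), z ∈ ball (0 : ℂ) ε))
  have hδε : ball (0 : ℂ) δ ⊆ ball 0 ε := fun z hz => (hδsep z hz).2
  have hcd : ∀ i, CircleData c (C.c i) (ρ i) δ (α i) (β i) := fun i =>
    ⟨(C.r_pos i).trans (hρ1 i), hρsub i, hδε.trans hεt,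
      fun ζ hζ => mem_of_ord_nonneg _ (hord i ζ hζ).1.ge, fun ζ hζ z hz => (hδsep z hz).1 i ζ hζ,
      fun k ζ hζ => mem_of_ord_nonneg _ ((hord i ζ hζ).2.1 k).ge,
      fun l ζ hζ => mem_of_ord_nonneg _ ((hord i ζ hζ).2.2 l).ge⟩
  have hQ : ∀ w ∈ ball (0 : ℂ) δ, c.φ.symm w ≠ Q₁ := fun w hw => (hfam w (hδε hw)).1
  set A : ℂ → Fin C.n → F := fun z i => famCoeff c.t (α i) (β i) a b z with hA
  set G : ℂ → Fin C.n → Place ℂ F → ℂ := fun z => primG C ρ (A z) (famDiv c Q₁ z) with hG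
  have hdisc : ∀ z ∈ ball (0 : ℂ) δ, ∃ ω, ∀ i,
      DiscData (C.c i) (ρ i) (A z i) (famDiv c Q₁ z) ω := by
    intro z hz
    obtain ⟨hne, h1, h2, h3⟩ := hfam z (hδε hz)
    refine ⟨∑ k, (algebraMap ℂ F (a k z) / (c.t - algebraMap ℂ F z)) • η k
      + ∑ l, algebraMap ℂ F (b l z) • θ l, fun i => ⟨(hcd i).pos, hρsub i, ?_, ?_, ?_⟩⟩
    · simp only [hA, famCoeff, add_smul, Finset.sum_smul, mul_smul]
      simp only [← hα i, ← hβ i]
    · intro x
      rcases eq_or_ne x (c.φ.symm z) with rfl | hxP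
      · simpa [famDiv, Finsupp.single_eq_of_ne hne] using h1
      rcases eq_or_ne x Q₁ with rfl | hxQ
      · simpa [famDiv, Finsupp.single_eq_of_ne hne.symm] using h2
      simpa [famDiv, Finsupp.single_eq_of_ne hxP, Finsupp.single_eq_of_ne hxQ] using h3 x hxP hxQ
    · intro x hx hxs heq
      have hζ : (C.c i).φ x ∈ sphere (0 : ℂ) (ρ i) := mem_sphere_zero_iff_norm.2 heq
      have hxe : (C.c i).φ.symm ((C.c i).φ x) = x := (C.c i).φ.left_inv hxs
      have hz' := (hcd i).ball_subset hz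
      rcases eq_or_ne x (c.φ.symm z) with rfl | hxP
      · refine (hcd i).t_ne _ hζ z hz ?_
        rw [hxe, ← c.apply_eq _ (c.φ.map_target hz'), c.φ.right_inv hz']
      · rcases eq_or_ne x Q₁ with rfl | hxQ
        · exact hρ3 i x (Finset.mem_insert_self _ _) heq
        · exact Finsupp.mem_support_iff.1 hx
            (by simp [famDiv, Finsupp.single_eq_of_ne hxP, Finsupp.single_eq_of_ne hxQ])
  have hflat : ∀ z ∈ ball (0 : ℂ) δ, C.IsFlatMul (fun x => famDiv c Q₁ z x) (G z) := fun z hz => by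
    obtain ⟨ω, hω⟩ := hdisc z hz
    exact isFlatMul_primG hω fun i => (hρ1 i).le
  -- derivative of the class at a generic point of the overlap
  have key : ∀ z ∈ ball (0 : ℂ) δ, ∃ H : Fin C.n → Place ℂ F → ℂ,
      (∀ i, ∀ x ∈ C.U i, MeroAt (H i) x) ∧ C.HasPoleAt H (c.φ.symm z) ∧
      ∀ q : C.Idx, ∀ᶠ y in 𝓝[≠] q.pt, HasDerivAt (fun w => C.kappa (G w) q)
        (C.kappa (G z) q * (H q.fstIdx y - H q.sndIdx y)) z := by
    intro z hz
    choose h hh1 hh2 using fun i => (hcd i).exists_deriv (a := a) (b := b) hQ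
      (fun k => (ha k).mono hδε) (fun l => (hb l).mono hδε) hz
    set H : Fin C.n → Place ℂ F → ℂ := fun i y => h i ((C.c i).φ y) with hH
    have hHm : ∀ i, ∀ x ∈ C.U i, MeroAt (H i) x ∧
        meroOrd (H i) x = meromorphicOrderAt (h i) ((C.c i).φ x) := by
      intro i x hx
      have he : (fun s => H i ((C.c i).φ.symm s)) =ᶠ[𝓝[≠] ((C.c i).φ x)] h i := by
        filter_upwards [mem_nhdsWithin_of_mem_nhds
          ((C.c i).φ.open_target.mem_nhds ((C.c i).φ.map_source hx.1))] with s hs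
        rw [hH]; show h i _ = _; rw [(C.c i).φ.right_inv hs]
      refine ⟨(meroAt_iff (C.c i) hx.1).2 ((hh2 i _ (mem_ball_rho (fun i => (hρ1 i).le) hx)).1.congr
        he.symm), ?_⟩
      rw [meroOrd_eq (C.c i) hx.1, meromorphicOrderAt_congr he]
    refine ⟨H, fun i x hx => (hHm i x hx).1, fun i x hx => ?_, fun q => ?_⟩
    · rw [(hHm i x hx).2]
      have hs := (hh2 i _ (mem_ball_rho (fun i => (hρ1 i).le) hx)).2
      rw [(C.c i).φ.left_inv hx.1] at hs
      exact ⟨hs.2, hs.1⟩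
    obtain ⟨W, hW, hWi, hWj, hWx⟩ := Cover.exists_preconnected_nhds q
    have hfin : ((({c.φ.symm z, Q₁} : Set (Place ℂ F))) \ {q.pt}).Finite :=
      (Set.toFinite _).subset Set.sdiff_subset
    filter_upwards [mem_nhdsWithin_of_mem_nhds hWx, self_mem_nhdsWithin,
      mem_nhdsWithin_of_mem_nhds (hfin.isClosed.isOpen_compl.mem_nhds (x := q.pt) (by simp))]
      with y hyW hyne hy'
    simp only [Set.mem_compl_iff, Set.mem_sdiff, Set.mem_insert_iff, Set.mem_singleton_iff,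
      not_and, not_not] at hy' hyne
    have hyP : y ≠ c.φ.symm z := fun e => hyne (hy' (Or.inl e))
    have hyQ : y ≠ Q₁ := fun e => hyne (hy' (Or.inr e))
    have hd0 : ∀ {w : ℂ}, y ≠ c.φ.symm w → famDiv c Q₁ w y = 0 := fun hw => by
      simp [famDiv, Finsupp.single_eq_of_ne hw, Finsupp.single_eq_of_ne hyQ]
    have hyi : y ∈ C.U q.fstIdx := hWi hyW
    have hyj : y ∈ C.U q.sndIdx := hWj hyW
    have hev : (fun w => C.kappa (G w) q) =ᶠ[𝓝 z]
        fun w => G w q.fstIdx y / G w q.sndIdx y := by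
      filter_upwards [isOpen_ball.mem_nhds hz,
        (c.φ.continuousAt_symm ((hcd q.fstIdx).ball_subset hz)).eventually_ne hyP.symm] with w hw hwy
      obtain ⟨ω, hω⟩ := hdisc w hw
      obtain ⟨hci, -⟩ := primG_regular hω (fun i => (hρ1 i).le) hyi (hd0 (Ne.symm hwy))
      obtain ⟨hcj, hne⟩ := primG_regular hω (fun i => (hρ1 i).le) hyj (hd0 (Ne.symm hwy))
      exact (hflat w hw).kappa_eq_div q hW hWi hWj (mem_of_mem_nhds hWx) hyW hci hcj hne
    have hdi : ∀ i, y ∈ C.U i → HasDerivAt (fun w => G w i y) (G z i y * H i y) z := by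
      intro i hyU
      exact hh1 i _ (mem_ball_rho (fun i => (hρ1 i).le) hyU)
        (by rw [(C.c i).φ.left_inv hyU.1]; exact hyP)
    obtain ⟨ω, hω⟩ := hdisc z hz
    have hne : G z q.sndIdx y ≠ 0 :=
      (primG_regular hω (fun i => (hρ1 i).le) hyj (hd0 hyP)).2
    refine (((hdi _ hyi).div (hdi _ hyj) hne).congr_of_eventuallyEq hev).congr_deriv ?_
    rw [hev.eq_of_nhds]
    field_simp
  refine ⟨c, δ, Q₁, G, hP₀, hc0, hδ, hδε.trans hεt, hflat, fun q z hz => ?_, fun z hz => ?_⟩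
  · obtain ⟨H, -, -, hder⟩ := key z hz
    obtain ⟨y, hy⟩ := (hder q).exists
    exact hy.differentiableAt.differentiableWithinAt
  · obtain ⟨H, hHm, hHp, hder⟩ := key z hz
    have hk : ∀ q : C.Idx, ∀ᶠ y in 𝓝[≠] q.pt, H q.fstIdx y - H q.sndIdx y =
        deriv (fun w => C.kappa (G w) q) z / C.kappa (G z) q := fun q => by
      filter_upwards [hder q] with y hy
      rw [hy.deriv, mul_div_assoc, mul_div_cancel₀ _ (Cover.kappa_ne_zero (hflat z hz) q)]
    have hadd : C.IsFlatAdd H := ⟨hHm, fun q => ⟨_, hk q⟩⟩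
    refine ⟨H, hadd, hHp, fun q => ?_⟩
    rw [Cover.delta_eq_of_eventuallyEq (hk q), mul_div_cancel₀ _ (Cover.kappa_ne_zero (hflat z hz) q)]

end Fermat.Agent.Torsion.Analytic
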