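import Fermat.Agent.Torsion.Analytic.FlatBasic
import Fermat.Agent.Torsion.Analytic.AlgInput

/-!
# Regular flat primitives come from regular differentials

A regular flat primitive `H` has a differential `ω` without poles, with `dH_i = ω` on every disc.
The map `H ↦ (δH, ω)` has finite-dimensional image: the regular differentials are finite
dimensional and `ω = 0` makes every `H i` constant on its disc, so that `δH` is a coboundary.

Owner: helper74.
-/

set_option autoImplicit false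

noncomputable section

open AlgebraicCurve KaehlerDifferential Topology Filter Metric

namespace Fermat.Agent.Torsion.Analytic

open Fermat.Agent.Curve

variable {F : Type*} [Field F] [Algebra ℂ F] [IsFunctionField1 ℂ F] (C : Cover F)

namespace Cover

/-- `ω` is the differential of the primitive `H`. -/
def IsDiffOf (H : Fin C.n → Place ℂ F → ℂ) (ω : Ω[F⁄ℂ]) : Prop :=
  ∀ i, ∃ a : F, ω = a • D ℂ F (C.c i).t ∧ ∀ x ∈ C.U i,
    deriv (fun w => H i ((C.c i).φ.symm w)) =ᶠ[𝓝[≠] ((C.c i).φ x)]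
      fun z => evalC a ((C.c i).φ.symm z)

theorem zero_mem_target (i : Fin C.n) : (0 : ℂ) ∈ (C.c i).φ.target :=
  C.closedBall_subset i (mem_closedBall_self ((C.r_pos i).le.trans (C.r_lt_R i).le))

theorem D_t_ne_zero (i : Fin C.n) : D ℂ F (C.c i).t ≠ 0 :=
  (C.c i).D_ne_zero ((C.c i).φ.map_target (C.zero_mem_target i))

theorem symm_mem_U {i : Fin C.n} {z : ℂ} (hz : z ∈ ball (0 : ℂ) (C.r i)) :
    (C.c i).φ.symm z ∈ C.U i ∧ (C.c i).φ ((C.c i).φ.symm z) = z := by
  have hzt : z ∈ (C.c i).φ.target :=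
    C.closedBall_subset i (ball_subset_closedBall (ball_subset_ball (C.r_lt_R i).le hz))
  exact ⟨⟨(C.c i).φ.map_target hzt, by rw [Set.mem_preimage, (C.c i).φ.right_inv hzt]; exact hz⟩,
    (C.c i).φ.right_inv hzt⟩

variable {C}

theorem meromorphicAt_chart {H : Fin C.n → Place ℂ F → ℂ} (h : C.IsFlatAdd H) {i : Fin C.n}
    {x : Place ℂ F} (hx : x ∈ C.U i) :
    MeromorphicAt (fun w => H i ((C.c i).φ.symm w)) ((C.c i).φ x) :=
  (meroAt_iff (C.c i) hx.1).mp (h.mero i x hx)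

theorem IsDiffOf.add {H H' : Fin C.n → Place ℂ F → ℂ} {ω ω' : Ω[F⁄ℂ]}
    (hH : C.IsFlatAdd H) (hH' : C.IsFlatAdd H') (h : C.IsDiffOf H ω) (h' : C.IsDiffOf H' ω') :
    C.IsDiffOf (fun i => H i + H' i) (ω + ω') := by
  intro i
  obtain ⟨a, ha, hae⟩ := h i
  obtain ⟨b, hb, hbe⟩ := h' i
  refine ⟨a + b, by rw [ha, hb, add_smul], fun x hx => ?_⟩
  filter_upwards [hae x hx, hbe x hx, (meromorphicAt_chart hH hx).eventually_analyticAt,
    (meromorphicAt_chart hH' hx).eventually_analyticAt,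
    ((C.c i).eventually_nhdsNE_iff hx.1 _).mpr (eventually_nhdsNE_mem a x),
    ((C.c i).eventually_nhdsNE_iff hx.1 _).mpr (eventually_nhdsNE_mem b x)]
    with z h1 h2 h3 h4 h5 h6
  rw [evalC_add h5 h6, ← h1, ← h2]
  exact deriv_add h3.differentiableAt h4.differentiableAt

theorem IsDiffOf.smul {H : Fin C.n → Place ℂ F → ℂ} {ω : Ω[F⁄ℂ]} (hH : C.IsFlatAdd H)
    (c : ℂ) (h : C.IsDiffOf H ω) :
    C.IsDiffOf (fun i => (fun _ => c) * H i) (c • ω) := by
  intro i
  obtain ⟨a, ha, hae⟩ := h i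
  refine ⟨c • a, by rw [ha, smul_assoc], fun x hx => ?_⟩
  filter_upwards [hae x hx, (meromorphicAt_chart hH hx).eventually_analyticAt,
    ((C.c i).eventually_nhdsNE_iff hx.1 _).mpr (eventually_nhdsNE_mem a x)] with z h1 h2 h3
  rw [evalC_const_smul h3, ← h1]
  exact deriv_const_mul c h2.differentiableAt

/-- `δH` is additive. -/
theorem delta_add {H H' : Fin C.n → Place ℂ F → ℂ} (hH : C.IsFlatAdd H) (hH' : C.IsFlatAdd H')
    (q : C.Idx) :
    (fun y => (H q.fstIdx + H' q.fstIdx) y - (H q.sndIdx + H' q.sndIdx) y)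
      =ᶠ[𝓝[≠] q.pt] fun _ => C.delta H q + C.delta H' q := by
  filter_upwards [delta_eventuallyEq hH q, delta_eventuallyEq hH' q] with y hy hy'
  rw [← hy, ← hy', Pi.add_apply, Pi.add_apply]
  ring

/-- `δH` is homogeneous. -/
theorem delta_smul {H : Fin C.n → Place ℂ F → ℂ} (hH : C.IsFlatAdd H) (c : ℂ) (q : C.Idx) :
    (fun y => ((fun _ : Place ℂ F => c) * H q.fstIdx) y -
        ((fun _ : Place ℂ F => c) * H q.sndIdx) y)
      =ᶠ[𝓝[≠] q.pt] fun _ => c * C.delta H q := by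
  filter_upwards [delta_eventuallyEq hH q] with y hy
  rw [← hy, Pi.mul_apply, Pi.mul_apply, mul_sub]

variable (C) in
/-- Pairs (cocycle, differential) of regular flat primitives. -/
def regularPairs : Submodule ℂ ((C.Idx → ℂ) × Ω[F⁄ℂ]) where
  carrier := {p | ∃ H, (C.IsFlatAdd H ∧ C.IsRegular H) ∧ p.1 = C.delta H ∧ C.IsDiffOf H p.2}
  zero_mem' := by
    have key : ∀ q : C.Idx,
        (fun y => (fun _ _ => 0 : Fin C.n → Place ℂ F → ℂ) q.fstIdx y -
          (fun _ _ => 0 : Fin C.n → Place ℂ F → ℂ) q.sndIdx y) =ᶠ[𝓝[≠] q.pt] fun _ => 0 :=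
      fun q => Eventually.of_forall fun y => sub_self _
    refine ⟨fun _ _ => 0, ⟨⟨fun _ x _ => meroAt_constFun 0 x, fun q => ⟨_, key q⟩⟩,
      fun _ x _ => meroOrd_constFun_nonneg 0 x⟩,
      funext fun q => (delta_eq_of_eventuallyEq (key q)).symm, fun i => ⟨0, ?_, fun x _ => ?_⟩⟩
    · simp
    · exact Eventually.of_forall fun z => by simp [evalC_zero]
  add_mem' := by
    rintro p p' ⟨H, ⟨hH, hHr⟩, hp, hω⟩ ⟨H', ⟨hH', hHr'⟩, hp', hω'⟩
    exact ⟨fun i => H i + H' i,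
      ⟨⟨fun i x hx => ((hH.mero i x hx).add (hH'.mero i x hx)).1,
        fun q => ⟨_, delta_add hH hH' q⟩⟩,
      fun i x hx => (le_min (hHr i x hx) (hHr' i x hx)).trans
        ((hH.mero i x hx).add (hH'.mero i x hx)).2⟩,
      funext fun q => by
        rw [Prod.fst_add, Pi.add_apply, hp, hp']
        exact (delta_eq_of_eventuallyEq (delta_add hH hH' q)).symm,
      hω.add hH hH' hω'⟩
  smul_mem' := by
    rintro c p ⟨H, ⟨hH, hHr⟩, hp, hω⟩
    exact ⟨fun i => (fun _ => c) * H i,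
      ⟨⟨fun i x hx => ((meroAt_constFun c x).mul (hH.mero i x hx)).1,
        fun q => ⟨_, delta_smul hH c q⟩⟩,
      fun i x hx => ((meroAt_constFun c x).mul (hH.mero i x hx)).2 ▸
        add_nonneg (meroOrd_constFun_nonneg c x) (hHr i x hx)⟩,
      funext fun q => by
        rw [Prod.smul_fst, Pi.smul_apply, smul_eq_mul, hp]
        exact (delta_eq_of_eventuallyEq (delta_smul hH c q)).symm,
      hω.smul hH c⟩

theorem order_deriv_nonneg {h : ℂ → ℂ} {z : ℂ} (hm : MeromorphicAt h z)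
    (h0 : 0 ≤ meromorphicOrderAt h z) : 0 ≤ meromorphicOrderAt (deriv h) z := by
  obtain ⟨G, hG, he⟩ := hm.meromorphicOrderAt_nonneg_iff.mp h0
  rw [meromorphicOrderAt_congr he.nhdsNE_deriv]
  exact hG.deriv.meromorphicOrderAt_nonneg

/-- Two primitives differing by a constant near `x` have the same differential there. -/
theorem eventually_expr_eq {H : Fin C.n → Place ℂ F → ℂ} (hH : C.IsFlatAdd H)
    {t₀ : F} (ht₀ : D ℂ F t₀ ≠ 0) {a : Fin C.n → F}
    (ha : ∀ i, D ℂ F (C.c i).t = a i • D ℂ F t₀) (q : C.Idx) :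
    ∀ᶠ y in 𝓝[≠] q.pt,
      deriv (fun w => H q.fstIdx ((C.c q.fstIdx).φ.symm w)) ((C.c q.fstIdx).φ y) *
          evalC (a q.fstIdx) y =
        deriv (fun w => H q.sndIdx ((C.c q.sndIdx).φ.symm w)) ((C.c q.sndIdx).φ y) *
          evalC (a q.sndIdx) y := by
  set i := q.fstIdx
  set j := q.sndIdx
  set x := q.pt
  have hxi : x ∈ C.U i := q.mem_fst
  have hxj : x ∈ C.U j := q.mem_snd
  obtain ⟨b, hb⟩ := (C.c i).exists_D_eq hxi.1 (C.c j).t
  have hab : a j = b * a i := by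
    refine smul_left_injective F ht₀ ?_
    show a j • D ℂ F t₀ = (b * a i) • D ℂ F t₀
    rw [← ha j, mul_smul, ← ha i, hb]
  have hT : ∀ᶠ y in 𝓝[≠] x,
      deriv (fun w => evalC (C.c j).t ((C.c i).φ.symm w)) ((C.c i).φ y) = evalC b y := by
    refine ((C.c i).eventually_nhdsNE_iff hxi.1 _).mp ?_
    filter_upwards [(C.c i).deriv_evalC hb hxi.1,
      mem_nhdsWithin_of_mem_nhds ((C.c i).φ.open_target.mem_nhds ((C.c i).φ.map_source hxi.1))]
      with z hz hzt
    rwa [(C.c i).φ.right_inv hzt]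
  have hdiff : ∀ᶠ y in 𝓝[≠] x,
      AnalyticAt ℂ (fun w => H j ((C.c j).φ.symm w)) ((C.c j).φ y) :=
    ((C.c j).tendsto_punctured hxj.1).eventually
      (meromorphicAt_chart hH hxj).eventually_analyticAt
  have hflat : ∀ᶠ y in 𝓝[≠] x, ∀ᶠ u in 𝓝 y, H i u - H j u = C.delta H q := by
    have h := eventually_nhdsWithin_iff.mp (delta_eventuallyEq hH q)
    filter_upwards [nhdsWithin_le_nhds (eventually_eventually_nhds.mpr h), self_mem_nhdsWithin]
      with y hy hyx
    filter_upwards [hy, eventually_ne_nhds hyx] with u hu hux using hu hux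
  filter_upwards [hT, hdiff, hflat, eventually_nhdsNE_mem b x, eventually_nhdsNE_mem (a i) x,
    mem_nhdsWithin_of_mem_nhds ((C.c i).φ.open_source.mem_nhds hxi.1),
    mem_nhdsWithin_of_mem_nhds ((C.c j).φ.open_source.mem_nhds hxj.1)]
    with y hTy hdy hfy hby hay hyi hyj
  set z := (C.c i).φ y with hz
  set T : ℂ → ℂ := fun w => evalC (C.c j).t ((C.c i).φ.symm w) with hTdef
  have hTz : T z = (C.c j).φ y := by
    simp only [hTdef, hz, (C.c i).φ.left_inv hyi, (C.c j).apply_eq y hyj]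
  have hTd : DifferentiableAt ℂ T z :=
    ((C.c i).analyticAt (C.c j).t y hyi ((C.c j).mem y hyj)).differentiableAt
  have hloc : (fun w => H i ((C.c i).φ.symm w)) =ᶠ[𝓝 z]
      fun w => (fun w => H j ((C.c j).φ.symm w)) (T w) + C.delta H q := by
    have h := (((C.c i).φ.eventually_nhds' _ hyi).mpr (hfy.and
      ((C.c j).φ.open_source.mem_nhds hyj)))
    filter_upwards [h] with w hw
    obtain ⟨hw1, hw2⟩ := hw
    simp only [hTdef, ← (C.c j).apply_eq _ hw2, (C.c j).φ.left_inv hw2]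
    linear_combination hw1
  have hd : HasDerivAt (fun w => (fun w => H j ((C.c j).φ.symm w)) (T w) + C.delta H q)
      (deriv (fun w => H j ((C.c j).φ.symm w)) ((C.c j).φ y) * deriv T z) z := by
    refine HasDerivAt.add_const _ ?_
    have h2 : HasDerivAt (fun w => H j ((C.c j).φ.symm w))
        (deriv (fun w => H j ((C.c j).φ.symm w)) ((C.c j).φ y)) (T z) := by
      rw [hTz]
      exact hdy.differentiableAt.hasDerivAt
    exact h2.comp z hTd.hasDerivAt
  rw [hloc.deriv_eq, hd.deriv, hTy, hab, evalC_mul hby hay, mul_assoc]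

theorem exists_isDiffOf {H : Fin C.n → Place ℂ F → ℂ} (hH : C.IsFlatAdd H) :
    ∃ ω : Ω[F⁄ℂ], C.IsDiffOf H ω := by
  obtain ⟨P⟩ := exists_place (K := ℂ) (F := F)
  obtain ⟨i₀, -⟩ := exists_mem_U (C := C) P
  set t₀ := (C.c i₀).t
  have ht₀ : D ℂ F t₀ ≠ 0 := C.D_t_ne_zero i₀
  choose a ha using fun i => exists_smul_eq_of_ne_zero ht₀ (D ℂ F (C.c i).t)
  have ha0 : ∀ i, a i ≠ 0 := fun i h => C.D_t_ne_zero i (by rw [← ha i, h, zero_smul])
  set K : Fin C.n → Place ℂ F → ℂ := fun i y =>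
    deriv (fun w => H i ((C.c i).φ.symm w)) ((C.c i).φ y) * evalC (a i) y with hK
  have hKm : ∀ i, ∀ x ∈ C.U i, MeroAt (K i) x := fun i x hx => by
    refine (MeroAt.mul (g := fun y => deriv (fun w => H i ((C.c i).φ.symm w)) ((C.c i).φ y))
      ?_ (meroAt_evalC (a i) x)).1
    rw [meroAt_iff (C.c i) hx.1]
    refine (meromorphicAt_chart hH hx).deriv.congr ?_
    filter_upwards [mem_nhdsWithin_of_mem_nhds
      ((C.c i).φ.open_target.mem_nhds ((C.c i).φ.map_source hx.1))] with z hz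
    rw [(C.c i).φ.right_inv hz]
  obtain ⟨g, hg⟩ := exists_glue hKm fun q =>
    eventually_expr_eq hH ht₀ (fun i => (ha i).symm) q
  obtain ⟨f, hf⟩ := exists_eq_evalC (g := g) fun x => by
    obtain ⟨i, hi⟩ := exists_mem_U (C := C) x
    exact ((hKm i x hi).congr (hg i x hi).symm).1
  refine ⟨f • D ℂ F t₀, fun i => ⟨f / a i, ?_, fun x hx => ?_⟩⟩
  · rw [← ha i, smul_smul, div_mul_cancel₀ _ (ha0 i)]
  · have hy : ∀ᶠ y in 𝓝[≠] x,
        deriv (fun w => H i ((C.c i).φ.symm w)) ((C.c i).φ y) = evalC (f / a i) y := by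
      filter_upwards [hg i x hx, hf x, eventually_nhdsNE_mem (f / a i) x,
        eventually_nhdsNE_mem (a i) x, eventually_nhdsNE_evalC_ne_zero (ha0 i) x]
        with y h1 h2 h3 h4 h5
      refine mul_right_cancel₀ h5 ?_
      rw [← evalC_mul h3 h4, div_mul_cancel₀ _ (ha0 i), ← h2, h1]
    filter_upwards [((C.c i).eventually_nhdsNE_iff hx.1 _).mpr hy,
      mem_nhdsWithin_of_mem_nhds ((C.c i).φ.open_target.mem_nhds ((C.c i).φ.map_source hx.1))]
      with z hz hzt
    rwa [(C.c i).φ.right_inv hzt] at hz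

/-- The differential of a regular primitive has no poles. -/
theorem IsDiffOf.hasSimpleResidue_zero {H : Fin C.n → Place ℂ F → ℂ} {ω : Ω[F⁄ℂ]}
    (hH : C.IsFlatAdd H) (hHr : C.IsRegular H) (h : C.IsDiffOf H ω) (R : Place ℂ F) :
    HasSimpleResidue ω R 0 := by
  intro t ht b hb
  rw [map_zero, zero_div, sub_zero]
  obtain ⟨i, hi⟩ := exists_mem_U (C := C) R
  obtain ⟨a, ha, hae⟩ := h i
  have hord : 0 ≤ meroOrd (evalC a) R := by
    rw [meroOrd_eq (C.c i) hi.1, ← meromorphicOrderAt_congr (hae R hi)]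
    refine order_deriv_nonneg (meromorphicAt_chart hH hi) ?_
    rw [← meroOrd_eq (C.c i) hi.1]
    exact hHr i R hi
  have ham : a ∈ R.toValuationSubring := by
    rcases eq_or_ne a 0 with rfl | ha0
    · exact zero_mem _
    · rw [meroOrd_evalC ha0] at hord
      exact mem_of_ord_nonneg R (WithTop.coe_le_coe.mp hord)
  obtain ⟨u, hu⟩ := exists_coe_smul_D (differentials_fg_of_isCurveOver R) ht
    ⟨(C.c i).t, (C.c i).mem R hi.1⟩
  have hbu : b = a * (u : F) := by
    refine smul_left_injective F (D_ne_zero_of_ord_eq_one R ht) ?_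
    show b • D ℂ F t = (a * (u : F)) • D ℂ F t
    rw [← hb, ha, mul_smul, ← hu]
  rw [hbu]
  exact mul_mem ham u.2

variable (C) in
/-- The coboundary map. -/
def coboundaryMap : (Fin C.n → ℂ) →ₗ[ℂ] (C.Idx → ℂ) where
  toFun κ q := κ q.fstIdx - κ q.sndIdx
  map_add' κ κ' := funext fun q => by simp only [Pi.add_apply]; ring
  map_smul' c κ := funext fun q => by simp only [Pi.smul_apply, smul_eq_mul, RingHom.id_apply]; ring

/-- A primitive with zero differential is constant on every disc. -/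
theorem IsDiffOf.exists_const {H : Fin C.n → Place ℂ F → ℂ}
    (hH : C.IsFlatAdd H) (hHr : C.IsRegular H) (h : C.IsDiffOf H 0) (i : Fin C.n) :
    ∃ k : ℂ, ∀ x ∈ C.U i, H i =ᶠ[𝓝[≠] x] fun _ => k := by
  obtain ⟨a, ha, hae⟩ := h i
  have ha0 : a = 0 := (smul_eq_zero.mp ha.symm).resolve_right (C.D_t_ne_zero i)
  set f : ℂ → ℂ := fun w => H i ((C.c i).φ.symm w) with hf
  set f₁ := toMeromorphicNFOn f (ball (0 : ℂ) (C.r i))
  have hm : MeromorphicOn f (ball (0 : ℂ) (C.r i)) := fun z hz => by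
    obtain ⟨hU, he⟩ := C.symm_mem_U hz
    exact he ▸ meromorphicAt_chart hH hU
  have heq : ∀ z ∈ ball (0 : ℂ) (C.r i), f =ᶠ[𝓝[≠] z] f₁ := fun z hz =>
    ((MeromorphicOn.toMeromorphicNFOn_eq_self_on_nhdsNE hm hz)).symm
  have han : ∀ z ∈ ball (0 : ℂ) (C.r i), AnalyticAt ℂ f₁ z := fun z hz => by
    obtain ⟨hU, he⟩ := C.symm_mem_U hz
    refine ((meromorphicNFOn_toMeromorphicNFOn f _ hz)
      ).meromorphicOrderAt_nonneg_iff_analyticAt.mp ?_
    rw [← meromorphicOrderAt_congr (heq z hz), ← he, ← meroOrd_eq (C.c i) hU.1]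
    exact hHr i _ hU
  have hd : Set.EqOn (deriv f₁) 0 (ball (0 : ℂ) (C.r i)) := fun z hz => by
    obtain ⟨hU, he⟩ := C.symm_mem_U hz
    have h0 : deriv f₁ =ᶠ[𝓝[≠] z] fun _ => 0 := by
      have h1 := hae _ hU
      rw [he, ha0] at h1
      filter_upwards [(heq z hz).nhdsNE_deriv, h1] with w hw hw'
      rw [← hw, hw', evalC_zero]
    exact tendsto_nhds_unique ((han z hz).deriv.continuousAt.tendsto.mono_left nhdsWithin_le_nhds)
      (tendsto_const_nhds.congr' h0.symm)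
  refine ⟨f₁ 0, fun x hx => ((C.c i).eventually_nhdsNE_iff hx.1 _).mp ?_⟩
  filter_upwards [heq _ hx.2, mem_nhdsWithin_of_mem_nhds (isOpen_ball.mem_nhds hx.2)]
    with z hz hzb
  exact hz.trans (isOpen_ball.is_const_of_deriv_eq_zero (convex_ball (0 : ℂ) _).isPreconnected
    (fun w hw => (han w hw).differentiableAt.differentiableWithinAt) hd hzb
    (mem_ball_self (C.r_pos i)))

theorem regularPairs_fg : (C.regularPairs).FG := by
  obtain ⟨s, hs⟩ := finite_regular (K := ℂ) (F := F)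
  refine Submodule.fg_of_fg_map_of_fg_inf_ker (LinearMap.snd ℂ (C.Idx → ℂ) Ω[F⁄ℂ]) ?_ ?_
  · have : FiniteDimensional ℂ (Submodule.span ℂ (s : Set Ω[F⁄ℂ])) :=
      FiniteDimensional.span_finset ℂ s
    have := Submodule.finiteDimensional_of_le
      (show C.regularPairs.map (LinearMap.snd ℂ (C.Idx → ℂ) Ω[F⁄ℂ]) ≤
          Submodule.span ℂ (s : Set Ω[F⁄ℂ]) by
        rintro _ ⟨⟨v, ω⟩, ⟨H, ⟨hH, hHr⟩, -, hω⟩, rfl⟩
        exact hs ω (hω.hasSimpleResidue_zero hH hHr))
    exact Module.Finite.iff_fg.mp this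
  · have : FiniteDimensional ℂ ((LinearMap.range C.coboundaryMap).prod (⊥ : Submodule ℂ Ω[F⁄ℂ])) :=
      Module.Finite.iff_fg.mpr ((Module.Finite.iff_fg.mp inferInstance).prod Submodule.fg_bot)
    have := Submodule.finiteDimensional_of_le
      (show C.regularPairs ⊓ LinearMap.ker (LinearMap.snd ℂ (C.Idx → ℂ) Ω[F⁄ℂ]) ≤
          (LinearMap.range C.coboundaryMap).prod (⊥ : Submodule ℂ Ω[F⁄ℂ]) by
        rintro ⟨v, ω⟩ ⟨⟨H, ⟨hH, hHr⟩, hv, hω⟩, hω0⟩
        have hω0' : ω = 0 := hω0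
        subst hω0'
        choose k hk using hω.exists_const hH hHr
        refine ⟨⟨k, funext fun q => ?_⟩, rfl⟩
        show k q.fstIdx - k q.sndIdx = v q
        rw [show v = C.delta H from hv]
        refine (delta_eq_of_eventuallyEq ?_).symm
        filter_upwards [hk _ _ q.mem_fst, hk _ _ q.mem_snd] with y h1 h2
        rw [h1, h2])
    exact Module.Finite.iff_fg.mp this

end Cover

theorem finiteDimensional_regularCocycles : FiniteDimensional ℂ C.regularCocycles := by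
  have : FiniteDimensional ℂ (C.regularPairs.map (LinearMap.fst ℂ (C.Idx → ℂ) Ω[F⁄ℂ])) :=
    Module.Finite.iff_fg.mpr (Cover.regularPairs_fg.map _)
  refine Submodule.finiteDimensional_of_le
    (show C.regularCocycles ≤ C.regularPairs.map (LinearMap.fst ℂ (C.Idx → ℂ) Ω[F⁄ℂ]) from
      fun v hv => ?_)
  obtain ⟨H, hH, hHr, rfl⟩ := Cover.mem_regularCocycles_iff.mp hv
  obtain ⟨ω, hω⟩ := Cover.exists_isDiffOf hH
  exact ⟨(C.delta H, ω), ⟨H, ⟨hH, hHr⟩, rfl, hω⟩, rfl⟩

end Fermat.Agent.Torsion.Analytic
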