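import Fermat.Agent.Torsion.Analytic.AbelAdditive
import Fermat.Agent.Torsion.Analytic.AbelCoord
import Fermat.Agent.Torsion.Analytic.FlatBasic
import Fermat.Agent.Torsion.Analytic.Family
import Fermat.Agent.Torsion.Analytic.RegularFinite

/-!
# The target of the Abel–Jacobi map

`tau` sends `ℂ^g` to the cocycles of the primitives with a pole at `g` places in general position;
`proj` is a left inverse killing the regular cocycles; `Rep D x` says that the class of `D` is
`exp (tau x)`.
-/

set_option autoImplicit false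

noncomputable section

open AlgebraicCurve Topology Filter Metric

namespace Fermat.Agent.Torsion.Analytic

open Fermat.Agent.Curve

variable {F : Type*} [Field F] [Algebra ℂ F] [IsFunctionField1 ℂ F] (C : Cover F)

namespace Cover

theorem exists_poleForm (P : Place ℂ F) : ∃ K : C.flatAdds, C.HasPoleAt K.1 P := by
  obtain ⟨c, ε, Q₁, G, hP, h0, hε, -, -, -, hH⟩ := exists_family C P
  obtain ⟨H, hH1, hH2, -⟩ := hH 0 (mem_ball_self hε)
  have e : c.φ.symm 0 = P := by rw [← h0]; exact c.φ.left_inv hP
  rw [e] at hH2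
  exact ⟨⟨H, hH1⟩, hH2⟩

/-- A primitive with a simple pole at `P` only. -/
def poleForm (P : Place ℂ F) : C.flatAdds := (C.exists_poleForm P).choose

theorem hasPoleAt_poleForm (P : Place ℂ F) : C.HasPoleAt (C.poleForm P).1 P :=
  (C.exists_poleForm P).choose_spec

variable (F) in
/-- `g` places in general position. -/
def basePts : Fin (genusFF ℂ F) → Place ℂ F :=
  (exists_nonspecial_tuple (K := ℂ) (F := F)).choose

theorem basePts_injective : Function.Injective (basePts F) :=
  (exists_nonspecial_tuple (K := ℂ) (F := F)).choose_spec.1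

theorem riemannRochSpace_basePts :
    riemannRochSpace (∑ m, Finsupp.single (basePts F m) (1 : ℤ)) = Submodule.span ℂ {(1 : F)} :=
  (exists_nonspecial_tuple (K := ℂ) (F := F)).choose_spec.2.1

theorem exists_basePts_pole (Q : Place ℂ F) (hQ : ∀ m, Q ≠ basePts F m) :
    ∃ f : F, f ∈ riemannRochSpace (Finsupp.single Q (1 : ℤ) +
        ∑ m, Finsupp.single (basePts F m) (1 : ℤ)) ∧ Q.ord f = -1 :=
  (exists_nonspecial_tuple (K := ℂ) (F := F)).choose_spec.2.2 Q hQ

theorem sum_single_apply {ι : Type*} [Fintype ι] {P : ι → Place ℂ F} (hP : Function.Injective P)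
    (m : ι) : (∑ k, Finsupp.single (P k) (1 : ℤ)) (P m) = 1 := by
  classical
  rw [Finsupp.finsetSum_apply, Finset.sum_eq_single m]
  · exact Finsupp.single_eq_same
  · intro k _ hk
    exact Finsupp.single_eq_of_ne (fun e => hk (hP e).symm)
  · exact fun h => absurd (Finset.mem_univ m) h

theorem sum_single_apply_of_ne {ι : Type*} [Fintype ι] {P : ι → Place ℂ F} {x : Place ℂ F}
    (hx : ∀ m, x ≠ P m) : (∑ k, Finsupp.single (P k) (1 : ℤ)) x = 0 := by
  classical
  rw [Finsupp.finsetSum_apply]
  exact Finset.sum_eq_zero fun k _ => Finsupp.single_eq_of_ne (hx k)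

theorem mem_flatAdds_evalC (f : F) :
    (fun _ => evalC f : Fin C.n → Place ℂ F → ℂ) ∈ C.flatAdds :=
  ⟨fun _ x _ => meroAt_evalC f x, fun _ => ⟨0, by simp⟩⟩

/-- An element of the field as a flat primitive. -/
def ofField (f : F) : C.flatAdds := ⟨fun _ => evalC f, C.mem_flatAdds_evalC f⟩

@[simp]
theorem deltaLin_ofField (f : F) : C.deltaLin (C.ofField f) = 0 := by
  funext q
  exact delta_eq (Eventually.of_forall fun y => by simp [ofField])

theorem meroOrd_evalC_ge {f : F} {x : Place ℂ F} {k : ℤ} (h : f = 0 ∨ k ≤ x.ord f) :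
    ((k : ℤ) : WithTop ℤ) ≤ meroOrd (evalC f) x := by
  rcases eq_or_ne f 0 with rfl | hf
  · have e : evalC (0 : F) = fun _ : Place ℂ F => (0 : ℂ) := by
      funext y
      simpa using evalC_algebraMap (0 : ℂ) y
    rw [e]
    show ((k : ℤ) : WithTop ℤ) ≤ meromorphicOrderAt (fun _ : ℂ => (0 : ℂ)) 0
    simp [meromorphicOrderAt_const]
  · rw [meroOrd_evalC hf]
    exact WithTop.coe_le_coe.2 (h.resolve_left hf)

theorem ord_ge_of_meroOrd {f : F} {x : Place ℂ F} {k : ℤ}
    (h : ((k : ℤ) : WithTop ℤ) ≤ meroOrd (evalC f) x) : f = 0 ∨ k ≤ x.ord f := by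
  rcases eq_or_ne f 0 with hf | hf
  · exact Or.inl hf
  · rw [meroOrd_evalC hf] at h
    exact Or.inr (WithTop.coe_le_coe.1 h)

theorem exists_U (x : Place ℂ F) : ∃ i, x ∈ C.U i := by
  obtain ⟨i, h1, h2⟩ := C.cover x
  exact ⟨i, h1, h2⟩

/-- `ℂ^g` into cocycles. -/
def tau : (Fin (genusFF ℂ F) → ℂ) →ₗ[ℂ] (C.Idx → ℂ) :=
  Fintype.linearCombination ℂ fun m => C.deltaLin (C.poleForm (basePts F m))

theorem tau_apply (x : Fin (genusFF ℂ F) → ℂ) :
    C.tau x = ∑ m, x m • C.deltaLin (C.poleForm (basePts F m)) :=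
  Fintype.linearCombination_apply ℂ _ x

/-- Primitives with poles at a family in general position are independent modulo regular ones. -/
theorem independent_mod {P : Fin (genusFF ℂ F) → Place ℂ F} (hP : Function.Injective P)
    (hL : riemannRochSpace (∑ m, Finsupp.single (P m) (1 : ℤ)) = Submodule.span ℂ {(1 : F)})
    (K : Fin (genusFF ℂ F) → C.flatAdds) (hK : ∀ m, C.HasPoleAt (K m).1 (P m))
    {x : Fin (genusFF ℂ F) → ℂ} (hx : ∑ m, x m • C.deltaLin (K m) ∈ C.regularCocycles) :
    x = 0 := by
  classical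
  set S : C.flatAdds := ∑ m, x m • K m with hS
  have hd : C.deltaLin S = ∑ m, x m • C.deltaLin (K m) := by simp [hS]
  obtain ⟨f, hf⟩ := exists_of_delta_mem S.2 (show C.delta S.1 ∈ C.regularCocycles by
    rw [← deltaLin_apply, hd]; exact hx)
  have hzero : C.PolesIn (0 : C.flatAdds).1 (Set.range P) := by
    intro i x hx
    have : meroOrd ((0 : C.flatAdds).1 i) x = ⊤ := by
      show meromorphicOrderAt (fun _ : ℂ => (0 : ℂ)) 0 = ⊤
      simp [meromorphicOrderAt_const]
    rw [this]
    exact ⟨le_top, fun _ => le_top⟩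
  have hsum : ∀ s : Finset (Fin (genusFF ℂ F)),
      C.PolesIn (∑ m ∈ s, x m • K m).1 (Set.range P) := by
    intro s
    induction s using Finset.induction_on with
    | empty => simpa using hzero
    | insert a s ha ih =>
      rw [Finset.sum_insert ha]
      exact (((hK a).polesIn (Set.mem_range_self (f := P) a)).smul (x a)).add ih
  have hSP : C.PolesIn S.1 (Set.range P) := hsum _
  set T : C.flatAdds := S - C.ofField f with hT
  have hTreg : C.IsRegular T.1 := fun i y hy => hf i y hy
  have hmem : f ∈ riemannRochSpace (∑ m, Finsupp.single (P m) (1 : ℤ)) := by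
    rw [mem_riemannRochSpace_iff]
    intro y
    obtain ⟨i, hi⟩ := C.exists_U y
    have e : (C.ofField f).1 i = S.1 i + (-1 : ℂ) • T.1 i := by
      funext z
      simp [hT]
    have hge : ∀ k : ℤ, k ≤ 0 → ((k : ℤ) : WithTop ℤ) ≤ meroOrd (S.1 i) y →
        f = 0 ∨ k ≤ y.ord f := by
      intro k hk hkS
      refine ord_ge_of_meroOrd ?_
      have hm : MeroAt ((-1 : ℂ) • T.1 i) y := meroAt_smul (IsFlatAdd.mero T.2 i y hi) _
      have := meroOrd_add_le (IsFlatAdd.mero S.2 i y hi) hm
      rw [← e] at this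
      refine le_trans (le_min hkS ?_) this
      refine meroOrd_smul_ge (IsFlatAdd.mero T.2 i y hi) _ ?_
      exact le_trans (by rw [← WithTop.coe_zero, WithTop.coe_le_coe]; exact hk) (hTreg i y hi)
    by_cases hy : ∃ m, y = P m
    · obtain ⟨m, rfl⟩ := hy
      rw [sum_single_apply hP m]
      exact hge (-1) (by norm_num) (hSP i _ hi).1
    · simp only [not_exists] at hy
      rw [sum_single_apply_of_ne hy, neg_zero]
      exact hge 0 le_rfl ((hSP i y hi).2 fun ⟨m, hm⟩ => hy m hm.symm)
  rw [hL, Submodule.mem_span_singleton] at hmem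
  obtain ⟨a, ha⟩ := hmem
  have hSreg : C.IsRegular S.1 := by
    intro i y hi
    have e : S.1 i = T.1 i + evalC f := by
      funext z
      simp [hT, ofField]
    rw [e]
    refine le_trans (le_min (hTreg i y hi) ?_) (meroOrd_add_le (IsFlatAdd.mero T.2 i y hi)
      (meroAt_evalC f y))
    have := meroOrd_evalC_ge (f := f) (x := y) (k := 0) (by
      rw [← ha, Algebra.smul_def, mul_one]
      exact Or.inr (Fermat.Agent.Curve.ord_algebraMap y a).ge)
    simpa using this
  funext m
  by_contra hxm
  obtain ⟨i, hi⟩ := C.exists_U (P m)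
  set R : C.flatAdds := ∑ k ∈ Finset.univ.erase m, x k • K k with hR
  have hR0 : 0 ≤ meroOrd (R.1 i) (P m) := by
    have : ∀ s : Finset (Fin (genusFF ℂ F)), m ∉ s → 0 ≤ meroOrd ((∑ k ∈ s, x k • K k).1 i) (P m) := by
      intro s
      induction s using Finset.induction_on with
      | empty =>
        intro _
        have := (hzero i _ hi)
        simp only [Finset.sum_empty]
        show 0 ≤ meromorphicOrderAt (fun _ : ℂ => (0 : ℂ)) 0
        simp [meromorphicOrderAt_const]
      | insert a s ha ih =>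
        intro hm
        rw [Finset.mem_insert, not_or] at hm
        rw [Finset.sum_insert ha]
        refine le_trans (le_min ?_ (ih hm.2)) (meroOrd_add_le
          (IsFlatAdd.mero (x a • K a).2 i _ hi) (IsFlatAdd.mero (∑ k ∈ s, x k • K k).2 i _ hi))
        exact meroOrd_smul_ge (IsFlatAdd.mero (K a).2 i _ hi) _
          ((hK a i _ hi).2 fun e => hm.1 (hP e))
    exact this _ (Finset.notMem_erase m _)
  have e : (K m).1 i = (x m)⁻¹ • (S.1 i + (-1 : ℂ) • R.1 i) := by
    have h1 : S = x m • K m + R := by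
      rw [hS, hR, Finset.add_sum_erase _ (fun k => x k • K k) (Finset.mem_univ m)]
    rw [h1]
    funext z
    simp [inv_mul_cancel_left₀ (show x m ≠ 0 by simpa using hxm)]
  have h1 := (hK m i _ hi).1 rfl
  have hmR : MeroAt ((-1 : ℂ) • R.1 i) (P m) := meroAt_smul (IsFlatAdd.mero R.2 i _ hi) _
  have h2 : 0 ≤ meroOrd (S.1 i + (-1 : ℂ) • R.1 i) (P m) :=
    le_trans (le_min (hSreg i _ hi) (meroOrd_smul_ge (IsFlatAdd.mero R.2 i _ hi) _ hR0))
      (meroOrd_add_le (IsFlatAdd.mero S.2 i _ hi) hmR)
  have h3 := meroOrd_smul_ge ((IsFlatAdd.mero S.2 i _ hi).add hmR).1 (x m)⁻¹ h2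
  rw [← e, h1, ← WithTop.coe_zero, WithTop.coe_le_coe] at h3
  norm_num at h3

theorem eq_zero_of_tau_mem {x : Fin (genusFF ℂ F) → ℂ} (hx : C.tau x ∈ C.regularCocycles) :
    x = 0 :=
  C.independent_mod basePts_injective riemannRochSpace_basePts _
    (fun m => C.hasPoleAt_poleForm _) (by rwa [tau_apply] at hx)

/-- The space containing all cocycles of primitives with simple poles. -/
def poleCocycles : Submodule ℂ (C.Idx → ℂ) := LinearMap.range C.tau ⊔ C.regularCocycles

theorem deltaLin_mem_poleCocycles {H : C.flatAdds} {P : Place ℂ F} (hH : C.HasPoleAt H.1 P) :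
    C.deltaLin H ∈ C.poleCocycles := by
  classical
  have key : ∀ H' : C.flatAdds, C.PolesIn H'.1 (Set.range (basePts F)) →
      C.deltaLin H' ∈ C.poleCocycles := by
    intro H' h'
    obtain ⟨x, hx⟩ := exists_combination Finset.univ (basePts F)
      (fun m => C.poleForm (basePts F m)) (fun m _ => C.hasPoleAt_poleForm _) H'
      (by simpa using h')
    rw [← tau_apply] at hx
    have := add_mem (Submodule.mem_sup_left (LinearMap.mem_range_self C.tau x))
      (Submodule.mem_sup_right hx : C.deltaLin H' - C.tau x ∈ C.poleCocycles)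
    rwa [add_sub_cancel] at this
  by_cases hP : ∃ m, P = basePts F m
  · obtain ⟨m, rfl⟩ := hP
    exact key H (hH.polesIn ⟨m, rfl⟩)
  · simp only [not_exists] at hP
    obtain ⟨f, hf, hfP⟩ := exists_basePts_pole P hP
    rw [mem_riemannRochSpace_iff] at hf
    have hfpoles : C.PolesIn (C.ofField f).1 (insert P (Set.range (basePts F))) := by
      intro i x hx
      refine ⟨meroOrd_evalC_ge ((hf x).imp_right fun h => le_trans ?_ h), fun hxS => ?_⟩
      · rcases eq_or_ne x P with rfl | hxP
        · rw [Finsupp.add_apply, Finsupp.single_eq_same, sum_single_apply_of_ne hP]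
          simp
        · rw [Finsupp.add_apply, Finsupp.single_eq_of_ne hxP]
          by_cases hm : ∃ m, x = basePts F m
          · obtain ⟨m, rfl⟩ := hm
            rw [sum_single_apply basePts_injective m]
            simp
          · simp only [not_exists] at hm
            rw [sum_single_apply_of_ne hm]
            simp
      · rw [Set.mem_insert_iff, not_or] at hxS
        have := meroOrd_evalC_ge (f := f) (x := x) (k := 0) ((hf x).imp_right fun h => by
          rw [Finsupp.add_apply, Finsupp.single_eq_of_ne hxS.1,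
            sum_single_apply_of_ne fun m e => hxS.2 ⟨m, e.symm⟩] at h
          simpa using h)
        exact this
    obtain ⟨i₀, hi₀⟩ := C.exists_U P
    obtain ⟨a, ha⟩ := exists_order_nonneg_sub_smul (IsFlatAdd.mero H.2 i₀ P hi₀)
      (IsFlatAdd.mero (C.ofField f).2 i₀ P hi₀) ((hH i₀ P hi₀).1 rfl).ge
      (by
        show meroOrd (evalC f) P = _
        rw [meroOrd_evalC (fun e => by simp [e] at hfP), hfP])
    have hpoles : C.PolesIn (H + (-a) • C.ofField f).1 (insert P (Set.range (basePts F))) :=
      (hH.polesIn (Set.mem_insert _ _)).add (hfpoles.smul (-a))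
    have hkey := key (H + (-a) • C.ofField f) (polesIn_of_one hpoles hi₀ (by
      simpa [meroOrd, Pi.sub_def, Pi.smul_def, Pi.add_def, sub_eq_add_neg] using ha))
    rwa [map_add, map_smul, deltaLin_ofField, smul_zero, add_zero] at hkey

end Cover

end Fermat.Agent.Torsion.Analytic
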