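import Fermat.Agent.Torsion.Analytic.AbelBase
import Mathlib.Topology.Algebra.Module.FiniteDimension

/-!
# Coordinates of divisor classes
-/

set_option autoImplicit false

noncomputable section

open AlgebraicCurve Topology Filter Metric

namespace Fermat.Agent.Torsion.Analytic

open Fermat.Agent.Curve

variable {F : Type*} [Field F] [Algebra ℂ F] [IsFunctionField1 ℂ F] (C : Cover F)

namespace Cover

theorem exists_proj :
    ∃ (T : Finset C.Idx) (e : T → (Fin (genusFF ℂ F) → ℂ)), ∀ (x : Fin (genusFF ℂ F) → ℂ),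
      ∀ w ∈ C.regularCocycles, ∑ q : T, (C.tau x + w) q.1 • e q = x := by
  haveI := finiteDimensional_regularCocycles C
  haveI : FiniteDimensional ℂ C.poleCocycles := by
    unfold poleCocycles
    infer_instance
  let j : ((Fin (genusFF ℂ F) → ℂ) × C.regularCocycles) →ₗ[ℂ] C.poleCocycles :=
    (C.tau.codRestrict C.poleCocycles fun x =>
      Submodule.mem_sup_left (LinearMap.mem_range_self C.tau x)).coprod
      (Submodule.inclusion le_sup_right)
  have hj : ∀ (x : Fin (genusFF ℂ F) → ℂ) (w : C.regularCocycles),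
      ((j (x, w) : C.poleCocycles) : C.Idx → ℂ) = C.tau x + w := fun x w => rfl
  have hinj : LinearMap.ker j = ⊥ := by
    rw [LinearMap.ker_eq_bot']
    rintro ⟨x, w⟩ h
    have h' : C.tau x + w = 0 := by rw [← hj, h]; rfl
    have hx : x = 0 := C.eq_zero_of_tau_mem (by
      rw [eq_neg_of_add_eq_zero_left h']
      exact neg_mem w.2)
    subst hx
    rw [map_zero, zero_add] at h'
    exact Prod.ext rfl (Subtype.ext h')
  obtain ⟨l, hl⟩ := j.exists_leftInverse_of_injective hinj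
  obtain ⟨T, e, he⟩ := exists_eval_repr C.poleCocycles ((LinearMap.fst ℂ _ _).comp l)
  refine ⟨T, e, fun x w hw => ?_⟩
  have := he (j (x, ⟨w, hw⟩))
  rw [LinearMap.comp_apply, show l (j (x, ⟨w, hw⟩)) = (x, ⟨w, hw⟩) from LinearMap.congr_fun hl _,
    hj] at this
  simpa using this.symm

/-- The finite set of points used by `proj`. -/
def projPts : Finset C.Idx := C.exists_proj.choose

/-- Left inverse of `tau`, killing the regular cocycles, using finitely many coordinates. -/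
def proj : (C.Idx → ℂ) →ₗ[ℂ] (Fin (genusFF ℂ F) → ℂ) :=
  ∑ q : C.projPts, (LinearMap.proj q.1 : (C.Idx → ℂ) →ₗ[ℂ] ℂ).smulRight
    (C.exists_proj.choose_spec.choose q)

theorem proj_apply (v : C.Idx → ℂ) :
    C.proj v = ∑ q : C.projPts, v q.1 • C.exists_proj.choose_spec.choose q := by
  simp [proj]

theorem proj_tau_add (x : Fin (genusFF ℂ F) → ℂ) {w : C.Idx → ℂ} (hw : w ∈ C.regularCocycles) :
    C.proj (C.tau x + w) = x := by
  rw [proj_apply]
  exact C.exists_proj.choose_spec.choose_spec x w hw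

theorem sub_tau_proj_mem {v : C.Idx → ℂ} (hv : v ∈ C.poleCocycles) :
    v - C.tau (C.proj v) ∈ C.regularCocycles := by
  obtain ⟨y, ⟨x, rfl⟩, w, hw, rfl⟩ := Submodule.mem_sup.1 hv
  rwa [proj_tau_add C x hw, add_sub_cancel_left]

theorem differentiableOn_proj {v : ℂ → C.Idx → ℂ} {s : Set ℂ}
    (h : ∀ q, DifferentiableOn ℂ (fun z => v z q) s) :
    DifferentiableOn ℂ (fun z => C.proj (v z)) s := by
  simp only [proj_apply]
  exact DifferentiableOn.fun_sum fun q _ => (h q.1).smul_const _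

/-- Periods: additive cocycles with trivial exponential up to regular ones. -/
def periods : AddSubgroup (C.Idx → ℂ) where
  carrier := {v | ∃ w ∈ C.regularCocycles, ∀ q, Complex.exp (v q) = Complex.exp (w q)}
  zero_mem' := ⟨0, zero_mem _, fun _ => rfl⟩
  add_mem' := by
    rintro u v ⟨w, hw, hu⟩ ⟨w', hw', hv⟩
    exact ⟨w + w', add_mem hw hw', fun q => by
      rw [Pi.add_apply, Pi.add_apply, Complex.exp_add, Complex.exp_add, hu, hv]⟩
  neg_mem' := by
    rintro u ⟨w, hw, hu⟩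
    exact ⟨-w, neg_mem hw, fun q => by
      rw [Pi.neg_apply, Pi.neg_apply, Complex.exp_neg, Complex.exp_neg, hu]⟩

/-- The period lattice in `ℂ^g`. -/
def lattice : AddSubgroup (Fin (genusFF ℂ F) → ℂ) :=
  C.periods.comap C.tau.toAddMonoidHom

theorem mem_lattice {x : Fin (genusFF ℂ F) → ℂ} :
    x ∈ C.lattice ↔ ∃ w ∈ C.regularCocycles, ∀ q, Complex.exp (C.tau x q) = Complex.exp (w q) :=
  Iff.rfl

/-- `x` is a coordinate vector of the class of `D`. -/
def Rep (D : Divisor ℂ F) (x : Fin (genusFF ℂ F) → ℂ) : Prop :=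
  ∃ G, C.IsFlatMul (fun y => D y) G ∧ ∃ w ∈ C.regularCocycles,
    ∀ q, C.kappa G q = Complex.exp (C.tau x q + w q)

variable {C}

theorem rep_zero : C.Rep 0 0 := by
  obtain ⟨h1, h2⟩ := isFlatMul_evalC (C := C) (f := (1 : F)) one_ne_zero
  refine ⟨fun _ => evalC 1, ?_, 0, zero_mem _, fun q => ?_⟩
  · simpa using h1
  · rw [h2]; simp

theorem Rep.add {D D' : Divisor ℂ F} {x x' : Fin (genusFF ℂ F) → ℂ} (h : C.Rep D x)
    (h' : C.Rep D' x') : C.Rep (D + D') (x + x') := by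
  obtain ⟨G, hG, w, hw, he⟩ := h
  obtain ⟨G', hG', w', hw', he'⟩ := h'
  obtain ⟨h1, h2⟩ := hG.mul hG'
  refine ⟨fun i => G i * G' i, ?_, w + w', add_mem hw hw', fun q => ?_⟩
  · exact h1
  · rw [h2, Pi.mul_apply, he, he', ← Complex.exp_add, map_add]
    simp only [Pi.add_apply]
    ring_nf

theorem Rep.neg {D : Divisor ℂ F} {x : Fin (genusFF ℂ F) → ℂ} (h : C.Rep D x) :
    C.Rep (-D) (-x) := by
  obtain ⟨G, hG, w, hw, he⟩ := h
  obtain ⟨h1, h2⟩ := hG.inv
  refine ⟨fun i => (G i)⁻¹, ?_, -w, neg_mem hw, fun q => ?_⟩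
  · exact h1
  · rw [h2, Pi.inv_apply, he, ← Complex.exp_neg, map_neg]
    simp only [Pi.neg_apply]
    ring_nf

theorem Rep.sub {D D' : Divisor ℂ F} {x x' : Fin (genusFF ℂ F) → ℂ} (h : C.Rep D x)
    (h' : C.Rep D' x') : C.Rep (D - D') (x - x') := by
  rw [sub_eq_add_neg, sub_eq_add_neg]
  exact h.add h'.neg

theorem Rep.sum {ι : Type*} (s : Finset ι) {D : ι → Divisor ℂ F}
    {x : ι → Fin (genusFF ℂ F) → ℂ} (h : ∀ i ∈ s, C.Rep (D i) (x i)) :
    C.Rep (∑ i ∈ s, D i) (∑ i ∈ s, x i) := by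
  classical
  induction s using Finset.induction_on with
  | empty => simpa using rep_zero
  | insert a s ha ih =>
    rw [Finset.sum_insert ha, Finset.sum_insert ha]
    exact (h a (Finset.mem_insert_self a s)).add (ih fun i hi => h i (Finset.mem_insert_of_mem hi))

theorem Rep.unique {D : Divisor ℂ F} {x x' : Fin (genusFF ℂ F) → ℂ} (h : C.Rep D x)
    (h' : C.Rep D x') : x - x' ∈ C.lattice := by
  obtain ⟨G, hG, w, hw, he⟩ := h
  obtain ⟨G', hG', w', hw', he'⟩ := h'
  obtain ⟨v, hv, hkv⟩ := kappa_eq_mul_exp hG hG'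
  refine (C.mem_lattice).2 ⟨w' - w - v, sub_mem (sub_mem hw' hw) hv, fun q => ?_⟩
  have := hkv q
  rw [he, he', ← Complex.exp_add] at this
  obtain ⟨k, hk⟩ := Complex.exp_eq_exp_iff_exists_int.1 this
  rw [Complex.exp_eq_exp_iff_exists_int]
  refine ⟨-k, ?_⟩
  simp only [map_sub, Pi.sub_apply, Int.cast_neg]
  linear_combination (-1 : ℂ) * hk

theorem rep_of_principal {D : Divisor ℂ F} (hD : D ∈ Divisor.principal (K := ℂ) (F := F)) :
    C.Rep D 0 := by
  obtain ⟨f, hf, h⟩ := Divisor.mem_principal.1 hD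
  obtain ⟨h1, h2⟩ := isFlatMul_evalC (C := C) hf
  refine ⟨fun _ => evalC f, ?_, 0, zero_mem _, fun q => ?_⟩
  · rw [show (fun y => D y) = fun y => y.ord f from funext h]
    exact h1
  · rw [h2]; simp

theorem Rep.principal {D : Divisor ℂ F} {x : Fin (genusFF ℂ F) → ℂ} (h : C.Rep D x)
    (hx : x ∈ C.lattice) : D ∈ Divisor.principal (K := ℂ) (F := F) := by
  obtain ⟨G, hG, w, hw, he⟩ := h
  obtain ⟨u, hu, hxu⟩ := (C.mem_lattice).1 hx
  obtain ⟨f, hf, hord⟩ := exists_of_kappa_eq_exp hG (add_mem hu hw) fun q => by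
    rw [he, Complex.exp_add, hxu, Pi.add_apply, Complex.exp_add]
  exact Divisor.mem_principal.2 ⟨f, hf, fun y => (hord y).symm⟩

variable (C)

/-- Coordinates move holomorphically with the place. -/
theorem exists_local (P₀ : Place ℂ F) :
    ∃ (c : Chart F) (ε : ℝ) (γ : ℂ → Fin (genusFF ℂ F) → ℂ),
      P₀ ∈ c.φ.source ∧ c.φ P₀ = 0 ∧ 0 < ε ∧ ball (0 : ℂ) ε ⊆ c.φ.target ∧
      DifferentiableOn ℂ γ (ball 0 ε) ∧ γ 0 = 0 ∧
      (∀ z ∈ ball (0 : ℂ) ε,
        C.Rep (Finsupp.single (c.φ.symm z) (1 : ℤ) - Finsupp.single P₀ 1) (γ z)) ∧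
      ∀ z ∈ ball (0 : ℂ) ε, ∃ K : C.flatAdds, C.HasPoleAt K.1 (c.φ.symm z) ∧
        HasDerivAt γ (C.proj (C.deltaLin K)) z := by
  classical
  obtain ⟨c, ε, Q₁, G, hP, h0, hε, hball, hflat, hdiff, hH⟩ := exists_family C P₀
  set κ : ℂ → C.Idx → ℂ := fun z => C.kappa (G z) with hκ
  have hκ0 : ∀ z ∈ ball (0 : ℂ) ε, ∀ q, κ z q ≠ 0 := fun z hz q => kappa_ne_zero (hflat z hz) q
  set δ : ℂ → C.Idx → ℂ := fun z q => deriv (fun w => κ w q) z / κ z q with hδ
  have hδd : ∀ q, DifferentiableOn ℂ (fun z => δ z q) (ball 0 ε) := fun q =>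
    ((hdiff q).deriv isOpen_ball).div (hdiff q) fun z hz => hκ0 z hz q
  have hδK : ∀ z ∈ ball (0 : ℂ) ε, ∃ K : C.flatAdds,
      C.HasPoleAt K.1 (c.φ.symm z) ∧ δ z = C.deltaLin K := by
    intro z hz
    obtain ⟨H, hH1, hH2, hH3⟩ := hH z hz
    refine ⟨⟨H, hH1⟩, hH2, funext fun q => ?_⟩
    show deriv (fun w => κ w q) z / κ z q = C.delta H q
    rw [div_eq_iff (hκ0 z hz q), mul_comm]
    exact hH3 q
  have hδmem : ∀ z ∈ ball (0 : ℂ) ε, δ z ∈ C.poleCocycles := by
    intro z hz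
    obtain ⟨K, hK, e⟩ := hδK z hz
    rw [e]
    exact C.deltaLin_mem_poleCocycles hK
  -- the motion in `ℂ^g`
  have hpd : DifferentiableOn ℂ (fun z => C.proj (δ z)) (ball 0 ε) := C.differentiableOn_proj hδd
  obtain ⟨γ₀, hγ₀⟩ := hpd.isExactOn_ball
  set γ : ℂ → Fin (genusFF ℂ F) → ℂ := fun z => γ₀ z - γ₀ 0 with hγ
  have hγd : ∀ z ∈ ball (0 : ℂ) ε, HasDerivAt γ (C.proj (δ z)) z := fun z hz =>
    (hγ₀ z hz).sub_const _
  -- the motion in the regular cocycles
  haveI := finiteDimensional_regularCocycles C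
  set b := Module.finBasis ℂ C.regularCocycles with hb
  obtain ⟨T, e, he⟩ := exists_eval_repr C.regularCocycles b.equivFun.toLinearMap
  set ν : ℂ → C.Idx → ℂ := fun z => δ z - C.tau (C.proj (δ z)) with hν
  have hνmem : ∀ z ∈ ball (0 : ℂ) ε, ν z ∈ C.regularCocycles := fun z hz =>
    C.sub_tau_proj_mem (hδmem z hz)
  have hνd : ∀ q, DifferentiableOn ℂ (fun z => ν z q) (ball 0 ε) := by
    intro q
    refine (hδd q).sub ?_
    have e' : (fun z => C.tau (C.proj (δ z)) q)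
        = fun z => ∑ m, C.proj (δ z) m * C.deltaLin (C.poleForm (basePts F m)) q := by
      funext z
      simp [tau_apply, Finset.sum_apply]
    rw [e']
    exact DifferentiableOn.fun_sum fun m _ => ((differentiableOn_pi.1 hpd) m).mul_const _
  set d : ℂ → Fin (Module.finrank ℂ C.regularCocycles) → ℂ :=
    fun z => ∑ q : T, ν z q.1 • e q with hd
  have hdd : DifferentiableOn ℂ d (ball 0 ε) :=
    DifferentiableOn.fun_sum fun q _ => (hνd q.1).smul_const _
  obtain ⟨D₀, hD₀⟩ := hdd.isExactOn_ball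
  set w : ℂ → C.regularCocycles := fun z => ∑ l, (D₀ z l - D₀ 0 l) • b l with hw
  have hwd : ∀ z ∈ ball (0 : ℂ) ε, ∀ q,
      HasDerivAt (fun t => (w t : C.Idx → ℂ) q) (ν z q) z := by
    intro z hz q
    have hrepr : d z = b.equivFun ⟨ν z, hνmem z hz⟩ := (he ⟨ν z, hνmem z hz⟩).symm
    have hsum : (⟨ν z, hνmem z hz⟩ : C.regularCocycles) = ∑ l, d z l • b l := by
      rw [hrepr, b.sum_equivFun]
    have hsum' : ν z q = ∑ l, d z l * (b l : C.Idx → ℂ) q := by
      have := congrArg (fun u : C.regularCocycles => (u : C.Idx → ℂ) q) hsum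
      simpa [Finset.sum_apply] using this
    rw [hsum']
    have e' : (fun t => (w t : C.Idx → ℂ) q)
        = fun t => ∑ l, (D₀ t l - D₀ 0 l) * (b l : C.Idx → ℂ) q := by
      funext t
      simp [hw, Finset.sum_apply]
    rw [e']
    exact HasDerivAt.fun_sum fun l _ =>
      (((hasDerivAt_pi.1 (hD₀ z hz)) l).sub_const _).mul_const _
  have hw0 : ∀ q, (w 0 : C.Idx → ℂ) q = 0 := by
    intro q
    simp [hw]
  have hγ0 : γ 0 = 0 := by simp [hγ]
  have hexp : ∀ z ∈ ball (0 : ℂ) ε, ∀ q,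
      κ z q = κ 0 q * Complex.exp (C.tau (γ z) q + (w z : C.Idx → ℂ) q) := by
    intro z hz q
    set Φ : ℂ → ℂ := fun t => κ t q * Complex.exp (-(C.tau (γ t) q + (w t : C.Idx → ℂ) q)) with hΦ
    have hΦd : ∀ t ∈ ball (0 : ℂ) ε, HasDerivAt Φ 0 t := by
      intro t ht
      have hk : HasDerivAt (fun u => κ u q) (κ t q * δ t q) t := by
        have h := ((hdiff q).differentiableAt (isOpen_ball.mem_nhds ht)).hasDerivAt
        rwa [show κ t q * δ t q = deriv (fun w => C.kappa (G w) q) t from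
          mul_div_cancel₀ _ (hκ0 t ht q)]
      have ht1 : HasDerivAt (fun u => C.tau (γ u) q) (C.tau (C.proj (δ t)) q) t := by
        have e' : ∀ x, C.tau x q = ∑ m, x m * C.deltaLin (C.poleForm (basePts F m)) q := by
          intro x
          simp [tau_apply, Finset.sum_apply]
        simp only [e']
        exact HasDerivAt.fun_sum fun m _ => ((hasDerivAt_pi.1 (hγd t ht)) m).mul_const _
      have := hk.mul ((ht1.add (hwd t ht q)).neg.cexp)
      refine this.congr_deriv ?_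
      simp only [hν, Pi.sub_apply, Pi.add_apply, Pi.neg_apply]
      ring
    have hc := isOpen_ball.is_const_of_deriv_eq_zero (convex_ball (0 : ℂ) ε).isPreconnected
      (fun t ht => (hΦd t ht).differentiableAt.differentiableWithinAt)
      (fun t ht => (hΦd t ht).deriv) hz (mem_ball_self hε)
    simp only [hΦ, hγ0, map_zero, Pi.zero_apply, hw0, add_zero, neg_zero, Complex.exp_zero,
      mul_one] at hc
    rw [← hc, mul_assoc, ← Complex.exp_add, neg_add_cancel, Complex.exp_zero, mul_one]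
  refine ⟨c, ε, γ, hP, h0, hε, hball, fun z hz => (hγd z hz).differentiableAt.differentiableWithinAt,
    hγ0, fun z hz => ?_, fun z hz => ?_⟩
  · have hP0 : c.φ.symm 0 = P₀ := by rw [← h0]; exact c.φ.left_inv hP
    obtain ⟨h1, h2⟩ := (hflat z hz).mul (hflat 0 (mem_ball_self hε)).inv.1
    refine ⟨fun i => G z i * (G 0 i)⁻¹, ?_, (w z : C.Idx → ℂ), (w z).2, fun q => ?_⟩
    · convert h1 using 1
      funext y
      rw [hP0]
      simp only [Pi.add_apply, Pi.neg_apply, Finsupp.sub_apply]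
      ring
    · rw [h2, Pi.mul_apply, (hflat 0 (mem_ball_self hε)).inv.2, Pi.inv_apply]
      show κ z q * (κ 0 q)⁻¹ = _
      rw [hexp z hz q, mul_comm (κ 0 q), mul_assoc, mul_inv_cancel₀ (hκ0 0 (mem_ball_self hε) q),
        mul_one]
  · obtain ⟨K, hK, e⟩ := hδK z hz
    exact ⟨K, hK, e ▸ hγd z hz⟩

end Cover

end Fermat.Agent.Torsion.Analytic
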