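import Mathlib.Analysis.Calculus.ImplicitContDiff
import Mathlib.Analysis.Analytic.Polynomial
import Mathlib.Analysis.Complex.Basic
import Mathlib.Algebra.Polynomial.Bivariate
import Mathlib.Analysis.Calculus.Deriv.Polynomial

/-!
# A simple root of `m(z, Y)` continues analytically and uniquely
-/

set_option autoImplicit false

noncomputable section

open Polynomial Filter
open scoped Topology ContDiff

namespace Fermat.Agent.Torsion.Analytic

theorem evalEval_eq_eval_map (m : ℂ[X][X]) (z w : ℂ) :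
    m.evalEval z w = (m.map (evalRingHom z)).eval w :=
  (map_evalRingHom_eval z w m).symm

theorem contDiff_evalEval (m : ℂ[X][X]) :
    ContDiff ℂ ω fun u : ℂ × ℂ => m.evalEval u.1 u.2 := by
  have h : ∀ a w : ℂ, m.evalEval a w = m.sum fun n c => c.eval a * w ^ n := by
    intro a w
    rw [evalEval_eq_eval_map, eval_map, eval₂_def]
    rfl
  simp only [h, Polynomial.sum]
  refine ContDiff.sum fun n _ => ?_
  refine ContDiff.mul ?_ (contDiff_snd.pow n)
  have : AnalyticOnNhd ℂ (fun u : ℂ × ℂ => aeval u.1 (m.coeff n)) Set.univ :=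
    analyticOnNhd_fst.aeval_polynomial _
  simpa [coe_aeval_eq_eval] using this.contDiff

theorem continuous_evalEval (m : ℂ[X][X]) :
    Continuous fun u : ℂ × ℂ => m.evalEval u.1 u.2 :=
  (contDiff_evalEval m).continuous

theorem analyticAt_evalEval (q : ℂ[X][X]) {η : ℂ → ℂ} {z : ℂ} (hη : AnalyticAt ℂ η z) :
    AnalyticAt ℂ (fun s => q.evalEval s (η s)) z :=
  AnalyticAt.comp' (g := fun u : ℂ × ℂ => q.evalEval u.1 u.2) (f := fun s => (s, η s))
    ((contDiff_evalEval q).contDiffAt.analyticAt) (analyticAt_id.prod hη)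

/-- The implicit function at a simple root. -/
theorem exists_implicit_root {m : ℂ[X][X]} {a w : ℂ} (h0 : m.evalEval a w = 0)
    (hd : (derivative m).evalEval a w ≠ 0) :
    ∃ η : ℂ → ℂ, AnalyticAt ℂ η a ∧ η a = w ∧ (∀ᶠ z in 𝓝 a, m.evalEval z (η z) = 0) ∧
      ∀ᶠ u in 𝓝 (a, w), m.evalEval u.1 u.2 = 0 → η u.1 = u.2 := by
  set f : ℂ × ℂ → ℂ := fun u => m.evalEval u.1 u.2 with hf
  have cdf : ContDiffAt ℂ ω f (a, w) := (contDiff_evalEval m).contDiffAt
  have pn : (ω : WithTop ℕ∞) ≠ 0 := by simp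
  have hd' : (m.map (evalRingHom a)).derivative.eval w ≠ 0 := by
    rwa [derivative_map, ← evalEval_eq_eval_map]
  have hinr : fderiv ℂ f (a, w) ∘L .inr ℂ ℂ ℂ =
      ContinuousLinearMap.toSpanSingleton ℂ ((m.map (evalRingHom a)).derivative.eval w) := by
    refine HasFDerivAt.unique (f := fun y => f (a, y)) (x := w) ?_ ?_
    · exact ((cdf.differentiableAt pn).hasFDerivAt).comp w (hasFDerivAt_prodMk_right a w)
    · have : (fun y => f (a, y)) = fun y => (m.map (evalRingHom a)).eval y := by
        funext y; exact evalEval_eq_eval_map m a y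
      rw [this]
      exact ((m.map (evalRingHom a)).hasDerivAt w).hasFDerivAt
  have if₂ : (fderiv ℂ f (a, w) ∘L .inr ℂ ℂ ℂ).IsInvertible := by
    rw [hinr]
    exact ⟨ContinuousLinearEquiv.unitsEquivAut ℂ (Units.mk0 _ hd'), by ext; simp⟩
  refine ⟨cdf.implicitFunction pn if₂, (cdf.contDiffAt_implicitFunction pn if₂).analyticAt,
    cdf.implicitFunction_apply_self pn if₂, ?_, ?_⟩
  · filter_upwards [cdf.eventually_apply_implicitFunction pn if₂] with z hz
    exact hz.trans h0
  · filter_upwards [cdf.eventually_apply_eq_iff_implicitFunction pn if₂] with u hu h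
    exact hu.mp (h.trans h0.symm)

end Fermat.Agent.Torsion.Analytic
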