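import Fermat.Agent.Torsion.Analytic.ChartAlgebra
import Fermat.Agent.Torsion.Analytic.ImplicitRoot
import Mathlib.Analysis.Meromorphic.Order

/-!
# A uniformiser is a local homeomorphism in which every function is meromorphic

Near `P` the pair `(t, y)` of the plane model identifies the places with the graph of the implicit
root `η`; the inverse is continuous because the space of places is compact.
-/

set_option autoImplicit false

noncomputable section

open AlgebraicCurve Polynomial Topology Filter OnePoint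

namespace Fermat.Agent.Torsion.Analytic

open Fermat.Agent.Curve

variable {F : Type*} [Field F] [Algebra ℂ F] [IsFunctionField1 ℂ F]

theorem evalC_one (P : Place ℂ F) : evalC (1 : F) P = 1 := by
  simpa using evalC_algebraMap (1 : ℂ) P

theorem evalC_zero (P : Place ℂ F) : evalC (0 : F) P = 0 :=
  (evalC_eq_zero_iff (zero_mem _)).mpr (Or.inl rfl)

theorem evalC_pow {f : F} {P : Place ℂ F} (hf : f ∈ P.toValuationSubring) :
    ∀ k : ℕ, evalC (f ^ k) P = evalC f P ^ k
  | 0 => by simp [evalC_one]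
  | k + 1 => by rw [pow_succ, pow_succ, evalC_mul (pow_mem hf k) hf, evalC_pow hf k]

theorem inv_mem_and_evalC_inv {f : F} {P : Place ℂ F} (hf : f ∈ P.toValuationSubring)
    (h0 : evalC f P ≠ 0) :
    f⁻¹ ∈ P.toValuationSubring ∧ evalC f⁻¹ P = (evalC f P)⁻¹ := by
  have h := mt (evalC_eq_zero_iff hf).mpr h0
  rw [not_or] at h
  have hord := ord_nonneg_of_mem P hf
  have hinv : f⁻¹ ∈ P.toValuationSubring := mem_of_ord_nonneg P (by rw [P.ord_inv]; omega)
  refine ⟨hinv, eq_inv_of_mul_eq_one_right ?_⟩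
  rw [← evalC_mul hf hinv, mul_inv_cancel₀ h.1, evalC_one]

theorem zpow_mem_and_evalC_zpow {f : F} {P : Place ℂ F} (hf : f ∈ P.toValuationSubring)
    (h0 : evalC f P ≠ 0) (k : ℤ) :
    f ^ k ∈ P.toValuationSubring ∧ evalC (f ^ k) P = evalC f P ^ k := by
  obtain ⟨n, rfl | rfl⟩ := k.eq_nat_or_neg
  · simp [evalC_pow hf, pow_mem hf]
  · obtain ⟨h1, h2⟩ := inv_mem_and_evalC_inv (pow_mem hf n)
      (by rw [evalC_pow hf]; exact pow_ne_zero n h0)
    rw [zpow_neg, zpow_natCast, zpow_neg, zpow_natCast]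
    exact ⟨h1, by rw [h2, evalC_pow hf]⟩

/-- A uniformiser is a chart, topologically. -/
theorem exists_localHomeo (P : Place ℂ F) (t : F) (ht : P.ord t = 1) :
    ∃ φ : OpenPartialHomeomorph (Place ℂ F) ℂ, P ∈ φ.source ∧ ∀ Q ∈ φ.source,
      φ Q = evalC t Q ∧ t ∈ Q.toValuationSubring ∧
        Q.ord (t - algebraMap ℂ F (evalC t Q)) = 1 := by
  classical
  have htr := transcendental_of_ord_eq_one ht
  have htP : t ∈ P.toValuationSubring := mem_of_ord_nonneg P (by omega)
  have htP0 : evalC t P = 0 := (evalC_eq_zero_iff htP).mpr (Or.inr (by omega))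
  obtain ⟨y, m, r, hy, hyP, -, hm, hdvd, hd, hr1, hr⟩ := exists_plane_model ht
  have hm01 : m.evalEval 0 1 = 0 := by
    have h := evalC_biEval htP hy m
    rw [hm, evalC_zero, htP0, hyP] at h
    exact h.symm
  obtain ⟨η, hη, hη1, hroot, huniq⟩ := exists_implicit_root hm01 hd
  obtain ⟨O, hO, hOo, hO1⟩ := eventually_nhds_iff.mp (huniq.and
    (((continuous_evalEval r).continuousAt.eventually_ne (y := (0 : ℂ)) (x := ((0 : ℂ), (1 : ℂ)))
      (by simp [hr1])).and ((continuous_evalEval (derivative m)).continuousAt.eventually_ne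
      (y := (0 : ℂ)) (x := ((0 : ℂ), (1 : ℂ))) (by simpa using hd))))
  obtain ⟨D, hD, hDo, hD0⟩ := eventually_nhds_iff.mp (hη.eventually_analyticAt.and hroot)
  set T : Set ℂ := D ∩ (fun z => (z, η z)) ⁻¹' O
  have hηc : ContinuousOn η D := fun z hz => (hD z hz).1.continuousAt.continuousWithinAt
  have hTo : IsOpen T := (continuousOn_id.prodMk hηc).isOpen_inter_preimage hDo hOo
  set M : Set (Place ℂ F) := {Q | t ∈ Q.toValuationSubring}
  have hpair : ContinuousOn (fun Q => (evalC t Q, evalC y Q)) M :=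
    (continuousOn_evalC t).prodMk ((continuousOn_evalC y).mono fun Q hQ => hy Q hQ)
  set U : Set (Place ℂ F) := M ∩ (fun Q => (evalC t Q, evalC y Q)) ⁻¹' (O ∩ Prod.fst ⁻¹' D)
  have hUo : IsOpen U :=
    hpair.isOpen_inter_preimage (isOpen_setOf_mem t) (hOo.inter (hDo.preimage continuous_fst))
  have hηU : ∀ Q ∈ U, η (evalC t Q) = evalC y Q := by
    intro Q hQ
    refine (hO _ hQ.2.1).1 ?_
    rw [← evalC_biEval hQ.1 hy, hm]
    exact (evalC_eq_zero_iff (zero_mem _)).mpr (Or.inl rfl)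
  have hUT : ∀ Q ∈ U, evalC t Q ∈ T := by
    intro Q hQ
    refine ⟨hQ.2.2, ?_⟩
    show (evalC t Q, η (evalC t Q)) ∈ O
    rw [hηU Q hQ]
    exact hQ.2.1
  have hex : ∀ z ∈ T, ∃ Q, Q ∈ U ∧ evalC t Q = z := by
    intro z hz
    obtain ⟨Q, hQ, hQz, hQy⟩ := exists_place_values htr hdvd (hD z hz.1).2
    refine ⟨Q, ⟨hQ, ?_⟩, hQz⟩
    simp only [Set.mem_preimage, Set.mem_inter_iff, hQz, hQy]
    exact ⟨hz.2, hz.1⟩
  have hinj : ∀ Q ∈ U, ∀ Q' ∈ U, evalC t Q' = evalC t Q → Q' = Q := by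
    intro Q hQ Q' hQ' h
    exact eq_of_values htr hy hr hQ.1 hQ'.1 h (by rw [← hηU Q hQ, ← hηU Q' hQ', h])
      (hO _ hQ.2.1).2.1
  have : Nonempty (Place ℂ F) := ⟨P⟩
  choose! g hgU hgz using hex
  have hgc : ContinuousOn g T := by
    intro z₀ hz₀
    refine ContinuousAt.continuousWithinAt fun W hW => ?_
    rw [mem_map]
    obtain ⟨W₀, hW₀, hW₀o, hgW₀⟩ := _root_.mem_nhds_iff.mp hW
    set K := (fun Q : Place ℂ F => (evalPt Q t, evalPt Q y)) '' W₀ᶜ with hK
    have hKc : IsClosed K := (hW₀o.isClosed_compl.isCompact.image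
      ((continuous_evalPt t).prodMk (continuous_evalPt y))).isClosed
    have hnot : ((z₀ : OnePoint ℂ), (η z₀ : OnePoint ℂ)) ∉ K := by
      rintro ⟨Q, hQW, hQ⟩
      simp only [Prod.mk.injEq, evalPt_eq_coe_iff] at hQ
      obtain ⟨⟨hQt, hQz⟩, -, hQy⟩ := hQ
      have hQU : Q ∈ U := by
        refine ⟨hQt, ?_⟩
        simp only [Set.mem_preimage, Set.mem_inter_iff, hQz, hQy]
        exact ⟨hz₀.2, hz₀.1⟩
      exact hQW ((hinj (g z₀) (hgU z₀ hz₀) Q hQU (by rw [hQz, hgz z₀ hz₀])) ▸ hgW₀)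
    have hcont : ContinuousAt (fun z : ℂ => ((z : OnePoint ℂ), (η z : OnePoint ℂ))) z₀ :=
      (OnePoint.continuous_coe.continuousAt).prodMk
        (OnePoint.continuous_coe.continuousAt.comp (hD z₀ hz₀.1).1.continuousAt)
    filter_upwards [hcont.preimage_mem_nhds (hKc.isOpen_compl.mem_nhds hnot),
      hTo.mem_nhds hz₀] with z hzK hzT
    refine hW₀ ?_
    by_contra hn
    refine hzK ⟨g z, hn, ?_⟩
    obtain ⟨hU1, -⟩ := hgU z hzT
    simp only [Prod.mk.injEq, evalPt_eq_coe_iff]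
    exact ⟨⟨hU1, hgz z hzT⟩, hy _ hU1, by rw [← hηU _ (hgU z hzT), hgz z hzT]⟩
  refine ⟨{
    toFun := fun Q => evalC t Q
    invFun := g
    source := U
    target := T
    map_source' := hUT
    map_target' := hgU
    left_inv' := fun Q hQ => hinj Q hQ _ (hgU _ (hUT Q hQ)) (hgz _ (hUT Q hQ))
    right_inv' := hgz
    open_source := hUo
    open_target := hTo
    continuousOn_toFun := (continuousOn_evalC t).mono fun Q hQ => hQ.1
    continuousOn_invFun := hgc }, ?_, ?_⟩
  · refine ⟨htP, ?_⟩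
    simp only [Set.mem_preimage, Set.mem_inter_iff, htP0, hyP]
    exact ⟨hO1, hD0⟩
  · exact fun Q hQ => ⟨rfl, hQ.1, ord_sub_evalC_eq_one htr hy hm hr hQ.1
      (hO _ hQ.2.1).2.2 (hO _ hQ.2.1).2.1⟩

variable {t : F} {φ : OpenPartialHomeomorph (Place ℂ F) ℂ}
  (hφ : ∀ Q ∈ φ.source, φ Q = evalC t Q ∧ t ∈ Q.toValuationSubring ∧
    Q.ord (t - algebraMap ℂ F (evalC t Q)) = 1)

include hφ

theorem eventually_evalC_sub {Q : Place ℂ F} (hQ : Q ∈ φ.source) :
    ∀ᶠ z in 𝓝 (φ Q), φ.symm z ∈ φ.source ∧ evalC t (φ.symm z) = z ∧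
      t ∈ (φ.symm z).toValuationSubring ∧
      evalC (t - algebraMap ℂ F (φ Q)) (φ.symm z) = z - φ Q := by
  filter_upwards [φ.open_target.mem_nhds (φ.map_source hQ)] with z hz
  have hs := φ.map_target hz
  have hv : evalC t (φ.symm z) = z := by rw [← (hφ _ hs).1, φ.right_inv hz]
  exact ⟨hs, hv, (hφ _ hs).2.1, by
    rw [evalC_sub (hφ _ hs).2.1 (Place.algebraMap_mem' _ _), evalC_algebraMap, hv]⟩

/-- A function is analytic in the uniformiser at each place where it is regular. -/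
theorem analyticAt_symm {Q : Place ℂ F} (hQ : Q ∈ φ.source) {f : F}
    (hf : f ∈ Q.toValuationSubring) :
    AnalyticAt ℂ (fun z => evalC f (φ.symm z)) (φ Q) := by
  classical
  obtain ⟨hφQ, htQ, hord⟩ := hφ Q hQ
  set c := φ Q
  set t' := t - algebraMap ℂ F c with ht'def
  have hord' : Q.ord t' = 1 := by rw [ht'def, hφQ]; exact hord
  have htr := transcendental_of_ord_eq_one hord'
  have ht'0 : t' ≠ 0 := fun h => by simp [h] at hord'
  have ht'Q : t' ∈ Q.toValuationSubring := mem_of_ord_nonneg Q (by omega)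
  obtain ⟨y, m, r, hy, hy1, hy0, hm, -, hd, hr1, hr⟩ := exists_plane_model hord'
  have ht'v : evalC t' Q = 0 := (evalC_eq_zero_iff ht'Q).mpr (Or.inr (by omega))
  have hm01 : m.evalEval 0 1 = 0 := by
    have h := evalC_biEval ht'Q hy m
    rw [hm, evalC_zero, ht'v, hy1] at h
    exact h.symm
  obtain ⟨η, hη, hη1, -, huniq⟩ := exists_implicit_root hm01 hd
  set S := (finite_fibre htr 0).toFinset
  set N := ∑ R ∈ S, (-R.ord f).toNat
  obtain ⟨p, hp0, hp⟩ := exists_poly_mul_mem htr (f * y ^ N) 0 fun R h1 h2 => by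
    by_cases hRQ : R = Q
    · exact mul_mem (hRQ ▸ hf) (pow_mem (hy R h1) N)
    by_cases hfR : f ∈ R.toValuationSubring
    · exact mul_mem hfR (pow_mem (hy R h1) N)
    have hneg : R.ord f < 0 := not_le.mp fun h => hfR (mem_of_ord_nonneg R h)
    have hf0 : f ≠ 0 := fun h => hfR (h ▸ zero_mem _)
    have hN : -R.ord f ≤ N := by
      have := Finset.single_le_sum (f := fun R => (-R.ord f).toNat) (fun _ _ => Nat.zero_le _)
        (show R ∈ S by simp [S, h1, h2])
      omega
    have ht'R : 0 < R.ord t' := ((evalC_eq_zero_iff h1).mp h2).resolve_left ht'0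
    rcases eq_or_ne y 0 with hy00 | hy00
    · rw [hy00, zero_pow (by omega), mul_zero]; exact zero_mem _
    refine mem_of_ord_nonneg R ?_
    have h3 : 1 ≤ R.ord y :=
      ((evalC_eq_zero_iff (hy R h1)).mp (hy0 R ht'R hRQ)).resolve_left hy00
    rw [R.ord_mul hf0 (pow_ne_zero _ hy00), ord_pow]
    nlinarith
  obtain ⟨q, hq⟩ := hr _ hp
  have hden : ∀ᶠ z in 𝓝 c, r.evalEval (z - c) (η (z - c)) * p.eval (z - c) * η (z - c) ^ N ≠ 0 := by
    have hsub : AnalyticAt ℂ (fun z : ℂ => z - c) c := analyticAt_id.sub analyticAt_const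
    have hη' : AnalyticAt ℂ η (c - c) := by rwa [sub_self]
    refine ContinuousAt.eventually_ne ?_ (by simp [hη1, hr1, hp0])
    exact ((((analyticAt_evalEval r hη').fun_comp (f := fun z : ℂ => z - c) hsub).continuousAt).mul
      (p.continuous.continuousAt.comp (hsub.continuousAt))).mul
      ((hη'.fun_comp (f := fun z : ℂ => z - c) hsub).continuousAt.pow N)
  have hev : ∀ᶠ z in 𝓝 c, evalC f (φ.symm z) =
      q.evalEval (z - c) (η (z - c)) /
        (r.evalEval (z - c) (η (z - c)) * p.eval (z - c) * η (z - c) ^ N) := by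
    have hsymm : ContinuousAt φ.symm c := φ.continuousAt_symm (φ.map_source hQ)
    have hQ' : φ.symm c = Q := φ.left_inv hQ
    have hO : IsOpen ({R : Place ℂ F | f ∈ R.toValuationSubring} ∩
        {R | t' ∈ R.toValuationSubring}) := (isOpen_setOf_mem f).inter (isOpen_setOf_mem t')
    have hmemO := hsymm.preimage_mem_nhds (hO.mem_nhds
      (show φ.symm c ∈ _ by rw [hQ']; exact ⟨hf, ht'Q⟩))
    have hpairc : ContinuousAt (fun z => (z - c, evalC y (φ.symm z))) c := by
      refine ContinuousAt.prodMk (by fun_prop) (ContinuousAt.comp' (g := evalC y) ?_ hsymm)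
      rw [hQ']
      exact (continuousOn_evalC y).continuousAt
        ((isOpen_setOf_mem y).mem_nhds (hy Q ht'Q))
    have hu' : ∀ᶠ z in 𝓝 c, m.evalEval (z - c) (evalC y (φ.symm z)) = 0 →
        η (z - c) = evalC y (φ.symm z) :=
      hpairc.eventually (p := fun u : ℂ × ℂ => m.evalEval u.1 u.2 = 0 → η u.1 = u.2)
        (by simpa [hQ', hy1] using huniq)
    filter_upwards [eventually_evalC_sub hφ hQ, hmemO, hu', hden] with z ⟨_, _, _, hz'⟩ hO hu hd'
    obtain ⟨hfz, ht'z⟩ := hO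
    have hyv : η (z - c) = evalC y (φ.symm z) := by
      refine hu ?_
      rw [← hz', ← evalC_biEval ht'z hy, hm]
      exact (evalC_eq_zero_iff (zero_mem _)).mpr (Or.inl rfl)
    have hval := congrArg (fun e => evalC e (φ.symm z)) hq
    rw [evalC_mul (biEval_mem_regularOff hy r _ ht'z) (hp _ ht'z),
      evalC_mul (aeval_mem_regularOff t' p _ ht'z) (mul_mem hfz (pow_mem (hy _ ht'z) N)),
      evalC_mul hfz (pow_mem (hy _ ht'z) N), evalC_pow (hy _ ht'z), evalC_biEval ht'z hy,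
      evalC_biEval ht'z hy, evalC_aeval ht'z, hz', ← hyv] at hval
    rw [eq_div_iff hd', ← hval]
    ring
  have hsub : AnalyticAt ℂ (fun z : ℂ => z - c) c := analyticAt_id.sub analyticAt_const
  have hη' : AnalyticAt ℂ η (c - c) := by rwa [sub_self]
  refine (AnalyticAt.fun_div ((analyticAt_evalEval q hη').fun_comp (f := fun z : ℂ => z - c) hsub)
    (((analyticAt_evalEval r hη').fun_comp (f := fun z : ℂ => z - c) hsub).fun_mul
      (((AnalyticAt.aeval_polynomial (f := fun z : ℂ => z) analyticAt_id p).fun_comp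
        (f := fun z : ℂ => z - c) hsub)) |>.fun_mul
      ((hη'.fun_comp (f := fun z : ℂ => z - c) hsub).fun_pow N)) (by simp [hη1, hr1, hp0])).congr ?_
  filter_upwards [hev] with z hz
  rw [hz, coe_aeval_eq_eval]

/-- Every function is meromorphic in the uniformiser, of the order given by the place. -/
theorem meromorphic_symm {Q : Place ℂ F} (hQ : Q ∈ φ.source) (f : F) :
    MeromorphicAt (fun z => evalC f (φ.symm z)) (φ Q) ∧
      (f ≠ 0 → meromorphicOrderAt (fun z => evalC f (φ.symm z)) (φ Q) = (Q.ord f : ℤ)) := by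
  rcases eq_or_ne f 0 with rfl | hf
  · exact ⟨(analyticAt_symm hφ hQ (zero_mem _)).meromorphicAt, fun h => absurd rfl h⟩
  obtain ⟨hφQ, htQ, hord⟩ := hφ Q hQ
  set c := φ Q
  set t' := t - algebraMap ℂ F c with ht'def
  have hord' : Q.ord t' = 1 := by rw [ht'def, hφQ]; exact hord
  have ht'0 : t' ≠ 0 := fun h => by simp [h] at hord'
  set n := Q.ord f
  set u := f * (t' ^ n)⁻¹ with hudef
  have hu0 : u ≠ 0 := mul_ne_zero hf (inv_ne_zero (zpow_ne_zero n ht'0))
  have hordu : Q.ord u = 0 := by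
    rw [hudef, Q.ord_mul hf (inv_ne_zero (zpow_ne_zero n ht'0)), Q.ord_inv, Q.ord_zpow, hord',
      mul_one]
    exact add_neg_cancel n
  have huQ : u ∈ Q.toValuationSubring := mem_of_ord_nonneg Q hordu.ge
  have hg := analyticAt_symm hφ hQ huQ
  have hg0 : evalC u (φ.symm c) ≠ 0 := by
    rw [φ.left_inv hQ, Ne, evalC_eq_zero_iff huQ, not_or]
    exact ⟨hu0, by omega⟩
  have hev : ∀ᶠ z in 𝓝[≠] c, evalC f (φ.symm z) = (z - c) ^ n • evalC u (φ.symm z) := by
    have hmem := (φ.continuousAt_symm (φ.map_source hQ)).preimage_mem_nhds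
      ((isOpen_setOf_mem u).mem_nhds (show φ.symm c ∈ _ by rw [φ.left_inv hQ]; exact huQ))
    filter_upwards [(eventually_evalC_sub hφ hQ).filter_mono nhdsWithin_le_nhds,
      mem_nhdsWithin_of_mem_nhds hmem, self_mem_nhdsWithin] with z ⟨_, _, ht, hz⟩ hu hzc
    have ht'm : t' ∈ (φ.symm z).toValuationSubring := sub_mem ht (Place.algebraMap_mem' _ _)
    have hne : evalC t' (φ.symm z) ≠ 0 := by rw [hz]; exact sub_ne_zero.mpr hzc
    obtain ⟨h1, h2⟩ := zpow_mem_and_evalC_zpow ht'm hne n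
    have hfu : f = t' ^ n * u := by
      rw [hudef, mul_left_comm, mul_inv_cancel₀ (zpow_ne_zero n ht'0), mul_one]
    rw [smul_eq_mul]
    conv_lhs => rw [hfu]
    rw [evalC_mul h1 hu, h2, hz]
  have hmero : MeromorphicAt (fun z => evalC f (φ.symm z)) c := by
    refine MeromorphicAt.congr (((MeromorphicAt.id c).sub (MeromorphicAt.const c c)).zpow n
      |>.smul hg.meromorphicAt) ?_
    filter_upwards [hev] with z hz
    simp [hz]
  exact ⟨hmero, fun _ => (meromorphicOrderAt_eq_int_iff hmero).mpr ⟨_, hg, hg0, hev⟩⟩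

end Fermat.Agent.Torsion.Analytic
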