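import Fermat.Agent.Torsion.Analytic.Points
import Fermat.Agent.Torsion.Analytic.ChartLocal
import Mathlib.Analysis.Meromorphic.Order
import Mathlib.Analysis.Calculus.Deriv.Basic

/-!
# Uniformisers as charts on the space of places
-/

set_option autoImplicit false

noncomputable section

open AlgebraicCurve Topology Filter

namespace Fermat.Agent.Torsion.Analytic

open Fermat.Agent.Curve

variable (F : Type*) [Field F] [Algebra ℂ F] [IsFunctionField1 ℂ F]

/-- A chart: an element which is injective on an open set of places, all functions being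
meromorphic in it with the order given by the place. -/
structure Chart where
  t : F
  φ : OpenPartialHomeomorph (Place ℂ F) ℂ
  apply_eq : ∀ Q ∈ φ.source, φ Q = evalC t Q
  mem : ∀ Q ∈ φ.source, t ∈ Q.toValuationSubring
  meromorphicAt : ∀ (f : F), ∀ Q ∈ φ.source, MeromorphicAt (fun z => evalC f (φ.symm z)) (φ Q)
  order_eq : ∀ (f : F), f ≠ 0 → ∀ Q ∈ φ.source,
    meromorphicOrderAt (fun z => evalC f (φ.symm z)) (φ Q) = (Q.ord f : ℤ)
  analyticAt : ∀ (f : F), ∀ Q ∈ φ.source, f ∈ Q.toValuationSubring →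
    AnalyticAt ℂ (fun z => evalC f (φ.symm z)) (φ Q)

variable {F}

namespace Chart

variable (c : Chart F)

theorem ord_sub_eq_one {Q : Place ℂ F} (hQ : Q ∈ c.φ.source) :
    Q.ord (c.t - algebraMap ℂ F (c.φ Q)) = 1 := by
  set a := c.φ Q with ha
  set f := c.t - algebraMap ℂ F a
  have hev : ∀ᶠ z in 𝓝 a, evalC f (c.φ.symm z) = z - a := by
    filter_upwards [c.φ.open_target.mem_nhds (c.φ.map_source hQ)] with z hz
    have hs := c.φ.map_target hz
    rw [evalC_sub (c.mem _ hs) (Place.algebraMap_mem' _ _), evalC_algebraMap, ← c.apply_eq _ hs,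
      c.φ.right_inv hz]
  have h1 : meromorphicOrderAt (fun z => evalC f (c.φ.symm z)) a = ((1 : ℤ) : WithTop ℤ) := by
    rw [meromorphicOrderAt_eq_int_iff (c.meromorphicAt f Q hQ)]
    refine ⟨fun _ => 1, analyticAt_const, one_ne_zero, ?_⟩
    filter_upwards [hev.filter_mono nhdsWithin_le_nhds] with z hz
    simp [hz, ha]
  have hf : f ≠ 0 := by
    intro h
    have h2 : ∀ᶠ z in 𝓝[≠] a, z - a = 0 := by
      filter_upwards [hev.filter_mono nhdsWithin_le_nhds] with z hz
      rw [← hz, h, evalC_zero]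
    obtain ⟨z, hz, hne⟩ := (h2.and self_mem_nhdsWithin).exists
    exact hne (sub_eq_zero.mp hz)
  exact WithTop.coe_injective ((c.order_eq f hf Q hQ).symm.trans h1)

theorem D_ne_zero {Q : Place ℂ F} (hQ : Q ∈ c.φ.source) :
    KaehlerDifferential.D ℂ F c.t ≠ 0 := by
  have h := D_ne_zero_of_ord_eq_one Q (c.ord_sub_eq_one hQ)
  rwa [map_sub, Derivation.map_algebraMap, sub_zero] at h

theorem exists_D_eq {Q : Place ℂ F} (hQ : Q ∈ c.φ.source) (f : F) :
    ∃ a : F, KaehlerDifferential.D ℂ F f = a • KaehlerDifferential.D ℂ F c.t := by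
  have : CharZero F := charZero_of_injective_algebraMap (algebraMap ℂ F).injective
  obtain ⟨htr, hsep⟩ := isSeparable_of_D_ne_zero (c.D_ne_zero hQ)
  obtain ⟨a, ha⟩ := IsSeparatingElement.exists_eq_smul_D
    ⟨htr, finiteDimensional_adjoin htr, hsep⟩ (KaehlerDifferential.D ℂ F f)
  exact ⟨a, ha.symm⟩

/-- Away from the finitely many zeros and poles, near a place. -/
theorem eventually_mem {Q : Place ℂ F} (hQ : Q ∈ c.φ.source) (f : F) :
    ∀ᶠ z in 𝓝[≠] (c.φ Q), c.φ.symm z ∈ c.φ.source ∧ c.φ (c.φ.symm z) = z ∧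
      f ∈ (c.φ.symm z).toValuationSubring := by
  classical
  set S := (finite_ord_ne_zero (K := ℂ) f).toFinset.erase Q
  have h : ∀ᶠ z in 𝓝 (c.φ Q), c.φ.symm z ∉ (S : Set (Place ℂ F)) :=
    (c.φ.continuousAt_symm (c.φ.map_source hQ)).preimage_mem_nhds
      (S.finite_toSet.isClosed.isOpen_compl.mem_nhds (by simp [c.φ.left_inv hQ, S]))
  filter_upwards [h.filter_mono nhdsWithin_le_nhds,
    mem_nhdsWithin_of_mem_nhds (c.φ.open_target.mem_nhds (c.φ.map_source hQ)),
    self_mem_nhdsWithin] with z hzS hz hne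
  refine ⟨c.φ.map_target hz, c.φ.right_inv hz, mem_of_ord_nonneg _ (le_of_eq ?_)⟩
  by_contra hord
  refine hzS ?_
  simp only [S, Finset.coe_erase, Set.Finite.coe_toFinset, Set.mem_sdiff, Set.mem_singleton_iff,
    Set.mem_ofPred_eq]
  exact ⟨fun h => hord h.symm, fun h => hne (by rw [← c.φ.right_inv hz, h]; rfl)⟩

/-- The germ of `f` in the chart, punctured. -/
def germ {Q : Place ℂ F} (hQ : Q ∈ c.φ.source) : F →+* Germ (𝓝[≠] (c.φ Q)) ℂ where
  toFun f := ↑(fun z => evalC f (c.φ.symm z))
  map_one' := Germ.coe_eq.mpr (Eventually.of_forall fun z => evalC_one _)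
  map_zero' := Germ.coe_eq.mpr (Eventually.of_forall fun z => evalC_zero _)
  map_mul' f g := by
    rw [← Germ.coe_mul, Germ.coe_eq]
    filter_upwards [c.eventually_mem hQ f, c.eventually_mem hQ g] with z hf hg
    exact evalC_mul hf.2.2 hg.2.2
  map_add' f g := by
    rw [← Germ.coe_add, Germ.coe_eq]
    filter_upwards [c.eventually_mem hQ f, c.eventually_mem hQ g] with z hf hg
    exact evalC_add hf.2.2 hg.2.2

theorem germ_algebraMap {Q : Place ℂ F} (hQ : Q ∈ c.φ.source) (a : ℂ) :
    c.germ hQ (algebraMap ℂ F a) = ↑(fun _ : ℂ => a) :=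
  Germ.coe_eq.mpr (Eventually.of_forall fun _ => evalC_algebraMap a _)

theorem eventually_differentiableAt {Q : Place ℂ F} (hQ : Q ∈ c.φ.source) (f : F) :
    ∀ᶠ z in 𝓝[≠] (c.φ Q), DifferentiableAt ℂ (fun z => evalC f (c.φ.symm z)) z := by
  filter_upwards [c.eventually_mem hQ f] with z ⟨h1, h2, h3⟩
  have := (c.analyticAt f _ h1 h3).differentiableAt
  rwa [h2] at this

/-- The algebraic derivative is the analytic derivative in the chart. -/
theorem deriv_evalC {f a : F} (h : KaehlerDifferential.D ℂ F f = a • KaehlerDifferential.D ℂ F c.t)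
    {Q : Place ℂ F} (hQ : Q ∈ c.φ.source) :
    deriv (fun z => evalC f (c.φ.symm z)) =ᶠ[𝓝[≠] (c.φ Q)] fun z => evalC a (c.φ.symm z) := by
  let G := Germ (𝓝[≠] (c.φ Q)) ℂ
  let : Module F G := Module.compHom G (c.germ hQ)
  have hsmul : ∀ (g : F) (m : G), g • m = c.germ hQ g * m := fun _ _ => rfl
  have hconst : ∀ (s : ℂ) (m : G), s • m = (↑(fun _ : ℂ => s) : G) * m := by
    intro s m
    induction m using Germ.inductionOn with
    | h u => rw [← Germ.coe_smul, ← Germ.coe_mul]; rfl
  have : IsScalarTower ℂ F G := ⟨fun s g m => by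
    rw [hsmul, Algebra.smul_def, map_mul, c.germ_algebraMap hQ, hsmul, hconst, mul_assoc]⟩
  let δ : Derivation ℂ F G :=
    Derivation.mk'
      { toFun := fun g => (↑(deriv fun z => evalC g (c.φ.symm z)) : G)
        map_add' := fun g g' => by
          rw [← Germ.coe_add, Germ.coe_eq]
          have hsum : (fun z => evalC (g + g') (c.φ.symm z)) =ᶠ[𝓝[≠] (c.φ Q)]
              fun z => evalC g (c.φ.symm z) + evalC g' (c.φ.symm z) :=
            Germ.coe_eq.mp ((map_add (c.germ hQ) g g').trans (Germ.coe_add _ _).symm)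
          filter_upwards [hsum.nhdsNE_deriv, c.eventually_differentiableAt hQ g,
            c.eventually_differentiableAt hQ g'] with z hz h1 h2
          rw [hz, Pi.add_apply]
          exact deriv_fun_add h1 h2
        map_smul' := fun s g => by
          rw [RingHom.id_apply, hconst, ← Germ.coe_mul, Germ.coe_eq]
          have hm : (fun z => evalC (s • g) (c.φ.symm z)) =ᶠ[𝓝[≠] (c.φ Q)]
              fun z => s * evalC g (c.φ.symm z) := by
            refine Germ.coe_eq.mp ?_
            show c.germ hQ (s • g) = _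
            rw [Algebra.smul_def, map_mul, c.germ_algebraMap hQ]
            exact (Germ.coe_mul _ _).symm
          filter_upwards [hm.nhdsNE_deriv, c.eventually_differentiableAt hQ g] with z hz h1
          rw [hz, Pi.mul_apply]
          exact deriv_const_mul s h1 }
      fun g g' => by
        show (↑(deriv fun z => evalC (g * g') (c.φ.symm z)) : G) = _
        rw [hsmul, hsmul]
        show _ = (↑(fun z => evalC g (c.φ.symm z)) : G) * ↑(deriv fun z => evalC g' (c.φ.symm z)) +
          (↑(fun z => evalC g' (c.φ.symm z)) : G) * ↑(deriv fun z => evalC g (c.φ.symm z))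
        rw [← Germ.coe_mul, ← Germ.coe_mul, ← Germ.coe_add, Germ.coe_eq]
        have hm : (fun z => evalC (g * g') (c.φ.symm z)) =ᶠ[𝓝[≠] (c.φ Q)]
            fun z => evalC g (c.φ.symm z) * evalC g' (c.φ.symm z) :=
          Germ.coe_eq.mp ((map_mul (c.germ hQ) g g').trans (Germ.coe_mul _ _).symm)
        filter_upwards [hm.nhdsNE_deriv, c.eventually_differentiableAt hQ g,
          c.eventually_differentiableAt hQ g'] with z hz h1 h2
        rw [hz, deriv_fun_mul h1 h2]
        simp only [Pi.add_apply, Pi.mul_apply]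
        ring
  have hL := congrArg δ.liftKaehlerDifferential h
  rw [map_smul, δ.liftKaehlerDifferential_comp_D, δ.liftKaehlerDifferential_comp_D, hsmul] at hL
  have ht : (↑(deriv fun z => evalC c.t (c.φ.symm z)) : G) = 1 := by
    refine Germ.coe_eq.mpr ?_
    have he : (fun z => evalC c.t (c.φ.symm z)) =ᶠ[𝓝[≠] (c.φ Q)] fun z => z := by
      filter_upwards [c.eventually_mem hQ c.t] with z ⟨h1, h2, _⟩
      rw [← c.apply_eq _ h1, h2]
    filter_upwards [he.nhdsNE_deriv] with z hz
    rw [hz]
    simp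
  change (↑(deriv fun z => evalC f (c.φ.symm z)) : G) =
    ↑(fun z => evalC a (c.φ.symm z)) * ↑(deriv fun z => evalC c.t (c.φ.symm z)) at hL
  rw [ht, mul_one] at hL
  exact Germ.coe_eq.mp hL

end Chart

theorem exists_chart (P : Place ℂ F) (t : F) (ht : P.ord t = 1) :
    ∃ c : Chart F, c.t = t ∧ P ∈ c.φ.source := by
  obtain ⟨φ, hP, hφ⟩ := exists_localHomeo P t ht
  exact ⟨{
    t := t
    φ := φ
    apply_eq := fun Q hQ => (hφ Q hQ).1
    mem := fun Q hQ => (hφ Q hQ).2.1
    meromorphicAt := fun f Q hQ => (meromorphic_symm hφ hQ f).1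
    order_eq := fun f hf Q hQ => (meromorphic_symm hφ hQ f).2 hf
    analyticAt := fun f Q hQ hf => analyticAt_symm hφ hQ hf }, rfl, hP⟩

/-- A chosen chart centred at `P`. -/
def chartAt (P : Place ℂ F) : Chart F :=
  (exists_chart P (exists_uniformizer P).choose (exists_uniformizer P).choose_spec.2).choose

theorem mem_chartAt_source (P : Place ℂ F) : P ∈ (chartAt P).φ.source :=
  (exists_chart P (exists_uniformizer P).choose (exists_uniformizer P).choose_spec.2).choose_spec.2

theorem chartAt_self (P : Place ℂ F) : (chartAt P).φ P = 0 := by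
  rw [(chartAt P).apply_eq P (mem_chartAt_source P),
    show (chartAt P).t = (exists_uniformizer P).choose from
      (exists_chart P (exists_uniformizer P).choose
        (exists_uniformizer P).choose_spec.2).choose_spec.1]
  have h := (exists_uniformizer P).choose_spec.2
  exact (evalC_eq_zero_iff (mem_of_ord_nonneg P (by omega))).mpr (Or.inr (by omega))

end Fermat.Agent.Torsion.Analytic
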