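import Fermat.Agent.Torsion.Analytic.Points
import Mathlib.RingTheory.Finiteness.Nakayama
import Mathlib.RingTheory.DedekindDomain.IntegralClosure
import Mathlib.FieldTheory.Minpoly.IsIntegrallyClosed
import Mathlib.Algebra.Polynomial.Bivariate

/-!
# A plane model adapted to a uniformiser

For `t` with `ord_P t = 1` there is `y`, regular where `t` is, with `y(P) = 1` and zero at the other
zeros of `t`. Then `(0, 1)` is a simple root of the minimal polynomial of `y` over `ℂ[t]`, every
zero of which is the value of `(t, y)` at a place, and one element `r` with `r(0,1) = 1` is a common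
denominator for all functions regular off the poles of `t`.
-/

set_option autoImplicit false

noncomputable section

open AlgebraicCurve Polynomial IntermediateField

namespace Fermat.Agent.Torsion.Analytic

open Fermat.Agent.Curve

variable {F : Type*} [Field F] [Algebra ℂ F]

/-- `q ↦ q(t, y)`. -/
def biEval (t y : F) : ℂ[X][X] →+* F := eval₂RingHom (aeval t).toRingHom y

theorem biEval_C (t y : F) (p : ℂ[X]) : biEval t y (C p) = aeval t p := by simp [biEval]

theorem biEval_X (t y : F) : biEval t y X = y := by simp [biEval]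

/-- Functions regular wherever `t` is. -/
def regularOff (t : F) : Subalgebra ℂ F where
  carrier := {f | ∀ Q : Place ℂ F, t ∈ Q.toValuationSubring → f ∈ Q.toValuationSubring}
  mul_mem' ha hb Q hQ := mul_mem (ha Q hQ) (hb Q hQ)
  add_mem' ha hb Q hQ := add_mem (ha Q hQ) (hb Q hQ)
  algebraMap_mem' a Q _ := Q.algebraMap_mem' a

theorem mem_regularOff {t f : F} :
    f ∈ regularOff t ↔
      ∀ Q : Place ℂ F, t ∈ Q.toValuationSubring → f ∈ Q.toValuationSubring := Iff.rfl

theorem self_mem_regularOff (t : F) : t ∈ regularOff t := fun _ h => h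

theorem aeval_mem_regularOff (t : F) (p : ℂ[X]) : aeval t p ∈ regularOff t := by
  simpa [Subalgebra.aeval_coe] using (aeval (⟨t, self_mem_regularOff t⟩ : regularOff t) p).2

theorem biEval_mem_regularOff {t y : F} (hy : y ∈ regularOff t) (q : ℂ[X][X]) :
    biEval t y q ∈ regularOff t := by
  induction q using Polynomial.induction_on' with
  | add p q hp hq => rw [map_add]; exact add_mem hp hq
  | monomial n a =>
    rw [← C_mul_X_pow_eq_monomial, map_mul, map_pow, biEval_C, biEval_X]
    exact mul_mem (aeval_mem_regularOff t a) (pow_mem hy n)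

variable [IsFunctionField1 ℂ F]

omit [IsFunctionField1 ℂ F] in
theorem transcendental_of_ord_eq_one {t : F} {P : Place ℂ F} (ht : P.ord t = 1) :
    Transcendental ℂ t :=
  transcendental_uniformizer P ht

theorem evalC_aeval {t : F} {Q : Place ℂ F} (ht : t ∈ Q.toValuationSubring) (p : ℂ[X]) :
    evalC (aeval t p) Q = p.eval (evalC t Q) := by
  induction p using Polynomial.induction_on' with
  | add p q hp hq =>
    rw [map_add, eval_add, evalC_add (aeval_mem_regularOff t p Q ht) (aeval_mem_regularOff t q Q ht),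
      hp, hq]
  | monomial n a =>
    induction n with
    | zero => simp [evalC_algebraMap]
    | succ n ih =>
      rw [← monomial_mul_X, map_mul, aeval_X, evalC_mul (aeval_mem_regularOff t _ Q ht) ht, ih]
      simp [pow_succ, mul_assoc]

theorem evalC_biEval {t y : F} {Q : Place ℂ F} (ht : t ∈ Q.toValuationSubring)
    (hy : y ∈ regularOff t) (q : ℂ[X][X]) :
    evalC (biEval t y q) Q = q.evalEval (evalC t Q) (evalC y Q) := by
  induction q using Polynomial.induction_on' with
  | add p q hp hq =>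
    rw [map_add, evalEval_add, evalC_add (biEval_mem_regularOff hy p Q ht)
      (biEval_mem_regularOff hy q Q ht), hp, hq]
  | monomial n a =>
    induction n with
    | zero => simp [biEval_C, evalC_aeval ht, evalEval_C]
    | succ n ih =>
      rw [← monomial_mul_X, map_mul, biEval_X,
        evalC_mul (biEval_mem_regularOff hy _ Q ht) (hy Q ht), ih, evalEval_mul, evalEval_X]

/-- The places over a value of `t` are finitely many. -/
theorem finite_fibre {t : F} (ht : Transcendental ℂ t) (z : ℂ) :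
    {Q : Place ℂ F | t ∈ Q.toValuationSubring ∧ evalC t Q = z}.Finite := by
  refine (finite_ord_ne_zero (t - algebraMap ℂ F z)).subset fun Q hQ => ?_
  have h := ordGE_sub_evalC hQ.1
  rw [hQ.2, ordGE_one_iff] at h
  rcases h with h | h
  · exact absurd (sub_eq_zero.mp h ▸ isAlgebraic_algebraMap z) ht
  · exact ne_of_gt h

/-- Poles away from a fibre are killed by a polynomial in `t` not vanishing there. -/
theorem exists_poly_mul_mem {t : F} (ht : Transcendental ℂ t) (f : F) (z : ℂ)
    (h : ∀ Q : Place ℂ F, t ∈ Q.toValuationSubring → evalC t Q = z → f ∈ Q.toValuationSubring) :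
    ∃ p : ℂ[X], p.eval z ≠ 0 ∧ aeval t p * f ∈ regularOff t := by
  classical
  set S := (finite_ord_ne_zero (K := ℂ) f).toFinset.filter
    (fun Q => t ∈ Q.toValuationSubring ∧ Q.ord f < 0) with hS
  refine ⟨∏ Q ∈ S, (X - C (evalC t Q)) ^ (-Q.ord f).toNat, ?_, fun Q hQ => ?_⟩
  · rw [eval_prod, Finset.prod_ne_zero_iff]
    intro Q hQ
    simp only [hS, Finset.mem_filter] at hQ
    rw [eval_pow, eval_sub, eval_X, eval_C]
    refine pow_ne_zero _ (sub_ne_zero.mpr fun hz => ?_)
    have := ord_nonneg_of_mem Q (h Q hQ.2.1 hz.symm)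
    omega
  by_cases hf : f ∈ Q.toValuationSubring
  · exact mul_mem (aeval_mem_regularOff t _ Q hQ) hf
  have hneg : Q.ord f < 0 := not_le.mp fun h => hf (mem_of_ord_nonneg Q h)
  have hQS : Q ∈ S := by simp [hS, hQ, hneg, hneg.ne]
  rw [← Finset.mul_prod_erase S _ hQS, map_mul, map_pow, map_sub, aeval_X, aeval_C,
    mul_right_comm]
  refine mul_mem ?_ (aeval_mem_regularOff t _ Q hQ)
  refine (ordGE_zero_iff_mem Q).mp ?_
  have hne : t - algebraMap ℂ F (evalC t Q) ≠ 0 := fun h0 =>
    ht (sub_eq_zero.mp h0 ▸ isAlgebraic_algebraMap _)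
  have h1 : 1 ≤ Q.ord (t - algebraMap ℂ F (evalC t Q)) := (ordGE_sub_evalC hQ).le_ord hne
  have hf0 : f ≠ 0 := fun h0 => hf (h0 ▸ zero_mem _)
  refine ordGE_of_le_ord ?_
  rw [Q.ord_mul (pow_ne_zero _ hne) hf0, ord_pow, Int.toNat_of_nonneg (by omega)]
  nlinarith

/-- A function regular off the poles of `t`, a uniformiser at `Q` and a unit at the other places of
its fibre. -/
theorem exists_mem_ord_eq_one {t : F} (ht : Transcendental ℂ t) {Q : Place ℂ F}
    (hQ : t ∈ Q.toValuationSubring) :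
    ∃ f ∈ regularOff t, f ≠ 0 ∧ Q.ord f = 1 ∧ ∀ Q' : Place ℂ F, Q' ≠ Q →
      t ∈ Q'.toValuationSubring → evalC t Q' = evalC t Q → Q'.ord f = 0 := by
  classical
  set z := evalC t Q
  obtain ⟨f, hf0, hf⟩ := exists_forall_ord_eq (finite_fibre ht z).toFinset
    (fun Q' => if Q' = Q then 1 else 0)
  obtain ⟨p, hp, hmem⟩ := exists_poly_mul_mem ht f z fun Q' h1 h2 =>
    mem_of_ord_nonneg Q' (by rw [hf Q' (by simp [h1, h2])]; split <;> norm_num)
  have hp0 : aeval t p ≠ 0 := by
    intro h0
    rw [transcendental_iff.mp ht p h0] at hp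
    simp at hp
  have hunit : ∀ Q' : Place ℂ F, t ∈ Q'.toValuationSubring → evalC t Q' = z →
      Q'.ord (aeval t p) = 0 := by
    intro Q' h1 h2
    have h := ord_nonneg_of_mem Q' (aeval_mem_regularOff t p Q' h1)
    by_contra hne
    refine hp ?_
    rw [← h2, ← evalC_aeval h1]
    exact (evalC_eq_zero_iff (aeval_mem_regularOff t p Q' h1)).mpr (Or.inr (by omega))
  refine ⟨aeval t p * f, hmem, mul_ne_zero hp0 hf0, ?_, fun Q' hne h1 h2 => ?_⟩
  · rw [Q.ord_mul hp0 hf0, hunit Q hQ rfl, hf Q (by simp [hQ, z]), if_pos rfl, zero_add]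
  · rw [Q'.ord_mul hp0 hf0, hunit Q' h1 h2, hf Q' (by simp [h1, h2]), if_neg hne, zero_add]

omit [IsFunctionField1 ℂ F] in
/-- First order expansion of a bivariate polynomial. -/
theorem exists_decomp (q : ℂ[X][X]) (z w : ℂ) :
    ∃ A : ℂ[X], ∃ B : ℂ[X][X],
      q = C (C (q.evalEval z w)) + C ((X - C z) * A) + (X - C (C w)) * B ∧
        B.evalEval z w = (derivative q).evalEval z w := by
  obtain ⟨B, hB⟩ := X_sub_C_dvd_sub_C_eval (a := (C w : ℂ[X])) (p := q)
  obtain ⟨A, hA⟩ := X_sub_C_dvd_sub_C_eval (a := z) (p := q.eval (C w))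
  have hq : q = C (C (q.evalEval z w)) + C ((X - C z) * A) + (X - C (C w)) * B := by
    rw [← hB, ← hA, map_sub]
    ring
  refine ⟨A, B, hq, ?_⟩
  conv_rhs => rw [hq]
  simp [derivative_mul, evalEval_add, evalEval_mul, evalEval_sub, evalEval_X, evalEval_C]

theorem exists_minimal {t y : F} (ht : Transcendental ℂ t) (hy : y ∈ regularOff t) :
    ∃ m : ℂ[X][X], biEval t y m = 0 ∧ ∀ q : ℂ[X][X], biEval t y q = 0 → m ∣ q := by
  have hinj : Function.Injective (aeval t : ℂ[X] →ₐ[ℂ] F) := transcendental_iff_injective.mp ht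
  let : Algebra ℂ[X] F := (aeval t).toRingHom.toAlgebra
  have : Module.IsTorsionFree ℂ[X] F := Module.IsTorsionFree.of_smul_eq_zero fun p f h => by
    rcases mul_eq_zero.mp (show aeval t p * f = 0 from h) with h0 | h0
    · exact Or.inl (hinj (h0.trans (map_zero _).symm))
    · exact Or.inr h0
  have hint : IsIntegral ℂ[X] y := by
    have h : IsIntegral (Algebra.adjoin ℂ ({t} : Set F)) y :=
      (isIntegral_adjoin_iff {t} y).mpr fun Q hQ => hy Q (hQ t rfl)
    obtain ⟨p, hp, hpy⟩ := h
    let π : ℂ[X] →ₐ[ℂ] Algebra.adjoin ℂ ({t} : Set F) :=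
      (aeval t).codRestrict _ fun _ => aeval_mem_adjoin_singleton ℂ t
    have hπ : Function.Surjective π.toRingHom := by
      rintro ⟨a, ha⟩
      rw [Algebra.adjoin_singleton_eq_range_aeval] at ha
      obtain ⟨q, rfl⟩ := ha
      exact ⟨q, rfl⟩
    obtain ⟨q, hq, -, hqm⟩ := lifts_and_degree_eq_and_monic
      ((lifts_iff_coeff_lifts p).mpr fun n => hπ (p.coeff n)) hp
    refine ⟨q, hqm, ?_⟩
    rw [← hq, eval₂_map] at hpy
    exact hpy
  exact ⟨minpoly ℂ[X] y, minpoly.aeval ℂ[X] y,
    fun q hq => minpoly.isIntegrallyClosed_dvd hint hq⟩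

/-- Zeros of the minimal relation are values of `(t, y)` at places. -/
theorem exists_place_values {t y : F} (ht : Transcendental ℂ t) {m : ℂ[X][X]}
    (hdvd : ∀ q : ℂ[X][X], biEval t y q = 0 → m ∣ q) {z w : ℂ}
    (hzw : m.evalEval z w = 0) :
    ∃ Q : Place ℂ F, t ∈ Q.toValuationSubring ∧ evalC t Q = z ∧ evalC y Q = w := by
  set R₀ : Subring F := (biEval t y).range
  set π : ℂ[X][X] →+* R₀ := (biEval t y).rangeRestrict
  set I : Ideal R₀ := (RingHom.ker (evalEvalRingHom z w)).map π
  have hI : I ≠ ⊤ := by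
    intro h
    obtain ⟨q, hq, hq1⟩ := (Ideal.mem_map_iff_of_surjective π
      (biEval t y).rangeRestrict_surjective).mp (h.symm ▸ Submodule.mem_top (x := (1 : R₀)))
    obtain ⟨c, hc⟩ := hdvd (q - 1) (by
      rw [map_sub, map_one, sub_eq_zero]; exact congrArg Subtype.val hq1)
    have := congrArg (evalEval z w) hc
    rw [evalEval_sub, evalEval_one, evalEval_mul, hzw, zero_mul,
      show q.evalEval z w = 0 from hq] at this
    norm_num at this
  obtain ⟨B, hB, hBI⟩ := Ideal.image_subset_nonunits_valuationSubring I hI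
  have hnu : ∀ q : ℂ[X][X], q.evalEval z w = 0 → biEval t y q ∈ B.nonunits := fun q hq =>
    hBI ⟨π q, Ideal.mem_map_of_mem π hq, rfl⟩
  have hsurj : ∀ q : ℂ[X][X], biEval t y q ∈ B := fun q => hB ⟨q, rfl⟩
  have hinv : ∀ u : F, u ∈ B.nonunits → u ≠ 0 → u⁻¹ ∉ B := by
    intro u hu h0 h
    have h2 := (B.valuation_le_one_iff _).mpr h
    rw [map_inv₀, inv_le_one₀ (zero_lt_iff.mpr ((Valuation.ne_zero_iff _).mpr h0))] at h2
    exact not_le.mpr (B.mem_nonunits_iff.mp hu) h2
  have hK : ∀ a : ℂ, algebraMap ℂ F a ∈ B := fun a => by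
    have := hsurj (C (C a))
    rwa [biEval_C, aeval_C] at this
  have htz : t - algebraMap ℂ F z ≠ 0 := fun h0 =>
    ht (sub_eq_zero.mp h0 ▸ isAlgebraic_algebraMap _)
  have hne : B ≠ ⊤ := by
    intro htop
    refine hinv _ ?_ htz (htop ▸ ValuationSubring.mem_top _)
    have := hnu (C (X - C z)) (by simp [evalEval_C])
    rwa [biEval_C, map_sub, aeval_X, aeval_C] at this
  set Q := placeOfValuationSubring B hK hne
  have htQ : t ∈ Q.toValuationSubring := by
    have := hsurj (C X)
    rwa [biEval_C, aeval_X] at this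
  have hyQ : y ∈ Q.toValuationSubring := by
    have := hsurj X
    rwa [biEval_X] at this
  have hval : ∀ (u : F) (a : ℂ), u ∈ Q.toValuationSubring →
      u - algebraMap ℂ F a ∈ B.nonunits → evalC u Q = a := by
    intro u a hu hn
    refine evalC_eq_of_ordGE (ordGE_one_iff.mpr ?_)
    rcases eq_or_ne (u - algebraMap ℂ F a) 0 with h0 | h0
    · exact Or.inl h0
    refine Or.inr (lt_of_le_of_ne (ord_nonneg_of_mem Q (sub_mem hu (Q.algebraMap_mem' a))) ?_)
    exact fun h => hinv _ hn h0
      (mem_of_ord_nonneg Q (f := (u - algebraMap ℂ F a)⁻¹) (by rw [Q.ord_inv]; omega))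
  refine ⟨Q, htQ, hval t z htQ ?_, hval y w hyQ ?_⟩
  · have := hnu (C (X - C z)) (by simp [evalEval_C])
    rwa [biEval_C, map_sub, aeval_X, aeval_C] at this
  · have := hnu (X - C (C w)) (by simp [evalEval_C, evalEval_X, evalEval_sub])
    rwa [map_sub, biEval_X, biEval_C, aeval_C] at this

/-- The functions regular off the poles of `t` are a finite module over `ℂ[t]`. -/
theorem exists_finset_span_regularOff {t : F} (ht : Transcendental ℂ t) :
    ∃ T : Finset F, (∀ u ∈ T, u ∈ regularOff t) ∧ ∀ f ∈ regularOff t, ∃ c : F → ℂ[X],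
      f = ∑ u ∈ T, aeval t (c u) * u := by
  classical
  have := finiteDimensional_adjoin (K := ℂ) ht
  have : CharZero F := charZero_of_injective_algebraMap (algebraMap ℂ F).injective
  open scoped IntermediateField.algebraAdjoinAdjoin in
  let A := Algebra.adjoin ℂ ({t} : Set F)
  have : IsPrincipalIdealRing A := by
    show IsPrincipalIdealRing (Algebra.adjoin ℂ ({t} : Set F))
    rw [Algebra.adjoin_singleton_eq_range_aeval]
    exact IsPrincipalIdealRing.of_surjective
      (Polynomial.aeval t).rangeRestrict (AlgHom.rangeRestrict_surjective _)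
  let R := integralClosure A F
  have hfin : Module.Finite A R := by
    open scoped IntermediateField.algebraAdjoinAdjoin in
    exact IsIntegralClosure.finite A ℂ⟮t⟯ F R
  obtain ⟨T, hT⟩ := Module.finite_def.mp hfin
  have hmem : ∀ f : F, f ∈ R ↔ f ∈ regularOff t := fun f =>
    (isIntegral_adjoin_iff {t} f).trans
      ⟨fun h Q hQ => h Q (fun x hx => hx ▸ hQ), fun h Q hQ => h Q (hQ t rfl)⟩
  refine ⟨T.image (fun u : R => (u : F)), fun u hu => ?_, fun f hf => ?_⟩
  · obtain ⟨u', -, rfl⟩ := Finset.mem_image.mp hu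
    exact (hmem _).mp u'.2
  have hspan : (⟨f, (hmem f).mpr hf⟩ : R) ∈ Submodule.span A (T : Set R) := hT ▸ Submodule.mem_top
  obtain ⟨c, -, hc⟩ := Submodule.mem_span_finset.mp hspan
  have hc' : ∀ u : R, ∃ p : ℂ[X], aeval t p = (c u : F) := fun u => by
    have := SetLike.ext_iff.mp (show A = _ from Algebra.adjoin_singleton_eq_range_aeval ℂ t) (c u : F)
    exact this.mp (c u).2
  choose p hp using hc'
  refine ⟨fun x => if h : ∃ u : R, (u : F) = x then p h.choose else 0, ?_⟩
  have := congrArg Subtype.val hc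
  simp only at this
  rw [← this, Finset.sum_image fun a _ b _ h => Subtype.ext h]
  rw [AddSubmonoidClass.coe_finsetSum]
  refine Finset.sum_congr rfl fun u _ => ?_
  have hex : ∃ v : R, (v : F) = u := ⟨u, rfl⟩
  simp only
  rw [dif_pos hex, show hex.choose = u from Subtype.ext hex.choose_spec, hp]
  rfl

/-- The plane model at `(P, t)`. -/
theorem exists_plane_model {P : Place ℂ F} {t : F} (ht : P.ord t = 1) :
    ∃ (y : F) (m r : ℂ[X][X]), y ∈ regularOff t ∧ evalC y P = 1 ∧
      (∀ Q : Place ℂ F, 0 < Q.ord t → Q ≠ P → evalC y Q = 0) ∧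
      biEval t y m = 0 ∧ (∀ q : ℂ[X][X], biEval t y q = 0 → m ∣ q) ∧
      (derivative m).evalEval 0 1 ≠ 0 ∧ r.evalEval 0 1 = 1 ∧
      ∀ f ∈ regularOff t, ∃ q : ℂ[X][X], biEval t y r * f = biEval t y q := by
  classical
  have htr := transcendental_of_ord_eq_one ht
  have ht0 : t ≠ 0 := fun h => by simp [h] at ht
  have htP : t ∈ P.toValuationSubring := mem_of_ord_nonneg P (by omega)
  set S := (finite_ord_ne_zero (K := ℂ) t).toFinset.filter (fun Q => 0 < Q.ord t)
  have hS : ∀ Q : Place ℂ F, t ∈ Q.toValuationSubring → (Q ∈ S ↔ evalC t Q = 0) := by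
    intro Q hQ
    rw [evalC_eq_zero_iff hQ, or_iff_right ht0]
    simp only [S, Finset.mem_filter, Set.Finite.mem_toFinset, Set.mem_ofPred_eq]
    constructor
    · exact fun h => h.2
    · exact fun h => ⟨h.ne', h⟩
  -- the auxiliary function `y`
  obtain ⟨y₀, hy₀⟩ := exists_approx_ordGE S (fun Q => if Q = P then 1 else 0) 1
  have hy₀v : ∀ Q ∈ S, y₀ ∈ Q.toValuationSubring ∧ evalC y₀ Q = if Q = P then 1 else 0 := by
    intro Q hQ
    have h := hy₀ Q hQ
    have hc : (if Q = P then (1 : F) else 0) = algebraMap ℂ F (if Q = P then 1 else 0) := by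
      split <;> simp
    rw [hc] at h
    refine ⟨?_, evalC_eq_of_ordGE h⟩
    rw [← sub_add_cancel y₀ (algebraMap ℂ F (if Q = P then 1 else 0))]
    exact add_mem ((ordGE_zero_iff_mem Q).mp (h.mono zero_le_one)) (Q.algebraMap_mem' _)
  obtain ⟨p, hp, hpy⟩ := exists_poly_mul_mem htr y₀ 0
    fun Q h1 h2 => (hy₀v Q ((hS Q h1).mpr h2)).1
  set y := algebraMap ℂ F (p.eval 0)⁻¹ * (aeval t p * y₀) with hydef
  have hy : y ∈ regularOff t := mul_mem (algebraMap_mem _ _) hpy
  have hyS : ∀ Q : Place ℂ F, t ∈ Q.toValuationSubring → evalC t Q = 0 →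
      evalC y Q = if Q = P then 1 else 0 := by
    intro Q h1 h2
    obtain ⟨hm, hv⟩ := hy₀v Q ((hS Q h1).mpr h2)
    rw [hydef, evalC_mul (Q.algebraMap_mem' _) (mul_mem (aeval_mem_regularOff t p Q h1) hm),
      evalC_mul (aeval_mem_regularOff t p Q h1) hm, evalC_algebraMap, evalC_aeval h1, h2, hv]
    field_simp
  have hyP : evalC y P = 1 := by
    rw [hyS P htP ((evalC_eq_zero_iff htP).mpr (Or.inr (by omega))), if_pos rfl]
  set N := ∑ Q ∈ S, (Q.ord t).toNat
  -- functions vanishing at `P` are divisible by `t` after multiplication by `y ^ N`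
  have hdiv : ∀ g ∈ regularOff t, evalC g P = 0 → g * y ^ N * t⁻¹ ∈ regularOff t := by
    intro g hg hgP Q hQ
    have hinv : OrdGE Q (-Q.ord t) t⁻¹ := ordGE_of_le_ord (Q.ord_inv t).ge
    refine (ordGE_zero_iff_mem Q).mp ?_
    rw [show (0 : ℤ) = Q.ord t + -Q.ord t by ring]
    refine OrdGE.mul ?_ hinv
    rcases (ord_nonneg_of_mem Q hQ).eq_or_lt with h0 | h0
    · rw [← h0, ordGE_zero_iff_mem]
      exact mul_mem (hg Q hQ) (pow_mem (hy Q hQ) N)
    have hz : evalC t Q = 0 := (evalC_eq_zero_iff hQ).mpr (Or.inr h0)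
    by_cases hQP : Q = P
    · subst hQP
      rw [ht, show (1 : ℤ) = 1 + 0 by ring]
      refine OrdGE.mul ?_ ((ordGE_zero_iff_mem Q).mpr (pow_mem (hy Q hQ) N))
      simpa [hgP] using ordGE_sub_evalC (hg Q hQ)
    · have hyQ : OrdGE Q 1 y := by
        simpa [hyS Q hQ hz, hQP] using ordGE_sub_evalC (hy Q hQ)
      have hN : Q.ord t ≤ N := by
        have := Finset.single_le_sum (f := fun Q => (Q.ord t).toNat) (fun _ _ => Nat.zero_le _)
          ((hS Q hQ).mpr hz)
        omega
      rw [show Q.ord t = 0 + Q.ord t by ring]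
      refine OrdGE.mul ((ordGE_zero_iff_mem Q).mpr (hg Q hQ)) ?_
      rcases eq_or_ne y 0 with h | h
      · rw [h, zero_pow (by omega)]; exact ordGE_zero _
      · refine ordGE_of_le_ord ?_
        rw [ord_pow]
        have := hyQ.le_ord h
        nlinarith
  -- the common denominator
  obtain ⟨r, hr1, hr⟩ : ∃ r : ℂ[X][X], r.evalEval 0 1 = 1 ∧
      ∀ f ∈ regularOff t, ∃ q : ℂ[X][X], biEval t y r * f = biEval t y q := by
    let : Algebra ℂ[X][X] F := (biEval t y).toAlgebra
    let M : Submodule ℂ[X][X] F :=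
      { carrier := regularOff t
        add_mem' := fun ha hb => add_mem ha hb
        zero_mem' := zero_mem _
        smul_mem' := fun q f hf => mul_mem (biEval_mem_regularOff hy q) hf }
    have hMfg : M.FG := by
      obtain ⟨T, hT, hTs⟩ := exists_finset_span_regularOff htr
      refine ⟨T, le_antisymm (Submodule.span_le.mpr fun u hu => hT u hu) fun f hf => ?_⟩
      obtain ⟨c, rfl⟩ := hTs f hf
      refine Submodule.sum_mem _ fun u hu => ?_
      rw [show aeval t (c u) * u = (C (c u) : ℂ[X][X]) • u by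
        rw [Algebra.smul_def]; exact congrArg (· * u) (biEval_C t y (c u)).symm]
      exact Submodule.smul_mem _ _ (Submodule.subset_span hu)
    set I : Ideal ℂ[X][X] := Ideal.span {C X, X - 1}
    set N1 := Submodule.span ℂ[X][X] ({1} : Set F)
    have hle : M.map N1.mkQ ≤ I • M.map N1.mkQ := by
      rw [← Submodule.map_smul'']
      rintro _ ⟨f, hf, rfl⟩
      set c := evalC f P
      set g := f - algebraMap ℂ F c
      have hg : g ∈ regularOff t := sub_mem hf (algebraMap_mem _ _)
      have hgP : evalC g P = 0 := by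
        rw [evalC_sub (hf P htP) (P.algebraMap_mem' _), evalC_algebraMap, sub_self]
      have hsplit : f = (C (C c) : ℂ[X][X]) • (1 : F) + ((C X : ℂ[X][X]) • (g * y ^ N * t⁻¹) +
          (X - 1 : ℂ[X][X]) • (-g * ∑ i ∈ Finset.range N, y ^ i)) := by
        simp only [Algebra.smul_def, RingHom.algebraMap_toAlgebra, map_sub, map_one, biEval_C,
          biEval_X, aeval_C, aeval_X, mul_one]
        rw [show (y - 1) * (-g * ∑ i ∈ Finset.range N, y ^ i) =
          -g * ((∑ i ∈ Finset.range N, y ^ i) * (y - 1)) by ring, geom_sum_mul,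
          show t * (g * y ^ N * t⁻¹) = g * y ^ N * (t * t⁻¹) by ring, mul_inv_cancel₀ ht0]
        simp only [g]
        ring
      rw [hsplit, map_add, (Submodule.Quotient.mk_eq_zero _).mpr
        (Submodule.smul_mem _ _ (Submodule.subset_span rfl)) |> (fun h => (show N1.mkQ
          ((C (C c) : ℂ[X][X]) • (1 : F)) = 0 from h)), zero_add]
      refine Submodule.mem_map_of_mem (add_mem (Submodule.smul_mem_smul
        (Ideal.subset_span (by simp)) (hdiv g hg hgP))
        (Submodule.smul_mem_smul (Ideal.subset_span (by simp)) ?_))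
      exact (mul_mem (neg_mem hg) (sum_mem fun i _ => pow_mem hy i) :
        -g * ∑ i ∈ Finset.range N, y ^ i ∈ regularOff t)
    obtain ⟨r, hr, hr0⟩ := Submodule.exists_sub_one_mem_and_smul_eq_zero_of_fg_of_le_smul I _
      (hMfg.map _) hle
    refine ⟨r, ?_, fun f hf => ?_⟩
    · have hI : I ≤ RingHom.ker (evalEvalRingHom (0 : ℂ) 1) := by
        rw [Ideal.span_le]
        rintro q (rfl | rfl) <;> simp
      have h := RingHom.mem_ker.mp (hI hr)
      rw [map_sub, map_one, sub_eq_zero] at h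
      exact h
    · have h0 := hr0 (N1.mkQ f) (Submodule.mem_map_of_mem hf)
      rw [← map_smul, Submodule.mkQ_apply, Submodule.Quotient.mk_eq_zero,
        Submodule.mem_span_singleton] at h0
      obtain ⟨q, hq⟩ := h0
      exact ⟨q, by simpa [Algebra.smul_def, RingHom.algebraMap_toAlgebra] using hq.symm⟩
  obtain ⟨m, hm, hdvd⟩ := exists_minimal htr hy
  refine ⟨y, m, r, hy, hyP, fun Q hQ hne => ?_, hm, hdvd, ?_, hr1, hr⟩
  · have hmem := mem_of_ord_nonneg Q hQ.le
    rw [hyS Q hmem ((evalC_eq_zero_iff hmem).mpr (Or.inr hQ)), if_neg hne]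
  -- `(0, 1)` is a simple root
  obtain ⟨q, hq⟩ := hr ((y - 1) * y ^ N * t⁻¹) (hdiv _ (sub_mem hy (one_mem _)) (by
    rw [evalC_sub (hy P htP) (one_mem _), hyP,
      show evalC (1 : F) P = 1 by simpa using evalC_algebraMap (1 : ℂ) P, sub_self]))
  obtain ⟨c, hc⟩ := hdvd (r * ((X - 1) * X ^ N) - C X * q) (by
    rw [map_sub, map_mul, map_mul, map_mul, map_sub, map_one, map_pow, biEval_X, biEval_C, aeval_X,
      ← hq]
    rw [show t * (biEval t y r * ((y - 1) * y ^ N * t⁻¹)) =
      biEval t y r * ((y - 1) * y ^ N) * (t * t⁻¹) by ring, mul_inv_cancel₀ ht0]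
    ring)
  intro hd
  have h1 := congrArg (fun e => (derivative e).evalEval (0 : ℂ) 1) hc
  have hm01 : m.evalEval 0 1 = 0 := by
    have := evalC_biEval htP hy m
    rw [hm, hyP, (evalC_eq_zero_iff htP).mpr (Or.inr (by omega)),
      (evalC_eq_zero_iff (zero_mem _)).mpr (Or.inl rfl)] at this
    exact this.symm
  simp [derivative_mul, derivative_pow, evalEval_add, evalEval_mul, evalEval_sub, evalEval_X,
    evalEval_C, hr1, hd, hm01] at h1

variable {P : Place ℂ F} {t y : F} {m r : ℂ[X][X]}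

/-- Places with the same value of `(t, y)` coincide, off the zeros of the denominator. -/
theorem eq_of_values (ht : Transcendental ℂ t) (hy : y ∈ regularOff t)
    (hr : ∀ f ∈ regularOff t, ∃ q : ℂ[X][X], biEval t y r * f = biEval t y q)
    {Q Q' : Place ℂ F} (hQ : t ∈ Q.toValuationSubring) (hQ' : t ∈ Q'.toValuationSubring)
    (h1 : evalC t Q' = evalC t Q) (h2 : evalC y Q' = evalC y Q)
    (hrQ : r.evalEval (evalC t Q) (evalC y Q) ≠ 0) : Q' = Q := by
  by_contra hne
  obtain ⟨f, hf, hf0, hord, hord'⟩ := exists_mem_ord_eq_one ht hQ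
  obtain ⟨q, hq⟩ := hr f hf
  have e : ∀ S : Place ℂ F, t ∈ S.toValuationSubring →
      r.evalEval (evalC t S) (evalC y S) * evalC f S = q.evalEval (evalC t S) (evalC y S) := by
    intro S hS
    rw [← evalC_biEval hS hy, ← evalC_biEval hS hy, ← hq,
      evalC_mul (biEval_mem_regularOff hy r S hS) (hf S hS)]
  have e1 := e Q' hQ'
  rw [h1, h2, ← e Q hQ] at e1
  have hv := mul_left_cancel₀ hrQ e1
  rw [(evalC_eq_zero_iff (hf Q hQ)).mpr (Or.inr (by omega)), evalC_eq_zero_iff (hf Q' hQ'),
    or_iff_right hf0, hord' Q' hne hQ' h1] at hv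
  exact lt_irrefl _ hv

/-- `t` is a local parameter where the root is simple and the denominator is a unit. -/
theorem ord_sub_evalC_eq_one (ht : Transcendental ℂ t) (hy : y ∈ regularOff t)
    (hm : biEval t y m = 0)
    (hr : ∀ f ∈ regularOff t, ∃ q : ℂ[X][X], biEval t y r * f = biEval t y q)
    {Q : Place ℂ F} (hQ : t ∈ Q.toValuationSubring)
    (hd : (derivative m).evalEval (evalC t Q) (evalC y Q) ≠ 0)
    (hrQ : r.evalEval (evalC t Q) (evalC y Q) ≠ 0) :
    Q.ord (t - algebraMap ℂ F (evalC t Q)) = 1 := by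
  set z := evalC t Q
  set w := evalC y Q
  have hne : t - algebraMap ℂ F z ≠ 0 := fun h0 =>
    ht (sub_eq_zero.mp h0 ▸ isAlgebraic_algebraMap _)
  set e := Q.ord (t - algebraMap ℂ F z)
  have he : 1 ≤ e := (ordGE_sub_evalC hQ).le_ord hne
  have hunit : ∀ q : ℂ[X][X], q.evalEval z w ≠ 0 → Q.ord (biEval t y q) = 0 := by
    intro q hq
    have h := ord_nonneg_of_mem Q (biEval_mem_regularOff hy q Q hQ)
    by_contra hne'
    refine hq ?_
    rw [← evalC_biEval hQ hy]
    exact (evalC_eq_zero_iff (biEval_mem_regularOff hy q Q hQ)).mpr (Or.inr (by omega))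
  have hne0 : ∀ q : ℂ[X][X], q.evalEval z w ≠ 0 → biEval t y q ≠ 0 := by
    intro q hq h0
    refine hq ?_
    rw [← evalC_biEval hQ hy, h0]
    exact (evalC_eq_zero_iff (zero_mem _)).mpr (Or.inl rfl)
  have hexp : ∀ q : ℂ[X][X], q.evalEval z w = 0 → ∃ B : ℂ[X][X],
      B.evalEval z w = (derivative q).evalEval z w ∧
        OrdGE Q e (biEval t y q - (y - algebraMap ℂ F w) * biEval t y B) := by
    intro q hq
    obtain ⟨A, B, hAB, hB⟩ := exists_decomp q z w
    refine ⟨B, hB, ?_⟩
    rw [hq, map_zero, map_zero, zero_add] at hAB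
    rw [hAB, map_add, biEval_C, map_mul (biEval t y), map_sub (biEval t y), biEval_X, biEval_C,
      aeval_C, add_sub_cancel_right, map_mul, map_sub, aeval_X, aeval_C, show e = e + 0 by ring]
    exact OrdGE.mul (ordGE_of_le_ord le_rfl)
      ((ordGE_zero_iff_mem Q).mpr (aeval_mem_regularOff t A Q hQ))
  have hw : OrdGE Q e (y - algebraMap ℂ F w) := by
    have hm0 : m.evalEval z w = 0 := by
      rw [← evalC_biEval hQ hy, hm]
      exact (evalC_eq_zero_iff (zero_mem _)).mpr (Or.inl rfl)
    obtain ⟨B, hB, hAB⟩ := hexp m hm0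
    rw [hm, zero_sub] at hAB
    have hB0 : B.evalEval z w ≠ 0 := hB ▸ hd
    have h2 := OrdGE.mul hAB.neg (ordGE_of_le_ord
      (f := (biEval t y B)⁻¹) (n := 0) (by rw [Q.ord_inv, hunit B hB0, neg_zero]))
    rwa [neg_neg, mul_assoc, mul_inv_cancel₀ (hne0 B hB0), mul_one, add_zero] at h2
  obtain ⟨f, hf, hf0, hord, -⟩ := exists_mem_ord_eq_one ht hQ
  obtain ⟨q, hq⟩ := hr f hf
  have hq0 : q.evalEval z w = 0 := by
    rw [← evalC_biEval hQ hy, ← hq, evalC_mul (biEval_mem_regularOff hy r Q hQ) (hf Q hQ),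
      (evalC_eq_zero_iff (hf Q hQ)).mpr (Or.inr (by omega)), mul_zero]
  obtain ⟨B, -, hAB⟩ := hexp q hq0
  have h3 := OrdGE.add hAB (OrdGE.mul hw
    ((ordGE_zero_iff_mem Q).mpr (biEval_mem_regularOff hy B Q hQ)) |>.mono (m := e) (by omega))
  rw [sub_add_cancel, ← hq] at h3
  have h4 := h3.le_ord (mul_ne_zero (hne0 r hrQ) hf0)
  rw [Q.ord_mul (hne0 r hrQ) hf0, hunit r hrQ, hord] at h4
  omega

end Fermat.Agent.Torsion.Analytic
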