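import Fermat.Agent.Torsion.Analytic.Kernel
import Fermat.Agent.Torsion.Analytic.MeroAux
import Fermat.Agent.Torsion.Analytic.AlgInput

/-!
# Charts, residues and logarithmic primitives

Helpers for `Family.lean`.

Owner: helper75.
-/

set_option autoImplicit false

noncomputable section

open AlgebraicCurve Topology Filter Metric
open scoped Classical

namespace Fermat.Agent.Torsion.Analytic

open Fermat.Agent.Curve

variable {F : Type*} [Field F] [Algebra ℂ F] [IsFunctionField1 ℂ F]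

theorem evalC_fam_zero (P : Place ℂ F) : evalC (0 : F) P = 0 := by
  simpa using evalC_algebraMap (F := F) 0 P

theorem evalC_fam_one (P : Place ℂ F) : evalC (1 : F) P = 1 := by
  simpa using evalC_algebraMap (F := F) 1 P

theorem evalC_fam_sum {ι : Type*} (s : Finset ι) {f : ι → F} {P : Place ℂ F}
    (hf : ∀ i ∈ s, f i ∈ P.toValuationSubring) :
    evalC (∑ i ∈ s, f i) P = ∑ i ∈ s, evalC (f i) P := by
  induction s using Finset.induction_on with
  | empty => simpa using evalC_fam_zero P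
  | insert a s ha ih =>
    rw [Finset.sum_insert ha, Finset.sum_insert ha, evalC_add (hf a (Finset.mem_insert_self a s))
      (P.toValuationSubring.toSubring.sum_mem fun i hi => hf i (Finset.mem_insert_of_mem hi)),
      ih fun i hi => hf i (Finset.mem_insert_of_mem hi)]

theorem fam_inv_mem_and_evalC {f : F} {P : Place ℂ F} (hf : f ∈ P.toValuationSubring)
    (h : evalC f P ≠ 0) : f⁻¹ ∈ P.toValuationSubring ∧ evalC f⁻¹ P = (evalC f P)⁻¹ := by
  rw [Ne, evalC_eq_zero_iff hf, not_or, not_lt] at h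
  have hm : f⁻¹ ∈ P.toValuationSubring :=
    mem_of_ord_nonneg P (by rw [P.ord_inv]; linarith [h.2])
  refine ⟨hm, eq_inv_of_mul_eq_one_left ?_⟩
  rw [← evalC_mul hm hf, inv_mul_cancel₀ h.1, evalC_fam_one]

theorem fam_eventually_mem (f : F) (x : Place ℂ F) :
    ∀ᶠ y in 𝓝[≠] x, f ∈ y.toValuationSubring := by
  have hfin : ({y : Place ℂ F | y.ord f ≠ 0} \ {x}).Finite :=
    (finite_ord_ne_zero f).subset Set.sdiff_subset
  filter_upwards [mem_nhdsWithin_of_mem_nhds (hfin.isClosed.isOpen_compl.mem_nhds (x := x) (by simp)),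
    self_mem_nhdsWithin] with y hy hyx
  refine mem_of_ord_nonneg y (le_of_eq ?_)
  by_contra h
  exact hy ⟨fun h' => h h'.symm, hyx⟩

namespace Chart

variable (c : Chart F)

theorem exists_coeff {Q : Place ℂ F} (hQ : Q ∈ c.φ.source) (ω : Ω[F⁄ℂ]) :
    ∃ a : F, ω = a • KaehlerDifferential.D ℂ F c.t := by
  obtain ⟨a, ha⟩ := exists_smul_eq_of_ne_zero (c.D_ne_zero hQ) ω
  exact ⟨a, ha.symm⟩

/-- A simple pole in a chart. -/
theorem simplePole {ω : Ω[F⁄ℂ]} {a : F} (ha : ω = a • KaehlerDifferential.D ℂ F c.t)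
    {R : Place ℂ F} (hR : R ∈ c.φ.source) {r : ℂ} (hr : HasSimpleResidue ω R r) :
    (r = 0 → a ∈ R.toValuationSubring) ∧ ∃ g : ℂ → ℂ, AnalyticAt ℂ g (c.φ R) ∧
      ∀ᶠ s in 𝓝[≠] (c.φ R), evalC a (c.φ.symm s) = r / (s - c.φ R) + g s := by
  set u := c.t - algebraMap ℂ F (c.φ R) with hu
  have hmem := hr u (c.ord_sub_eq_one hR) a
    (by rw [ha, hu, map_sub, Derivation.map_algebraMap, sub_zero])
  refine ⟨fun h0 => by simpa [h0] using hmem, fun s => evalC (a - algebraMap ℂ F r / u) (c.φ.symm s),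
    c.analyticAt _ R hR hmem, ?_⟩
  have hopen : ∀ᶠ s in 𝓝 (c.φ R), a - algebraMap ℂ F r / u ∈ (c.φ.symm s).toValuationSubring := by
    refine (c.φ.continuousAt_symm (c.φ.map_source hR)).eventually
      (p := fun y => a - algebraMap ℂ F r / u ∈ y.toValuationSubring) ?_
    rw [c.φ.left_inv hR]
    exact (isOpen_setOf_mem _).mem_nhds hmem
  filter_upwards [mem_nhdsWithin_of_mem_nhds hopen, self_mem_nhdsWithin,
    mem_nhdsWithin_of_mem_nhds (c.φ.open_target.mem_nhds (c.φ.map_source hR))] with s hs hne ht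
  have hsrc := c.φ.map_target ht
  have hum : u ∈ (c.φ.symm s).toValuationSubring :=
    sub_mem (c.mem _ hsrc) ((c.φ.symm s).algebraMap_mem' _)
  have huv : evalC u (c.φ.symm s) = s - c.φ R := by
    rw [hu, evalC_sub (c.mem _ hsrc) ((c.φ.symm s).algebraMap_mem' _), evalC_algebraMap,
      ← c.apply_eq _ hsrc, c.φ.right_inv ht]
  obtain ⟨him, hiv⟩ := fam_inv_mem_and_evalC hum (by rw [huv]; exact sub_ne_zero.2 hne)
  have hru : algebraMap ℂ F r / u ∈ (c.φ.symm s).toValuationSubring := by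
    rw [div_eq_mul_inv]; exact mul_mem ((c.φ.symm s).algebraMap_mem' _) him
  conv_lhs => rw [← sub_add_cancel a (algebraMap ℂ F r / u)]
  rw [evalC_add hs hru, add_comm]
  congr 1
  rw [div_eq_mul_inv, evalC_mul ((c.φ.symm s).algebraMap_mem' _) him, evalC_algebraMap, hiv, huv,
    div_eq_mul_inv]

end Chart

/-! ### The local primitive -/

/-- A chart disc. -/
def discSet (c : Chart F) (ρ : ℝ) : Set (Place ℂ F) := c.φ.source ∩ c.φ ⁻¹' ball (0 : ℂ) ρ

theorem isOpen_discSet (c : Chart F) (ρ : ℝ) : IsOpen (discSet c ρ) :=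
  c.φ.isOpen_inter_preimage isOpen_ball

/-- One factor of the local primitive. -/
def discFactor (c : Chart F) (ρ : ℝ) (x : Place ℂ F) (n : ℤ) (s : ℂ) : ℂ :=
  if x ∈ discSet c ρ then (s - c.φ x) ^ n else 1

/-- `exp` of a primitive of `a dt` in a chart disc, `D` being the divisor of residues. -/
def localPrim (c : Chart F) (ρ : ℝ) (a : F) (D : Divisor ℂ F) (s : ℂ) : ℂ :=
  (∏ x ∈ D.support, discFactor c ρ x (D x) s) *
    Complex.exp (cauchyPrim ρ (fun ζ => evalC a (c.φ.symm ζ)) s)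

theorem discFactor_mul_self {c : Chart F} {ρ : ℝ} {x : Place ℂ F} (s : ℂ) :
    discFactor c ρ x 0 s = 1 := by
  simp [discFactor]

/-- Residue data of a differential in a chart disc of radius `ρ`. -/
structure DiscData (c : Chart F) (ρ : ℝ) (a : F) (D : Divisor ℂ F) (ω : Ω[F⁄ℂ]) : Prop where
  pos : 0 < ρ
  subset : closedBall (0 : ℂ) ρ ⊆ c.φ.target
  coeff : ω = a • KaehlerDifferential.D ℂ F c.t
  residue : ∀ x, HasSimpleResidue ω x (D x : ℂ)
  off_circle : ∀ x ∈ D.support, x ∈ c.φ.source → ‖c.φ x‖ ≠ ρ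

namespace DiscData

variable {c : Chart F} {ρ : ℝ} {a : F} {D : Divisor ℂ F} {ω : Ω[F⁄ℂ]} (h : DiscData c ρ a D ω)
include h

theorem eq_zero_of_norm_eq {s : ℂ} (hs : s ∈ sphere (0 : ℂ) ρ) : D (c.φ.symm s) = 0 := by
  by_contra hne
  have ht := h.subset (sphere_subset_closedBall hs)
  apply h.off_circle _ (Finsupp.mem_support_iff.2 hne) (c.φ.map_target ht)
  rw [c.φ.right_inv ht]
  exact mem_sphere_zero_iff_norm.1 hs

theorem analyticAt_evalC {s : ℂ} (hs : s ∈ closedBall (0 : ℂ) ρ) (h0 : D (c.φ.symm s) = 0) :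
    AnalyticAt ℂ (fun ζ => evalC a (c.φ.symm ζ)) s := by
  have ht := h.subset hs
  have hsrc := c.φ.map_target ht
  have := c.analyticAt a _ hsrc ((c.simplePole h.coeff hsrc (h.residue _)).1 (by simp [h0]))
  rwa [c.φ.right_inv ht] at this

theorem continuousOn_sphere : ContinuousOn (fun ζ => evalC a (c.φ.symm ζ)) (sphere 0 ρ) :=
  fun _ hs => (h.analyticAt_evalC (sphere_subset_closedBall hs)
    (h.eq_zero_of_norm_eq hs)).continuousAt.continuousWithinAt

theorem analyticAt_cauchyPrim {s : ℂ} (hs : s ∈ ball (0 : ℂ) ρ) :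
    AnalyticAt ℂ (cauchyPrim ρ (fun ζ => evalC a (c.φ.symm ζ))) s :=
  DifferentiableOn.analyticAt
    (fun w hw => (hasDerivAt_cauchyPrim h.continuousOn_sphere hw).differentiableAt.differentiableWithinAt)
    (isOpen_ball.mem_nhds hs)

omit h in
theorem discFactor_ne {x : Place ℂ F} {s : ℂ} (hst : s ∈ c.φ.target) (hx : x ≠ c.φ.symm s)
    (hxd : x ∈ discSet c ρ) : s - c.φ x ≠ 0 := by
  intro e
  apply hx
  rw [sub_eq_zero.1 e, c.φ.left_inv hxd.1]

omit h in
theorem analyticAt_discFactor {x : Place ℂ F} {s : ℂ} (n : ℤ) (hst : s ∈ c.φ.target)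
    (hx : x ≠ c.φ.symm s) :
    AnalyticAt ℂ (discFactor c ρ x n) s ∧ discFactor c ρ x n s ≠ 0 := by
  by_cases hxd : x ∈ discSet c ρ
  · have hne := discFactor_ne hst hx hxd
    have : discFactor c ρ x n = fun s => (s - c.φ x) ^ n := by funext s; simp [discFactor, hxd]
    rw [this]
    exact ⟨(analyticAt_id.sub analyticAt_const).zpow hne, zpow_ne_zero _ hne⟩
  · have : discFactor c ρ x n = fun _ => 1 := by funext s; simp [discFactor, hxd]
    rw [this]
    exact ⟨analyticAt_const, one_ne_zero⟩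

theorem exists_localPrim_eq {s₀ : ℂ} (hs : s₀ ∈ ball (0 : ℂ) ρ) :
    ∃ g : ℂ → ℂ, AnalyticAt ℂ g s₀ ∧ g s₀ ≠ 0 ∧
      ∀ s, localPrim c ρ a D s = (s - s₀) ^ (D (c.φ.symm s₀)) * g s := by
  have ht := h.subset (ball_subset_closedBall hs)
  have hd : c.φ.symm s₀ ∈ discSet c ρ :=
    ⟨c.φ.map_target ht, by rw [Set.mem_preimage, c.φ.right_inv ht]; exact hs⟩
  have hrest : ∀ x ∈ D.support.erase (c.φ.symm s₀), AnalyticAt ℂ (discFactor c ρ x (D x)) s₀ ∧
      discFactor c ρ x (D x) s₀ ≠ 0 := fun x hx =>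
    analyticAt_discFactor (D x) ht (Finset.ne_of_mem_erase hx)
  refine ⟨fun s => (∏ x ∈ D.support.erase (c.φ.symm s₀), discFactor c ρ x (D x) s) *
    Complex.exp (cauchyPrim ρ (fun ζ => evalC a (c.φ.symm ζ)) s),
    (Finset.analyticAt_fun_prod _ fun x hx => (hrest x hx).1).mul (h.analyticAt_cauchyPrim hs).cexp,
    mul_ne_zero (Finset.prod_ne_zero_iff.2 fun x hx => (hrest x hx).2) (Complex.exp_ne_zero _),
    fun s => ?_⟩
  rw [localPrim, ← mul_assoc]
  congr 1
  by_cases hm : c.φ.symm s₀ ∈ D.support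
  · rw [← Finset.mul_prod_erase _ _ hm]
    simp [discFactor, hd, c.φ.right_inv ht]
  · rw [Finset.erase_eq_of_notMem hm, Finsupp.notMem_support_iff.1 hm, zpow_zero, one_mul]

theorem localPrim_regular {s : ℂ} (hs : s ∈ ball (0 : ℂ) ρ) (h0 : D (c.φ.symm s) = 0) :
    AnalyticAt ℂ (localPrim c ρ a D) s ∧ localPrim c ρ a D s ≠ 0 := by
  obtain ⟨g, hg, hg0, heq⟩ := h.exists_localPrim_eq hs
  have e : localPrim c ρ a D = g := funext fun w => by rw [heq w, h0, zpow_zero, one_mul]
  rw [e]; exact ⟨hg, hg0⟩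

theorem hasDerivAt_localPrim {s : ℂ} (hs : s ∈ ball (0 : ℂ) ρ) (h0 : D (c.φ.symm s) = 0) :
    HasDerivAt (localPrim c ρ a D) (localPrim c ρ a D s * evalC a (c.φ.symm s)) s := by
  have ht := h.subset (ball_subset_closedBall hs)
  set T := D.support.filter (· ∈ discSet c ρ) with hT
  have hTd : ∀ x ∈ T, x ∈ discSet c ρ := fun x hx => (Finset.mem_filter.1 hx).2
  have hne : ∀ x ∈ T, x ≠ c.φ.symm s := by
    intro x hx e
    exact Finsupp.mem_support_iff.1 (Finset.mem_filter.1 hx).1 (e ▸ h0)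
  have hprod : HasDerivAt (fun w => ∏ x ∈ D.support, discFactor c ρ x (D x) w)
      ((∏ x ∈ D.support, discFactor c ρ x (D x) s) * ∑ x ∈ T, (D x : ℂ) / (s - c.φ x)) s := by
    have e : ∀ w, ∏ x ∈ D.support, discFactor c ρ x (D x) w = ∏ x ∈ T, (w - c.φ x) ^ (D x) :=
      fun w => by simp only [hT, Finset.prod_filter, discFactor]
    simp only [e]
    clear_value T
    clear e hT
    induction T using Finset.induction_on with
    | empty => simpa using hasDerivAt_const s (1 : ℂ)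
    | insert x T hx ih =>
      have hn := discFactor_ne ht (hne x (Finset.mem_insert_self x T))
        (hTd x (Finset.mem_insert_self x T))
      have h1 : HasDerivAt (fun w => (w - c.φ x) ^ (D x))
          ((s - c.φ x) ^ (D x) * ((D x : ℂ) / (s - c.φ x))) s := by
        refine ((hasDerivAt_zpow (D x) _ (Or.inl hn)).comp_sub_const s (c.φ x)).congr_deriv ?_
        rw [zpow_sub_one₀ hn]
        ring
      have := h1.mul (ih (fun y hy => hTd y (Finset.mem_insert_of_mem hy))
        (fun y hy => hne y (Finset.mem_insert_of_mem hy)))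
      simp only [Finset.prod_insert hx, Finset.sum_insert hx]
      exact this.congr_deriv (by ring)
  have hsym : ∀ x ∈ T, c.φ.symm (c.φ x) = x := fun x hx => c.φ.left_inv (hTd x hx).1
  have hcauchy : (2 * Real.pi * Complex.I)⁻¹ *
      (∮ ζ in C(0, ρ), (ζ - s)⁻¹ * evalC a (c.φ.symm ζ)) =
      evalC a (c.φ.symm s) - ∑ x ∈ T, (D x : ℂ) / (s - c.φ x) := by
    have hinj : Set.InjOn c.φ T := fun x hx y hy e => c.φ.injOn (hTd x hx).1 (hTd y hy).1 e
    rw [cauchy_eq_sub_principal h.pos (T.image c.φ) (fun p => (D (c.φ.symm p) : ℂ))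
      (f := fun ζ => evalC a (c.φ.symm ζ)) ?_ ?_ ?_ hs ?_, Finset.sum_image hinj]
    · congr 1
      exact Finset.sum_congr rfl fun x hx => by rw [hsym x hx]
    · rw [Finset.forall_mem_image]
      exact fun x hx => (hTd x hx).2
    · intro w hw hwT
      refine h.analyticAt_evalC hw ?_
      by_contra hne0
      have hwt := h.subset hw
      rcases lt_or_eq_of_le (mem_closedBall_zero_iff.1 hw) with hlt | heq
      · refine hwT (Finset.mem_image.2 ⟨c.φ.symm w, Finset.mem_filter.2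
          ⟨Finsupp.mem_support_iff.2 hne0, c.φ.map_target hwt, ?_⟩, c.φ.right_inv hwt⟩)
        rw [Set.mem_preimage, c.φ.right_inv hwt]
        exact mem_ball_zero_iff.2 hlt
      · exact hne0 (h.eq_zero_of_norm_eq (mem_sphere_zero_iff_norm.2 heq))
    · rw [Finset.forall_mem_image]
      intro x hx
      rw [hsym x hx]
      exact (c.simplePole h.coeff (hTd x hx).1 (h.residue x)).2
    · simp only [Finset.mem_image, not_exists, not_and]
      intro x hx e
      exact hne x hx (by rw [← e, hsym x hx])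
  have hexp := (hasDerivAt_cauchyPrim h.continuousOn_sphere hs).cexp
  rw [hcauchy] at hexp
  exact (hprod.mul hexp).congr_deriv (by rw [localPrim]; ring)

end DiscData

end Fermat.Agent.Torsion.Analytic
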