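import Fermat.Agent.Torsion.Analytic.Mero

/-!
# Locally flat trivialisations over a finite cover by discs

`G i` is a meromorphic function on the disc `U i`; the quotients `G i / G j` are locally constant.
The resulting cocycle `kappa` is the class of a divisor of degree zero.

Owner: helper71.
-/

set_option autoImplicit false

noncomputable section

open AlgebraicCurve Topology Filter Metric

namespace Fermat.Agent.Torsion.Analytic

open Fermat.Agent.Curve

variable (F : Type*) [Field F] [Algebra ℂ F] [IsFunctionField1 ℂ F]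

/-- A finite cover by chart discs centred at `0`, each inside a larger closed disc. -/
structure Cover where
  n : ℕ
  c : Fin n → Chart F
  r : Fin n → ℝ
  R : Fin n → ℝ
  r_pos : ∀ i, 0 < r i
  r_lt_R : ∀ i, r i < R i
  closedBall_subset : ∀ i, closedBall (0 : ℂ) (R i) ⊆ (c i).φ.target
  cover : ∀ P : Place ℂ F, ∃ i, P ∈ (c i).φ.source ∧ (c i).φ P ∈ ball (0 : ℂ) (r i)

theorem exists_cover : Nonempty (Cover F) := by
  have hR : ∀ P : Place ℂ F, ∃ R : ℝ, 0 < R ∧ closedBall (0 : ℂ) R ⊆ (chartAt P).φ.target := by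
    intro P
    have h : (chartAt P).φ.target ∈ 𝓝 (0 : ℂ) := (chartAt P).φ.open_target.mem_nhds
      (chartAt_self P ▸ (chartAt P).φ.map_source (mem_chartAt_source P))
    exact nhds_basis_closedBall.mem_iff.mp h
  choose R hR0 hRsub using hR
  obtain ⟨t, ht⟩ := isCompact_univ.elim_finite_subcover
    (fun P : Place ℂ F => (chartAt P).φ.source ∩ (chartAt P).φ ⁻¹' ball (0 : ℂ) (R P / 2))
    (fun P => (chartAt P).φ.isOpen_inter_preimage isOpen_ball)
    fun P _ => Set.mem_iUnion.mpr ⟨P, mem_chartAt_source P, by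
      rw [Set.mem_preimage, chartAt_self]
      exact mem_ball_self (half_pos (hR0 P))⟩
  refine ⟨{
    n := t.card
    c := fun i => chartAt (t.equivFin.symm i : Place ℂ F)
    r := fun i => R (t.equivFin.symm i : Place ℂ F) / 2
    R := fun i => R (t.equivFin.symm i : Place ℂ F)
    r_pos := fun i => half_pos (hR0 _)
    r_lt_R := fun i => half_lt_self (hR0 _)
    closedBall_subset := fun i => hRsub _
    cover := fun P => ?_ }⟩
  obtain ⟨Q, hQ, hP⟩ := Set.mem_iUnion₂.mp (ht (Set.mem_univ P))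
  exact ⟨t.equivFin ⟨Q, hQ⟩, by
    rw [Equiv.symm_apply_apply]
    exact ⟨hP.1, hP.2⟩⟩

variable {F}

namespace Cover

variable (C : Cover F)

/-- The `i`-th disc. -/
def U (i : Fin C.n) : Set (Place ℂ F) :=
  (C.c i).φ.source ∩ (C.c i).φ ⁻¹' ball (0 : ℂ) (C.r i)

/-- Points of double overlaps. -/
def Idx : Type _ :=
  {q : Fin C.n × Fin C.n × Place ℂ F // q.2.2 ∈ C.U q.1 ∧ q.2.2 ∈ C.U q.2.1}

variable {C}

/-- First index of an overlap point. -/
def Idx.fstIdx (q : C.Idx) : Fin C.n := q.1.1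

/-- Second index of an overlap point. -/
def Idx.sndIdx (q : C.Idx) : Fin C.n := q.1.2.1

/-- The place of an overlap point. -/
def Idx.pt (q : C.Idx) : Place ℂ F := q.1.2.2

variable (C)

/-- Flat trivialisation of the divisor `D`. -/
structure IsFlatMul (D : Place ℂ F → ℤ) (G : Fin C.n → Place ℂ F → ℂ) : Prop where
  mero : ∀ i, ∀ x ∈ C.U i, MeroAt (G i) x
  ord_eq : ∀ i, ∀ x ∈ C.U i, meroOrd (G i) x = (D x : ℤ)
  flat : ∀ q : C.Idx, ∃ k : ℂ,
    (fun y => G q.fstIdx y / G q.sndIdx y) =ᶠ[𝓝[≠] q.pt] fun _ => k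

/-- Multiplicative cocycle. -/
def kappa (G : Fin C.n → Place ℂ F → ℂ) (q : C.Idx) : ℂ :=
  limUnder (𝓝[≠] q.pt) fun y => G q.fstIdx y / G q.sndIdx y

/-- Flat meromorphic primitive (of a differential of the second kind). -/
structure IsFlatAdd (H : Fin C.n → Place ℂ F → ℂ) : Prop where
  mero : ∀ i, ∀ x ∈ C.U i, MeroAt (H i) x
  flat : ∀ q : C.Idx, ∃ k : ℂ,
    (fun y => H q.fstIdx y - H q.sndIdx y) =ᶠ[𝓝[≠] q.pt] fun _ => k

/-- Additive cocycle. -/
def delta (H : Fin C.n → Place ℂ F → ℂ) (q : C.Idx) : ℂ :=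
  limUnder (𝓝[≠] q.pt) fun y => H q.fstIdx y - H q.sndIdx y

/-- Holomorphic on every disc. -/
def IsRegular (H : Fin C.n → Place ℂ F → ℂ) : Prop :=
  ∀ i, ∀ x ∈ C.U i, 0 ≤ meroOrd (H i) x

/-- At most a simple pole at `P` and no other pole; the pole at `P` is genuine. -/
def HasPoleAt (H : Fin C.n → Place ℂ F → ℂ) (P : Place ℂ F) : Prop :=
  ∀ i, ∀ x ∈ C.U i, (x = P → meroOrd (H i) x = ((-1 : ℤ) : WithTop ℤ)) ∧
    (x ≠ P → 0 ≤ meroOrd (H i) x)

/-- Cocycles of regular flat primitives (they contain the coboundaries). -/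
def regularCocycles : Submodule ℂ (C.Idx → ℂ) :=
  Submodule.span ℂ {v | ∃ H, C.IsFlatAdd H ∧ C.IsRegular H ∧ v = C.delta H}

end Cover

end Fermat.Agent.Torsion.Analytic
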