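import Fermat.Agent.Torsion.Analytic.Chart
import Fermat.Agent.Curve.RiemannRoch
import Mathlib.Analysis.Complex.AbsMax

/-!
# Meromorphic functions on the space of places; they all come from the field

`exists_eq_evalC` needs no monodromy: if `g` were not in the field, the pairs `(a, b)` in
`L(D) × L(D)` would give a space of dimension `2 ℓ(D)` of functions `a + b g` with poles bounded by
`D + (g)_∞`, while such a space has dimension at most `1 + deg D + deg (g)_∞`.

Owner: helper74.
-/

set_option autoImplicit false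

noncomputable section

open AlgebraicCurve Topology Filter

namespace Fermat.Agent.Torsion.Analytic

open Fermat.Agent.Curve

variable {F : Type*} [Field F] [Algebra ℂ F] [IsFunctionField1 ℂ F]

/-- Meromorphy at a place. -/
def MeroAt (g : Place ℂ F → ℂ) (P : Place ℂ F) : Prop :=
  MeromorphicAt (fun z => g ((chartAt P).φ.symm z)) 0

/-- Order at a place. -/
def meroOrd (g : Place ℂ F → ℂ) (P : Place ℂ F) : WithTop ℤ :=
  meromorphicOrderAt (fun z => g ((chartAt P).φ.symm z)) 0

/-! ### Punctured neighbourhoods -/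

theorem Chart.eventually_nhdsNE_iff (c : Chart F) {Q : Place ℂ F} (hQ : Q ∈ c.φ.source)
    (p : Place ℂ F → Prop) :
    (∀ᶠ z in 𝓝[≠] (c.φ Q), p (c.φ.symm z)) ↔ ∀ᶠ y in 𝓝[≠] Q, p y := by
  simp only [eventually_nhdsWithin_iff, Set.mem_compl_iff, Set.mem_singleton_iff]
  rw [← c.φ.eventually_nhds' (fun y => ¬y = Q → p y) hQ]
  refine eventually_congr ?_
  filter_upwards [c.φ.open_target.mem_nhds (c.φ.map_source hQ)] with z hz
  have hiff : c.φ.symm z = Q ↔ z = c.φ Q := by
    constructor
    · intro h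
      rw [← h, c.φ.right_inv hz]
    · rintro rfl
      exact c.φ.left_inv hQ
  simp only [hiff]

theorem eventually_nhdsNE_chartAt_iff (P : Place ℂ F) (p : Place ℂ F → Prop) :
    (∀ᶠ z in 𝓝[≠] (0 : ℂ), p ((chartAt P).φ.symm z)) ↔ ∀ᶠ y in 𝓝[≠] P, p y := by
  have h := (chartAt P).eventually_nhdsNE_iff (mem_chartAt_source P) p
  rwa [chartAt_self] at h

instance instNeBotPunctured (P : Place ℂ F) : (𝓝[≠] P).NeBot := by
  refine ⟨fun h => ?_⟩
  have hbot : ∀ᶠ _y in 𝓝[≠] P, False := by rw [h]; exact eventually_bot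
  rw [← eventually_nhdsNE_chartAt_iff P (fun _ => False)] at hbot
  obtain ⟨_, hz⟩ := hbot.exists
  exact hz

theorem chartAt_symm_zero (P : Place ℂ F) : (chartAt P).φ.symm 0 = P := by
  conv_lhs => rw [← chartAt_self P]
  exact (chartAt P).φ.left_inv (mem_chartAt_source P)

theorem zero_mem_chartAt_target (P : Place ℂ F) : (0 : ℂ) ∈ (chartAt P).φ.target := by
  rw [← chartAt_self P]
  exact (chartAt P).φ.map_source (mem_chartAt_source P)

/-! ### Changing charts -/

theorem Chart.analyticAt_transition (c c' : Chart F) {Q : Place ℂ F} (hQ : Q ∈ c.φ.source)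
    (hQ' : Q ∈ c'.φ.source) : AnalyticAt ℂ (fun z => c'.φ (c.φ.symm z)) (c.φ Q) := by
  refine (c.analyticAt c'.t Q hQ (c'.mem Q hQ')).congr ?_
  have hev : ∀ᶠ y in 𝓝 Q, y ∈ c'.φ.source := c'.φ.open_source.mem_nhds hQ'
  rw [← c.φ.eventually_nhds' _ hQ] at hev
  filter_upwards [hev] with z hz
  exact (c'.apply_eq _ hz).symm

theorem Chart.transition_comp_eventuallyEq (c c' : Chart F) {Q : Place ℂ F}
    (hQ : Q ∈ c.φ.source) (hQ' : Q ∈ c'.φ.source) :
    ∀ᶠ z in 𝓝 (c.φ Q), c'.φ.symm (c'.φ (c.φ.symm z)) = c.φ.symm z ∧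
      c.φ (c'.φ.symm (c'.φ (c.φ.symm z))) = z := by
  have hev : ∀ᶠ y in 𝓝 Q, y ∈ c'.φ.source := c'.φ.open_source.mem_nhds hQ'
  rw [← c.φ.eventually_nhds' _ hQ] at hev
  filter_upwards [hev, c.φ.open_target.mem_nhds (c.φ.map_source hQ)] with z hz hzt
  rw [c'.φ.left_inv hz]
  exact ⟨rfl, c.φ.right_inv hzt⟩

theorem Chart.deriv_transition_ne_zero (c c' : Chart F) {Q : Place ℂ F} (hQ : Q ∈ c.φ.source)
    (hQ' : Q ∈ c'.φ.source) : deriv (fun z => c'.φ (c.φ.symm z)) (c.φ Q) ≠ 0 := by
  intro h0
  set T : ℂ → ℂ := fun z => c'.φ (c.φ.symm z) with hT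
  set S : ℂ → ℂ := fun z => c.φ (c'.φ.symm z) with hS
  have hT0 : T (c.φ Q) = c'.φ Q := by simp only [hT, c.φ.left_inv hQ]
  have hTd : DifferentiableAt ℂ T (c.φ Q) := (c.analyticAt_transition c' hQ hQ').differentiableAt
  have hSd : DifferentiableAt ℂ S (T (c.φ Q)) :=
    hT0.symm ▸ (c'.analyticAt_transition c hQ' hQ).differentiableAt
  have hid : S ∘ T =ᶠ[𝓝 (c.φ Q)] id := by
    filter_upwards [c.transition_comp_eventuallyEq c' hQ hQ'] with z hz
    exact hz.2
  have h1 := hid.deriv_eq
  rw [deriv_comp _ hSd hTd, deriv_id, h0, mul_zero] at h1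
  exact zero_ne_one h1

theorem comp_transition_eventuallyEq (g : Place ℂ F → ℂ) (c : Chart F) {Q : Place ℂ F}
    (hQ : Q ∈ c.φ.source) :
    ((fun z => g (c.φ.symm z)) ∘ fun z => c.φ ((chartAt Q).φ.symm z)) =ᶠ[𝓝[≠] 0]
      fun z => g ((chartAt Q).φ.symm z) := by
  have h := (chartAt Q).transition_comp_eventuallyEq c (mem_chartAt_source Q) hQ
  rw [chartAt_self] at h
  exact (h.mono fun z hz => congrArg g hz.1).filter_mono nhdsWithin_le_nhds

theorem meroAt_iff {g : Place ℂ F → ℂ} (c : Chart F) {Q : Place ℂ F} (hQ : Q ∈ c.φ.source) :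
    MeroAt g Q ↔ MeromorphicAt (fun z => g (c.φ.symm z)) (c.φ Q) := by
  have ha := (chartAt Q).analyticAt_transition c (mem_chartAt_source Q) hQ
  have hd := (chartAt Q).deriv_transition_ne_zero c (mem_chartAt_source Q) hQ
  rw [chartAt_self] at ha hd
  have h := meromorphicAt_comp_iff_of_deriv_ne_zero (f := fun z => g (c.φ.symm z)) ha hd
  rw [chartAt_symm_zero] at h
  rw [← h, MeroAt]
  exact MeromorphicAt.meromorphicAt_congr (comp_transition_eventuallyEq g c hQ).symm

theorem meroOrd_eq {g : Place ℂ F → ℂ} (c : Chart F) {Q : Place ℂ F} (hQ : Q ∈ c.φ.source) :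
    meroOrd g Q = meromorphicOrderAt (fun z => g (c.φ.symm z)) (c.φ Q) := by
  have ha := (chartAt Q).analyticAt_transition c (mem_chartAt_source Q) hQ
  have hd := (chartAt Q).deriv_transition_ne_zero c (mem_chartAt_source Q) hQ
  rw [chartAt_self] at ha hd
  have h := meromorphicOrderAt_comp_of_deriv_ne_zero (f := fun z => g (c.φ.symm z)) ha hd
  rw [chartAt_symm_zero] at h
  rw [← h, meroOrd]
  exact meromorphicOrderAt_congr (comp_transition_eventuallyEq g c hQ).symm

theorem meroAt_evalC (f : F) (P : Place ℂ F) : MeroAt (evalC f) P := by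
  rw [meroAt_iff (chartAt P) (mem_chartAt_source P)]
  exact (chartAt P).meromorphicAt f P (mem_chartAt_source P)

theorem meroOrd_evalC {f : F} (hf : f ≠ 0) (P : Place ℂ F) :
    meroOrd (evalC f) P = (P.ord f : ℤ) := by
  rw [meroOrd_eq (chartAt P) (mem_chartAt_source P)]
  exact (chartAt P).order_eq f hf P (mem_chartAt_source P)

theorem MeroAt.congr {g g' : Place ℂ F → ℂ} {P : Place ℂ F} (h : MeroAt g P)
    (he : g =ᶠ[𝓝[≠] P] g') : MeroAt g' P ∧ meroOrd g' P = meroOrd g P := by
  have he' : (fun z => g ((chartAt P).φ.symm z)) =ᶠ[𝓝[≠] 0]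
      fun z => g' ((chartAt P).φ.symm z) :=
    (eventually_nhdsNE_chartAt_iff P fun y => g y = g' y).mpr he
  exact ⟨MeromorphicAt.congr h he', (meromorphicOrderAt_congr he').symm⟩

theorem MeroAt.mul {g g' : Place ℂ F → ℂ} {P : Place ℂ F} (h : MeroAt g P) (h' : MeroAt g' P) :
    MeroAt (g * g') P ∧ meroOrd (g * g') P = meroOrd g P + meroOrd g' P :=
  ⟨MeromorphicAt.mul h h', meromorphicOrderAt_mul h h'⟩

theorem MeroAt.add {g g' : Place ℂ F → ℂ} {P : Place ℂ F} (h : MeroAt g P) (h' : MeroAt g' P) :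
    MeroAt (g + g') P ∧ min (meroOrd g P) (meroOrd g' P) ≤ meroOrd (g + g') P :=
  ⟨MeromorphicAt.add h h', meromorphicOrderAt_add h h'⟩

theorem meroAt_constFun (a : ℂ) (P : Place ℂ F) : MeroAt (fun _ => a) P :=
  MeromorphicAt.const a 0

theorem meroOrd_constFun_nonneg (a : ℂ) (P : Place ℂ F) : 0 ≤ meroOrd (fun _ => a) P :=
  AnalyticAt.meromorphicOrderAt_nonneg analyticAt_const

theorem meroOrd_eq_top_iff {g : Place ℂ F → ℂ} {P : Place ℂ F} :
    meroOrd g P = ⊤ ↔ ∀ᶠ y in 𝓝[≠] P, g y = 0 := by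
  rw [← eventually_nhdsNE_chartAt_iff P fun y => g y = 0]
  exact meromorphicOrderAt_eq_top_iff

/-! ### Elements of the field near a place -/

/-- Near any place every function is regular, and a non-zero one has no zero. -/
theorem eventually_nhdsNE_ord_eq_zero (f : F) (P : Place ℂ F) :
    ∀ᶠ y in 𝓝[≠] P, y.ord f = 0 := by
  have hfin : ({y : Place ℂ F | y.ord f ≠ 0} \ {P}).Finite :=
    (finite_ord_ne_zero (K := ℂ) f).subset Set.sdiff_subset
  have hopen : ({y : Place ℂ F | y.ord f ≠ 0} \ {P})ᶜ ∈ 𝓝 P :=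
    hfin.isClosed.isOpen_compl.mem_nhds fun h => h.2 rfl
  filter_upwards [nhdsWithin_le_nhds hopen, self_mem_nhdsWithin] with y hy hne
  by_contra h
  exact hy ⟨h, hne⟩

theorem eventually_nhdsNE_mem (f : F) (P : Place ℂ F) :
    ∀ᶠ y in 𝓝[≠] P, f ∈ y.toValuationSubring :=
  (eventually_nhdsNE_ord_eq_zero f P).mono fun y hy => mem_of_ord_nonneg y (le_of_eq hy.symm)

theorem eventually_nhdsNE_evalC_ne_zero {f : F} (hf : f ≠ 0) (P : Place ℂ F) :
    ∀ᶠ y in 𝓝[≠] P, evalC f y ≠ 0 := by
  filter_upwards [eventually_nhdsNE_ord_eq_zero f P, eventually_nhdsNE_mem f P] with y hy hm h0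
  rcases (evalC_eq_zero_iff hm).mp h0 with h | h
  · exact hf h
  · omega

theorem evalC_sub_algebraMap {f : F} {P : Place ℂ F} (hf : f ∈ P.toValuationSubring) (a : ℂ) :
    evalC (f - algebraMap ℂ F a) P = evalC f P - a := by
  rw [sub_eq_add_neg, ← map_neg, evalC_add hf (P.algebraMap_mem' _), evalC_algebraMap,
    ← sub_eq_add_neg]

theorem evalC_const_smul {f : F} {P : Place ℂ F} (hf : f ∈ P.toValuationSubring) (a : ℂ) :
    evalC (a • f) P = a * evalC f P := by
  rw [Algebra.smul_def, evalC_mul (P.algebraMap_mem' a) hf, evalC_algebraMap]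

/-! ### Connectedness -/

theorem not_transcendental_of_eventually_eq {f : F} {P : Place ℂ F} {a : ℂ}
    (h : ∀ᶠ y in 𝓝[≠] P, evalC f y = a) : f = algebraMap ℂ F a := by
  by_contra hne
  have hne' : f - algebraMap ℂ F a ≠ 0 := sub_ne_zero.mpr hne
  have htop : meroOrd (evalC (f - algebraMap ℂ F a)) P = ⊤ := by
    rw [meroOrd_eq_top_iff]
    filter_upwards [h, eventually_nhdsNE_mem f P] with y hy hm
    rw [evalC_sub_algebraMap hm, hy, sub_self]
  rw [meroOrd_evalC hne'] at htop
  exact WithTop.coe_ne_top htop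

instance instConnectedSpacePlace : ConnectedSpace (Place ℂ F) := by
  have hne : Nonempty (Place ℂ F) := exists_place
  have : PreconnectedSpace (Place ℂ F) := by
    rw [preconnectedSpace_iff_clopen]
    intro A hA
    rcases A.eq_empty_or_nonempty with hA0 | hA0
    · exact Or.inl hA0
    right
    rw [Set.eq_univ_iff_forall]
    intro P
    by_contra hP
    obtain ⟨f, hf, hpole⟩ := exists_unique_pole (K := ℂ) P
    have hmem : A ⊆ {y : Place ℂ F | f ∈ y.toValuationSubring} := fun y hy => by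
      refine mem_of_ord_nonneg y (not_lt.mp fun hlt => hP ?_)
      rwa [(hpole y).mp hlt] at hy
    obtain ⟨Q, hQA, hQmax⟩ := hA.1.isCompact.exists_isMaxOn hA0
      ((continuousOn_evalC f).mono hmem).norm
    have hA' : ∀ᶠ y in 𝓝 Q, y ∈ A := hA.2.mem_nhds hQA
    have hsrc := mem_chartAt_source Q
    have hg : AnalyticAt ℂ (fun z => evalC f ((chartAt Q).φ.symm z)) 0 := by
      have := (chartAt Q).analyticAt f Q hsrc (hmem hQA)
      rwa [chartAt_self] at this
    have hmax : IsLocalMax (norm ∘ fun z => evalC f ((chartAt Q).φ.symm z)) 0 := by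
      rw [← (chartAt Q).φ.eventually_nhds' _ hsrc, chartAt_self] at hA'
      filter_upwards [hA'] with z hz
      simp only [Function.comp_apply, chartAt_symm_zero]
      exact hQmax hz
    have hconst := Complex.eventually_eq_of_isLocalMax_norm
      (hg.eventually_analyticAt.mono fun z hz => hz.differentiableAt) hmax
    rw [chartAt_symm_zero] at hconst
    have hev : ∀ᶠ y in 𝓝[≠] Q, evalC f y = evalC f Q :=
      (eventually_nhdsNE_chartAt_iff Q fun y => evalC f y = evalC f Q).mp
        (hconst.filter_mono nhdsWithin_le_nhds)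
    exact hf (not_transcendental_of_eventually_eq hev ▸ isAlgebraic_algebraMap _)
  exact ⟨hne⟩

/-! ### Functions without poles -/

section NoPoles

variable {g : Place ℂ F → ℂ}

theorem exists_analytic_limit (hg : ∀ P, MeroAt g P) (h0 : ∀ P, 0 ≤ meroOrd g P)
    (P : Place ℂ F) :
    ∃ G : ℂ → ℂ, AnalyticAt ℂ G 0 ∧
      (∀ᶠ y in 𝓝 P, limUnder (𝓝[≠] y) g = G ((chartAt P).φ y)) ∧
      ∀ᶠ y in 𝓝[≠] P, g y = limUnder (𝓝[≠] y) g := by
  set c := chartAt P with hc
  obtain ⟨G, hGa, hG⟩ := (hg P).meromorphicOrderAt_nonneg_iff.mp (h0 P)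
  have hsrc : P ∈ c.φ.source := mem_chartAt_source P
  have hev : ∀ᶠ z in 𝓝 (0 : ℂ), ∀ᶠ u in 𝓝 z, u ≠ 0 → g (c.φ.symm u) = G u :=
    eventually_eventually_nhds.mpr (eventually_nhdsWithin_iff.mp hG)
  have key : ∀ᶠ z in 𝓝 (0 : ℂ), limUnder (𝓝[≠] (c.φ.symm z)) g = G z := by
    filter_upwards [hev, c.φ.open_target.mem_nhds (zero_mem_chartAt_target P),
      hGa.eventually_analyticAt] with z hz hzt hGz
    have hzs : c.φ.symm z ∈ c.φ.source := c.φ.map_target hzt
    have hpun : ∀ᶠ u in 𝓝[≠] z, g (c.φ.symm u) = G u := by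
      rcases eq_or_ne z 0 with rfl | hz0
      · exact eventually_nhdsWithin_iff.mpr hz
      · filter_upwards [nhdsWithin_le_nhds hz, nhdsWithin_le_nhds (eventually_ne_nhds hz0)]
          with u hu hu0 using hu hu0
    have hT : Tendsto (fun u => g (c.φ.symm u)) (𝓝[≠] z) (𝓝 (G z)) :=
      (hGz.continuousAt.tendsto.mono_left nhdsWithin_le_nhds).congr' (hpun.mono fun u hu => hu.symm)
    refine Tendsto.limUnder_eq (tendsto_def.mpr fun s hs => ?_)
    have h' := c.eventually_nhdsNE_iff hzs (fun y => g y ∈ s)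
    rw [c.φ.right_inv hzt] at h'
    exact h'.mp (hT hs)
  have key' : ∀ᶠ y in 𝓝 P, limUnder (𝓝[≠] y) g = G (c.φ y) := by
    have h1 : ∀ᶠ z in 𝓝 (c.φ P), limUnder (𝓝[≠] (c.φ.symm z)) g = G z := by
      rw [hc, chartAt_self]; exact key
    filter_upwards [(c.φ.continuousAt hsrc).eventually h1, c.φ.open_source.mem_nhds hsrc]
      with y hy hys
    rwa [c.φ.left_inv hys] at hy
  refine ⟨G, hGa, key', (eventually_nhdsNE_chartAt_iff P _).mp ?_⟩
  filter_upwards [hG, nhdsWithin_le_nhds key] with z h1 h2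
  exact h1.trans h2.symm

/-- A meromorphic function without poles is constant. -/
theorem exists_eq_const {g : Place ℂ F → ℂ} (hg : ∀ P, MeroAt g P)
    (h0 : ∀ P, 0 ≤ meroOrd g P) : ∃ a : ℂ, ∀ P, g =ᶠ[𝓝[≠] P] fun _ => a := by
  set g' : Place ℂ F → ℂ := fun y => limUnder (𝓝[≠] y) g with hg'
  choose G hGa hGeq hGg using exists_analytic_limit hg h0
  have hcont : Continuous g' := continuous_iff_continuousAt.mpr fun P => by
    refine ContinuousAt.congr ?_ ((hGeq P).mono fun y hy => hy.symm)
    exact ((chartAt_self P).symm ▸ (hGa P).continuousAt).comp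
      ((chartAt P).φ.continuousAt (mem_chartAt_source P))
  obtain ⟨Q, -, hQmax⟩ := isCompact_univ.exists_isMaxOn Set.univ_nonempty
    hcont.norm.continuousOn
  refine ⟨g' Q, ?_⟩
  set A : Set (Place ℂ F) := {P | ∀ᶠ y in 𝓝 P, g' y = g' Q}
  have hlocal : ∀ P, ∀ᶠ z in 𝓝 (0 : ℂ), g' ((chartAt P).φ.symm z) = G P z := fun P => by
    have h := hGeq P
    rw [← (chartAt P).φ.eventually_nhds' _ (mem_chartAt_source P), chartAt_self] at h
    filter_upwards [h, (chartAt P).φ.open_target.mem_nhds (zero_mem_chartAt_target P)] with z hz hzt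
    rwa [(chartAt P).φ.right_inv hzt] at hz
  have hQA : Q ∈ A := by
    have hG0 : G Q 0 = g' Q := by
      have h := (hlocal Q).self_of_nhds
      rw [chartAt_symm_zero] at h
      exact h.symm
    have hmax : IsLocalMax (norm ∘ G Q) 0 := by
      filter_upwards [hlocal Q] with z hz
      rw [Function.comp_apply, Function.comp_apply, hG0, ← hz]
      exact hQmax (Set.mem_univ _)
    have hconst := Complex.eventually_eq_of_isLocalMax_norm
      ((hGa Q).eventually_analyticAt.mono fun z hz => hz.differentiableAt) hmax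
    show ∀ᶠ y in 𝓝 Q, g' y = g' Q
    rw [← (chartAt Q).φ.eventually_nhds' _ (mem_chartAt_source Q), chartAt_self]
    filter_upwards [hlocal Q, hconst] with z h1 h2
    rw [h1, h2, hG0]
  have hAclopen : IsClopen A := by
    refine ⟨?_, isOpen_iff_mem_nhds.mpr fun P hP => eventually_eventually_nhds.mpr hP⟩
    rw [← isOpen_compl_iff, isOpen_iff_mem_nhds]
    intro P hP
    rcases (hGa P).eventually_eq_or_eventually_ne (analyticAt_const (v := g' Q)) with h | h
    · refine absurd ?_ hP
      show ∀ᶠ y in 𝓝 P, g' y = g' Q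
      rw [← (chartAt P).φ.eventually_nhds' _ (mem_chartAt_source P), chartAt_self]
      filter_upwards [hlocal P, h] with z h1 h2
      rw [h1, h2]
    · have hne : ∀ᶠ y in 𝓝[≠] P, g' y ≠ g' Q := by
        refine (eventually_nhdsNE_chartAt_iff P fun y => g' y ≠ g' Q).mp ?_
        filter_upwards [nhdsWithin_le_nhds (hlocal P), h] with z h1 h2
        rwa [h1]
      filter_upwards [eventually_nhdsWithin_iff.mp hne] with y hy hyA
      rcases eq_or_ne y P with rfl | hyP
      · exact hP hyA
      · exact hy hyP hyA.self_of_nhds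
  have hA : A = Set.univ := hAclopen.eq_univ ⟨Q, hQA⟩
  intro P
  have hP : P ∈ A := hA ▸ Set.mem_univ P
  filter_upwards [hGg P, nhdsWithin_le_nhds hP] with y h1 h2
  exact h1.trans h2

end NoPoles

/-! ### Every meromorphic function comes from the field -/

section Pairs

variable (g : Place ℂ F → ℂ)

/-- The function `a + b g` attached to a pair `(a, b)`. -/
def pairFun (p : F × F) : Place ℂ F → ℂ := evalC p.1 + evalC p.2 * g

variable {g} (hg : ∀ P, MeroAt g P)

include hg

theorem meroAt_pairFun (p : F × F) (P : Place ℂ F) : MeroAt (pairFun g p) P :=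
  ((meroAt_evalC p.1 P).add ((meroAt_evalC p.2 P).mul (hg P)).1).1

omit hg in
theorem pairFun_add (p q : F × F) (P : Place ℂ F) :
    pairFun g (p + q) =ᶠ[𝓝[≠] P] pairFun g p + pairFun g q := by
  filter_upwards [eventually_nhdsNE_mem p.1 P, eventually_nhdsNE_mem q.1 P,
    eventually_nhdsNE_mem p.2 P, eventually_nhdsNE_mem q.2 P] with y h1 h2 h3 h4
  simp only [pairFun, Pi.add_apply, Pi.mul_apply, Prod.fst_add, Prod.snd_add, evalC_add h1 h2,
    evalC_add h3 h4]
  ring

omit hg in
theorem pairFun_smul (a : ℂ) (p : F × F) (P : Place ℂ F) :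
    pairFun g (a • p) =ᶠ[𝓝[≠] P] (fun _ => a) * pairFun g p := by
  filter_upwards [eventually_nhdsNE_mem p.1 P, eventually_nhdsNE_mem p.2 P] with y h1 h2
  simp only [pairFun, Pi.add_apply, Pi.mul_apply, Prod.smul_fst, Prod.smul_snd,
    evalC_const_smul h1, evalC_const_smul h2]
  ring

omit hg in
theorem meroOrd_pairFun_zero (P : Place ℂ F) : meroOrd (pairFun g 0) P = ⊤ := by
  rw [meroOrd_eq_top_iff]
  exact Eventually.of_forall fun y => by simp [pairFun, evalC_zero]

/-- Pairs in `L(D) × L(D)` whose function `a + b g` has poles bounded by `E`. -/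
def pairSpace (D E : Divisor ℂ F) : Submodule ℂ (F × F) where
  carrier := {p | (p.1 ∈ riemannRochSpace D ∧ p.2 ∈ riemannRochSpace D) ∧
    ∀ P, ((-E P : ℤ) : WithTop ℤ) ≤ meroOrd (pairFun g p) P}
  zero_mem' := ⟨⟨Submodule.zero_mem _, Submodule.zero_mem _⟩, fun P => by
    rw [meroOrd_pairFun_zero]; exact le_top⟩
  add_mem' := fun {p q} hp hq => ⟨⟨add_mem hp.1.1 hq.1.1, add_mem hp.1.2 hq.1.2⟩, fun P => by
    have h := (meroAt_pairFun hg p P).add (meroAt_pairFun hg q P)
    rw [(h.1.congr (pairFun_add p q P).symm).2]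
    exact le_trans (le_min (hp.2 P) (hq.2 P)) h.2⟩
  smul_mem' := fun a p hp => ⟨⟨Submodule.smul_mem _ a hp.1.1, Submodule.smul_mem _ a hp.1.2⟩,
    fun P => by
      have h := (meroAt_constFun a P).mul (meroAt_pairFun hg p P)
      rw [(h.1.congr (pairFun_smul a p P).symm).2, h.2]
      exact le_trans (hp.2 P) (le_add_of_nonneg_left (meroOrd_constFun_nonneg a P))⟩

theorem finite_pairSpace (D E : Divisor ℂ F) : Module.Finite ℂ (pairSpace hg D E) := by
  have hfg : ((riemannRochSpace D).prod (riemannRochSpace D)).FG :=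
    (Module.Finite.iff_fg.mp inferInstance).prod (Module.Finite.iff_fg.mp inferInstance)
  have := Module.Finite.iff_fg.mpr hfg
  exact Submodule.finiteDimensional_of_le (S₂ := (riemannRochSpace D).prod (riemannRochSpace D))
    fun p hp => hp.1

theorem finrank_pairSpace_step (D E : Divisor ℂ F) (v : Place ℂ F) :
    Module.finrank ℂ (pairSpace hg D (E + Finsupp.single v 1)) ≤
      Module.finrank ℂ (pairSpace hg D E) + 1 := by
  classical
  set W := pairSpace hg D (E + Finsupp.single v 1) with hW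
  have := finite_pairSpace hg D (E + Finsupp.single v 1)
  have := finite_pairSpace hg D E
  set n : ℤ := E v + 1 with hn
  set u : ℂ → ℂ := fun z => z ^ n with hu
  have hum : MeromorphicAt u 0 := (MeromorphicAt.id 0).zpow n
  have huo : meromorphicOrderAt u 0 = (n : WithTop ℤ) := by
    have := meromorphicOrderAt_zpow_id_sub_const (𝕜 := ℂ) (x := 0) (n := n)
    simpa [hu, Pi.pow_def] using this
  set h : F × F → ℂ → ℂ := fun p z => pairFun g p ((chartAt v).φ.symm z)
  have hord : ∀ p ∈ W, 0 ≤ meromorphicOrderAt (u * h p) 0 := fun p hp => by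
    rw [meromorphicOrderAt_mul hum (meroAt_pairFun hg p v), huo]
    have := hp.2 v
    rw [Finsupp.add_apply, Finsupp.single_eq_same] at this
    calc (0 : WithTop ℤ) = (n : WithTop ℤ) + ((-n : ℤ) : WithTop ℤ) := by
          rw [← WithTop.coe_add, add_neg_cancel]; rfl
      _ ≤ _ := add_le_add le_rfl this
  have htend : ∀ p ∈ W, Tendsto (u * h p) (𝓝[≠] 0) (𝓝 (limUnder (𝓝[≠] 0) (u * h p))) :=
    fun p hp => tendsto_nhds_limUnder
      (tendsto_nhds_of_meromorphicOrderAt_nonneg (hum.mul (meroAt_pairFun hg p v)) (hord p hp))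
  let L : W →ₗ[ℂ] ℂ :=
    { toFun := fun p => limUnder (𝓝[≠] 0) (u * h p.1)
      map_add' := fun p q => by
        refine Tendsto.limUnder_eq (((htend p.1 p.2).add (htend q.1 q.2)).congr' ?_)
        filter_upwards [(eventually_nhdsNE_chartAt_iff v _).mpr (pairFun_add (g := g) p.1 q.1 v)] with z hz
        simp only [Pi.mul_apply, h, Submodule.coe_add, hz, Pi.add_apply, mul_add]
      map_smul' := fun a p => by
        refine Tendsto.limUnder_eq (((htend p.1 p.2).const_mul a).congr' ?_)
        filter_upwards [(eventually_nhdsNE_chartAt_iff v _).mpr (pairFun_smul (g := g) a p.1 v)] with z hz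
        simp only [Pi.mul_apply, h, Submodule.coe_smul, hz]
        ring }
  have hker : (LinearMap.ker L).map W.subtype ≤ pairSpace hg D E := by
    rintro _ ⟨⟨p, hp⟩, hpk, rfl⟩
    refine ⟨hp.1, fun P => ?_⟩
    rcases eq_or_ne P v with rfl | hPv
    · have h0 : limUnder (𝓝[≠] 0) (u * h p) = 0 := hpk
      have hpos : 0 < meromorphicOrderAt (u * h p) 0 :=
        (tendsto_zero_iff_meromorphicOrderAt_pos (hum.mul (meroAt_pairFun hg p P))).mp
          (by have := htend p hp; rwa [h0] at this)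
      rw [meromorphicOrderAt_mul hum (meroAt_pairFun hg p P), huo] at hpos
      show ((-E P : ℤ) : WithTop ℤ) ≤ meroOrd (pairFun g p) P
      unfold meroOrd
      cases hc : meromorphicOrderAt (fun z => pairFun g p ((chartAt P).φ.symm z)) 0 with
      | top => exact le_top
      | coe k =>
        change 0 < (n : WithTop ℤ) + meromorphicOrderAt (fun z => pairFun g p
          ((chartAt P).φ.symm z)) 0 at hpos
        rw [hc, ← WithTop.coe_add, ← WithTop.coe_zero, WithTop.coe_lt_coe] at hpos
        exact WithTop.coe_le_coe.mpr (by omega)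
    · have := hp.2 P
      rwa [Finsupp.add_apply, Finsupp.single_eq_of_ne hPv, add_zero] at this
  calc Module.finrank ℂ W
      = Module.finrank ℂ (LinearMap.range L) + Module.finrank ℂ (LinearMap.ker L) :=
        (LinearMap.finrank_range_add_finrank_ker L).symm
    _ ≤ 1 + Module.finrank ℂ (pairSpace hg D E) := by
        refine add_le_add ((Submodule.finrank_le _).trans_eq (Module.finrank_self ℂ)) ?_
        rw [← Submodule.finrank_map_subtype_eq]
        exact Submodule.finrank_mono hker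
    _ = _ := add_comm _ _

theorem finrank_pairSpace_zero_le (hng : ∀ f : F, ¬ ∀ P, g =ᶠ[𝓝[≠] P] evalC f)
    (D : Divisor ℂ F) : Module.finrank ℂ (pairSpace hg D 0) ≤ 1 := by
  have hle : pairSpace hg D 0 ≤ Submodule.span ℂ {((1 : F), (0 : F))} := by
    intro p hp
    obtain ⟨a, ha⟩ := exists_eq_const (meroAt_pairFun hg p) fun P => by
      simpa using hp.2 P
    have hb : p.2 = 0 := by
      by_contra hb
      refine hng ((algebraMap ℂ F a - p.1) / p.2) fun P => ?_
      filter_upwards [ha P, eventually_nhdsNE_mem p.1 P, eventually_nhdsNE_mem p.2 P,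
        eventually_nhdsNE_evalC_ne_zero hb P,
        eventually_nhdsNE_mem ((algebraMap ℂ F a - p.1) / p.2) P] with y hy h1 h2 h3 h4
      have hprod := evalC_mul h4 h2
      have hnum : evalC (algebraMap ℂ F a - p.1) y = a - evalC p.1 y := by
        rw [← neg_sub, ← neg_one_smul ℂ (p.1 - algebraMap ℂ F a),
          evalC_const_smul (sub_mem h1 (y.algebraMap_mem' a)), evalC_sub_algebraMap h1]
        ring
      rw [div_mul_cancel₀ _ hb, hnum] at hprod
      simp only [pairFun, Pi.add_apply, Pi.mul_apply] at hy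
      apply mul_left_cancel₀ h3
      linear_combination hy + hprod
    obtain ⟨P⟩ := exists_place (K := ℂ) (F := F)
    have h1 : p.1 = algebraMap ℂ F a := by
      refine not_transcendental_of_eventually_eq (P := P) ?_
      filter_upwards [ha P] with y hy
      simpa [pairFun, hb, evalC_zero] using hy
    refine Submodule.mem_span_singleton.mpr ⟨a, Prod.ext ?_ ?_⟩
    · simp [h1, Algebra.algebraMap_eq_smul_one]
    · simp [hb]
  calc Module.finrank ℂ (pairSpace hg D 0) ≤ Module.finrank ℂ (Submodule.span ℂ {((1 : F), (0 : F))}) :=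
        Submodule.finrank_mono hle
    _ ≤ 1 := (finrank_span_le_card _).trans_eq (by simp)

theorem finite_poles : {P : Place ℂ F | meroOrd g P < 0}.Finite := by
  classical
  have hloc : ∀ P : Place ℂ F, {y | y ≠ P → 0 ≤ meroOrd g y} ∈ 𝓝 P := fun P => by
    refine eventually_nhdsWithin_iff.mp ((eventually_nhdsNE_chartAt_iff P _).mp ?_)
    filter_upwards [MeromorphicAt.eventually_analyticAt (hg P),
      nhdsWithin_le_nhds ((chartAt P).φ.open_target.mem_nhds (zero_mem_chartAt_target P))]
      with z hz hzt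
    rw [meroOrd_eq (chartAt P) ((chartAt P).φ.map_target hzt), (chartAt P).φ.right_inv hzt]
    exact hz.meromorphicOrderAt_nonneg
  obtain ⟨t, -, ht⟩ := isCompact_univ.elim_nhds_subcover
    (fun P => {y | y ≠ P → 0 ≤ meroOrd g y}) fun P _ => hloc P
  refine t.finite_toSet.subset fun y hy => ?_
  obtain ⟨P, hPt, hyP⟩ := Set.mem_iUnion₂.mp (ht (Set.mem_univ y))
  by_contra hne
  have hle : 0 ≤ meroOrd g y := hyP fun h => hne (h ▸ hPt)
  exact absurd hy (not_lt.mpr hle)

/-- Every meromorphic function on the space of places is an element of the field. -/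
theorem exists_eq_evalC : ∃ f : F, ∀ P, g =ᶠ[𝓝[≠] P] evalC f := by
  classical
  by_contra hcon
  push Not at hcon
  have hng : ∀ f : F, ¬ ∀ P, g =ᶠ[𝓝[≠] P] evalC f := fun f h => by
    obtain ⟨P, hP⟩ := hcon f
    exact hP (h P)
  let E : Divisor ℂ F := Finsupp.onFinset (finite_poles hg).toFinset
    (fun P => max 0 (-(meroOrd g P).untop₀)) fun P hP => by
      rw [Set.Finite.mem_toFinset]
      show meroOrd g P < 0
      cases h : meroOrd g P with
      | top => simp [h] at hP
      | coe k =>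
        simp only [h, WithTop.untop₀_coe, ne_eq] at hP
        exact WithTop.coe_lt_coe.mpr (by omega)
  have hE0 : 0 ≤ E := fun P => le_max_left _ _
  have hgE : ∀ P, ((-E P : ℤ) : WithTop ℤ) ≤ meroOrd g P := fun P => by
    cases h : meroOrd g P with
    | top => exact le_top
    | coe k =>
      refine WithTop.coe_le_coe.mpr ?_
      simp only [E, Finsupp.onFinset_apply, h, WithTop.untop₀_coe]
      omega
  obtain ⟨P₀⟩ := exists_place (K := ℂ) (F := F)
  set m : ℕ := (Divisor.degree E).toNat + 2 * genusFF ℂ F + 1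
  set D : Divisor ℂ F := Finsupp.single P₀ (m : ℤ)
  have hdegD : Divisor.degree D = m := by
    rw [Divisor.degree_single, Fermat.Agent.Curve.deg_eq_one, Nat.cast_one, mul_one]
  have hD0 : 0 ≤ D := Finsupp.single_nonneg.mpr (Int.natCast_nonneg m)
  have hupper : (Module.finrank ℂ (pairSpace hg D (D + E)) : ℤ) ≤ 1 + Divisor.degree (D + E) := by
    refine divisor_induction_up (D₀ := (0 : Divisor ℂ F))
      (P := fun G => (Module.finrank ℂ (pairSpace hg D G) : ℤ) ≤ 1 + Divisor.degree G)
      (add_nonneg hD0 hE0) ?_ fun G v _ hG => ?_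
    · rw [map_zero, add_zero]
      exact_mod_cast finrank_pairSpace_zero_le hg hng D
    · rw [map_add, Divisor.degree_single, Fermat.Agent.Curve.deg_eq_one]
      have := finrank_pairSpace_step hg D G v
      omega
  have hmem : ∀ p : riemannRochSpace D × riemannRochSpace D,
      ((p.1 : F), (p.2 : F)) ∈ pairSpace hg D (D + E) := fun p => by
    refine ⟨⟨p.1.2, p.2.2⟩, fun P => ?_⟩
    have ha : ∀ x : riemannRochSpace D, ((-D P : ℤ) : WithTop ℤ) ≤ meroOrd (evalC (x : F)) P :=
      fun x => by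
        rcases eq_or_ne (x : F) 0 with h | h
        · rw [h, meroOrd_eq_top_iff.mpr (Eventually.of_forall evalC_zero)]
          exact le_top
        · rw [meroOrd_evalC h]
          exact WithTop.coe_le_coe.mpr
            ((mem_riemannRochSpace_iff.mp x.2 P).resolve_left h)
    have hmul := (meroAt_evalC (p.2 : F) P).mul (hg P)
    refine le_trans (le_min ?_ ?_) ((meroAt_evalC (p.1 : F) P).add hmul.1).2
    · refine le_trans (WithTop.coe_le_coe.mpr ?_) (ha p.1)
      have := hE0 P
      simp only [Finsupp.coe_zero, Pi.zero_apply] at this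
      rw [Finsupp.add_apply]
      omega
    · rw [hmul.2, Finsupp.add_apply, neg_add, WithTop.coe_add]
      exact add_le_add (ha p.2) (hgE P)
  let incl : (riemannRochSpace D × riemannRochSpace D) →ₗ[ℂ] pairSpace hg D (D + E) :=
    (LinearMap.prodMap (riemannRochSpace D).subtype (riemannRochSpace D).subtype).codRestrict _
      hmem
  have := finite_pairSpace hg D (D + E)
  have hlower := LinearMap.finrank_le_finrank_of_injective (f := incl) fun p q hpq =>
    Prod.ext (Subtype.ext (congrArg (fun x : pairSpace hg D (D + E) => (x : F × F).1) hpq))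
      (Subtype.ext (congrArg (fun x : pairSpace hg D (D + E) => (x : F × F).2) hpq))
  rw [Module.finrank_prod] at hlower
  have hr := riemann_inequality D
  have hdE : 0 ≤ Divisor.degree E := degree_nonneg_of_le hE0
  have hm : (m : ℤ) = Divisor.degree E + 2 * genusFF ℂ F + 1 := by
    simp [m, Int.toNat_of_nonneg hdE]
  rw [map_add] at hupper
  unfold ell at hr
  omega

end Pairs

end Fermat.Agent.Torsion.Analytic
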