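import Fermat.Agent.Curve.Degree
import Fermat.Agent.Curve.Canonical
import Mathlib.Topology.Compactification.OnePoint.Basic
import Mathlib.Analysis.Complex.Basic

/-!
# The compact space of places of a complex function field

The topology is the weakest one for which every element of the field is a continuous map to the
one-point compactification of `ℂ`. The image of the places in the product is cut out by closed
conditions (`placeLike`), so the space is compact.
-/

set_option autoImplicit false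

noncomputable section

open AlgebraicCurve Topology Filter OnePoint
open scoped Classical

namespace Fermat.Agent.Torsion.Analytic

open Fermat.Agent.Curve

variable {F : Type*} [Field F] [Algebra ℂ F] [IsFunctionField1 ℂ F]

/-- Value of `f` at a place, in the Riemann sphere. -/
def evalPt (P : Place ℂ F) (f : F) : OnePoint ℂ :=
  if f ∈ P.toValuationSubring then (↑(evalAt P f) : OnePoint ℂ) else ∞

/-- Value of `f` at a place as a complex number (junk at poles). -/
def evalC (f : F) (P : Place ℂ F) : ℂ := evalAt P f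

omit [IsFunctionField1 ℂ F] in
theorem ordGE_one_iff {P : Place ℂ F} {f : F} : OrdGE P 1 f ↔ f = 0 ∨ 0 < P.ord f := by
  rw [ordGE_iff]
  exact or_congr_right (by omega)

theorem ordGE_sub_evalC {f : F} {P : Place ℂ F} (hf : f ∈ P.toValuationSubring) :
    OrdGE P 1 (f - algebraMap ℂ F (evalC f P)) :=
  ordGE_one_iff.mpr (evalAt_spec P hf)

/-- The value is the only constant congruent to `f` at the place. -/
theorem evalC_eq_of_ordGE {f : F} {P : Place ℂ F} {a : ℂ}
    (h : OrdGE P 1 (f - algebraMap ℂ F a)) : evalC f P = a := by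
  have hf : f ∈ P.toValuationSubring := by
    rw [← sub_add_cancel f (algebraMap ℂ F a)]
    exact add_mem ((ordGE_zero_iff_mem P).mp (h.mono zero_le_one)) (P.algebraMap_mem' a)
  have h' := OrdGE.sub h (ordGE_sub_evalC hf)
  rw [sub_sub_sub_cancel_left, ← map_sub] at h'
  by_contra hne
  rcases ordGE_one_iff.mp h' with h0 | h0
  · exact sub_ne_zero.mpr hne ((map_eq_zero _).mp h0)
  · rw [ord_algebraMap] at h0; exact lt_irrefl _ h0

instance instTopologicalSpacePlace : TopologicalSpace (Place ℂ F) :=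
  TopologicalSpace.induced (fun (P : Place ℂ F) (f : F) => evalPt P f) inferInstance

omit [IsFunctionField1 ℂ F] in
theorem continuous_evalPt (f : F) : Continuous fun P : Place ℂ F => evalPt P f :=
  by
    have h : Continuous fun (P : Place ℂ F) (g : F) => evalPt P g := continuous_induced_dom
    exact (continuous_apply f).comp h

omit [IsFunctionField1 ℂ F] in
theorem evalPt_of_mem {f : F} {P : Place ℂ F} (hf : f ∈ P.toValuationSubring) :
    evalPt P f = (evalC f P : OnePoint ℂ) := if_pos hf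

omit [IsFunctionField1 ℂ F] in
theorem evalPt_eq_infty_iff {f : F} {P : Place ℂ F} :
    evalPt P f = ∞ ↔ f ∉ P.toValuationSubring := by
  rw [evalPt]
  split <;> simp [*]

omit [IsFunctionField1 ℂ F] in
theorem evalPt_eq_coe_iff {f : F} {P : Place ℂ F} {a : ℂ} :
    evalPt P f = (a : OnePoint ℂ) ↔ f ∈ P.toValuationSubring ∧ evalC f P = a := by
  rw [evalPt]
  split <;> simp [*, evalC]

omit [IsFunctionField1 ℂ F] in
theorem evalPt_injective : Function.Injective fun (P : Place ℂ F) (f : F) => evalPt P f := by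
  intro P Q h
  refine Place.ext (SetLike.ext fun f => ?_)
  rw [← not_iff_not, ← evalPt_eq_infty_iff, ← evalPt_eq_infty_iff]
  exact Eq.congr_left (congrFun h f)

omit [IsFunctionField1 ℂ F] in
theorem isEmbedding_evalPt : IsEmbedding fun (P : Place ℂ F) (f : F) => evalPt P f :=
  ⟨⟨rfl⟩, evalPt_injective⟩

instance instT2SpacePlace : T2Space (Place ℂ F) := isEmbedding_evalPt.t2Space

theorem evalC_algebraMap (a : ℂ) (P : Place ℂ F) : evalC (algebraMap ℂ F a) P = a :=
  evalC_eq_of_ordGE (by rw [sub_self]; exact ordGE_zero 1)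

theorem evalC_add {f g : F} {P : Place ℂ F} (hf : f ∈ P.toValuationSubring)
    (hg : g ∈ P.toValuationSubring) : evalC (f + g) P = evalC f P + evalC g P :=
  evalC_eq_of_ordGE (by
    rw [map_add, add_sub_add_comm]
    exact OrdGE.add (ordGE_sub_evalC hf) (ordGE_sub_evalC hg))

theorem evalC_mul {f g : F} {P : Place ℂ F} (hf : f ∈ P.toValuationSubring)
    (hg : g ∈ P.toValuationSubring) : evalC (f * g) P = evalC f P * evalC g P :=
  evalC_eq_of_ordGE (by
    have h1 := OrdGE.mul (ordGE_sub_evalC hf) ((ordGE_zero_iff_mem P).mpr hg)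
    have h2 := OrdGE.mul (ordGE_algebraMap P (evalC f P)) (ordGE_sub_evalC hg)
    have h3 := OrdGE.add (h1.mono (m := 1) (by norm_num)) (h2.mono (m := 1) (by norm_num))
    convert h3 using 1
    rw [map_mul]; ring)

theorem evalC_neg {f : F} {P : Place ℂ F} (hf : f ∈ P.toValuationSubring) :
    evalC (-f) P = -evalC f P := by
  rw [show -f = algebraMap ℂ F (-1) * f by simp, evalC_mul (P.algebraMap_mem' _) hf,
    evalC_algebraMap, neg_one_mul]

theorem evalC_sub {f g : F} {P : Place ℂ F} (hf : f ∈ P.toValuationSubring)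
    (hg : g ∈ P.toValuationSubring) : evalC (f - g) P = evalC f P - evalC g P := by
  rw [sub_eq_add_neg, evalC_add hf (neg_mem hg), evalC_neg hg, ← sub_eq_add_neg]

theorem evalC_eq_zero_iff {f : F} {P : Place ℂ F} (hf : f ∈ P.toValuationSubring) :
    evalC f P = 0 ↔ f = 0 ∨ 0 < P.ord f := by
  constructor
  · intro h
    have := ordGE_sub_evalC hf
    rwa [h, map_zero, sub_zero, ordGE_one_iff] at this
  · exact fun h => evalC_eq_of_ordGE (by rwa [map_zero, sub_zero, ordGE_one_iff])

/-- Evaluation at a place as a ring homomorphism on its valuation ring. -/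
def evalHom (P : Place ℂ F) : P.toValuationSubring →+* ℂ where
  toFun f := evalC (f : F) P
  map_one' := by simpa using evalC_algebraMap (1 : ℂ) P
  map_mul' f g := evalC_mul f.2 g.2
  map_zero' := by simpa using evalC_algebraMap (0 : ℂ) P
  map_add' f g := evalC_add f.2 g.2

omit [IsFunctionField1 ℂ F] in
theorem isOpen_setOf_mem (f : F) : IsOpen {P : Place ℂ F | f ∈ P.toValuationSubring} := by
  convert (isClosed_singleton (x := (∞ : OnePoint ℂ))).isOpen_compl.preimage (continuous_evalPt f)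
  ext P
  simp [evalPt_eq_infty_iff]

omit [IsFunctionField1 ℂ F] in
theorem continuousOn_evalC (f : F) :
    ContinuousOn (evalC f) {P : Place ℂ F | f ∈ P.toValuationSubring} := by
  rw [OnePoint.isOpenEmbedding_coe.isInducing.continuousOn_iff]
  exact (continuous_evalPt f).continuousOn.congr fun P hP => (evalPt_of_mem hP).symm

/-- Where two coordinates are finite the third one is their `op`. -/
def opSet (op : ℂ → ℂ → ℂ) : Set (OnePoint ℂ × OnePoint ℂ × OnePoint ℂ) :=
  {p | ∀ a b : ℂ, p.1 = ↑a → p.2.1 = ↑b → p.2.2 = ↑(op a b)}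

theorem isClosed_opSet {op : ℂ → ℂ → ℂ} (hop : Continuous fun p : ℂ × ℂ => op p.1 p.2) :
    IsClosed (opSet op) := by
  let e : ℂ × ℂ × OnePoint ℂ → OnePoint ℂ × OnePoint ℂ × OnePoint ℂ :=
    Prod.map (fun a : ℂ => (a : OnePoint ℂ)) (Prod.map (fun a : ℂ => (a : OnePoint ℂ)) id)
  have he : IsOpenMap e :=
    OnePoint.isOpenEmbedding_coe.isOpenMap.prodMap
      (OnePoint.isOpenEmbedding_coe.isOpenMap.prodMap IsOpenMap.id)
  have hO : IsOpen {p : ℂ × ℂ × OnePoint ℂ | p.2.2 ≠ ↑(op p.1 p.2.1)} :=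
    isOpen_ne_fun (by fun_prop)
      (OnePoint.continuous_coe.comp (hop.comp (by fun_prop : Continuous fun p : ℂ × ℂ × OnePoint ℂ =>
        (p.1, p.2.1))))
  rw [← isOpen_compl_iff]
  convert he _ hO
  ext p
  simp only [opSet, Set.mem_compl_iff, Set.mem_ofPred_eq, Set.mem_image]
  push Not
  constructor
  · rintro ⟨a, b, ha, hb, hc⟩
    exact ⟨(a, b, p.2.2), hc, by simp [e, ← ha, ← hb]⟩
  · rintro ⟨⟨a, b, c⟩, hc, rfl⟩
    exact ⟨a, b, rfl, rfl, hc⟩

variable (F) in
/-- The image of the places among all functions `F → OnePoint ℂ`. -/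
def placeLike : Set (F → OnePoint ℂ) :=
  (⋂ a : ℂ, {φ | φ (algebraMap ℂ F a) = (a : OnePoint ℂ)}) ∩
  (⋂ (f : F) (g : F), {φ | (φ f, φ g, φ (f + g)) ∈ opSet (· + ·)}) ∩
  (⋂ (f : F) (g : F), {φ | (φ f, φ g, φ (f * g)) ∈ opSet (· * ·)}) ∩
  (⋂ f : F, {φ | φ f ∈ ((↑) : ℂ → OnePoint ℂ) '' Metric.closedBall 0 1 ∨
      φ f⁻¹ ∈ ((↑) : ℂ → OnePoint ℂ) '' Metric.closedBall 0 1})

omit [IsFunctionField1 ℂ F] in
theorem isClosed_placeLike : IsClosed (placeLike F) := by
  have hball : IsClosed (((↑) : ℂ → OnePoint ℂ) '' Metric.closedBall 0 1) :=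
    ((isCompact_closedBall _ _).image OnePoint.continuous_coe).isClosed
  refine (((isClosed_iInter fun a => isClosed_eq (continuous_apply _) continuous_const).inter
    (isClosed_iInter fun f => isClosed_iInter fun g => ?_)).inter
    (isClosed_iInter fun f => isClosed_iInter fun g => ?_)).inter
    (isClosed_iInter fun f => (hball.preimage (continuous_apply (A := fun _ : F => OnePoint ℂ) f)).union
      (hball.preimage (continuous_apply (A := fun _ : F => OnePoint ℂ) f⁻¹)))
  · exact (isClosed_opSet (by fun_prop)).preimage (by fun_prop)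
  · exact (isClosed_opSet (by fun_prop)).preimage (by fun_prop)

theorem evalPt_mem_placeLike (P : Place ℂ F) : (fun f => evalPt P f) ∈ placeLike F := by
  simp only [placeLike, Set.mem_inter_iff, Set.mem_iInter, Set.mem_ofPred_eq, opSet,
    evalPt_eq_coe_iff]
  refine ⟨⟨⟨fun a => ⟨P.algebraMap_mem' a, evalC_algebraMap a P⟩, ?_⟩, ?_⟩, ?_⟩
  · rintro f g a b ⟨hf, rfl⟩ ⟨hg, rfl⟩
    exact ⟨add_mem hf hg, evalC_add hf hg⟩
  · rintro f g a b ⟨hf, rfl⟩ ⟨hg, rfl⟩
    exact ⟨mul_mem hf hg, evalC_mul hf hg⟩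
  · have key : ∀ f : F, ∀ hf : f ∈ P.toValuationSubring, ‖evalC f P‖ ≤ 1 →
        evalPt P f ∈ ((↑) : ℂ → OnePoint ℂ) '' Metric.closedBall 0 1 := fun f hf h =>
      ⟨evalC f P, by simpa using h, (evalPt_of_mem hf).symm⟩
    intro f
    by_cases hf : f ∈ P.toValuationSubring
    · by_cases h1 : ‖evalC f P‖ ≤ 1
      · exact Or.inl (key f hf h1)
      have hne : evalC f P ≠ 0 := fun h => h1 (by simp [h])
      rw [Ne, evalC_eq_zero_iff hf, not_or] at hne
      have hinv : f⁻¹ ∈ P.toValuationSubring :=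
        mem_of_ord_nonneg P (by rw [P.ord_inv]; omega)
      refine Or.inr (key _ hinv ?_)
      have h := evalC_mul hf hinv
      rw [mul_inv_cancel₀ hne.1, show (1 : F) = algebraMap ℂ F 1 from (map_one _).symm,
        evalC_algebraMap] at h
      have h' := congrArg norm h
      rw [norm_one, norm_mul] at h'
      nlinarith [norm_nonneg (evalC f⁻¹ P)]
    · have hord : P.ord f < 0 := not_le.mp fun h => hf (mem_of_ord_nonneg P h)
      have hinv : f⁻¹ ∈ P.toValuationSubring :=
        mem_of_ord_nonneg P (by rw [P.ord_inv]; omega)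
      refine Or.inr (key _ hinv ?_)
      rw [(evalC_eq_zero_iff hinv).mpr (Or.inr (by rw [P.ord_inv]; omega))]
      simp

theorem exists_of_mem_placeLike {φ : F → OnePoint ℂ} (hφ : φ ∈ placeLike F) :
    ∃ P : Place ℂ F, (fun f => evalPt P f) = φ := by
  simp only [placeLike, Set.mem_inter_iff, Set.mem_iInter, Set.mem_ofPred_eq, opSet] at hφ
  obtain ⟨⟨⟨hc, hadd⟩, hmul⟩, hinv⟩ := hφ
  let A : ValuationSubring F :=
  { carrier := {f | φ f ≠ ∞}
    one_mem' := by
      show φ 1 ≠ ∞
      rw [← map_one (algebraMap ℂ F), hc]; exact OnePoint.coe_ne_infty _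
    zero_mem' := by
      show φ 0 ≠ ∞
      rw [← map_zero (algebraMap ℂ F), hc]; exact OnePoint.coe_ne_infty _
    add_mem' := fun {f g} hf hg => by
      obtain ⟨a, ha⟩ := OnePoint.ne_infty_iff_exists.mp hf
      obtain ⟨b, hb⟩ := OnePoint.ne_infty_iff_exists.mp hg
      show φ (f + g) ≠ ∞
      rw [hadd f g a b ha.symm hb.symm]; exact OnePoint.coe_ne_infty _
    mul_mem' := fun {f g} hf hg => by
      obtain ⟨a, ha⟩ := OnePoint.ne_infty_iff_exists.mp hf
      obtain ⟨b, hb⟩ := OnePoint.ne_infty_iff_exists.mp hg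
      show φ (f * g) ≠ ∞
      rw [hmul f g a b ha.symm hb.symm]; exact OnePoint.coe_ne_infty _
    neg_mem' := fun {f} hf => by
      obtain ⟨b, hb⟩ := OnePoint.ne_infty_iff_exists.mp hf
      show φ (-f) ≠ ∞
      rw [show -f = algebraMap ℂ F (-1) * f by simp, hmul _ _ (-1) b (hc _) hb.symm]
      exact OnePoint.coe_ne_infty _
    mem_or_inv_mem' := fun f => by
      rcases hinv f with ⟨a, -, ha⟩ | ⟨a, -, ha⟩
      · exact Or.inl (show φ f ≠ ∞ from ha ▸ OnePoint.coe_ne_infty a)
      · exact Or.inr (show φ f⁻¹ ≠ ∞ from ha ▸ OnePoint.coe_ne_infty a) }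
  have hA : ∀ f, f ∈ A ↔ φ f ≠ ∞ := fun f => Iff.rfl
  have hK : ∀ a : ℂ, algebraMap ℂ F a ∈ A := fun a => by
    rw [hA, hc]; exact OnePoint.coe_ne_infty a
  have hsub : ∀ (f : F) (a : ℂ), φ f = (a : OnePoint ℂ) → φ (f - algebraMap ℂ F a) = ((0 : ℂ) : OnePoint ℂ) :=
    fun f a ha => by
      rw [sub_eq_add_neg, ← map_neg, hadd f _ a (-a) ha (hc _), add_neg_cancel]
  have hzero : ∀ g g' : F, φ g = ((0 : ℂ) : OnePoint ℂ) → g' ∈ A → g * g' ≠ 1 := by
    intro g g' hg hg' h1
    obtain ⟨b, hb⟩ := OnePoint.ne_infty_iff_exists.mp hg'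
    have h := hmul g g' 0 b hg hb.symm
    rw [h1, ← map_one (algebraMap ℂ F), hc, zero_mul] at h
    exact one_ne_zero (OnePoint.coe_injective h)
  have hne : A ≠ ⊤ := by
    intro htop
    obtain ⟨x, hx, -⟩ := IsFunctionField1.exists_transcendental' (K := ℂ) (F := F)
    obtain ⟨a, ha⟩ := OnePoint.ne_infty_iff_exists.mp
      ((hA x).mp (htop ▸ ValuationSubring.mem_top x))
    refine hzero _ (x - algebraMap ℂ F a)⁻¹ (hsub x a ha.symm)
      (htop ▸ ValuationSubring.mem_top _) (mul_inv_cancel₀ (sub_ne_zero.mpr ?_))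
    intro h
    exact hx (h ▸ isAlgebraic_algebraMap a)
  refine ⟨placeOfValuationSubring A hK hne, funext fun f => ?_⟩
  set P := placeOfValuationSubring A hK hne
  by_cases hf : φ f = ∞
  · rw [hf, evalPt_eq_infty_iff]
    exact fun h => (hA f).mp h hf
  obtain ⟨a, ha⟩ := OnePoint.ne_infty_iff_exists.mp hf
  rw [← ha, evalPt_eq_coe_iff]
  refine ⟨(hA f).mpr hf, evalC_eq_of_ordGE (ordGE_one_iff.mpr ?_)⟩
  rcases eq_or_ne (f - algebraMap ℂ F a) 0 with h0 | h0
  · exact Or.inl h0
  refine Or.inr (lt_of_le_of_ne (ord_nonneg_of_mem P (sub_mem ((hA f).mpr hf) (hK a))) ?_)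
  intro hord
  exact hzero _ (f - algebraMap ℂ F a)⁻¹ (hsub f a ha.symm)
    (mem_of_ord_nonneg P (f := (f - algebraMap ℂ F a)⁻¹) (by rw [P.ord_inv, ← hord, neg_zero]))
    (mul_inv_cancel₀ h0)

theorem range_evalPt : Set.range (fun (P : Place ℂ F) (f : F) => evalPt P f) = placeLike F :=
  Set.Subset.antisymm (Set.range_subset_iff.mpr evalPt_mem_placeLike)
    fun _ h => exists_of_mem_placeLike h

instance instCompactSpacePlace : CompactSpace (Place ℂ F) := by
  rw [← isCompact_univ_iff, isEmbedding_evalPt.isInducing.isCompact_iff, Set.image_univ,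
    range_evalPt]
  exact isClosed_placeLike.isCompact

end Fermat.Agent.Torsion.Analytic
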