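import Fermat.Agent.Curve.Canonical
import Fermat.Agent.Curve.Places
import Fermat.Agent.Curve.RiemannRoch

/-!
# Differentials with at most simple poles and their residues

Owner: helper76.
-/

set_option autoImplicit false

noncomputable section

open AlgebraicCurve KaehlerDifferential

namespace Fermat.Agent.Torsion.Analytic

open Fermat.Agent.Curve

variable {K F : Type*} [Field K] [Field F] [Algebra K F] [IsFunctionField1 K F] [IsAlgClosed K]
  [CharZero K]

/-- At most a simple pole with residue `r`. -/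
def HasSimpleResidue (ω : Ω[F⁄K]) (P : Place K F) (r : K) : Prop :=
  ∀ t : F, P.ord t = 1 → ∀ a : F, ω = a • D K F t →
    a - algebraMap K F r / t ∈ P.toValuationSubring

variable {P : Place K F} {t : F}

omit [CharZero K] in
theorem eq_of_smul_D_eq (ht : P.ord t = 1) {a a' : F} (h : a • D K F t = a' • D K F t) : a = a' := by
  have h' : (a - a') • D K F t = 0 := by rw [sub_smul, h, sub_self]
  exact sub_eq_zero.mp ((smul_eq_zero.mp h').resolve_right (D_ne_zero_of_ord_eq_one P ht))

omit [CharZero K] in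
theorem exists_eq_smul_D_uniformizer (ht : P.ord t = 1) (ω : Ω[F⁄K]) :
    ∃ a : F, ω = a • D K F t := by
  obtain ⟨a, ha⟩ := exists_smul_eq_of_ne_zero (D_ne_zero_of_ord_eq_one P ht) ω
  exact ⟨a, ha.symm⟩

omit [CharZero K] in
theorem hasSimpleResidue_iff (ht : P.ord t = 1) {a : F} {ω : Ω[F⁄K]} (ha : ω = a • D K F t)
    {r : K} : HasSimpleResidue ω P r ↔ a - algebraMap K F r / t ∈ P.toValuationSubring := by
  refine ⟨fun h => h t ht a ha, fun hmem t' ht' a' ha' => ?_⟩
  have ht0 : t ≠ 0 := place_ne_zero_of_ord_ne_zero P (by omega)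
  have ht0' : t' ≠ 0 := place_ne_zero_of_ord_ne_zero P (by omega)
  set w := t' / t with hw
  have hw0 : w ≠ 0 := div_ne_zero ht0' ht0
  have hwo : P.ord w = 0 := by rw [hw, ord_div P ht0' ht0]; omega
  have hwmem : w ∈ P.toValuationSubring := mem_of_ord_nonneg P hwo.ge
  obtain ⟨m, hm⟩ :=
    exists_coe_smul_D (differentials_fg_of_isCurveOver P) ht (⟨w, hwmem⟩ : P.toValuationSubring)
  set u := w + t * (m : F) with hu
  have hDt' : D K F t' = u • D K F t := by
    have : t' = t * w := by rw [hw, mul_div_cancel₀ _ ht0]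
    rw [this, Derivation.leibniz]
    change t • D K F ((⟨w, hwmem⟩ : P.toValuationSubring) : F) + w • D K F t = _
    rw [hm, smul_smul, ← add_smul, add_comm]
  have htm : OrdGE P 1 (t * (m : F)) := by
    simpa using (ordGE_of_le_ord (v := P) ht.ge).mul ((ordGE_zero_iff_mem P).mpr m.2)
  obtain ⟨hu0, huo⟩ := add_ne_zero_and_ord_add_eq P hw0 hwo (by simpa using htm)
  rw [← hu] at hu0 huo
  have haa : a = a' * u := eq_of_smul_D_eq ht (by rw [← ha, ha', hDt', smul_smul])
  have key : a' - algebraMap K F r / t' =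
      (a - algebraMap K F r / t) * u⁻¹ + algebraMap K F r * -((m : F) * (u⁻¹ * w⁻¹)) := by
    rw [haa]
    have : t' = t * w := by rw [hw, mul_div_cancel₀ _ ht0]
    rw [this]
    field_simp
    rw [hu]
    ring
  have hinv : ∀ x : F, P.ord x = 0 → x⁻¹ ∈ P.toValuationSubring := fun x hx =>
    mem_of_ord_nonneg P (by rw [P.ord_inv]; omega)
  rw [key]
  exact add_mem (mul_mem hmem (hinv u huo)) (mul_mem (P.algebraMap_mem' r)
    (neg_mem (mul_mem m.2 (mul_mem (hinv u huo) (hinv w hwo)))))

omit [CharZero K] in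
theorem hasSimpleResidue_zero_iff {ω : Ω[F⁄K]} :
    HasSimpleResidue ω P 0 ↔ 0 ≤ P.ordDifferential ω := by
  obtain ⟨t, -, ht⟩ := exists_uniformizer P
  obtain ⟨a, ha⟩ := exists_eq_smul_D_uniformizer ht ω
  rw [hasSimpleResidue_iff ht ha, ha, ordDifferential_smul_D_uniformizer P ht, map_zero, zero_div,
    sub_zero, mem_iff_ord_nonneg]

omit [CharZero K] in
theorem HasSimpleResidue.add {ω ω' : Ω[F⁄K]} {r r' : K} (h : HasSimpleResidue ω P r)
    (h' : HasSimpleResidue ω' P r') : HasSimpleResidue (ω + ω') P (r + r') := by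
  obtain ⟨t, -, ht⟩ := exists_uniformizer P
  obtain ⟨a, ha⟩ := exists_eq_smul_D_uniformizer ht ω
  obtain ⟨a', ha'⟩ := exists_eq_smul_D_uniformizer ht ω'
  rw [hasSimpleResidue_iff ht (a := a + a') (by rw [ha, ha', add_smul])]
  convert add_mem (h t ht a ha) (h' t ht a' ha') using 1
  rw [map_add]; ring

omit [CharZero K] in
theorem HasSimpleResidue.smul {ω : Ω[F⁄K]} {r : K} (h : HasSimpleResidue ω P r) (c : K) :
    HasSimpleResidue (algebraMap K F c • ω) P (c * r) := by
  obtain ⟨t, -, ht⟩ := exists_uniformizer P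
  obtain ⟨a, ha⟩ := exists_eq_smul_D_uniformizer ht ω
  rw [hasSimpleResidue_iff ht (a := algebraMap K F c * a) (by rw [ha, smul_smul])]
  convert mul_mem (P.algebraMap_mem' c) (h t ht a ha) using 1
  rw [map_mul]; ring

omit [CharZero K] in
theorem HasSimpleResidue.neg {ω : Ω[F⁄K]} {r : K} (h : HasSimpleResidue ω P r) :
    HasSimpleResidue (-ω) P (-r) := by
  simpa using h.smul (-1)

omit [CharZero K] in
theorem hasSimpleResidue_zero : HasSimpleResidue (0 : Ω[F⁄K]) P 0 := by
  obtain ⟨t, -, ht⟩ := exists_uniformizer P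
  rw [hasSimpleResidue_iff ht (a := (0 : F)) (zero_smul _ _).symm]
  simp

omit [CharZero K] in
theorem HasSimpleResidue.sum {ι : Type*} (s : Finset ι) {ω : ι → Ω[F⁄K]} {r : ι → K}
    (h : ∀ i ∈ s, HasSimpleResidue (ω i) P (r i)) :
    HasSimpleResidue (∑ i ∈ s, ω i) P (∑ i ∈ s, r i) := by
  classical
  induction s using Finset.induction_on with
  | empty => simpa using hasSimpleResidue_zero
  | insert i s hi ih =>
    rw [Finset.sum_insert hi, Finset.sum_insert hi]
    exact (h i (by simp)).add (ih fun j hj => h j (by simp [hj]))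

omit [CharZero K] in
theorem HasSimpleResidue.unique {ω : Ω[F⁄K]} {r r' : K} (h : HasSimpleResidue ω P r)
    (h' : HasSimpleResidue ω P r') : r = r' := by
  obtain ⟨t, -, ht⟩ := exists_uniformizer P
  obtain ⟨a, ha⟩ := exists_eq_smul_D_uniformizer ht ω
  have hd := sub_mem (h' t ht a ha) (h t ht a ha)
  rw [show a - algebraMap K F r' / t - (a - algebraMap K F r / t) =
    algebraMap K F (r - r') / t by rw [map_sub]; ring, mem_iff_ord_nonneg] at hd
  by_contra hne
  have h0 : algebraMap K F (r - r') ≠ 0 := by simpa [sub_eq_zero] using hne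
  rw [ord_div P h0 (place_ne_zero_of_ord_ne_zero P (by omega)), ord_algebraMap, ht] at hd
  omega

omit [CharZero K] in
/-- A pole of order at most one has a residue, non-zero when the pole is genuine. -/
theorem exists_hasSimpleResidue {ω : Ω[F⁄K]} (h : -1 ≤ P.ordDifferential ω) :
    ∃ r : K, HasSimpleResidue ω P r ∧ (P.ordDifferential ω < 0 → r ≠ 0) := by
  obtain ⟨t, ht0, ht⟩ := exists_uniformizer P
  obtain ⟨a, ha⟩ := exists_eq_smul_D_uniformizer ht ω
  rw [ha, ordDifferential_smul_D_uniformizer P ht] at h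
  have hat : a * t ∈ P.toValuationSubring := by
    rw [← ordGE_zero_iff_mem]
    simpa using (ordGE_of_le_ord (v := P) h).mul (ordGE_of_le_ord (v := P) ht.ge)
  refine ⟨evalAt P (a * t), ?_, fun hneg hr => ?_⟩
  · rw [hasSimpleResidue_iff ht ha]
    have h1 : OrdGE P 1 (a * t - algebraMap K F (evalAt P (a * t))) :=
      (ordGE_iff P).mpr (by simpa [Int.lt_iff_add_one_le] using evalAt_spec P hat)
    rw [← ordGE_zero_iff_mem,
      show a - algebraMap K F (evalAt P (a * t)) / t =
        (a * t - algebraMap K F (evalAt P (a * t))) * t⁻¹ by field_simp]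
    simpa using h1.mul (ordGE_of_le_ord (v := P) (n := -1) (by rw [P.ord_inv]; omega))
  · rw [ha, ordDifferential_smul_D_uniformizer P ht] at hneg
    have := evalAt_spec P hat
    rw [hr, map_zero, sub_zero, P.ord_mul (fun h0 => by simp [h0] at hneg) ht0] at this
    rcases this with h2 | h2
    · rcases mul_eq_zero.mp h2 with h3 | h3
      · simp [h3] at hneg
      · exact ht0 h3
    · omega

end Fermat.Agent.Torsion.Analytic
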